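/-
GATE-B (Ribet level lowering, S38/S43) / leaf GB-DEF-TWHYP (helper78), cf. helper53 R1 (board 5176 §3).

The `hTW` binder of the frozen S56 (absolute irreducibility of `ρbar` restricted to every
index-`2` subgroup, over every base-change field `K`) from

* `habs`   : `ρbar.IsAbsolutelyIrreducible`,
* `htrans` : a transvection in the image: `∃ σ, ρbar.ρ σ ≠ 1 ∧ (ρbar.ρ σ - 1) ^ 2 = 0`,
* `h2`     : `(2 : k) ≠ 0`.

Proof.  `u = ρbar σ`; `σ ^ 2 ∈ G` and `N := u ^ 2 - 1 = 2 (u - 1) ≠ 0`, `N ^ 2 = 0`.  Over `K`, a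
`G`-stable submodule `V ≠ ⊥, ⊤` of the plane is `N_K`-stable, hence equal to `ker N_K` (the only
`N_K`-stable line).  `G` is normal, so `g V` is again `G`-stable for every `g`, hence `g V = ker N_K`:
`ker N_K = range N_K` is stable under the whole Galois group, i.e. `N_K ρ_K(g) N_K = 0`.  Base change
is injective on endomorphisms, so `N ρ(g) N = 0` over `k`, hence over `AlgebraicClosure k`, where
`ker N'` is then a stable line: contradiction with `habs`.
-/
import Mathlib
import Fermat.Prelude.Def_GaloisRep_Residual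

set_option autoImplicit false

open scoped TensorProduct

namespace Fermat.Agent.GB.Def.TWHyp

/-- `ℚ̄`. -/
local notation "Qb" => AlgebraicClosure ℚ

section LinAlg

variable {F : Type*} [Field F] {V : Type*} [AddCommGroup V] [Module F V]

/-- A nonzero square-zero endomorphism of a plane has `range = ker`, both of dimension `1`. -/
theorem range_eq_ker_and_finrank (hV : Module.finrank F V = 2) (N : Module.End F V)
    (hN : N ≠ 0) (hN2 : N * N = 0) :
    LinearMap.range N = LinearMap.ker N ∧ Module.finrank F (LinearMap.ker N) = 1 := by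
  have : Module.Finite F V := Module.finite_of_finrank_eq_succ hV
  have hle : LinearMap.range N ≤ LinearMap.ker N := by
    rintro _ ⟨x, rfl⟩
    rw [LinearMap.mem_ker]
    have := LinearMap.congr_fun hN2 x
    simpa using this
  have hrn := LinearMap.finrank_range_add_finrank_ker N
  have hr : Module.finrank F (LinearMap.range N) ≠ 0 := by
    rw [Ne, Submodule.finrank_eq_zero, LinearMap.range_eq_bot]
    exact hN
  have hle' := Submodule.finrank_mono hle
  have h1 : Module.finrank F (LinearMap.ker N) = 1 := by omega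
  exact ⟨Submodule.eq_of_le_of_finrank_eq hle (by omega), h1⟩

/-- The only `N`-stable submodule `≠ ⊥, ⊤` of a plane, for `N ≠ 0` of square zero, is `ker N`. -/
theorem eq_ker_of_stable (hV : Module.finrank F V = 2) (N : Module.End F V)
    (hN : N ≠ 0) (hN2 : N * N = 0) (W : Submodule F V) (hW0 : W ≠ ⊥) (hW1 : W ≠ ⊤)
    (hst : ∀ x ∈ W, N x ∈ W) : W = LinearMap.ker N := by
  have : Module.Finite F V := Module.finite_of_finrank_eq_succ hV
  obtain ⟨-, hk1⟩ := range_eq_ker_and_finrank hV N hN hN2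
  have hlt := Submodule.finrank_lt hW1
  have hne : Module.finrank F W ≠ 0 := by
    rw [Ne, Submodule.finrank_eq_zero]
    exact hW0
  have hW : Module.finrank F W = 1 := by omega
  obtain ⟨v, hv0, hv⟩ := finrank_eq_one_iff'.mp hW
  have hNv : N (v : V) = 0 := by
    obtain ⟨c, hc⟩ := hv ⟨N v, hst v v.2⟩
    have hc' : c • (v : V) = N v := congrArg Subtype.val hc
    have h2 : N (N (v : V)) = 0 := by
      have := LinearMap.congr_fun hN2 (v : V)
      simpa using this
    rw [← hc', map_smul, ← hc', smul_smul] at h2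
    have hv0' : (v : V) ≠ 0 := fun h => hv0 (Subtype.ext h)
    have hcc : c * c = 0 := by
      rcases smul_eq_zero.mp h2 with h | h
      · exact h
      · exact absurd h hv0'
    have hc0 : c = 0 := by simpa using hcc
    rw [← hc', hc0, zero_smul]
  have hle : W ≤ LinearMap.ker N := by
    intro w hw
    obtain ⟨c, hc⟩ := hv ⟨w, hw⟩
    have hc' : c • (v : V) = w := congrArg Subtype.val hc
    rw [LinearMap.mem_ker, ← hc', map_smul, hNv, smul_zero]
  exact Submodule.eq_of_le_of_finrank_eq hle (by omega)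

end LinAlg

section Main

variable {k : Type} [Field k]

/-- The transvection hypothesis (helper53 R1, board 5176 §3): the image of `ρbar` contains a
nontrivial element `u` with `(u - 1) ^ 2 = 0`. -/
def HasTransvection (ρbar : ResidualGaloisRep k) : Prop :=
  ∃ σ : Qb ≃ₐ[ℚ] Qb, ρbar.ρ σ ≠ 1 ∧ (ρbar.ρ σ - 1) ^ 2 = 0

/-- The `hTW` binder of the frozen S56, as a predicate on a residual representation. -/
def IsTWHyp (ρbar : ResidualGaloisRep k) : Prop :=
  ∀ (K : Type) [Field K] [Algebra k K] (G : Subgroup (Qb ≃ₐ[ℚ] Qb)), G.index = 2 →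
    ∀ V : Submodule K (ρbar.baseChange K).V,
      (∀ σ ∈ G, ∀ x ∈ V, (ρbar.baseChange K).ρ σ x ∈ V) → V = ⊥ ∨ V = ⊤

/-- From a transvection `u = ρbar σ`: the square-zero element `N = ρbar (σ ^ 2) - 1 ≠ 0`. -/
theorem sq_sub_one_of_transvection (h2 : (2 : k) ≠ 0) (ρbar : ResidualGaloisRep k)
    (σ : Qb ≃ₐ[ℚ] Qb) (hσ1 : ρbar.ρ σ ≠ 1) (hσ2 : (ρbar.ρ σ - 1) ^ 2 = 0) :
    ρbar.ρ (σ ^ 2) - 1 ≠ 0 ∧ (ρbar.ρ (σ ^ 2) - 1) * (ρbar.ρ (σ ^ 2) - 1) = 0 := by
  have hNu : ρbar.ρ (σ ^ 2) - 1 = (2 : k) • (ρbar.ρ σ - 1) := by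
    rw [map_pow]
    have : (ρbar.ρ σ) ^ 2 - 1 = (ρbar.ρ σ - 1) ^ 2 + (2 : k) • (ρbar.ρ σ - 1) := by
      rw [two_smul]
      noncomm_ring
    rw [this, hσ2, zero_add]
  refine ⟨?_, ?_⟩
  · rw [hNu]
    exact smul_ne_zero h2 (sub_ne_zero.mpr hσ1)
  · rw [hNu, smul_mul_smul_comm, ← sq (ρbar.ρ σ - 1), hσ2, smul_zero]

/-- **GB-DEF-TWHYP.** Absolute irreducibility + a transvection in the image (+ `2 ≠ 0`) give the
`hTW` binder of the frozen S56: `ρbar` restricted to any index-`2` subgroup stays irreducible over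
every base-change field. -/
theorem hTW_of_transvection (h2 : (2 : k) ≠ 0) (ρbar : ResidualGaloisRep k)
    (habs : ρbar.IsAbsolutelyIrreducible)
    (htrans : ∃ σ : Qb ≃ₐ[ℚ] Qb, ρbar.ρ σ ≠ 1 ∧ (ρbar.ρ σ - 1) ^ 2 = 0) :
    ∀ (K : Type) [Field K] [Algebra k K] (G : Subgroup (Qb ≃ₐ[ℚ] Qb)), G.index = 2 →
      ∀ V : Submodule K (ρbar.baseChange K).V,
        (∀ σ ∈ G, ∀ x ∈ V, (ρbar.baseChange K).ρ σ x ∈ V) → V = ⊥ ∨ V = ⊤ := by
  obtain ⟨σ, hσ1, hσ2⟩ := htrans
  obtain ⟨hN, hNN⟩ := sq_sub_one_of_transvection h2 ρbar σ hσ1 hσ2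
  set N : Module.End k ρbar.V := ρbar.ρ (σ ^ 2) - 1 with hNdef
  intro K _ _ G hG V hV
  by_contra hcon
  obtain ⟨hV0, hV1⟩ := not_or.mp hcon
  -- base change to `K`
  let bc := Module.End.baseChangeHom k K ρbar.V
  have hbc_inj : Function.Injective bc := LinearMap.baseChangeHom_injective k ρbar.V K
  have hρK : ∀ g, (ρbar.baseChange K).ρ g = bc (ρbar.ρ g) := fun g => rfl
  set NK := bc N with hNKdef
  have hNK : NK ≠ 0 := fun h => hN (hbc_inj (by rw [← hNKdef, h, map_zero]))
  have hNK2 : NK * NK = 0 := by rw [hNKdef, ← map_mul, hNN, map_zero]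
  have hNKρ : NK = (ρbar.baseChange K).ρ (σ ^ 2) - 1 := by
    rw [hρK, hNKdef, hNdef, map_sub, map_one]
  have hfin : Module.finrank K (ρbar.baseChange K).V = 2 := (ρbar.baseChange K).finrank_eq
  have hnormal : G.Normal := Subgroup.normal_of_index_eq_two hG
  -- every `G`-stable `W ≠ ⊥, ⊤` is `ker NK`
  have key : ∀ W : Submodule K (ρbar.baseChange K).V, W ≠ ⊥ → W ≠ ⊤ →
      (∀ τ ∈ G, ∀ x ∈ W, (ρbar.baseChange K).ρ τ x ∈ W) → W = LinearMap.ker NK := by
    intro W h0 h1 hst
    apply eq_ker_of_stable hfin NK hNK hNK2 W h0 h1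
    intro x hx
    rw [hNKρ, LinearMap.sub_apply, Module.End.one_apply]
    exact W.sub_mem (hst _ (Subgroup.sq_mem_of_index_two hG σ) x hx) hx
  have hVker := key V hV0 hV1 hV
  -- `ker NK` is stable under the whole Galois group
  have hstab : ∀ g : Qb ≃ₐ[ℚ] Qb, ∀ x ∈ LinearMap.ker NK,
      (ρbar.baseChange K).ρ g x ∈ LinearMap.ker NK := by
    intro g x hx
    have hginv : (ρbar.baseChange K).ρ g⁻¹ * (ρbar.baseChange K).ρ g = 1 := by
      rw [← map_mul, inv_mul_cancel, map_one]
    set W := V.map ((ρbar.baseChange K).ρ g) with hW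
    have hW0 : W ≠ ⊥ := by
      intro h
      apply hV0
      rw [eq_bot_iff]
      intro y hy
      have hm : (ρbar.baseChange K).ρ g y ∈ W := Submodule.mem_map_of_mem hy
      rw [h, Submodule.mem_bot] at hm
      have h3 := congrArg ((ρbar.baseChange K).ρ g⁻¹) hm
      rw [map_zero, ← Module.End.mul_apply, hginv, Module.End.one_apply] at h3
      rw [Submodule.mem_bot]
      exact h3
    have hW1 : W ≠ ⊤ := by
      intro h
      apply hV1
      rw [eq_top_iff]
      intro y _
      have hm : (ρbar.baseChange K).ρ g y ∈ W := by rw [h]; trivial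
      obtain ⟨z, hz, hzy⟩ := hm
      have h3 := congrArg ((ρbar.baseChange K).ρ g⁻¹) hzy
      rw [← Module.End.mul_apply, ← Module.End.mul_apply, hginv, Module.End.one_apply,
        Module.End.one_apply] at h3
      rw [← h3]
      exact hz
    have hWst : ∀ τ ∈ G, ∀ x ∈ W, (ρbar.baseChange K).ρ τ x ∈ W := by
      rintro τ hτ _ ⟨z, hz, rfl⟩
      have hconj : g⁻¹ * τ * g ∈ G := by
        have := hnormal.conj_mem τ hτ g⁻¹
        simpa using this
      refine ⟨(ρbar.baseChange K).ρ (g⁻¹ * τ * g) z, hV _ hconj z hz, ?_⟩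
      change (ρbar.baseChange K).ρ g ((ρbar.baseChange K).ρ (g⁻¹ * τ * g) z) =
        (ρbar.baseChange K).ρ τ ((ρbar.baseChange K).ρ g z)
      rw [← Module.End.mul_apply, ← Module.End.mul_apply, ← map_mul, ← map_mul]
      congr 2
      group
    have hWker := key W hW0 hW1 hWst
    rw [← hWker]
    exact Submodule.mem_map_of_mem (hVker ▸ hx)
  obtain ⟨hrk, -⟩ := range_eq_ker_and_finrank hfin NK hNK hNK2
  -- `N ρ(g) N = 0` over `K`, hence over `k`
  have hzero : ∀ g : Qb ≃ₐ[ℚ] Qb, N * ρbar.ρ g * N = 0 := by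
    intro g
    apply hbc_inj
    rw [map_zero, map_mul, map_mul, ← hNKdef, ← hρK]
    refine LinearMap.ext fun x => ?_
    have hx : NK x ∈ LinearMap.ker NK := by
      rw [← hrk]
      exact LinearMap.mem_range_self NK x
    have := hstab g _ hx
    rw [LinearMap.mem_ker] at this
    simpa using this
  -- over the algebraic closure
  let bc' := Module.End.baseChangeHom k (AlgebraicClosure k) ρbar.V
  have hbc'_inj : Function.Injective bc' :=
    LinearMap.baseChangeHom_injective k ρbar.V (AlgebraicClosure k)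
  set N' := bc' N with hN'def
  have hN' : N' ≠ 0 := fun h => hN (hbc'_inj (by rw [← hN'def, h, map_zero]))
  have hN'2 : N' * N' = 0 := by rw [hN'def, ← map_mul, hNN, map_zero]
  have hfin' : Module.finrank (AlgebraicClosure k) (ρbar.baseChange (AlgebraicClosure k)).V = 2 :=
    (ρbar.baseChange (AlgebraicClosure k)).finrank_eq
  obtain ⟨hrk', hk1'⟩ := range_eq_ker_and_finrank hfin' N' hN' hN'2
  have hirr := habs (LinearMap.ker N') (by
    intro g x hx
    rw [← hrk'] at hx
    obtain ⟨y, rfl⟩ := hx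
    rw [LinearMap.mem_ker]
    have h3 : N' * bc' (ρbar.ρ g) * N' = 0 := by
      rw [hN'def, ← map_mul, ← map_mul, hzero g, map_zero]
    exact LinearMap.congr_fun h3 y)
  rcases hirr with h | h
  · rw [h, finrank_bot] at hk1'
    exact absurd hk1' (by norm_num)
  · rw [h, finrank_top, hfin'] at hk1'
    exact absurd hk1' (by norm_num)

/-- `hTW_of_transvection` in predicate form. -/
theorem isTWHyp_of_hasTransvection (h2 : (2 : k) ≠ 0) (ρbar : ResidualGaloisRep k)
    (habs : ρbar.IsAbsolutelyIrreducible) (htrans : HasTransvection ρbar) : IsTWHyp ρbar :=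
  hTW_of_transvection h2 ρbar habs htrans

/-- Transvections survive base change. -/
theorem hasTransvection_baseChange (k' : Type) [Field k'] [Algebra k k']
    (ρbar : ResidualGaloisRep k) (h : HasTransvection ρbar) :
    HasTransvection (ρbar.baseChange k') := by
  obtain ⟨σ, h1, h2⟩ := h
  refine ⟨σ, ?_, ?_⟩
  · intro h
    apply h1
    apply LinearMap.baseChangeHom_injective k ρbar.V k'
    change Module.End.baseChangeHom k k' ρbar.V (ρbar.ρ σ) =
      Module.End.baseChangeHom k k' ρbar.V 1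
    rw [map_one]
    exact h
  · have h3 := congrArg (Module.End.baseChangeHom k k' ρbar.V) h2
    rw [map_pow, map_sub, map_one, map_zero] at h3
    exact h3

/-- Transvections survive base change along a ring homomorphism. -/
theorem hasTransvection_baseChangeAlong {k' : Type} [Field k'] (φ : k →+* k')
    (ρbar : ResidualGaloisRep k) (h : HasTransvection ρbar) :
    HasTransvection (ρbar.baseChangeAlong φ) := by
  let _ : Algebra k k' := φ.toAlgebra
  exact hasTransvection_baseChange k' ρbar h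

/-- The transvection hypothesis for the mod-`p` representation of a Weierstrass curve, in the
`galoisRepModuleEnd` vocabulary of the GATE-B top interface (`htrans` of helper53 R1). -/
theorem hasTransvection_residualGaloisRepOf (W : WeierstrassCurve ℚ) (p : ℕ) [Fact p.Prime]
    (hcard : Nat.card (Submodule.torsionBy ℤ (W.map (algebraMap ℚ Qb)).toAffine.Point p) = p ^ 2)
    (hker : GaloisFactorsThroughFiniteLevel
      (WeierstrassCurve.Affine.Point.galoisRepModuleEnd (K := Qb) ℚ W p))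
    (htrans : ∃ σ : Qb ≃ₐ[ℚ] Qb,
      WeierstrassCurve.Affine.Point.galoisRepModuleEnd (K := Qb) ℚ W p σ ≠ 1 ∧
        (WeierstrassCurve.Affine.Point.galoisRepModuleEnd (K := Qb) ℚ W p σ - 1) ^ 2 = 0) :
    HasTransvection (W.residualGaloisRepOf p hcard hker) :=
  htrans

end Main

section S56Form

open IsLocalRing

/-- Residue characteristic `p ≠ 2` gives `2 ≠ 0` in the residue field. -/
theorem two_ne_zero_residueField {𝒪 : Type} [CommRing 𝒪] [IsLocalRing 𝒪] (p : ℕ)
    [Fact p.Prime] (hp2 : p ≠ 2) (hp𝒪 : (p : 𝒪) ∈ maximalIdeal 𝒪) :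
    (2 : ResidueField 𝒪) ≠ 0 := by
  intro h
  have h2m : (2 : 𝒪) ∈ maximalIdeal 𝒪 := by
    have : IsLocalRing.residue 𝒪 (2 : 𝒪) = 0 := by
      rw [map_ofNat]
      exact h
    rwa [IsLocalRing.residue_eq_zero_iff] at this
  have hp : p.Prime := Fact.out
  have hcop : Nat.Coprime 2 p := (Nat.coprime_primes Nat.prime_two hp).mpr (Ne.symm hp2)
  have hone : (1 : 𝒪) ∈ maximalIdeal 𝒪 := by
    have hb := Nat.Coprime.gcd_eq_one hcop
    have hbez := Nat.gcd_eq_gcd_ab 2 p
    rw [hb] at hbez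
    have hcast : (1 : 𝒪) = (2 : 𝒪) * ((Nat.gcdA 2 p : ℤ) : 𝒪) + (p : 𝒪) * ((Nat.gcdB 2 p : ℤ) : 𝒪) := by
      have := congrArg (Int.cast : ℤ → 𝒪) hbez
      push_cast at this
      exact this
    rw [hcast]
    exact Ideal.add_mem _ (Ideal.mul_mem_right _ _ h2m) (Ideal.mul_mem_right _ _ hp𝒪)
  exact (Ideal.ne_top_iff_one _).mp (IsLocalRing.maximalIdeal.isMaximal 𝒪).ne_top hone

/-- **The `hTW` binder of the frozen S56, VERBATIM**, from absolute irreducibility and a
transvection in the image. -/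
theorem hTW_S56 {𝒪 : Type} [CommRing 𝒪] [IsLocalRing 𝒪] (p : ℕ) [Fact p.Prime] (hp2 : p ≠ 2)
    (hp𝒪 : (p : 𝒪) ∈ maximalIdeal 𝒪) (ρbar : ResidualGaloisRep (ResidueField 𝒪))
    (habs : ρbar.IsAbsolutelyIrreducible)
    (htrans : ∃ σ : Qb ≃ₐ[ℚ] Qb, ρbar.ρ σ ≠ 1 ∧ (ρbar.ρ σ - 1) ^ 2 = 0) :
    ∀ (K : Type) [Field K] [Algebra (ResidueField 𝒪) K]
      (G : Subgroup (AlgebraicClosure ℚ ≃ₐ[ℚ] AlgebraicClosure ℚ)), G.index = 2 →
      ∀ V : Submodule K (ρbar.baseChange K).V,
        (∀ σ ∈ G, ∀ x ∈ V, (ρbar.baseChange K).ρ σ x ∈ V) → V = ⊥ ∨ V = ⊤ :=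
  hTW_of_transvection (two_ne_zero_residueField p hp2 hp𝒪) ρbar habs htrans

end S56Form

end Fermat.Agent.GB.Def.TWHyp
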