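/-
GATE-B / B2 (S56-framed), node GB-DEF-FRAMED part 2b (helper11): **transport of relative tangent
vectors** `R →ₐ[A] k_A[ε]` (base a complete local `𝒪`-algebra `A` with the same residue field) to
absolute ones `R →ₐ[𝒪] k[ε]` which are trivial on `A`.

* `dnMap e : DualNumber K →+* DualNumber K'` for a ring hom `e : K →+* K'` of fields/rings;
* `resEquiv hresA : ResidueField 𝒪 ≃+* ResidueField A`;
* `toO hresA ψ : R →ₐ[𝒪] DualNumber (ResidueField 𝒪)` for `ψ : R →ₐ[A] DualNumber (ResidueField A)`,
  injective in `ψ`, and `(toO hresA ψ (algebraMap A R a)).snd = 0`.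
NEW file; Mathlib + S53_helper84/TangentBridge only.
-/
import Mathlib
import Fermat.Agent.S53_helper84.TangentBridge

set_option autoImplicit false
set_option linter.unusedSectionVars false

namespace Fermat.Agent.GB.Def.DualTransport

open IsLocalRing Fermat.Agent.S53_helper84

noncomputable section

section DN

variable {K K' : Type} [CommRing K] [CommRing K']

/-- the ring hom `K[ε] → K'[ε]` induced by a ring hom `K → K'`. -/
def dnMap (e : K →+* K') : DualNumber K →+* DualNumber K' where
  toFun x := TrivSqZeroExt.inl (e x.fst) + TrivSqZeroExt.inr (e x.snd)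
  map_one' := by
    ext
    · simp
    · simp
  map_mul' x y := by
    ext
    · simp
    · simp [mul_comm]
  map_zero' := by
    ext
    · simp
    · simp
  map_add' x y := by
    ext
    · simp
    · simp

@[simp] theorem fst_dnMap (e : K →+* K') (x : DualNumber K) : (dnMap e x).fst = e x.fst := by
  simp [dnMap]

@[simp] theorem snd_dnMap (e : K →+* K') (x : DualNumber K) : (dnMap e x).snd = e x.snd := by
  simp [dnMap]

theorem dnMap_injective (e : K →+* K') (he : Function.Injective e) :
    Function.Injective (dnMap e) := by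
  intro x y h
  ext
  · exact he (by rw [← fst_dnMap, ← fst_dnMap, h])
  · exact he (by rw [← snd_dnMap, ← snd_dnMap, h])

end DN

section Res

variable {𝒪 A : Type} [CommRing 𝒪] [IsLocalRing 𝒪] [CommRing A] [IsLocalRing A] [Algebra 𝒪 A]
  [IsLocalHom (algebraMap 𝒪 A)]
  (hresA : Function.Surjective (residue A ∘ algebraMap 𝒪 A))

include hresA in
theorem resMap_bijective :
    Function.Bijective (ResidueField.map (algebraMap 𝒪 A)) := by
  refine ⟨(ResidueField.map (algebraMap 𝒪 A)).injective, fun y => ?_⟩
  obtain ⟨a, ha⟩ := hresA y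
  exact ⟨residue 𝒪 a, by rw [ResidueField.map_residue]; exact ha⟩

/-- the residue fields of `𝒪` and `A` are identified. -/
def resEquiv : ResidueField 𝒪 ≃+* ResidueField A :=
  RingEquiv.ofBijective (ResidueField.map (algebraMap 𝒪 A)) (resMap_bijective hresA)

theorem resEquiv_residue (a : 𝒪) :
    resEquiv hresA (residue 𝒪 a) = residue A (algebraMap 𝒪 A a) :=
  ResidueField.map_residue _ a

theorem resEquiv_symm_residue (a : 𝒪) :
    (resEquiv hresA).symm (residue A (algebraMap 𝒪 A a)) = residue 𝒪 a := by
  rw [← resEquiv_residue hresA, RingEquiv.symm_apply_apply]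

include hresA in
theorem natCard_residueField_eq :
    Nat.card (ResidueField A) = Nat.card (ResidueField 𝒪) :=
  (Nat.card_congr (resEquiv hresA).toEquiv).symm

variable {R : Type} [CommRing R] [Algebra 𝒪 R] [Algebra A R] [IsScalarTower 𝒪 A R]

/-- **transport** of a relative tangent vector to an absolute one. -/
def toO (ψ : R →ₐ[A] DualNumber (ResidueField A)) : R →ₐ[𝒪] DualNumber (ResidueField 𝒪) where
  toRingHom := (dnMap ((resEquiv hresA).symm : ResidueField A →+* ResidueField 𝒪)).comp
    (ψ : R →+* DualNumber (ResidueField A))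
  commutes' a := by
    show dnMap ((resEquiv hresA).symm : ResidueField A →+* ResidueField 𝒪)
      (ψ (algebraMap 𝒪 R a)) = algebraMap 𝒪 (DualNumber (ResidueField 𝒪)) a
    rw [IsScalarTower.algebraMap_apply 𝒪 A R, ψ.commutes, algebraMap_dualNumber_apply,
      algebraMap_dualNumber_apply]
    ext
    · rw [fst_dnMap, TrivSqZeroExt.fst_inl, TrivSqZeroExt.fst_inl]
      exact resEquiv_symm_residue hresA a
    · rw [snd_dnMap, TrivSqZeroExt.snd_inl, TrivSqZeroExt.snd_inl]
      exact map_zero _

theorem toO_apply (ψ : R →ₐ[A] DualNumber (ResidueField A)) (x : R) :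
    toO hresA ψ x = dnMap ((resEquiv hresA).symm : ResidueField A →+* ResidueField 𝒪) (ψ x) :=
  rfl

theorem toO_injective :
    Function.Injective (toO (R := R) hresA) := by
  intro ψ ψ' h
  refine AlgHom.ext fun x => ?_
  have := congrArg (fun f : R →ₐ[𝒪] DualNumber (ResidueField 𝒪) => f x) h
  simp only [toO_apply] at this
  exact dnMap_injective _ (resEquiv hresA).symm.injective this

/-- transported tangent vectors are trivial on `A`. -/
theorem snd_toO_algebraMap (ψ : R →ₐ[A] DualNumber (ResidueField A)) (a : A) :
    (toO hresA ψ (algebraMap A R a)).snd = 0 := by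
  rw [toO_apply, ψ.commutes, algebraMap_dualNumber_apply, snd_dnMap, TrivSqZeroExt.snd_inl]
  exact map_zero _

end Res

end

end Fermat.Agent.GB.Def.DualTransport
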