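/-
GATE-B / B2 (S56-framed), node GB-DEF-FRAMED part 2a (helper11): **the framed deformation ring
`R^□ = R⟦z_{v,0}, z_{v,1}, z_{v,2} : v ∈ Fr⟧` over the universal ring `R = DQ.R`, its frames, the
framed universal matrices, and the first-order analysis of its tangent vectors.**

* `FRing DQ Fr := MvPowerSeries (Fr × Fin 3) DQ.R` (complete noetherian local `𝒪`-algebra);
* `frameGL DQ Fr v = 1 + Z_v`, `Z_v = !![z₀, z₁; z₂, -z₀]` (a formal `PGL₂`-frame at `v`, trace `0`);
* `framedMat DQ Fr v = (1+Z_v) · univMat · (1+Z_v)⁻¹ : G_ℚ →* M₂(R^□)` (`univMat` = helper6's ONE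
  matrix model of the universal deformation, `GP/Tan/Linear`);
* for a tangent vector `ψ : R^□ →ₐ[𝒪] k[ε]`: `baseHom ψ : R →ₐ[𝒪] k[ε]`, `frameB ψ v ∈ M₂(k)`
  (trace `0`), `ψ` is determined by them (`tangent_ext`), and
  `tanCocycle (ψ ∘ framedMat v) = tanCocycle (pMat (baseHom ψ)) + B_v − r̄_u B_v r̄_u⁻¹`
  (`tanCocycle_pushFramed`).
NEW file; imports only.
-/
import Mathlib
import Fermat.Agent.GP.Tan.Linear
import Fermat.Agent.GP.Alg.TangentSurj

set_option autoImplicit false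
set_option linter.unusedSectionVars false
set_option linter.style.haveILetI false

namespace Fermat.Agent.GB.Def.FramedRing

open IsLocalRing Fermat.Agent.S53_helper35 Fermat.Agent.S53_helper84 Matrix
open Fermat.Agent.GP.Tan.UnivInj Fermat.Agent.GP.Tan.Cocycle Fermat.Agent.GP.Tan.Linear

noncomputable section

variable {𝒪 : Type} [CommRing 𝒪] [IsDomain 𝒪] [IsDiscreteValuationRing 𝒪]
  [IsAdicComplete (maximalIdeal 𝒪) 𝒪]
  {ρbar : ResidualGaloisRep (ResidueField 𝒪)}
  {𝒟 : ∀ ⦃A : Type⦄ [CommRing A] [IsLocalRing A] [Algebra 𝒪 A], GaloisRepAdic A → Prop}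
  (DQ : GaloisRep.DeformationRingData 𝒪 ρbar 𝒟)
  (Fr : Type) [Finite Fr]

/-- **the framed deformation ring**: three formal frame coordinates at every framed place. -/
abbrev FRing : Type := MvPowerSeries (Fr × Fin 3) DQ.R

instance isAdicComplete_fRing :
    IsAdicComplete (maximalIdeal (FRing DQ Fr)) (FRing DQ Fr) :=
  Fermat.Agent.S53.isAdicComplete_mvPowerSeries DQ.R (Fr × Fin 3)

theorem X_mem_maximalIdeal (s : Fr × Fin 3) :
    (MvPowerSeries.X s : FRing DQ Fr) ∈ maximalIdeal (FRing DQ Fr) :=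
  Fermat.Agent.S53.PSC.X_mem DQ.R (Fr × Fin 3) s

theorem C_mem_maximalIdeal_iff (a : DQ.R) :
    (MvPowerSeries.C a : FRing DQ Fr) ∈ maximalIdeal (FRing DQ Fr) ↔ a ∈ maximalIdeal DQ.R := by
  rw [Fermat.Agent.S53.PSC.mem_maximalIdeal_iff, MvPowerSeries.constantCoeff_C]

instance isLocalHom_algebraMap_fRing : IsLocalHom (algebraMap 𝒪 (FRing DQ Fr)) := by
  constructor
  intro a ha
  have h1 : IsUnit (MvPowerSeries.constantCoeff (algebraMap 𝒪 (FRing DQ Fr) a)) :=
    ha.map MvPowerSeries.constantCoeff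
  rw [MvPowerSeries.algebraMap_apply, MvPowerSeries.constantCoeff_C] at h1
  exact isUnit_of_map_unit (algebraMap 𝒪 DQ.R) a h1

/-- every element of `R^□` is congruent to a constant of `𝒪` modulo the maximal ideal. -/
theorem residue_surjective_fRing :
    Function.Surjective (residue (FRing DQ Fr) ∘ algebraMap 𝒪 (FRing DQ Fr)) := by
  intro y
  obtain ⟨f, rfl⟩ := residue_surjective y
  obtain ⟨a, ha⟩ := DQ.residue_surjective (residue DQ.R (MvPowerSeries.constantCoeff f))
  refine ⟨a, ?_⟩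
  rw [Function.comp_apply, ← sub_eq_zero, ← map_sub, residue_eq_zero_iff,
    Fermat.Agent.S53.PSC.mem_maximalIdeal_iff, map_sub, MvPowerSeries.algebraMap_apply,
    MvPowerSeries.constantCoeff_C, ← residue_eq_zero_iff, map_sub, sub_eq_zero]
  exact ha

/-! ### frames -/

/-- the trace-zero matrix of frame coordinates at `v`. -/
def frameZ (v : Fr) : Matrix (Fin 2) (Fin 2) (FRing DQ Fr) :=
  !![MvPowerSeries.X (v, 0), MvPowerSeries.X (v, 1); MvPowerSeries.X (v, 2), -MvPowerSeries.X (v, 0)]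

theorem frameZ_entry_mem (v : Fr) (i j : Fin 2) :
    frameZ DQ Fr v i j ∈ maximalIdeal (FRing DQ Fr) := by
  fin_cases i <;> fin_cases j
  · exact X_mem_maximalIdeal DQ Fr _
  · exact X_mem_maximalIdeal DQ Fr _
  · exact X_mem_maximalIdeal DQ Fr _
  · exact neg_mem (X_mem_maximalIdeal DQ Fr _)

theorem isUnit_det_one_add_frameZ (v : Fr) : IsUnit (1 + frameZ DQ Fr v).det := by
  have h : (1 + frameZ DQ Fr v).det - 1 ∈ maximalIdeal (FRing DQ Fr) := by
    have e : (1 + frameZ DQ Fr v).det - 1 =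
        -(MvPowerSeries.X (v, 0) * MvPowerSeries.X (v, 0)) -
          MvPowerSeries.X (v, 1) * MvPowerSeries.X (v, 2) := by
      rw [Matrix.det_fin_two]
      simp [frameZ]
      ring
    rw [e]
    exact sub_mem (neg_mem (Ideal.mul_mem_left _ _ (X_mem_maximalIdeal DQ Fr _)))
      (Ideal.mul_mem_left _ _ (X_mem_maximalIdeal DQ Fr _))
  by_contra hu
  have h1 : (1 + frameZ DQ Fr v).det ∈ maximalIdeal (FRing DQ Fr) := hu
  have h2 : (1 : FRing DQ Fr) ∈ maximalIdeal (FRing DQ Fr) := by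
    have := sub_mem h1 h
    rwa [sub_sub_cancel] at this
  exact (Ideal.ne_top_iff_one _).1 (maximalIdeal.isMaximal _).ne_top h2

/-- **the universal frame** `1 + Z_v ∈ GL₂(R^□)`. -/
def frameGL (v : Fr) : GL (Fin 2) (FRing DQ Fr) :=
  Matrix.GeneralLinearGroup.mk'' (1 + frameZ DQ Fr v) (isUnit_det_one_add_frameZ DQ Fr v)

@[simp] theorem frameGL_val (v : Fr) :
    ((frameGL DQ Fr v : GL (Fin 2) (FRing DQ Fr)) : Matrix (Fin 2) (Fin 2) (FRing DQ Fr)) =
      1 + frameZ DQ Fr v := rfl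

/-- the universal matrix model, with constant coefficients in `R^□`. -/
def univMatC : GQ →* Matrix (Fin 2) (Fin 2) (FRing DQ Fr) :=
  mapMat (MvPowerSeries.C : DQ.R →+* FRing DQ Fr) (univMat DQ)

/-- **the framed universal matrices** at `v`: `(1 + Z_v) · univMat · (1 + Z_v)⁻¹`. -/
def framedMat (v : Fr) : GQ →* Matrix (Fin 2) (Fin 2) (FRing DQ Fr) :=
  conjMat (frameGL DQ Fr v) (univMatC DQ Fr)

theorem frame_mul_univMatC (v : Fr) (σ : GQ) :
    (1 + frameZ DQ Fr v) * univMatC DQ Fr σ = framedMat DQ Fr v σ * (1 + frameZ DQ Fr v) :=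
  conjMat_mul_self (frameGL DQ Fr v) (univMatC DQ Fr) σ

/-! ### tangent vectors of the framed ring -/

section Tangent

variable {DQ Fr}
variable (ψ : FRing DQ Fr →ₐ[𝒪] DualNumber (ResidueField 𝒪))

/-- the restriction of a tangent vector of `R^□` to the constants `R`. -/
def baseHom : DQ.R →ₐ[𝒪] DualNumber (ResidueField 𝒪) :=
  ψ.comp (IsScalarTower.toAlgHom 𝒪 DQ.R (FRing DQ Fr))

theorem baseHom_apply (a : DQ.R) : baseHom ψ a = ψ (MvPowerSeries.C a) := by
  show ψ (algebraMap DQ.R (FRing DQ Fr) a) = _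
  rw [MvPowerSeries.algebraMap_apply, Algebra.algebraMap_self_apply]

theorem fst_map_of_mem {x : FRing DQ Fr} (hx : x ∈ maximalIdeal (FRing DQ Fr)) :
    (ψ x).fst = 0 := by
  haveI := isLocalHom_algHom_dualNumber ψ
  have h1 : (ψ : FRing DQ Fr →+* DualNumber (ResidueField 𝒪)) x ∈
      maximalIdeal (DualNumber (ResidueField 𝒪)) := by
    rw [mem_maximalIdeal, mem_nonunits_iff] at hx ⊢
    exact fun hu => hx (isUnit_of_map_unit _ _ hu)
  exact (mem_maximalIdeal_dualNumber_iff _ _).1 h1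

theorem fst_map_X (s : Fr × Fin 3) : (ψ (MvPowerSeries.X s)).fst = 0 :=
  fst_map_of_mem ψ (X_mem_maximalIdeal DQ Fr s)

/-- the frame coordinates of a tangent vector. -/
def frameCoord (v : Fr) (i : Fin 3) : ResidueField 𝒪 := (ψ (MvPowerSeries.X (v, i))).snd

theorem map_X_eq (v : Fr) (i : Fin 3) :
    ψ (MvPowerSeries.X (v, i)) = TrivSqZeroExt.inr (frameCoord ψ v i) := by
  ext
  · rw [fst_map_X, TrivSqZeroExt.fst_inr]
  · rw [TrivSqZeroExt.snd_inr]
    rfl

/-- **the first-order frame** `B_v ∈ sl₂(k)` of a tangent vector: `ψ(1 + Z_v) = 1 + ε B_v`. -/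
def frameB (v : Fr) : Matrix (Fin 2) (Fin 2) (ResidueField 𝒪) :=
  !![frameCoord ψ v 0, frameCoord ψ v 1; frameCoord ψ v 2, -frameCoord ψ v 0]

theorem trace_frameB (v : Fr) : (frameB ψ v).trace = 0 := by
  rw [Matrix.trace_fin_two]
  simp [frameB]

theorem frameB_eq_iff (ψ' : FRing DQ Fr →ₐ[𝒪] DualNumber (ResidueField 𝒪)) (v : Fr) :
    frameB ψ v = frameB ψ' v ↔ ∀ i, frameCoord ψ v i = frameCoord ψ' v i := by
  constructor
  · intro h i
    have h00 := congrFun (congrFun h 0) 0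
    have h01 := congrFun (congrFun h 0) 1
    have h10 := congrFun (congrFun h 1) 0
    simp [frameB] at h00 h01 h10
    fin_cases i
    · exact h00
    · exact h01
    · exact h10
  · intro h
    unfold frameB
    rw [h 0, h 1, h 2]

theorem map_one_add_frameZ (v : Fr) :
    (1 + frameZ DQ Fr v).map (ψ : FRing DQ Fr → DualNumber (ResidueField 𝒪)) =
      mkMat 1 (frameB ψ v) := by
  ext i j
  · fin_cases i <;> fin_cases j <;>
      simp [frameZ, frameB, mkMat, map_X_eq, Matrix.one_apply]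
  · fin_cases i <;> fin_cases j <;>
      simp [frameZ, frameB, mkMat, map_X_eq, Matrix.one_apply]

/-- the framed universal matrices pushed along a tangent vector. -/
def pushF (v : Fr) : GQ →* Matrix (Fin 2) (Fin 2) (DualNumber (ResidueField 𝒪)) :=
  mapMat (ψ : FRing DQ Fr →+* DualNumber (ResidueField 𝒪)) (framedMat DQ Fr v)

theorem pushF_apply (v : Fr) (σ : GQ) (i j : Fin 2) :
    pushF ψ v σ i j = ψ (framedMat DQ Fr v σ i j) := rfl

theorem mapMat_univMatC :
    mapMat (ψ : FRing DQ Fr →+* DualNumber (ResidueField 𝒪)) (univMatC DQ Fr) =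
      pMat DQ (baseHom ψ) := by
  refine MonoidHom.ext fun σ => ?_
  refine Matrix.ext fun i j => ?_
  show ψ (MvPowerSeries.C (univMat DQ σ i j)) = baseHom ψ (univMat DQ σ i j)
  rw [baseHom_apply]

/-- `(1 + εB_v) · pMat(σ) = pushF_v(σ) · (1 + εB_v)`. -/
theorem frame_conj (v : Fr) (σ : GQ) :
    mkMat 1 (frameB ψ v) * pMat DQ (baseHom ψ) σ = pushF ψ v σ * mkMat 1 (frameB ψ v) := by
  have h := congrArg (fun M : Matrix (Fin 2) (Fin 2) (FRing DQ Fr) =>
    M.map (ψ : FRing DQ Fr → DualNumber (ResidueField 𝒪))) (frame_mul_univMatC DQ Fr v σ)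
  beta_reduce at h
  have e1 : ((1 + frameZ DQ Fr v) * univMatC DQ Fr σ).map
      (ψ : FRing DQ Fr → DualNumber (ResidueField 𝒪)) =
      (1 + frameZ DQ Fr v).map (ψ : FRing DQ Fr → DualNumber (ResidueField 𝒪)) *
        (univMatC DQ Fr σ).map (ψ : FRing DQ Fr → DualNumber (ResidueField 𝒪)) :=
    Matrix.map_mul (f := (ψ : FRing DQ Fr →+* DualNumber (ResidueField 𝒪)))
  have e2 : (framedMat DQ Fr v σ * (1 + frameZ DQ Fr v)).map
      (ψ : FRing DQ Fr → DualNumber (ResidueField 𝒪)) =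
      (framedMat DQ Fr v σ).map (ψ : FRing DQ Fr → DualNumber (ResidueField 𝒪)) *
        (1 + frameZ DQ Fr v).map (ψ : FRing DQ Fr → DualNumber (ResidueField 𝒪)) :=
    Matrix.map_mul (f := (ψ : FRing DQ Fr →+* DualNumber (ResidueField 𝒪)))
  rw [e1, e2, map_one_add_frameZ] at h
  have e3 : (univMatC DQ Fr σ).map (ψ : FRing DQ Fr → DualNumber (ResidueField 𝒪)) =
      pMat DQ (baseHom ψ) σ := by
    rw [← mapMat_univMatC ψ]
    rfl
  rw [e3] at h
  exact h

theorem rfst_pushF (v : Fr) : rfst (pushF ψ v) = rfst (pMat DQ (baseHom ψ)) := by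
  refine MonoidHom.ext fun σ => ?_
  have h := congrArg mfst (frame_conj ψ v σ)
  rw [mfst_mul, mfst_mul, mfst_mkMat, Matrix.one_mul, Matrix.mul_one] at h
  exact h.symm

/-- **the tangent cocycle of the framed lift at `v`** (in the `univMat` model). -/
theorem tanCocycle_pushF (v : Fr) (σ : GQ) :
    tanCocycle (pushF ψ v) σ = tanCocycle (pMat DQ (baseHom ψ)) σ + frameB ψ v -
      rfst (pMat DQ (baseHom ψ)) σ * frameB ψ v * rfst (pMat DQ (baseHom ψ)) σ⁻¹ := by
  have h := cohomologous_of_conj (pMat DQ (baseHom ψ)) (pushF ψ v) (rfst_pushF ψ v).symm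
    (mkMat 1 (frameB ψ v)) (mfst_mkMat _ _) (frame_conj ψ v) σ
  rw [msnd_mkMat] at h
  exact h

/-- a tangent vector of `R^□` is determined by its restriction to `R` and its frame
coordinates. -/
theorem tangent_ext (ψ' : FRing DQ Fr →ₐ[𝒪] DualNumber (ResidueField 𝒪))
    (hbase : baseHom ψ = baseHom ψ')
    (hframe : ∀ v i, frameCoord ψ v i = frameCoord ψ' v i) : ψ = ψ' := by
  letI : Algebra DQ.R (DualNumber (ResidueField 𝒪)) :=
    ((baseHom ψ : DQ.R →ₐ[𝒪] DualNumber (ResidueField 𝒪)) :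
      DQ.R →+* DualNumber (ResidueField 𝒪)).toAlgebra
  let ψR : FRing DQ Fr →ₐ[DQ.R] DualNumber (ResidueField 𝒪) :=
    { (ψ : FRing DQ Fr →+* DualNumber (ResidueField 𝒪)) with
      commutes' := fun a => by
        show ψ (algebraMap DQ.R (FRing DQ Fr) a) = baseHom ψ a
        rfl }
  let ψR' : FRing DQ Fr →ₐ[DQ.R] DualNumber (ResidueField 𝒪) :=
    { (ψ' : FRing DQ Fr →+* DualNumber (ResidueField 𝒪)) with
      commutes' := fun a => by
        show ψ' (algebraMap DQ.R (FRing DQ Fr) a) = baseHom ψ a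
        rw [hbase]
        rfl }
  have hX : ∀ s, ψR (MvPowerSeries.X s) = ψR' (MvPowerSeries.X s) := by
    rintro ⟨v, i⟩
    show ψ (MvPowerSeries.X (v, i)) = ψ' (MvPowerSeries.X (v, i))
    rw [map_X_eq, map_X_eq, hframe]
  have hm : ∀ s, ψR (MvPowerSeries.X s) ∈ maximalIdeal (DualNumber (ResidueField 𝒪)) := by
    intro s
    rw [mem_maximalIdeal_dualNumber_iff]
    exact fst_map_X ψ s
  have hR := Fermat.Agent.S53.algHom_ext_X ψR ψR' hm hX
  refine AlgHom.ext fun x => ?_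
  exact congrArg (fun f : FRing DQ Fr →ₐ[DQ.R] DualNumber (ResidueField 𝒪) => f x) hR

end Tangent

end

end Fermat.Agent.GB.Def.FramedRing
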