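/-
GATE-B / B2 (S56-framed), node GB-DEF-FRAMED part 2c (helper11): **the framed deformation ring is a
quotient of `A⟦x₁,…,x_r⟧`** (`A` = the completed tensor product of the framed local rings, kept
ABSTRACT) **as soon as the framed first-order data are bounded by `|k|^r`.**

`r̄ = toMatRes ρbar b`, `k = ResidueField 𝒪`, `Fr` = the framed places, `tests v ⊆ G_ℚ` = test
elements at `v` (e.g. a Frobenius lift and a generator of tame inertia, or all of `D_v`).

* `TanAdm 𝒪 ρbar b 𝒟 c` : `c : G_ℚ → M₂(k)` is a coboundary of `r̄` or the tangent cocycle of a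
  continuous matrix lift of `r̄` to `k[ε]` of type `𝒟` (the clause of helper11's `TanTop.SelmerBound`);
* `FramedAdm … tests c B` : `TanAdm c`, frames `B v ∈ sl₂(k)` and
  `c τ + (B v − r̄ τ · B v · r̄ τ⁻¹) = 0` for all `τ ∈ tests v` (the framed lift `(1+εB_v)·t·(1+εB_v)⁻¹`
  is CONSTANT on the test elements at `v`);
* `FramedSelmerBound … tests r` : an invariant with `≤ |k|^r` values separates admissible framed data
  up to `(c, B) ∼ (c + ∂X, B − X)`;
* `exists_surjective_of_framedSelmerBound` : for ANY complete noetherian local `𝒪`-algebra `A` with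
  residue field `k` and local `A → R^□ = FRing DQ Fr` whose range contains the entries of the framed
  universal matrices `framedMat DQ Fr v τ` (`τ ∈ tests v`):
  `FramedSelmerBound … r → ∃ γ : A⟦x₁,…,x_r⟧ →ₐ[A] R^□, Surjective γ`
  (via helper6's base-generic `GP.Alg.exists_surjective_of_injective` with base ring `A`).
NEW file; imports only.
-/
import Mathlib
import Fermat.Agent.GB.Def.FramedRing
import Fermat.Agent.GB.Def.DualTransport

set_option autoImplicit false
set_option linter.unusedSectionVars false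
set_option linter.style.haveILetI false

namespace Fermat.Agent.GB.Def.FramedTan

open IsLocalRing Fermat.Agent.S53_helper35 Fermat.Agent.S53_helper84 Matrix
open Fermat.Agent.GP.Tan.UnivInj Fermat.Agent.GP.Tan.Cocycle Fermat.Agent.GP.Tan.Linear
open Fermat.Agent.GB.Def.FramedRing Fermat.Agent.GB.Def.DualTransport

noncomputable section

section Defs

variable (𝒪 : Type) [CommRing 𝒪] [IsLocalRing 𝒪]
  (ρbar : ResidualGaloisRep (ResidueField 𝒪))
  (b : Module.Basis (Fin 2) (ResidueField 𝒪) ρbar.V)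
  (𝒟 : ∀ ⦃A : Type⦄ [CommRing A] [IsLocalRing A] [Algebra 𝒪 A], GaloisRepAdic A → Prop)
  (Fr : Type) (tests : Fr → Set GQ)

/-- admissible tangent functions: coboundaries of `r̄`, or tangent cocycles of matrix lifts of `r̄`
to `k[ε]` of type `𝒟` (the clause of `TanTop.SelmerBound`). -/
def TanAdm (c : GQ → Matrix (Fin 2) (Fin 2) (ResidueField 𝒪)) : Prop :=
  (∃ X, ∀ σ, c σ = X - toMatRes ρbar b σ * X * toMatRes ρbar b σ⁻¹) ∨
    ∃ (t : GQ →* Matrix (Fin 2) (Fin 2) (DualNumber (ResidueField 𝒪))) (ht : MatCont t),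
      rfst t = toMatRes ρbar b ∧ (∃ ρ, 𝒟 ρ ∧ ρ.IsEquiv (ofMat t ht)) ∧
        ∀ σ, c σ = tanCocycle t σ

/-- admissible framed first-order data. -/
def FramedAdm (c : GQ → Matrix (Fin 2) (Fin 2) (ResidueField 𝒪))
    (B : Fr → Matrix (Fin 2) (Fin 2) (ResidueField 𝒪)) : Prop :=
  TanAdm 𝒪 ρbar b 𝒟 c ∧ (∀ v, (B v).trace = 0) ∧
    ∀ v, ∀ τ ∈ tests v,
      c τ + (B v - toMatRes ρbar b τ * B v * toMatRes ρbar b τ⁻¹) = 0

/-- **Interface with the Selmer side** (framed twin of `TanTop.SelmerBound`): admissible framed data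
are separated, up to `(c, B) ∼ (c + ∂X, B − X)`, by an invariant with at most `|k|^r` values. -/
def FramedSelmerBound (r : ℕ) : Prop :=
  ∃ (T : Type) (_ : Finite T)
    (q : (GQ → Matrix (Fin 2) (Fin 2) (ResidueField 𝒪)) →
      (Fr → Matrix (Fin 2) (Fin 2) (ResidueField 𝒪)) → T),
    Nat.card T ≤ Nat.card (ResidueField 𝒪) ^ r ∧
    ∀ (c c' : GQ → Matrix (Fin 2) (Fin 2) (ResidueField 𝒪))
      (B B' : Fr → Matrix (Fin 2) (Fin 2) (ResidueField 𝒪)),
      FramedAdm 𝒪 ρbar b 𝒟 Fr tests c B → FramedAdm 𝒪 ρbar b 𝒟 Fr tests c' B' →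
      q c B = q c' B' →
      ∃ X, (∀ σ, c' σ = c σ + X - toMatRes ρbar b σ * X * toMatRes ρbar b σ⁻¹) ∧
        ∀ v, B' v = B v - X

end Defs

section Main

variable {𝒪 : Type} [CommRing 𝒪] [IsDomain 𝒪] [IsDiscreteValuationRing 𝒪]
  [IsAdicComplete (maximalIdeal 𝒪) 𝒪]
  {ρbar : ResidualGaloisRep (ResidueField 𝒪)}
  {𝒟 : ∀ ⦃A : Type⦄ [CommRing A] [IsLocalRing A] [Algebra 𝒪 A], GaloisRepAdic A → Prop}
  (DQ : GaloisRep.DeformationRingData 𝒪 ρbar 𝒟)
  (b : Module.Basis (Fin 2) (ResidueField 𝒪) ρbar.V)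
  {Fr : Type} [Finite Fr]

/-- a tangent vector of `R` which is not onto has zero linear cocycle. -/
theorem linCocycle_eq_zero_of_not_surjective
    (φ : DQ.R →ₐ[𝒪] DualNumber (ResidueField 𝒪)) (hφ : ¬ Function.Surjective φ) (σ : GQ) :
    linCocycle DQ b φ σ = 0 := by
  have hsnd : ∀ x, (φ x).snd = 0 := by
    intro x
    by_contra h0
    exact hφ (algHom_dualNumber_surjective_of_snd_ne_zero φ x h0)
  have h0 : rsnd (pMat DQ φ) σ = 0 := by
    ext i j
    exact hsnd _
  rw [linCocycle_eq]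
  unfold tanCocycle
  rw [h0, Matrix.zero_mul, Matrix.mul_zero, Matrix.zero_mul]

/-- the linear cocycle of every tangent vector is admissible. -/
theorem tanAdm_linCocycle
    (h𝒟 : ∀ φ : DQ.R →ₐ[𝒪] DualNumber (ResidueField 𝒪), Function.Surjective φ →
      𝒟 (tangentRep DQ φ))
    (φ : DQ.R →ₐ[𝒪] DualNumber (ResidueField 𝒪)) :
    TanAdm 𝒪 ρbar b 𝒟 (linCocycle DQ b φ) := by
  by_cases hs : Function.Surjective φ
  · exact Or.inr ⟨linMat DQ b φ, matCont_linMat DQ b φ, rfst_linMat DQ b φ,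
      ⟨tangentRep DQ φ, h𝒟 φ hs, tangentRep_isEquiv_linMat DQ b φ⟩, fun σ => rfl⟩
  · refine Or.inl ⟨0, fun σ => ?_⟩
    rw [linCocycle_eq_zero_of_not_surjective DQ b φ hs σ, Matrix.mul_zero, Matrix.zero_mul,
      sub_zero]

/-- tangent vectors of `R` with equivalent first-order deformations are equal. -/
theorem eq_of_tangentRep_isEquiv
    (h𝒟 : ∀ φ : DQ.R →ₐ[𝒪] DualNumber (ResidueField 𝒪), Function.Surjective φ →
      𝒟 (tangentRep DQ φ))
    (φ φ' : DQ.R →ₐ[𝒪] DualNumber (ResidueField 𝒪))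
    (he : (tangentRep DQ φ).IsEquiv (tangentRep DQ φ')) : φ = φ' := by
  by_cases hs' : Function.Surjective φ'
  · exact algHom_dualNumber_eq_of_isEquiv DQ φ φ' (h𝒟 φ' hs') he
  · by_cases hs : Function.Surjective φ
    · obtain ⟨e⟩ := he
      exact (algHom_dualNumber_eq_of_isEquiv DQ φ' φ (h𝒟 φ hs) ⟨e.symm⟩).symm
    · exact algHom_dualNumber_eq_of_not_surjective DQ.residue_surjective φ φ' hs hs'

/-- the frame of a tangent vector in the `r̄`-model: `B̃_v = g · B_v · g⁻¹`, `g = modelConj`. -/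
def frameBt (ψ : FRing DQ Fr →ₐ[𝒪] DualNumber (ResidueField 𝒪)) (v : Fr) :
    Matrix (Fin 2) (Fin 2) (ResidueField 𝒪) :=
  (modelConj DQ b : Matrix (Fin 2) (Fin 2) (ResidueField 𝒪)) * frameB ψ v *
    (((modelConj DQ b)⁻¹ : GL (Fin 2) (ResidueField 𝒪)) :
      Matrix (Fin 2) (Fin 2) (ResidueField 𝒪))

theorem trace_frameBt (ψ : FRing DQ Fr →ₐ[𝒪] DualNumber (ResidueField 𝒪)) (v : Fr) :
    (frameBt DQ b ψ v).trace = 0 := by
  unfold frameBt
  rw [Matrix.trace_mul_cycle, ← Units.val_mul, inv_mul_cancel, Units.val_one, Matrix.one_mul,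
    trace_frameB]

theorem frameB_eq_of_frameBt_eq (ψ ψ' : FRing DQ Fr →ₐ[𝒪] DualNumber (ResidueField 𝒪)) (v : Fr)
    (h : frameBt DQ b ψ v = frameBt DQ b ψ' v) : frameB ψ v = frameB ψ' v := by
  have hg : (((modelConj DQ b)⁻¹ : GL (Fin 2) (ResidueField 𝒪)) :
      Matrix (Fin 2) (Fin 2) (ResidueField 𝒪)) *
      (modelConj DQ b : Matrix (Fin 2) (Fin 2) (ResidueField 𝒪)) = 1 := by
    rw [← Units.val_mul, inv_mul_cancel, Units.val_one]
  have key : ∀ ψ₀ : FRing DQ Fr →ₐ[𝒪] DualNumber (ResidueField 𝒪),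
      (((modelConj DQ b)⁻¹ : GL (Fin 2) (ResidueField 𝒪)) :
        Matrix (Fin 2) (Fin 2) (ResidueField 𝒪)) * frameBt DQ b ψ₀ v *
        (modelConj DQ b : Matrix (Fin 2) (Fin 2) (ResidueField 𝒪)) = frameB ψ₀ v := by
    intro ψ₀
    unfold frameBt
    rw [← Matrix.mul_assoc, ← Matrix.mul_assoc, hg, Matrix.one_mul, Matrix.mul_assoc, hg,
      Matrix.mul_one]
  rw [← key ψ, ← key ψ', h]

/-- **the framed condition in the `r̄`-model**: if the framed lift at `v` has no `ε`-part at `τ`,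
then `linCocycle τ + (B̃_v − r̄ τ B̃_v r̄ τ⁻¹) = 0`. -/
theorem linCocycle_add_cob_frameBt_eq_zero
    (ψ : FRing DQ Fr →ₐ[𝒪] DualNumber (ResidueField 𝒪)) (v : Fr) (τ : GQ)
    (hτ : ∀ i j, (ψ (framedMat DQ Fr v τ i j)).snd = 0) :
    linCocycle DQ b (baseHom ψ) τ + (frameBt DQ b ψ v -
      toMatRes ρbar b τ * frameBt DQ b ψ v * toMatRes ρbar b τ⁻¹) = 0 := by
  set g := (modelConj DQ b : Matrix (Fin 2) (Fin 2) (ResidueField 𝒪)) with hg
  set gi := (((modelConj DQ b)⁻¹ : GL (Fin 2) (ResidueField 𝒪)) :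
    Matrix (Fin 2) (Fin 2) (ResidueField 𝒪)) with hgi
  have hgig : gi * g = 1 := by
    rw [hg, hgi, ← Units.val_mul, inv_mul_cancel, Units.val_one]
  have hggi : g * gi = 1 := by
    rw [hg, hgi, ← Units.val_mul, mul_inv_cancel, Units.val_one]
  have h0 : tanCocycle (pushF ψ v) τ = 0 := by
    unfold tanCocycle
    have : rsnd (pushF ψ v) τ = 0 := by
      ext i j
      exact hτ i j
    rw [this, Matrix.zero_mul]
  have h1 := tanCocycle_pushF ψ v τ
  rw [h0] at h1
  -- conjugate by `g`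
  have hspec : ∀ σ, g * rfst (pMat DQ (baseHom ψ)) σ = toMatRes ρbar b σ * g :=
    fun σ => modelConj_spec DQ b (baseHom ψ) σ
  have hspec' : ∀ σ, rfst (pMat DQ (baseHom ψ)) σ * gi = gi * toMatRes ρbar b σ := by
    intro σ
    calc rfst (pMat DQ (baseHom ψ)) σ * gi
        = gi * (g * rfst (pMat DQ (baseHom ψ)) σ) * gi := by
          rw [← Matrix.mul_assoc, hgig, Matrix.one_mul]
      _ = gi * toMatRes ρbar b σ * (g * gi) := by
          rw [hspec σ]
          simp only [Matrix.mul_assoc]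
      _ = gi * toMatRes ρbar b σ := by rw [hggi, Matrix.mul_one]
  have h2 := congrArg (fun M => g * M * gi) h1
  simp only [Matrix.mul_zero, Matrix.zero_mul] at h2
  rw [linCocycle_eq]
  unfold frameBt
  rw [← hg, ← hgi]
  have e1 : g * (rfst (pMat DQ (baseHom ψ)) τ * frameB ψ v *
      rfst (pMat DQ (baseHom ψ)) τ⁻¹) * gi =
      toMatRes ρbar b τ * (g * frameB ψ v * gi) * toMatRes ρbar b τ⁻¹ := by
    calc g * (rfst (pMat DQ (baseHom ψ)) τ * frameB ψ v *
          rfst (pMat DQ (baseHom ψ)) τ⁻¹) * gi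
        = (g * rfst (pMat DQ (baseHom ψ)) τ) * frameB ψ v *
            (rfst (pMat DQ (baseHom ψ)) τ⁻¹ * gi) := by
          simp only [Matrix.mul_assoc]
      _ = (toMatRes ρbar b τ * g) * frameB ψ v * (gi * toMatRes ρbar b τ⁻¹) := by
          rw [hspec, hspec']
      _ = _ := by simp only [Matrix.mul_assoc]
  have e2 : g * (tanCocycle (pMat DQ (baseHom ψ)) τ + frameB ψ v -
      rfst (pMat DQ (baseHom ψ)) τ * frameB ψ v * rfst (pMat DQ (baseHom ψ)) τ⁻¹) * gi =
      g * tanCocycle (pMat DQ (baseHom ψ)) τ * gi + (g * frameB ψ v * gi -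
        toMatRes ρbar b τ * (g * frameB ψ v * gi) * toMatRes ρbar b τ⁻¹) := by
    rw [Matrix.mul_sub, Matrix.sub_mul, Matrix.mul_add, Matrix.add_mul, e1]
    abel
  rw [← e2]
  exact h2.symm

variable [Finite (ResidueField 𝒪)]

/-- **GB-DEF-FRAMED, main theorem.** -/
theorem exists_surjective_of_framedSelmerBound
    (h2 : (2 : ResidueField 𝒪) ≠ 0)
    (h𝒟 : ∀ φ : DQ.R →ₐ[𝒪] DualNumber (ResidueField 𝒪), Function.Surjective φ →
      𝒟 (tangentRep DQ φ))
    {A : Type} [CommRing A] [IsLocalRing A] [IsNoetherianRing A]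
    [IsAdicComplete (maximalIdeal A) A] [Algebra 𝒪 A] [IsLocalHom (algebraMap 𝒪 A)]
    [Algebra A (FRing DQ Fr)] [IsScalarTower 𝒪 A (FRing DQ Fr)]
    [IsLocalHom (algebraMap A (FRing DQ Fr))]
    (hresA : Function.Surjective (residue A ∘ algebraMap 𝒪 A))
    (tests : Fr → Set GQ)
    (hrange : ∀ v, ∀ τ ∈ tests v, ∀ i j,
      framedMat DQ Fr v τ i j ∈ Set.range (algebraMap A (FRing DQ Fr)))
    {r : ℕ} (hSel : FramedSelmerBound 𝒪 ρbar b 𝒟 Fr tests r) :
    ∃ γ : MvPowerSeries (Fin r) A →ₐ[A] FRing DQ Fr, Function.Surjective γ := by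
  obtain ⟨T, hT, q, hcard, hq⟩ := hSel
  haveI := hT
  haveI : Finite (ResidueField A) :=
    Finite.of_equiv _ (resEquiv hresA).toEquiv
  have hres : Function.Surjective (residue (FRing DQ Fr) ∘ algebraMap A (FRing DQ Fr)) := by
    intro y
    obtain ⟨a, ha⟩ := residue_surjective_fRing DQ Fr y
    refine ⟨algebraMap 𝒪 A a, ?_⟩
    rw [Function.comp_apply, ← IsScalarTower.algebraMap_apply 𝒪 A (FRing DQ Fr)]
    exact ha
  -- the invariant of a relative tangent vector
  let ι : (FRing DQ Fr →ₐ[A] DualNumber (ResidueField A)) → T := fun ψA =>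
    q (linCocycle DQ b (baseHom (toO hresA ψA))) (frameBt DQ b (toO hresA ψA))
  have hadm : ∀ ψA : FRing DQ Fr →ₐ[A] DualNumber (ResidueField A),
      FramedAdm 𝒪 ρbar b 𝒟 Fr tests (linCocycle DQ b (baseHom (toO hresA ψA)))
        (frameBt DQ b (toO hresA ψA)) := by
    intro ψA
    refine ⟨tanAdm_linCocycle DQ b h𝒟 _, fun v => trace_frameBt DQ b _ v, fun v τ hτ => ?_⟩
    refine linCocycle_add_cob_frameBt_eq_zero DQ b (toO hresA ψA) v τ fun i j => ?_
    obtain ⟨a, ha⟩ := hrange v τ hτ i j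
    rw [← ha]
    exact snd_toO_algebraMap hresA ψA a
  have hι : Function.Injective ι := by
    intro ψA ψA' h
    obtain ⟨X, hX, hB⟩ := hq _ _ _ _ (hadm ψA) (hadm ψA') h
    -- the base tangent vectors agree
    have hbase : baseHom (toO hresA ψA) = baseHom (toO hresA ψA') :=
      eq_of_tangentRep_isEquiv DQ h𝒟 _ _
        (tangentRep_isEquiv_of_linCocycle_cohomologous DQ b _ _ X hX)
    -- hence `X` commutes with `r̄`, so it is scalar
    have hcomm : ∀ σ, X * toMatRes ρbar b σ = toMatRes ρbar b σ * X := by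
      intro σ
      have h1 := hX σ
      rw [hbase] at h1
      have h3 : X = toMatRes ρbar b σ * X * toMatRes ρbar b σ⁻¹ := by
        have : X - toMatRes ρbar b σ * X * toMatRes ρbar b σ⁻¹ = 0 := by
          have h4 : linCocycle DQ b (baseHom (toO hresA ψA')) σ =
              linCocycle DQ b (baseHom (toO hresA ψA')) σ +
                (X - toMatRes ρbar b σ * X * toMatRes ρbar b σ⁻¹) := by
            rw [← add_sub_assoc]
            exact h1
          exact (left_eq_add.1 h4)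
        exact sub_eq_zero.1 this
      have h5 : toMatRes ρbar b σ⁻¹ * toMatRes ρbar b σ = 1 := by
        rw [← map_mul, inv_mul_cancel, map_one]
      calc X * toMatRes ρbar b σ
          = toMatRes ρbar b σ * X * toMatRes ρbar b σ⁻¹ * toMatRes ρbar b σ := by rw [← h3]
        _ = toMatRes ρbar b σ * X := by rw [Matrix.mul_assoc, h5, Matrix.mul_one]
    obtain ⟨a, ha⟩ := exists_scalar_of_commute b DQ.absIrr X hcomm
    -- frames agree
    have hframe : ∀ v i, frameCoord (toO hresA ψA) v i = frameCoord (toO hresA ψA') v i := by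
      intro v
      have htr : X.trace = 0 := by
        have := congrArg Matrix.trace (hB v)
        rw [Matrix.trace_sub, trace_frameBt, trace_frameBt, zero_sub, eq_comm, neg_eq_zero]
          at this
        exact this
      have ha0 : a = 0 := by
        rw [ha, Matrix.trace_fin_two] at htr
        simp only [Matrix.scalar_apply, Matrix.diagonal_apply_eq] at htr
        have : (2 : ResidueField 𝒪) * a = 0 := by rw [two_mul]; exact htr
        exact (mul_eq_zero.1 this).resolve_left h2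
      have hX0 : X = 0 := by rw [ha, ha0, map_zero]
      have hBt : frameBt DQ b (toO hresA ψA) v = frameBt DQ b (toO hresA ψA') v := by
        rw [hB v, hX0, sub_zero]
      exact (frameB_eq_iff _ _ v).1 (frameB_eq_of_frameBt_eq DQ b _ _ v hBt)
    exact toO_injective hresA (tangent_ext _ _ hbase hframe)
  have hT' : Nat.card T ≤ Nat.card (ResidueField A) ^ r := by
    rw [natCard_residueField_eq hresA]
    exact hcard
  exact Fermat.Agent.GP.Alg.exists_surjective_of_injective hres ι hι hT'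

end Main

end

end Fermat.Agent.GB.Def.FramedTan
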