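/-
GATE-B / B2 (S56-framed), node GB-DEF-FRAMED part 3 (helper11): **`FramedSelmerBound` from helper94's
`FramedFamily`** (`GB/Def/FramedNodes`), hence the plug

  `FramedFamily … r d` + local generation at the framed places + `hrange`
      ⟹ `∃ γ : A⟦x₁,…,x_r⟧ →ₐ[A] R^□, Surjective γ`     (`exists_surjective_of_framedFamily`).

`Fr` indexes the framed places through `pl : Fr → (locDataQ S).ι` (a bijection onto the places `v`
with `plOf S v ∉ Q`, `plOf S v ∈ Su`; canonical choice `FrPlaces Su Q S`, `frPl`); `tests w ⊆ G_ℚ`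
are the test elements at `pl w`;
`LocGen p S N pl tests` (LOCAL GENERATION) : a level-constant cocycle `G_v → N` vanishing at all
`τ'` with `r_v τ' ∈ tests w` is `0` (`locGen_of_forall_mem`: trivial for `tests w ⊇ r_v(G_v)`; for
`tests w` = {Frobenius lift, tame generator} it is the cohomological shadow of the tame structure at
an unramified prime with p-torsion coefficients — GP/Loc/TWLocal, GB/Def/LocGen).

* `exists_lcCocycle_of_tanAdm`   : `TanAdm c ⟹ c = emb ∘ z`, `z` a level-constant cocycle;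
* `local_eq_cob`                 : the framing equations on the tests + `LocGen` ⟹ `z|G_v = d(n_v)`;
* `exists_good_of_framedAdm`     : admissible framed data come from a `Good` pair `(z, n)`;
* `exists_invariant_good`        : the invariant `T := Sel_L × ∏_w H⁰(G_{pl w}, N)` separates `Good`
  pairs up to `(z, n) ∼ (z + dμ, n + μ)`;
* `framedSelmerBound_of_family`  : `#T ≤ p^{rd} = |k|^r` by `FramedFamily.selmer_count`.
NEW file; imports only.
-/
import Mathlib
import Fermat.Agent.GB.Def.FramedNodes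
import Fermat.Agent.GB.Def.FramedTan
import Fermat.Agent.GP.Tan.SelmerGlobal

set_option autoImplicit false
set_option linter.unusedSectionVars false
set_option linter.style.haveILetI false

namespace Fermat.Agent.GB.Def.FramedSel

open IsLocalRing Fermat.Agent.S53_helper35 Matrix Fermat.Agent.GP.Tan.Cocycle
  Fermat.Agent.GP.Tan.TanTop Fermat.Agent.GP.Tan.SelmerFrozen Fermat.Agent.GP.Tan.SelmerCard
  Fermat.Agent.GP.Tan.SelmerGlobal
  Fermat.Agent.GC.Prof Fermat.Agent.GC.Prof.Cone Fermat.Agent.GC.Places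
  Fermat.Agent.GC.Local.KR Fermat.Agent.GC.PT.LocDataQ Fermat.Agent.GC.C0
  Fermat.Agent.GP.GW groupCohomology ExtCitation Module CategoryTheory
  Fermat.Agent.GB.Def.FramedNodes Fermat.Agent.GB.Def.FramedTan

noncomputable section

section Core

variable {𝒪 : Type} [CommRing 𝒪] [IsLocalRing 𝒪]
  (ρbar : ResidualGaloisRep (ResidueField 𝒪))
  (b : Module.Basis (Fin 2) (ResidueField 𝒪) ρbar.V)
  (p : ℕ) [Fact p.Prime]
  (cond : ∀ ⦃A : Type⦄ [CommRing A] [IsLocalRing A] [Algebra 𝒪 A], GaloisRepAdic A → Prop)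
  (Su Q : Finset ℕ) (S : Finset Nat.Primes)
  [IsDiscrete (levelS S) (TChi p)]
  (N : Rep (ZMod p) S53_helper35.GQ) [FiniteDimensional (ZMod p) N]
  [IsDiscrete (levelS S) N] [IsDiscrete (levelS S) (N.dualTwist (cycloChar p))]
  (emb : N →+ Matrix (Fin 2) (Fin 2) (ResidueField 𝒪))
  (hinj : Function.Injective emb)
  (hsurj : ∀ X : Matrix (Fin 2) (Fin 2) (ResidueField 𝒪), Matrix.trace X = 0 → ∃ x : N, emb x = X)
  (hact : ∀ (σ : S53_helper35.GQ) (x : N),
    emb (N.ρ σ x) = toMatRes ρbar b σ * emb x * toMatRes ρbar b σ⁻¹)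

/-! ### the global cocycle of an admissible tangent function -/

include hinj hsurj hact in
/-- every admissible tangent function is `emb ∘ z` for a level-constant cocycle `z`; if it is a
coboundary of `r̄`, `z` is a coboundary. -/
theorem exists_lcCocycle_of_tanAdm (h2 : (2 : ResidueField 𝒪) ≠ 0)
    (hglob : ∀ (t : S53_helper35.GQ →* Matrix (Fin 2) (Fin 2) (DualNumber (ResidueField 𝒪)))
      (ht : MatCont t), (∃ ρ, cond ρ ∧ ρ.IsEquiv (ofMat t ht)) →
        (∀ σ, Matrix.trace (tanCocycle t σ) = 0) ∧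
          ∀ q : Nat.Primes, q ∉ S → (ofMat t ht).IsUnramifiedAt (q : ℕ))
    (c : S53_helper35.GQ → Matrix (Fin 2) (Fin 2) (ResidueField 𝒪))
    (hc : TanAdm 𝒪 ρbar b cond c) :
    ∃ z : lcCocycles₁ (levelS S) N, (∀ σ, emb ((z : S53_helper35.GQ → N) σ) = c σ) ∧
      (((z : S53_helper35.GQ → N) ∈ coboundaries₁ N) ∨
        ∃ (t : S53_helper35.GQ →* Matrix (Fin 2) (Fin 2) (DualNumber (ResidueField 𝒪)))
          (ht : MatCont t), rfst t = toMatRes ρbar b ∧
            (∃ ρ, cond ρ ∧ ρ.IsEquiv (ofMat t ht)) ∧ ∀ σ, c σ = tanCocycle t σ) := by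
  rcases hc with ⟨X, hX⟩ | ⟨t, ht, hfst, h𝒟, hct⟩
  · set X₀ : Matrix (Fin 2) (Fin 2) (ResidueField 𝒪) :=
      X - (Matrix.trace X / 2) • (1 : Matrix (Fin 2) (Fin 2) (ResidueField 𝒪)) with hX₀
    have htr0 : Matrix.trace (-X₀) = 0 := by
      rw [Matrix.trace_neg, hX₀, Matrix.trace_sub, Matrix.trace_smul, Matrix.trace_one,
        Fintype.card_fin, smul_eq_mul]
      field_simp
      push_cast
      ring
    obtain ⟨x, hx⟩ := hsurj (-X₀) htr0
    have hzc : (fun σ => N.ρ σ x - x) ∈ coboundaries₁ N := ⟨x, rfl⟩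
    have hzl : (fun σ => N.ρ σ x - x) ∈ lcCocycles₁ (levelS S) N :=
      coboundaries₁_le_lcCocycles₁ (levelS S) N hzc
    refine ⟨⟨_, hzl⟩, fun σ => ?_, Or.inl hzc⟩
    show emb (N.ρ σ x - x) = c σ
    rw [map_sub, hact, hx, hX σ, hX₀]
    have hinv : toMatRes ρbar b σ * toMatRes ρbar b σ⁻¹ = 1 := by
      rw [← map_mul, mul_inv_cancel, map_one]
    simp only [Matrix.mul_neg, Matrix.neg_mul, Matrix.mul_sub, Matrix.sub_mul, Matrix.mul_smul,
      Matrix.smul_mul, Matrix.mul_one, hinv]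
    abel
  · obtain ⟨htr, hur⟩ := hglob t ht h𝒟
    obtain ⟨z, hz⟩ := exists_lcCocycle_of_lift ρbar b N S emb hinj hsurj hact t ht hfst htr hur
    exact ⟨z, fun σ => (hz σ).trans (hct σ).symm, Or.inr ⟨t, ht, hfst, h𝒟, hct⟩⟩

/-! ### the framed places -/

section Framed

variable {Fr : Type} (pl : Fr → (locDataQ S).ι) (tests : Fr → Set S53_helper35.GQ)

/-- **LOCAL GENERATION** at the framed places: a level-constant cocycle `G_{pl w} → N` vanishing at
all `τ'` whose image in `G_ℚ` is a test element is `0`. -/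
def LocGen : Prop :=
  ∀ (w : Fr) (z' : lcCocycles₁ ((locDataQ S).𝒰v (pl w)) (Rep.res ((locDataQ S).r (pl w)) N)),
    (∀ τ' : (locDataQ S).Gv (pl w), (locDataQ S).r (pl w) τ' ∈ tests w →
      (z' : (locDataQ S).Gv (pl w) → N) τ' = 0) →
    ∀ τ' : (locDataQ S).Gv (pl w), (z' : (locDataQ S).Gv (pl w) → N) τ' = 0

/-- local generation is automatic when the test elements exhaust the image of `G_{pl w}`. -/
theorem locGen_of_forall_mem
    (h : ∀ (w : Fr) (τ' : (locDataQ S).Gv (pl w)), (locDataQ S).r (pl w) τ' ∈ tests w) :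
    LocGen p S N pl tests :=
  fun w _ hz τ' => hz τ' (h w τ')

/-- local generation only depends on the test elements through their preimages, and is monotone
in the test sets. -/
theorem LocGen.mono {tests' : Fr → Set S53_helper35.GQ} (hLG : LocGen p S N pl tests)
    (h : ∀ w, tests w ⊆ tests' w) : LocGen p S N pl tests' :=
  fun w z' hz τ' => hLG w z' (fun τ'' hτ'' => hz τ'' (h w hτ'')) τ'

include hinj hact in
/-- under local generation, the framing equations on the test elements force the restriction of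
the global cocycle to `G_{pl w}` to be the coboundary of the frame. -/
theorem local_eq_cob (hLG : LocGen p S N pl tests)
    (c : S53_helper35.GQ → Matrix (Fin 2) (Fin 2) (ResidueField 𝒪))
    (B : Fr → Matrix (Fin 2) (Fin 2) (ResidueField 𝒪))
    (hframe : ∀ v, ∀ τ ∈ tests v,
      c τ + (B v - toMatRes ρbar b τ * B v * toMatRes ρbar b τ⁻¹) = 0)
    (z : lcCocycles₁ (levelS S) N) (hz : ∀ σ, emb ((z : S53_helper35.GQ → N) σ) = c σ)
    (n : Fr → N) (hn : ∀ w, emb (n w) = B w) (w : Fr) (τ' : (locDataQ S).Gv (pl w)) :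
    (z : S53_helper35.GQ → N) ((locDataQ S).r (pl w) τ') =
      N.ρ ((locDataQ S).r (pl w) τ') (n w) - n w := by
  have hpull : (fun g => (z : S53_helper35.GQ → N) ((locDataQ S).r (pl w) g)) ∈
      lcCocycles₁ ((locDataQ S).𝒰v (pl w)) (Rep.res ((locDataQ S).r (pl w)) N) :=
    pull_mem_lcCocycles₁ ((locDataQ S).cont (pl w)) (𝟙 (Rep.res ((locDataQ S).r (pl w)) N)) z
  have hcob : (fun g : (locDataQ S).Gv (pl w) => N.ρ ((locDataQ S).r (pl w) g) (n w) - n w) ∈
      lcCocycles₁ ((locDataQ S).𝒰v (pl w)) (Rep.res ((locDataQ S).r (pl w)) N) :=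
    coboundaries₁_le_lcCocycles₁ ((locDataQ S).𝒰v (pl w)) (Rep.res ((locDataQ S).r (pl w)) N)
      ⟨n w, rfl⟩
  have h0 := hLG w ⟨_, Submodule.sub_mem _ hpull hcob⟩ (fun τ'' hτ'' => ?_) τ'
  · exact sub_eq_zero.1 h0
  · show (z : S53_helper35.GQ → N) ((locDataQ S).r (pl w) τ'') -
      (N.ρ ((locDataQ S).r (pl w) τ'') (n w) - n w) = 0
    apply hinj
    rw [map_zero, map_sub, map_sub, hz, hact, hn, ← hframe w _ hτ'']
    abel

/-- a pair (global cocycle, frames) in the model `N`: the class is Selmer and the restriction to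
each framed place is the coboundary of the frame. -/
def Good (L : ∀ v, Submodule (ZMod p) (Hloc S N v 1)) (z : lcCocycles₁ (levelS S) N)
    (n : Fr → N) : Prop :=
  Hlc1π (levelS S) N z ∈ selmerGrp S N L ∧
    ∀ (w : Fr) (τ' : (locDataQ S).Gv (pl w)),
      (z : S53_helper35.GQ → N) ((locDataQ S).r (pl w) τ') =
        N.ρ ((locDataQ S).r (pl w) τ') (n w) - n w

include hinj hsurj hact in
/-- admissible framed data come from a `Good` pair. -/
theorem exists_good_of_framedAdm (h2 : (2 : ResidueField 𝒪) ≠ 0) {r d : ℕ}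
    (F : FramedFamily ρbar b p cond Su Q S N emb r d)
    (hglob : ∀ (t : S53_helper35.GQ →* Matrix (Fin 2) (Fin 2) (DualNumber (ResidueField 𝒪)))
      (ht : MatCont t), (∃ ρ, cond ρ ∧ ρ.IsEquiv (ofMat t ht)) →
        (∀ σ, Matrix.trace (tanCocycle t σ) = 0) ∧
          ∀ q : Nat.Primes, q ∉ S → (ofMat t ht).IsUnramifiedAt (q : ℕ))
    (hpl_onto : ∀ v : (locDataQ S).ι, plOf S v ∉ Q → plOf S v ∈ Su → ∃ w, pl w = v)
    (hLG : LocGen p S N pl tests)
    (c : S53_helper35.GQ → Matrix (Fin 2) (Fin 2) (ResidueField 𝒪))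
    (B : Fr → Matrix (Fin 2) (Fin 2) (ResidueField 𝒪))
    (hadm : FramedAdm 𝒪 ρbar b cond Fr tests c B) :
    ∃ (z : lcCocycles₁ (levelS S) N) (n : Fr → N),
      (∀ σ, emb ((z : S53_helper35.GQ → N) σ) = c σ) ∧ (∀ w, emb (n w) = B w) ∧
        Good p S N pl F.L z n := by
  obtain ⟨htan, htr, hframe⟩ := hadm
  obtain ⟨z, hz, hcase⟩ :=
    exists_lcCocycle_of_tanAdm ρbar b p cond S N emb hinj hsurj hact h2 hglob c htan
  choose n hn using fun w => hsurj (B w) (htr w)
  have hloc := local_eq_cob ρbar b p S N emb hinj hact pl tests hLG c B hframe z hz n hn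
  refine ⟨z, n, hz, hn, ?_, hloc⟩
  rcases hcase with hcob | ⟨t, ht, hfst, hcond, hct⟩
  · rw [(Hlc1π_eq_zero_iff (levelS S) N z).2 hcob]
    exact Submodule.zero_mem _
  · rw [mem_selmerGrp]
    intro v
    rw [locRes_apply]
    have hpull := HlcPull_Hlc1π ((locDataQ S).cont v) (𝟙 (Rep.res ((locDataQ S).r v) N)) z
    have hres : HlcRes ((locDataQ S).cont v) N 1 (Hlc1π (levelS S) N z) =
        Hlc1π ((locDataQ S).𝒰v v) (Rep.res ((locDataQ S).r v) N)
          ⟨fun g => (z : S53_helper35.GQ → N) ((locDataQ S).r v g),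
            pull_mem_lcCocycles₁ ((locDataQ S).cont v) (𝟙 (Rep.res ((locDataQ S).r v) N)) z⟩ :=
      hpull
    rw [hres]
    by_cases hv : plOf S v ∉ Q ∧ plOf S v ∈ Su
    · obtain ⟨w, rfl⟩ := hpl_onto v hv.1 hv.2
      rw [F.L_bot _ hv.1 hv.2, Submodule.mem_bot, Hlc1π_eq_zero_iff]
      exact ⟨n w, funext fun τ' => (hloc w τ').symm⟩
    · have hv' : plOf S v ∈ Q ∨ plOf S v ∉ Su := by
        by_contra hcon
        push Not at hcon
        exact hv ⟨hcon.1, hcon.2⟩
      exact F.mem v hv' t ht hfst hcond _ fun τ => (hz _).trans (hct _)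

/-- **The invariant on `Good` pairs**: the Selmer class together with, at each framed place, an
element of `H⁰(G_{pl w}, N)` measuring the frame against a chosen frame of a chosen representative
of the class.  It separates `Good` pairs up to `(z, n) ∼ (z + dμ, n + μ)`. -/
theorem exists_invariant_good (L : ∀ v, Submodule (ZMod p) (Hloc S N v 1)) :
    ∃ q : lcCocycles₁ (levelS S) N → (Fr → N) →
        (selmerGrp S N L × (∀ w : Fr, Hloc S N (pl w) 0)),
      ∀ (z z' : lcCocycles₁ (levelS S) N) (n n' : Fr → N),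
        Good p S N pl L z n → Good p S N pl L z' n' → q z n = q z' n' →
        ∃ μ : N, (∀ σ, (z' : S53_helper35.GQ → N) σ =
          (z : S53_helper35.GQ → N) σ + (N.ρ σ μ - μ)) ∧ ∀ w, n' w = n w + μ := by
  classical
  -- representatives of the classes
  choose zx hzx using fun x : selmerGrp S N L => Hlc1π_surjective (levelS S) N x.1
  -- frames of the representatives
  have hnx : ∀ x : selmerGrp S N L, ∃ n₀ : Fr → N,
      (∃ n₁ : Fr → N, ∀ (w : Fr) (τ' : (locDataQ S).Gv (pl w)),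
        (zx x : S53_helper35.GQ → N) ((locDataQ S).r (pl w) τ') =
          N.ρ ((locDataQ S).r (pl w) τ') (n₁ w) - n₁ w) →
      ∀ (w : Fr) (τ' : (locDataQ S).Gv (pl w)),
        (zx x : S53_helper35.GQ → N) ((locDataQ S).r (pl w) τ') =
          N.ρ ((locDataQ S).r (pl w) τ') (n₀ w) - n₀ w := by
    intro x
    by_cases h : ∃ n₁ : Fr → N, ∀ (w : Fr) (τ' : (locDataQ S).Gv (pl w)),
        (zx x : S53_helper35.GQ → N) ((locDataQ S).r (pl w) τ') =
          N.ρ ((locDataQ S).r (pl w) τ') (n₁ w) - n₁ w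
    · exact ⟨h.choose, fun _ => h.choose_spec⟩
    · exact ⟨0, fun h' => absurd h' h⟩
  choose nx hnx using hnx
  -- the invariant with its specification
  have key : ∀ (z : lcCocycles₁ (levelS S) N) (n : Fr → N), Good p S N pl L z n →
      ∃ (t : selmerGrp S N L × (∀ w : Fr, Hloc S N (pl w) 0)) (m : N),
        (∀ σ, N.ρ σ m - m = (z : S53_helper35.GQ → N) σ - (zx t.1 : S53_helper35.GQ → N) σ) ∧
        ∀ w, ((Hlc0Equiv ((locDataQ S).𝒰v (pl w)) (Rep.res ((locDataQ S).r (pl w)) N)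
          (t.2 w) : (Rep.res ((locDataQ S).r (pl w)) N).ρ.invariants) : N) =
            n w - m - nx t.1 w := by
    intro z n hG
    set x : selmerGrp S N L := ⟨Hlc1π (levelS S) N z, hG.1⟩ with hx
    have h0 : Hlc1π (levelS S) N (z - zx x) = 0 := by
      rw [map_sub, hzx x, sub_self]
    obtain ⟨m, hm⟩ := (Hlc1π_eq_zero_iff (levelS S) N _).1 h0
    have hm' : ∀ σ, N.ρ σ m - m =
        (z : S53_helper35.GQ → N) σ - (zx x : S53_helper35.GQ → N) σ := fun σ => congrFun hm σ
    have hP : ∀ (w : Fr) (τ' : (locDataQ S).Gv (pl w)),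
        (zx x : S53_helper35.GQ → N) ((locDataQ S).r (pl w) τ') =
          N.ρ ((locDataQ S).r (pl w) τ') (n w - m) - (n w - m) := by
      intro w τ'
      have h1 := hm' ((locDataQ S).r (pl w) τ')
      rw [hG.2 w τ'] at h1
      rw [map_sub, ← sub_eq_zero]
      rw [← sub_eq_zero] at h1
      rw [← h1]
      abel
    have hnx' := hnx x ⟨fun w => n w - m, hP⟩
    have hinv : ∀ w, n w - m - nx x w ∈ (Rep.res ((locDataQ S).r (pl w)) N).ρ.invariants := by
      intro w τ'
      show N.ρ ((locDataQ S).r (pl w) τ') (n w - m - nx x w) = n w - m - nx x w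
      have h1 := hP w τ'
      rw [hnx' w τ'] at h1
      rw [map_sub (N.ρ ((locDataQ S).r (pl w) τ')) (n w - m) (nx x w), ← sub_eq_zero]
      rw [← sub_eq_zero] at h1
      rw [← neg_eq_zero, ← h1]
      abel
    refine ⟨(x, fun w => (Hlc0Equiv ((locDataQ S).𝒰v (pl w))
      (Rep.res ((locDataQ S).r (pl w)) N)).symm ⟨_, hinv w⟩), m, hm', fun w => ?_⟩
    rw [LinearEquiv.apply_symm_apply]
  refine ⟨fun z n => if hG : Good p S N pl L z n then (key z n hG).choose else 0, ?_⟩
  intro z z' n n' hG hG' hq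
  beta_reduce at hq
  rw [dif_pos hG, dif_pos hG'] at hq
  obtain ⟨m, hm, hmn⟩ := (key z n hG).choose_spec
  obtain ⟨m', hm', hmn'⟩ := (key z' n' hG').choose_spec
  rw [← hq] at hm' hmn'
  refine ⟨m' - m, fun σ => ?_, fun w => ?_⟩
  · have h1 := hm σ
    have h2 := hm' σ
    rw [map_sub, ← sub_eq_zero]
    rw [← sub_eq_zero] at h1 h2
    rw [← sub_eq_zero.2 (h1.trans h2.symm)]
    abel
  · have h1 := (hmn w).symm.trans (hmn' w)
    rw [← sub_eq_zero] at h1 ⊢
    rw [← neg_eq_zero, ← h1]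
    abel

include hinj hsurj hact in
/-- **`FramedSelmerBound` from the family-level package.** `pl` enumerates the framed places
(`plOf ∉ Q`, `plOf ∈ Su`) bijectively; `hLG` is local generation by the test elements. -/
theorem framedSelmerBound_of_family [Finite Fr] (h2 : (2 : ResidueField 𝒪) ≠ 0) (hp2 : p ≠ 2)
    {r d : ℕ} (hk : Nat.card (ResidueField 𝒪) = p ^ d)
    (F : FramedFamily ρbar b p cond Su Q S N emb r d)
    (hglob : ∀ (t : S53_helper35.GQ →* Matrix (Fin 2) (Fin 2) (DualNumber (ResidueField 𝒪)))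
      (ht : MatCont t), (∃ ρ, cond ρ ∧ ρ.IsEquiv (ofMat t ht)) →
        (∀ σ, Matrix.trace (tanCocycle t σ) = 0) ∧
          ∀ q : Nat.Primes, q ∉ S → (ofMat t ht).IsUnramifiedAt (q : ℕ))
    (hpl_inj : Function.Injective pl)
    (hpl : ∀ w, plOf S (pl w) ∉ Q ∧ plOf S (pl w) ∈ Su)
    (hpl_onto : ∀ v : (locDataQ S).ι, plOf S v ∉ Q → plOf S v ∈ Su → ∃ w, pl w = v)
    (hLG : LocGen p S N pl tests) :
    FramedSelmerBound 𝒪 ρbar b cond Fr tests r := by
  classical
  haveI := Fintype.ofFinite Fr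
  obtain ⟨q, hq⟩ := exists_invariant_good p S N pl F.L
  have hdata := exists_good_of_framedAdm ρbar b p cond Su Q S N emb hinj hsurj hact pl tests h2 F
    hglob hpl_onto hLG
  haveI hfinSel : FiniteDimensional (ZMod p) (selmerGrp S N F.L) :=
    (selmer_le_of_preEuler_tate N F.Δ F.L F.pre F.tate).1
  haveI hfin0 : ∀ v, FiniteDimensional (ZMod p) (Hloc S N v 0) :=
    ModelConj.finiteDimensional_Hloc_zero N
  haveI hfinT : FiniteDimensional (ZMod p)
      (selmerGrp S N F.L × (∀ w : Fr, Hloc S N (pl w) 0)) := inferInstance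
  refine ⟨selmerGrp S N F.L × (∀ w : Fr, Hloc S N (pl w) 0), Module.finite_of_finite (ZMod p),
    fun c B => if h : FramedAdm 𝒪 ρbar b cond Fr tests c B then
      q (hdata c B h).choose (hdata c B h).choose_spec.choose else 0, ?_, ?_⟩
  · -- the count
    rw [Module.natCard_eq_pow_finrank (K := ZMod p)
      (V := selmerGrp S N F.L × (∀ w : Fr, Hloc S N (pl w) 0)), Nat.card_zmod, hk, ← pow_mul]
    refine Nat.pow_le_pow_right (Fact.out : p.Prime).pos ?_
    rw [Module.finrank_prod, Module.finrank_pi_fintype, mul_comm]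
    refine le_trans (Nat.add_le_add_left ?_ _) (F.selmer_count hp2)
    calc ∑ w : Fr, finrank (ZMod p) (Hloc S N (pl w) 0)
        = ∑ v ∈ Finset.univ.image pl, finrank (ZMod p) (Hloc S N v 0) := by
          rw [Finset.sum_image fun a _ b _ hab => hpl_inj hab]
      _ = ∑ v ∈ Finset.univ.image pl, (if plOf S v ∉ Q ∧ plOf S v ∈ Su then
            finrank (ZMod p) (Hloc S N v 0) else 0) := by
          refine Finset.sum_congr rfl fun v hv => ?_
          obtain ⟨w, -, rfl⟩ := Finset.mem_image.1 hv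
          rw [if_pos (hpl w)]
      _ ≤ ∑ v : (locDataQ S).ι, (if plOf S v ∉ Q ∧ plOf S v ∈ Su then
            finrank (ZMod p) (Hloc S N v 0) else 0) :=
          Finset.sum_le_sum_of_subset (Finset.subset_univ _)
  · -- separation
    intro c c' B B' hadm hadm' hqq
    beta_reduce at hqq
    rw [dif_pos hadm, dif_pos hadm'] at hqq
    obtain ⟨hz, hn, hG⟩ := (hdata c B hadm).choose_spec.choose_spec
    obtain ⟨hz', hn', hG'⟩ := (hdata c' B' hadm').choose_spec.choose_spec
    obtain ⟨μ, hμz, hμn⟩ := hq _ _ _ _ hG hG' hqq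
    refine ⟨-emb μ, fun σ => ?_, fun w => ?_⟩
    · rw [← hz' σ, hμz σ, map_add, map_sub, hz σ, hact]
      simp only [Matrix.mul_neg, Matrix.neg_mul]
      abel
    · rw [← hn' w, hμn w, map_add, hn w]
      abel

end Framed

/-! ### the canonical enumeration of the framed places -/

/-- the framed places of the level `S`: `plOf ∉ Q`, `plOf ∈ Su`. -/
abbrev FrPlaces (Su Q : Finset ℕ) (S : Finset Nat.Primes) : Type :=
  {v : (locDataQ S).ι // plOf S v ∉ Q ∧ plOf S v ∈ Su}

instance (Su Q : Finset ℕ) (S : Finset Nat.Primes) : Finite (FrPlaces Su Q S) :=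
  Subtype.finite

/-- the canonical enumeration of the framed places. -/
def frPl (Su Q : Finset ℕ) (S : Finset Nat.Primes) : FrPlaces Su Q S → (locDataQ S).ι :=
  Subtype.val

theorem frPl_injective (Su Q : Finset ℕ) (S : Finset Nat.Primes) :
    Function.Injective (frPl Su Q S) := Subtype.val_injective

theorem frPl_mem (Su Q : Finset ℕ) (S : Finset Nat.Primes) (w : FrPlaces Su Q S) :
    plOf S (frPl Su Q S w) ∉ Q ∧ plOf S (frPl Su Q S w) ∈ Su := w.2

theorem frPl_onto (Su Q : Finset ℕ) (S : Finset Nat.Primes) (v : (locDataQ S).ι)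
    (h1 : plOf S v ∉ Q) (h2 : plOf S v ∈ Su) : ∃ w, frPl Su Q S w = v := ⟨⟨v, h1, h2⟩, rfl⟩

end Core

/-! ### the plug -/

section Plug

open Fermat.Agent.GB.Def.FramedRing Fermat.Agent.GP.Tan.UnivInj

variable {𝒪 : Type} [CommRing 𝒪] [IsDomain 𝒪] [IsDiscreteValuationRing 𝒪]
  [IsAdicComplete (maximalIdeal 𝒪) 𝒪] [Finite (ResidueField 𝒪)]
  {ρbar : ResidualGaloisRep (ResidueField 𝒪)}
  {cond : ∀ ⦃A : Type⦄ [CommRing A] [IsLocalRing A] [Algebra 𝒪 A], GaloisRepAdic A → Prop}
  (DQ : GaloisRep.DeformationRingData 𝒪 ρbar cond)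
  (b : Module.Basis (Fin 2) (ResidueField 𝒪) ρbar.V)
  (p : ℕ) [Fact p.Prime]
  (Su Q : Finset ℕ) (S : Finset Nat.Primes)
  [IsDiscrete (levelS S) (TChi p)]
  (N : Rep (ZMod p) S53_helper35.GQ) [FiniteDimensional (ZMod p) N]
  [IsDiscrete (levelS S) N] [IsDiscrete (levelS S) (N.dualTwist (cycloChar p))]
  (emb : N →+ Matrix (Fin 2) (Fin 2) (ResidueField 𝒪))
  (hinj : Function.Injective emb)
  (hsurj : ∀ X : Matrix (Fin 2) (Fin 2) (ResidueField 𝒪), Matrix.trace X = 0 → ∃ x : N, emb x = X)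
  (hact : ∀ (σ : S53_helper35.GQ) (x : N),
    emb (N.ρ σ x) = toMatRes ρbar b σ * emb x * toMatRes ρbar b σ⁻¹)
  {Fr : Type} [Finite Fr] (pl : Fr → (locDataQ S).ι) (tests : Fr → Set S53_helper35.GQ)

include hinj hsurj hact in
/-- **GB-DEF-FRAMED, the plug.** From helper94's `FramedFamily` (numerical Selmer package with
`L_v = ⊥` at the framed places), local generation by the test elements and `hrange` (the framed
universal matrices at the test elements have entries in the image of `A`), the framed deformation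
ring `R^□ = FRing DQ Fr` is a quotient of `A⟦x₁,…,x_r⟧`. -/
theorem exists_surjective_of_framedFamily (h2 : (2 : ResidueField 𝒪) ≠ 0) (hp2 : p ≠ 2)
    {r d : ℕ} (hk : Nat.card (ResidueField 𝒪) = p ^ d)
    (F : FramedFamily ρbar b p cond Su Q S N emb r d)
    (hglob : ∀ (t : S53_helper35.GQ →* Matrix (Fin 2) (Fin 2) (DualNumber (ResidueField 𝒪)))
      (ht : MatCont t), (∃ ρ, cond ρ ∧ ρ.IsEquiv (ofMat t ht)) →
        (∀ σ, Matrix.trace (tanCocycle t σ) = 0) ∧
          ∀ q : Nat.Primes, q ∉ S → (ofMat t ht).IsUnramifiedAt (q : ℕ))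
    (hpl_inj : Function.Injective pl)
    (hpl : ∀ w, plOf S (pl w) ∉ Q ∧ plOf S (pl w) ∈ Su)
    (hpl_onto : ∀ v : (locDataQ S).ι, plOf S v ∉ Q → plOf S v ∈ Su → ∃ w, pl w = v)
    (hLG : LocGen p S N pl tests)
    (h𝒟 : ∀ φ : DQ.R →ₐ[𝒪] DualNumber (ResidueField 𝒪), Function.Surjective φ →
      cond (tangentRep DQ φ))
    {A : Type} [CommRing A] [IsLocalRing A] [IsNoetherianRing A]
    [IsAdicComplete (maximalIdeal A) A] [Algebra 𝒪 A] [IsLocalHom (algebraMap 𝒪 A)]
    [Algebra A (FRing DQ Fr)] [IsScalarTower 𝒪 A (FRing DQ Fr)]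
    [IsLocalHom (algebraMap A (FRing DQ Fr))]
    (hresA : Function.Surjective (residue A ∘ algebraMap 𝒪 A))
    (hrange : ∀ v, ∀ τ ∈ tests v, ∀ i j,
      framedMat DQ Fr v τ i j ∈ Set.range (algebraMap A (FRing DQ Fr))) :
    ∃ γ : MvPowerSeries (Fin r) A →ₐ[A] FRing DQ Fr, Function.Surjective γ :=
  exists_surjective_of_framedSelmerBound DQ b h2 h𝒟 hresA tests hrange
    (framedSelmerBound_of_family ρbar b p cond Su Q S N emb hinj hsurj hact pl tests h2 hp2 hk F
      hglob hpl_inj hpl hpl_onto hLG)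

end Plug

end

end Fermat.Agent.GB.Def.FramedSel
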