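/-
GATE-B / B2 (S56-framed), node GB-DEF-FRAMED-INST (helper11): **the frozen-binder instance of the
framed plug.**

From the FROZEN hypotheses of S56 and a finite set `Su` of framed primes: a level `Sig ⊇ Smin ∪ Su`,
a number `r` and, for every `n`, a Taylor–Wiles set `qv : Fin r → ℕ` (the SAME sets as in S56) such
that for EVERY deformation ring datum `DQ` of the framed problem
`framedCond p base Smin Su (image qv)` (base condition at the level `Smin ∪ Su ∪ Q`, unipotent on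
`Smin`, nothing on `Su ∪ Q`), every choice of test elements `tests` at the framed places with
LOCAL GENERATION, and every complete noetherian local `𝒪`-algebra `A → R^□ = FRing DQ (FrPlaces …)`
whose range contains the entries of the framed universal matrices at the test elements:

  `∃ γ : A⟦x₁,…,x_r⟧ →ₐ[A] R^□, Surjective γ`        (`r` independent of `n` and of `#Su`).

* `FramedSurjConcl`           : the conclusion;
* `framedSurj_of_nodes`       : generic base condition, from `FramedNodesConcl` + `BaseGlobal` + `h𝒟`;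
* `framedSurj_frozen_SO/FL`   : the strict-ordinary / flat instances from the frozen binders.
NEW file; imports only.
-/
import Mathlib
import Fermat.Agent.GB.Def.FramedSel

set_option autoImplicit false
set_option linter.unusedSectionVars false
set_option linter.style.haveILetI false

namespace Fermat.Agent.GB.Def.FramedInst

open IsLocalRing Fermat.Agent.S53_helper35 Matrix Fermat.Agent.GP.Tan.Cocycle
  Fermat.Agent.GP.Tan.TanTop Fermat.Agent.GP.Tan.SelmerFrozen Fermat.Agent.GP.Tan.SelmerCard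
  Fermat.Agent.GC.Prof Fermat.Agent.GC.Prof.Cone Fermat.Agent.GC.Places
  Fermat.Agent.GC.Local.KR Fermat.Agent.GC.PT.LocDataQ Fermat.Agent.GC.C0
  Fermat.Agent.GP.GW groupCohomology ExtCitation Module Polynomial CategoryTheory
  Fermat.Agent.GP.Core Fermat.Agent.GP.Bridge.Ad0
  Fermat.Agent.GB.Def.FramedNodes Fermat.Agent.GB.Def.FramedTan Fermat.Agent.GB.Def.FramedSel
  Fermat.Agent.GB.Def.FramedRing Fermat.Agent.GP.Tan.UnivInj

noncomputable section

variable {𝒪 : Type} [CommRing 𝒪] [IsDomain 𝒪] [IsDiscreteValuationRing 𝒪]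
  [IsAdicComplete (maximalIdeal 𝒪) 𝒪] [Finite (ResidueField 𝒪)]
  (p : ℕ) [Fact p.Prime] [Algebra (ZMod p) (ResidueField 𝒪)]
  (ρbar : ResidualGaloisRep (ResidueField 𝒪))
  (b : Module.Basis (Fin 2) (ResidueField 𝒪) ρbar.V)

/-- **the conclusion of the framed instance**: uniform `r`, Taylor–Wiles sets for every `n`, and
the framed ring of every datum is a quotient of `A⟦x₁,…,x_r⟧`. -/
def FramedSurjConcl (base : Finset ℕ → ∀ ⦃A : Type⦄ [CommRing A] [IsLocalRing A] [Algebra 𝒪 A],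
    GaloisRepAdic A → Prop) (S Smin Su : Finset ℕ) : Prop :=
  ∃ Sig : Finset Nat.Primes, (∀ q : Nat.Primes, (q : ℕ) ∈ Smin ∪ Su → q ∈ Sig) ∧
    ∃ r : ℕ, ∀ n : ℕ, ∃ qv : Fin r → ℕ, Function.Injective qv ∧
      (∀ i, (qv i).Prime ∧ qv i ∉ S ∧ p ^ (n + 1) ∣ qv i - 1) ∧
      (∀ i, ∀ P : ValuationSubring (AlgebraicClosure ℚ), P.LiesOverPrime (qv i) →
        ∀ φ : AlgebraicClosure ℚ ≃ₐ[ℚ] AlgebraicClosure ℚ, P.IsFrobeniusAt φ (qv i) →
          ∃ α β : ResidueField 𝒪, α ≠ β ∧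
            LinearMap.charpoly (ρbar.ρ φ) = (X - C α) * (X - C β)) ∧
      (∀ i, ∀ q ∈ Sig, ((q : Nat.Primes) : ℕ) ≠ qv i) ∧
      ∀ (DQ : GaloisRep.DeformationRingData 𝒪 ρbar
          (framedCond p base Smin Su (Finset.univ.image qv)))
        (tests : FrPlaces Su (Finset.univ.image qv) (levelOfTW Sig qv) → Set S53_helper35.GQ),
        LocGen p (levelOfTW Sig qv) (adBar p ρbar b)
          (frPl Su (Finset.univ.image qv) (levelOfTW Sig qv)) tests →
        ∀ {A : Type} [CommRing A] [IsLocalRing A] [IsNoetherianRing A]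
          [IsAdicComplete (maximalIdeal A) A] [Algebra 𝒪 A] [IsLocalHom (algebraMap 𝒪 A)]
          [Algebra A (FRing DQ (FrPlaces Su (Finset.univ.image qv) (levelOfTW Sig qv)))]
          [IsScalarTower 𝒪 A (FRing DQ (FrPlaces Su (Finset.univ.image qv) (levelOfTW Sig qv)))]
          [IsLocalHom (algebraMap A
            (FRing DQ (FrPlaces Su (Finset.univ.image qv) (levelOfTW Sig qv))))],
          Function.Surjective (residue A ∘ algebraMap 𝒪 A) →
          (∀ v, ∀ τ ∈ tests v, ∀ i j,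
            framedMat DQ (FrPlaces Su (Finset.univ.image qv) (levelOfTW Sig qv)) v τ i j ∈
              Set.range (algebraMap A
                (FRing DQ (FrPlaces Su (Finset.univ.image qv) (levelOfTW Sig qv))))) →
          ∃ γ : MvPowerSeries (Fin r) A →ₐ[A]
              FRing DQ (FrPlaces Su (Finset.univ.image qv) (levelOfTW Sig qv)),
            Function.Surjective γ

/-- the framed instance for a frozen-shaped base condition, from helper94's `FramedNodesConcl`. -/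
theorem framedSurj_of_nodes (hp2 : p ≠ 2)
    (base : Finset ℕ → ∀ ⦃A : Type⦄ [CommRing A] [IsLocalRing A] [Algebra 𝒪 A],
      GaloisRepAdic A → Prop)
    (hbase : BaseGlobal 𝒪 p base)
    (S Smin Su : Finset ℕ) (hpSmin : p ∈ Smin)
    (hmin : ∀ q : ℕ, q.Prime → q ≠ p → (q ∈ Smin ↔ ¬ ρbar.IsUnramifiedAt q))
    (h𝒟 : ∀ (Q : Finset ℕ) (DQ : GaloisRep.DeformationRingData 𝒪 ρbar (framedCond p base Smin Su Q))
      (φ : DQ.R →ₐ[𝒪] DualNumber (ResidueField 𝒪)), Function.Surjective φ →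
        framedCond p base Smin Su Q (tangentRep DQ φ))
    (hnodes : FramedNodesConcl p ρbar b base S Smin Su) :
    FramedSurjConcl p ρbar b base S Smin Su := by
  classical
  obtain ⟨Sig, hSig, r, hr⟩ := hnodes
  have hSig' : ∀ q : Nat.Primes, (q : ℕ) ∈ Smin → q ∈ Sig := fun q hq =>
    hSig q (Finset.mem_union_left _ hq)
  have hpSig : pPrime p ∈ Sig := hSig' (pPrime p) hpSmin
  have h2 : (2 : ResidueField 𝒪) ≠ 0 := two_ne_zero_of_odd p hp2
  have hk : Nat.card (ResidueField 𝒪) = p ^ finrank (ZMod p) (ResidueField 𝒪) :=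
    natCard_eq_pow_finrank_zmod p (ResidueField 𝒪)
  refine ⟨Sig, hSig, r, fun n => ?_⟩
  obtain ⟨qv, hinj, hTW1, hTW2, hTW3, hF⟩ := hr n
  refine ⟨qv, hinj, hTW1, hTW2, hTW3, ?_⟩
  have hsub : Sig ⊆ levelOfTW Sig qv := subset_levelOfTW Sig qv
  haveI hdN : IsDiscrete (levelS (levelOfTW Sig qv)) (adBar p ρbar b) :=
    isDiscrete_adBar p ρbar b _
      (Fermat.Agent.GP.Tan.SelmerAd0.unramified_outside_of_hmin p ρbar Smin hpSmin hmin _
        fun q hq => hsub (hSig' q hq))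
  haveI hdT : IsDiscrete (levelS (levelOfTW Sig qv)) (TChi p) :=
    isDiscrete_TChi _ (hsub hpSig)
  haveI hdNs : IsDiscrete (levelS (levelOfTW Sig qv))
      ((adBar p ρbar b).dualTwist (cycloChar p)) :=
    NineTermQ.isDiscrete_dual (hsub hpSig) (adBar p ρbar b)
  obtain ⟨F⟩ := hF
  intro DQ tests hLG A _ _ _ _ _ _ _ _ _ hresA hrange
  -- the level contains the primes of `Smin ∪ Su ∪ Q`
  have hlev : ∀ q : Nat.Primes, (q : ℕ) ∈ Smin ∪ Su ∪ Finset.univ.image qv →
      q ∈ levelOfTW Sig qv := by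
    intro q hq
    rcases Finset.mem_union.1 hq with h | h
    · exact hsub (hSig q h)
    · exact Finset.mem_union_right _ (mem_primesIn.2 h)
  refine exists_surjective_of_framedFamily DQ b p Su (Finset.univ.image qv) (levelOfTW Sig qv)
    (adBar p ρbar b) (emb p (toMatRes ρbar b) 1) (emb_injective p _ 1) (emb_surjective p _ 1)
    (emb_ρ_one p _) (frPl Su (Finset.univ.image qv) (levelOfTW Sig qv)) tests h2 hp2 hk F ?_
    (frPl_injective _ _ _) (frPl_mem _ _ _) (frPl_onto _ _ _) hLG (h𝒟 _ DQ) hresA hrange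
  -- `hglob`
  rintro t ht ⟨ρ, ⟨hb, -⟩, he⟩
  obtain ⟨hdet, hur⟩ := hbase _ ρ hb
  refine ⟨fun σ => trace_tanCocycle_eq_zero_of_detIsCyclotomic t ht p (Fact.out : p.Prime).pos
    (detIsCyclotomic_of_isEquiv he hdet) σ, fun q hq => ?_⟩
  exact isUnramifiedAt_of_isEquiv he (hur q q.2 fun hmem => hq (hlev q hmem))

/-- **The strict-ordinary framed instance, from the FROZEN hypotheses of S56.** -/
theorem framedSurj_frozen_SO (hp2 : p ≠ 2) (hp𝒪 : (p : 𝒪) ∈ maximalIdeal 𝒪)
    (habs : ρbar.IsAbsolutelyIrreducible)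
    (hdet : (GaloisRepAdic.ofResidualGaloisRep ρbar).DetIsCyclotomic p)
    (hsplit : ∀ σ : AlgebraicClosure ℚ ≃ₐ[ℚ] AlgebraicClosure ℚ,
      ∃ α β : ResidueField 𝒪, LinearMap.charpoly (ρbar.ρ σ) = (X - C α) * (X - C β))
    (hTW : ∀ (K : Type) [Field K] [Algebra (ResidueField 𝒪) K]
      (G : Subgroup (AlgebraicClosure ℚ ≃ₐ[ℚ] AlgebraicClosure ℚ)), G.index = 2 →
      ∀ V : Submodule K (ρbar.baseChange K).V,
        (∀ σ ∈ G, ∀ x ∈ V, (ρbar.baseChange K).ρ σ x ∈ V) → V = ⊥ ∨ V = ⊤)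
    (S Smin Su : Finset ℕ) (hpSmin : p ∈ Smin) (hpS : p ∈ S)
    (hmin : ∀ q : ℕ, q.Prime → q ≠ p → (q ∈ Smin ↔ ¬ ρbar.IsUnramifiedAt q)) :
    FramedSurjConcl p ρbar b (GaloisRep.strictOrdinaryCondition 𝒪 p) S Smin Su :=
  framedSurj_of_nodes p ρbar b hp2 _ (baseGlobal_strictOrdinary 𝒪 p) S Smin Su hpSmin hmin
    (fun Q DQ φ _ => Fermat.Agent.GP.Tan.s56StrictCond_baseChangeAlong p Smin (Smin ∪ Su ∪ Q) _
      (isLocalHom_algHom_dualNumber φ) DQ.isOfType)
    (framedNodes_frozen_SO p ρbar b hp2 hp𝒪 habs hdet hsplit hTW S Smin Su hpSmin hpS hmin)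

/-- **The flat framed instance, from the FROZEN hypotheses of S56.** -/
theorem framedSurj_frozen_FL (hp2 : p ≠ 2)
    (habs : ρbar.IsAbsolutelyIrreducible)
    (hdet : (GaloisRepAdic.ofResidualGaloisRep ρbar).DetIsCyclotomic p)
    (hsplit : ∀ σ : AlgebraicClosure ℚ ≃ₐ[ℚ] AlgebraicClosure ℚ,
      ∃ α β : ResidueField 𝒪, LinearMap.charpoly (ρbar.ρ σ) = (X - C α) * (X - C β))
    (hTW : ∀ (K : Type) [Field K] [Algebra (ResidueField 𝒪) K]
      (G : Subgroup (AlgebraicClosure ℚ ≃ₐ[ℚ] AlgebraicClosure ℚ)), G.index = 2 →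
      ∀ V : Submodule K (ρbar.baseChange K).V,
        (∀ σ ∈ G, ∀ x ∈ V, (ρbar.baseChange K).ρ σ x ∈ V) → V = ⊥ ∨ V = ⊤)
    (S Smin Su : Finset ℕ) (hpSmin : p ∈ Smin) (hpS : p ∈ S)
    (hmin : ∀ q : ℕ, q.Prime → q ≠ p → (q ∈ Smin ↔ ¬ ρbar.IsUnramifiedAt q)) :
    FramedSurjConcl p ρbar b (GaloisRep.flatCondition 𝒪 p) S Smin Su :=
  framedSurj_of_nodes p ρbar b hp2 _ (baseGlobal_flat 𝒪 p) S Smin Su hpSmin hmin
    (fun Q DQ φ hs => Fermat.Agent.GP.Tan.s56FlatCond_baseChangeAlong_of_surjective p Smin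
      (Smin ∪ Su ∪ Q) _ (isLocalHom_algHom_dualNumber φ) hs DQ.isOfType)
    (framedNodes_frozen_FL p ρbar b hp2 habs hdet hsplit hTW S Smin Su hpSmin hpS hmin)

end

end Fermat.Agent.GB.Def.FramedInst
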