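/-
GATE-B / B2 "S56-framed", leaf GB-DEF-LOCGEN (helper67): **LOCAL GENERATION at a framed prime.**

`A ∣ q ≠ p` a place of `ℚ̄`, `φ` a Frobenius element at `A`, `τ₀ ∈ I_A` a KUMMER tame generator
(`τ₀ w = ζ w`, `w ^ p = q`, `ζ` a primitive `p`-th root of unity).  A level-constant `1`-cocycle of
`G_ℚ` with values in a module killed by `p` on which `I_A` acts trivially, which vanishes at `φ`
and at `τ₀`, vanishes on the whole decomposition group `D_A`.  (Core: `GP/Loc/TWLocal`, S56.)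

* `eq_zero_of_mem_decomposition'` : hypotheses only on `D_A`;
* `eq_zero_of_mem_decomposition`  : global cocycle form (G);
* `framed_eq_zero_of_mem_decomposition` : matrix form (M) — `c σ + (B − r̄ σ B r̄ σ⁻¹) = 0` at
  `φ`, `τ₀` ⟹ on `D_A` (the framed lift `(1 + εB) t (1 + εB)⁻¹` is constant on `D_A`);
* `tanCocycle_framed_eq_zero_of_mem_decomposition` : the same for `c = tanCocycle t`, `MatCont t`;
* `framed_eq_zero_localGalois` : local-group form (L) through `localGaloisToGlobal q`;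
* `exists_tests` : (E) the two test elements exist.
NEW file; imports only.
-/
import Mathlib
import Fermat.Agent.GP.Loc.TWLocal
import Fermat.Agent.GP.Loc.TWLocalHlc
import Fermat.Agent.GP.Tan.Cocycle

set_option autoImplicit false
set_option linter.unusedSectionVars false

open Fermat.Agent.Common_helper32

namespace Fermat.Agent.GB.Def.LocGen

open Fermat.Agent.GP.Loc

/-! ### (G) abstract coefficient module -/

section Abstract

variable (A : ValuationSubring Qb) {q : ℕ} (hq : q.Prime) (hA : (q : Qb) ∈ A.nonunits)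
variable {p : ℕ} (hp : p.Prime) (hpq : p ≠ q)
variable (w : Qb) (hw : w ^ p = (q : Qb)) {ζ : Qb} (hζ : IsPrimitiveRoot ζ p)
variable {k : Type*} [CommRing k] {V : Type*} [AddCommGroup V] [Module k V]
variable (ρ : Representation k GQ V)
variable (hpV : ∀ v : V, p • v = 0)
variable {φ τ₀ : GQ} (hφ : A.IsFrobeniusAt φ q) (hτ₀ : τ₀ ∈ A.inertiaSubgroupIn ℚ)
  (hτ₀w : τ₀ w = ζ * w)

include hq hA hp hpq hw hζ hpV hφ hτ₀ hτ₀w in
/-- **Local generation**, hypotheses on `D_A` only. -/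
theorem eq_zero_of_mem_decomposition'
    (hI : ∀ u ∈ A.inertiaSubgroupIn ℚ, ρ u = 1) {c : GQ → V}
    (hc : ∀ g ∈ A.decompositionSubgroup ℚ, ∀ h ∈ A.decompositionSubgroup ℚ,
      c (g * h) = c g + ρ g (c h))
    (hlev : ∃ H : Subgroup GQ, IsOpen (H : Set GQ) ∧
      ∀ g ∈ A.decompositionSubgroup ℚ, ∀ u ∈ A.decompositionSubgroup ℚ, u ∈ H →
        c (g * u) = c g)
    (h1 : c τ₀ = 0) (h2 : c φ = 0) {σ : GQ} (hσ : σ ∈ A.decompositionSubgroup ℚ) : c σ = 0 := by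
  have hτ₀D : τ₀ ∈ A.decompositionSubgroup ℚ :=
    Fermat.Agent.S05.mem_decompositionSubgroup_of_mem_inertiaSubgroupIn hτ₀
  have hφD : φ ∈ A.decompositionSubgroup ℚ := hφ.mem_decompositionSubgroup
  obtain ⟨H, hopen, hH⟩ := hlev
  exact TWLocal.eq_zero_of_apply_eq_zero A hq hA hp hpq w hw (A.decompositionSubgroup ℚ).subtype
    (ρ.comp (A.decompositionSubgroup ℚ).subtype) (Subgroup.range_subtype _)
    (c := fun g => c (g : GQ))
    (fun g h => hc g g.2 h h.2)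
    ⟨H, hopen, fun g u hu => hH g g.2 u u.2 hu⟩
    (fun u hu => hI u hu) hpV hφ hζ (t₀ := ⟨τ₀, hτ₀D⟩) (f := ⟨φ, hφD⟩) hτ₀ hτ₀w rfl h1 h2
    ⟨σ, hσ⟩

include hq hA hp hpq hw hζ hpV hφ hτ₀ hτ₀w in
/-- **Local generation** (G): a level-constant global cocycle vanishing at Frobenius and at the
tame generator vanishes on the decomposition group. -/
theorem eq_zero_of_mem_decomposition
    (hI : ∀ u ∈ A.inertiaSubgroupIn ℚ, ρ u = 1) {c : GQ → V}
    (hc : ∀ g h, c (g * h) = c g + ρ g (c h))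
    (hlev : ∃ H : Subgroup GQ, IsOpen (H : Set GQ) ∧ ∀ g, ∀ u ∈ H, c (g * u) = c g)
    (h1 : c τ₀ = 0) (h2 : c φ = 0) {σ : GQ} (hσ : σ ∈ A.decompositionSubgroup ℚ) : c σ = 0 := by
  obtain ⟨H, hopen, hH⟩ := hlev
  exact eq_zero_of_mem_decomposition' A hq hA hp hpq w hw hζ ρ hpV hφ hτ₀ hτ₀w hI
    (fun g _ h _ => hc g h) ⟨H, hopen, fun g _ u _ hu => hH g u hu⟩ h1 h2 hσ

end Abstract

/-! ### (M) matrix form -/

section Matrix

variable (A : ValuationSubring Qb) {q : ℕ} (hq : q.Prime) (hA : (q : Qb) ∈ A.nonunits)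
variable {p : ℕ} (hp : p.Prime) (hpq : p ≠ q)
variable (w : Qb) (hw : w ^ p = (q : Qb)) {ζ : Qb} (hζ : IsPrimitiveRoot ζ p)
variable {k : Type*} [CommRing k] (hpk : (p : k) = 0)
variable (rbar : GQ →* Matrix (Fin 2) (Fin 2) k)
variable {φ τ₀ : GQ} (hφ : A.IsFrobeniusAt φ q) (hτ₀ : τ₀ ∈ A.inertiaSubgroupIn ℚ)
  (hτ₀w : τ₀ w = ζ * w)

/-- the adjoint action `X ↦ r̄ σ * X * r̄ σ⁻¹` (any commutative coefficient ring). -/
def adjRep {D : Type*} [Group D] (rbar : D →* Matrix (Fin 2) (Fin 2) k) :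
    Representation k D (Matrix (Fin 2) (Fin 2) k) where
  toFun d :=
    { toFun := fun X => rbar d * X * rbar d⁻¹
      map_add' := fun X Y => by rw [Matrix.mul_add, Matrix.add_mul]
      map_smul' := fun a X => by
        rw [RingHom.id_apply, Matrix.mul_smul, Matrix.smul_mul] }
  map_one' := by
    ext X : 1
    show rbar 1 * X * rbar 1⁻¹ = X
    rw [inv_one, map_one, Matrix.one_mul, Matrix.mul_one]
  map_mul' d e := by
    ext X : 1
    show rbar (d * e) * X * rbar (d * e)⁻¹ = rbar d * (rbar e * X * rbar e⁻¹) * rbar d⁻¹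
    rw [_root_.mul_inv_rev, map_mul, map_mul]
    simp only [Matrix.mul_assoc]

@[simp] theorem adjRep_apply {D : Type*} [Group D] (rbar : D →* Matrix (Fin 2) (Fin 2) k) (d : D)
    (X : Matrix (Fin 2) (Fin 2) k) : adjRep rbar d X = rbar d * X * rbar d⁻¹ := rfl

include hpk in
theorem nsmul_matrix_eq_zero (X : Matrix (Fin 2) (Fin 2) k) : p • X = 0 := by
  rw [← Nat.cast_smul_eq_nsmul k, hpk, zero_smul]

include hq hA hp hpq hw hζ hpk hφ hτ₀ hτ₀w in
/-- **Local generation** (M): if the framed cocycle `c + ∂B` vanishes at Frobenius and at the tame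
generator, it vanishes on the decomposition group. -/
theorem framed_eq_zero_of_mem_decomposition
    (hI : ∀ u ∈ A.inertiaSubgroupIn ℚ, rbar u = 1)
    {c : GQ → Matrix (Fin 2) (Fin 2) k}
    (hc : ∀ g h, c (g * h) = c g + rbar g * c h * rbar g⁻¹)
    (hlev : ∃ H : Subgroup GQ, IsOpen (H : Set GQ) ∧
      (∀ u ∈ H, rbar u = 1) ∧ ∀ g, ∀ u ∈ H, c (g * u) = c g)
    (B : Matrix (Fin 2) (Fin 2) k)
    (h1 : c τ₀ + (B - rbar τ₀ * B * rbar τ₀⁻¹) = 0)
    (h2 : c φ + (B - rbar φ * B * rbar φ⁻¹) = 0) {σ : GQ}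
    (hσ : σ ∈ A.decompositionSubgroup ℚ) :
    c σ + (B - rbar σ * B * rbar σ⁻¹) = 0 := by
  obtain ⟨H, hopen, hH1, hH⟩ := hlev
  refine eq_zero_of_mem_decomposition A hq hA hp hpq w hw hζ (adjRep rbar)
    (nsmul_matrix_eq_zero hpk) hφ hτ₀ hτ₀w (fun u hu => ?_)
    (c := fun g => c g + (B - rbar g * B * rbar g⁻¹)) (fun g h => ?_)
    ⟨H, hopen, fun g u hu => ?_⟩ h1 h2 hσ
  · ext X : 1
    rw [adjRep_apply, hI u hu, hI u⁻¹ (Subgroup.inv_mem _ hu), Matrix.one_mul,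
      Matrix.mul_one, Module.End.one_apply]
  · show c (g * h) + (B - rbar (g * h) * B * rbar (g * h)⁻¹) =
      c g + (B - rbar g * B * rbar g⁻¹) + rbar g * (c h + (B - rbar h * B * rbar h⁻¹)) * rbar g⁻¹
    rw [hc, _root_.mul_inv_rev, map_mul, map_mul]
    simp only [Matrix.mul_add, Matrix.add_mul, Matrix.mul_sub, Matrix.sub_mul, Matrix.mul_assoc]
    abel
  · show c (g * u) + (B - rbar (g * u) * B * rbar (g * u)⁻¹) = c g + (B - rbar g * B * rbar g⁻¹)
    rw [hH g u hu, _root_.mul_inv_rev, map_mul, map_mul, hH1 u hu, hH1 u⁻¹ (H.inv_mem hu),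
      Matrix.mul_one, Matrix.one_mul]

end Matrix

/-! ### the tangent cocycle of a first-order matrix lift -/

section Tan

open Fermat.Agent.GP.Tan.Cocycle Fermat.Agent.S53_helper35

variable (A : ValuationSubring Qb) {q : ℕ} (hq : q.Prime) (hA : (q : Qb) ∈ A.nonunits)
variable {p : ℕ} (hp : p.Prime) (hpq : p ≠ q)
variable (w : Qb) (hw : w ^ p = (q : Qb)) {ζ : Qb} (hζ : IsPrimitiveRoot ζ p)
variable {k : Type} [Field k] (hpk : (p : k) = 0)
variable (t : S53_helper35.GQ →* Matrix (Fin 2) (Fin 2) (DualNumber k)) (ht : MatCont t)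
variable {φ τ₀ : Common_helper32.GQ} (hφ : A.IsFrobeniusAt φ q)
  (hτ₀ : τ₀ ∈ A.inertiaSubgroupIn ℚ) (hτ₀w : τ₀ w = ζ * w)

include ht in
/-- the level of a continuous first-order lift, as an open subgroup. -/
theorem exists_open_level :
    ∃ H : Subgroup Common_helper32.GQ, IsOpen (H : Set Common_helper32.GQ) ∧
      (∀ u ∈ H, rfst t u = 1) ∧ ∀ g, ∀ u ∈ H, tanCocycle t (g * u) = tanCocycle t g := by
  obtain ⟨L, hL, h⟩ := exists_eq_one_of_matCont t ht
  refine ⟨L.fixingSubgroup, IntermediateField.fixingSubgroup_isOpen L, fun u hu => ?_,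
    fun g u hu => ?_⟩
  · have h1 := h u ((IntermediateField.mem_fixingSubgroup_iff L u).mp hu)
    rw [rfst_apply, h1, mfst_one]
  · have h1 := h u ((IntermediateField.mem_fixingSubgroup_iff L u).mp hu)
    rw [tanCocycle_mul, tanCocycle_eq_zero_of_eq_one t h1, Matrix.mul_zero, Matrix.zero_mul,
      add_zero]

include hq hA hp hpq hw hζ hpk ht hφ hτ₀ hτ₀w in
/-- **Local generation for framed first-order lifts**: `t : G_ℚ → GL₂(k[ε])` continuous with
reduction `r̄ = rfst t` unramified at `A`; if the framed lift `(1 + εB) t (1 + εB)⁻¹` is constant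
(`= r̄`) at Frobenius and at the tame generator, it is constant on the decomposition group. -/
theorem tanCocycle_framed_eq_zero_of_mem_decomposition
    (hI : ∀ u ∈ A.inertiaSubgroupIn ℚ, rfst t u = 1)
    (B : Matrix (Fin 2) (Fin 2) k)
    (h1 : tanCocycle t τ₀ + (B - rfst t τ₀ * B * rfst t τ₀⁻¹) = 0)
    (h2 : tanCocycle t φ + (B - rfst t φ * B * rfst t φ⁻¹) = 0) {σ : Common_helper32.GQ}
    (hσ : σ ∈ A.decompositionSubgroup ℚ) :
    tanCocycle t σ + (B - rfst t σ * B * rfst t σ⁻¹) = 0 :=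
  framed_eq_zero_of_mem_decomposition A hq hA hp hpq w hw hζ hpk (rfst t) hφ hτ₀ hτ₀w hI
    (c := tanCocycle t) (tanCocycle_mul t) (exists_open_level t ht) B h1 h2 hσ

include hq hA hp hpq hw hζ hpk ht hφ hτ₀ hτ₀w in
/-- the same with a reduction `r̄` named in advance (`rfst t = r̄`, the `TanAdm` shape). -/
theorem tanCocycle_framed_eq_zero_of_mem_decomposition'
    (rbar : S53_helper35.GQ →* Matrix (Fin 2) (Fin 2) k) (hfst : rfst t = rbar)
    (hI : ∀ u ∈ A.inertiaSubgroupIn ℚ, rbar u = 1)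
    (B : Matrix (Fin 2) (Fin 2) k)
    (h1 : tanCocycle t τ₀ + (B - rbar τ₀ * B * rbar τ₀⁻¹) = 0)
    (h2 : tanCocycle t φ + (B - rbar φ * B * rbar φ⁻¹) = 0) {σ : Common_helper32.GQ}
    (hσ : σ ∈ A.decompositionSubgroup ℚ) :
    tanCocycle t σ + (B - rbar σ * B * rbar σ⁻¹) = 0 := by
  subst hfst
  exact tanCocycle_framed_eq_zero_of_mem_decomposition A hq hA hp hpq w hw hζ hpk t ht hφ hτ₀ hτ₀w
    hI B h1 h2 hσ

include hq hA hp hpq hw hζ hpk hφ hτ₀ hτ₀w in
/-- coboundary twin (the first clause of `TanAdm`): `c = ∂X` framed by `B`. -/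
theorem coboundary_framed_eq_zero_of_mem_decomposition
    (rbar : S53_helper35.GQ →* Matrix (Fin 2) (Fin 2) k)
    (hlev : ∃ H : Subgroup Common_helper32.GQ, IsOpen (H : Set Common_helper32.GQ) ∧
      ∀ u ∈ H, rbar u = 1)
    (hI : ∀ u ∈ A.inertiaSubgroupIn ℚ, rbar u = 1)
    (X B : Matrix (Fin 2) (Fin 2) k)
    (h1 : (X - rbar τ₀ * X * rbar τ₀⁻¹) + (B - rbar τ₀ * B * rbar τ₀⁻¹) = 0)
    (h2 : (X - rbar φ * X * rbar φ⁻¹) + (B - rbar φ * B * rbar φ⁻¹) = 0)
    {σ : Common_helper32.GQ} (hσ : σ ∈ A.decompositionSubgroup ℚ) :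
    (X - rbar σ * X * rbar σ⁻¹) + (B - rbar σ * B * rbar σ⁻¹) = 0 := by
  obtain ⟨H, hopen, hH⟩ := hlev
  refine framed_eq_zero_of_mem_decomposition A hq hA hp hpq w hw hζ hpk rbar hφ hτ₀ hτ₀w hI
    (c := fun g => X - rbar g * X * rbar g⁻¹) (fun g h => ?_)
    ⟨H, hopen, hH, fun g u hu => ?_⟩ B h1 h2 hσ
  · show X - rbar (g * h) * X * rbar (g * h)⁻¹ =
      X - rbar g * X * rbar g⁻¹ + rbar g * (X - rbar h * X * rbar h⁻¹) * rbar g⁻¹
    rw [_root_.mul_inv_rev, map_mul, map_mul]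
    simp only [Matrix.mul_sub, Matrix.sub_mul, Matrix.mul_assoc]
    abel
  · show X - rbar (g * u) * X * rbar (g * u)⁻¹ = X - rbar g * X * rbar g⁻¹
    rw [_root_.mul_inv_rev, map_mul, map_mul, hH u hu, hH u⁻¹ (H.inv_mem hu), Matrix.mul_one,
      Matrix.one_mul]

end Tan

/-! ### (L) local-group form and (E) existence of the test elements -/

section Local

open Fermat.Agent.GP.Tan.Cocycle Fermat.Agent.S53_helper35 Fermat.Agent.GC.Places

variable (q : ℕ) [Fact q.Prime] {p : ℕ} (hp : p.Prime) (hpq : p ≠ q)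
variable (w : Qb) (hw : w ^ p = (q : Qb)) {ζ : Qb} (hζ : IsPrimitiveRoot ζ p)
variable {k : Type} [Field k] (hpk : (p : k) = 0)
variable (t : S53_helper35.GQ →* Matrix (Fin 2) (Fin 2) (DualNumber k)) (ht : MatCont t)
variable {φ τ₀ : Common_helper32.GQ} (hφ : (padicPlace q).IsFrobeniusAt φ q)
  (hτ₀ : τ₀ ∈ (padicPlace q).inertiaSubgroupIn ℚ) (hτ₀w : τ₀ w = ζ * w)

include hp hpq hw hζ hpk ht hφ hτ₀ hτ₀w in
/-- (L) the restriction to `G_{ℚ_q}` of a framed first-order lift which is constant at Frobenius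
and at the tame generator is constant. -/
theorem tanCocycle_framed_eq_zero_localGalois
    (rbar : S53_helper35.GQ →* Matrix (Fin 2) (Fin 2) k) (hfst : rfst t = rbar)
    (hI : ∀ u ∈ (padicPlace q).inertiaSubgroupIn ℚ, rbar u = 1)
    (B : Matrix (Fin 2) (Fin 2) k)
    (h1 : tanCocycle t τ₀ + (B - rbar τ₀ * B * rbar τ₀⁻¹) = 0)
    (h2 : tanCocycle t φ + (B - rbar φ * B * rbar φ⁻¹) = 0)
    (τ : PadicAlgCl q ≃ₐ[ℚ_[q]] PadicAlgCl q) :
    tanCocycle t (localGaloisToGlobal q τ) +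
      (B - rbar (localGaloisToGlobal q τ) * B * rbar (localGaloisToGlobal q τ)⁻¹) = 0 :=
  tanCocycle_framed_eq_zero_of_mem_decomposition' (padicPlace q) Fact.out
    (TWLocalHlc.natCast_mem_nonunits_padicPlace q) hp hpq w hw hζ hpk t ht hφ hτ₀ hτ₀w rbar hfst hI
    B h1 h2 (localGaloisToGlobal_mem_decompositionSubgroup q τ)

end Local

section Exists

variable (A : ValuationSubring Qb) {q : ℕ} (hq : q.Prime) (hA : (q : Qb) ∈ A.nonunits)
variable {p : ℕ} (hp : p.Prime) (hpq : p ≠ q)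

include hq hA hp hpq in
/-- (E) **the two test elements exist**: a Frobenius element and a Kummer tame generator. -/
theorem exists_tests :
    ∃ (w ζ : Qb) (φ τ₀ : GQ), w ^ p = (q : Qb) ∧ IsPrimitiveRoot ζ p ∧ A.IsFrobeniusAt φ q ∧
      τ₀ ∈ A.inertiaSubgroupIn ℚ ∧ τ₀ w = ζ * w := by
  have : NeZero p := ⟨hp.ne_zero⟩
  obtain ⟨w, hw⟩ := IsAlgClosed.exists_pow_nat_eq ((q : ℕ) : Qb) hp.pos
  obtain ⟨ζ, hζ⟩ := HasEnoughRootsOfUnity.exists_primitiveRoot Qb p
  obtain ⟨τ₀, hτ₀, hτ₀w⟩ :=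
    TameKummer.exists_mem_inertia_apply_root A hq hA hp w hw hζ.pow_eq_one hpq
  obtain ⟨φ, hφ⟩ := exists_isFrobeniusAt_of_liesOver A q hq hA
  exact ⟨w, ζ, φ, τ₀, hw, hζ, hφ, hτ₀, hτ₀w⟩

end Exists

end Fermat.Agent.GB.Def.LocGen
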