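/-
GATE-B / B2 (S56-framed), node GB-DEF-FRAMED-INST part 2 (helper11): **LOCAL GENERATION
(`FramedSel.LocGen`) at framed primes `q ≠ p` where the coefficients are unramified**, for the test
elements {a Frobenius lift `φ`, a Kummer tame generator `τ₀`} — from helper67's
`GP/Loc/TWLocal.eq_zero_of_apply_eq_zero` (S56 closure, read-only) through
`GP/Loc/TWLocalHlc.cocycle_of_mem / level_of_mem`.

* `eq_zero_of_tests`      : one place, the pinned model `lcCocycles₁ (levelQ q) (Rep.res … N)`;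
* `locGen_of_kummer`      : `LocGen p S N pl tests` as soon as every `tests w` contains a Frobenius
  element and a Kummer tame generator at `padicPlace (pl w)`;
* `KummerTests`, `exists_kummerTests` : such test elements exist (helper67 `LocGen.exists_tests`).
NEW file; imports only.
-/
import Mathlib
import Fermat.Agent.GB.Def.FramedSel
import Fermat.Agent.GB.Def.LocGen
import Fermat.Agent.GP.Loc.TWLocalHlc

set_option autoImplicit false
set_option linter.unusedSectionVars false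
set_option linter.style.haveILetI false

namespace Fermat.Agent.GB.Def.LocGenInst

open Fermat.Agent.S53_helper35 Fermat.Agent.GC.Prof Fermat.Agent.GC.Places
  Fermat.Agent.GC.Local.KR Fermat.Agent.GC.PT.LocDataQ Fermat.Agent.GC.C0
  Fermat.Agent.Common_helper32 groupCohomology
  Fermat.Agent.GP.Loc Fermat.Agent.GB.Def.FramedNodes Fermat.Agent.GB.Def.FramedSel

local instance factPrimeLocGenInst (q : Nat.Primes) : Fact ((q : ℕ).Prime) := ⟨q.2⟩

/-- Kummer test elements at the place `padicPlace q` for the coefficient prime `p`: a Frobenius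
element `φ` and an element `τ₀` of inertia acting on a `p`-th root of `q` through a primitive
`p`-th root of unity. -/
def KummerTests (q : ℕ) [Fact q.Prime] (p : ℕ) (φ τ₀ : S53_helper35.GQ) : Prop :=
  ∃ x ζ : Qb, x ^ p = (q : Qb) ∧ IsPrimitiveRoot ζ p ∧ (padicPlace q).IsFrobeniusAt φ q ∧
    τ₀ ∈ (padicPlace q).inertiaSubgroupIn ℚ ∧ τ₀ x = ζ * x

theorem exists_kummerTests (q : ℕ) [Fact q.Prime] {p : ℕ} (hp : p.Prime) (hpq : p ≠ q) :
    ∃ φ τ₀ : S53_helper35.GQ, KummerTests q p φ τ₀ := by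
  obtain ⟨x, ζ, φ, τ₀, h⟩ := Fermat.Agent.GB.Def.LocGen.exists_tests (padicPlace q)
    (Fact.out : q.Prime) (TWLocalHlc.natCast_mem_nonunits_padicPlace q) hp hpq
  exact ⟨φ, τ₀, x, ζ, h⟩

section One

variable (q : ℕ) [Fact q.Prime] {p : ℕ} [Fact p.Prime] (hpq : p ≠ q)
  (N : Rep (ZMod p) S53_helper35.GQ)
  [IsDiscrete (levelQ q) (Rep.res (localGaloisToGlobal q) N)]
  (hN : ∀ τ ∈ (padicPlace q).inertiaSubgroupIn ℚ, N.ρ τ = 1)

include hpq hN in
/-- a level-constant cocycle of `G_{ℚ_q}` in an unramified `p`-torsion module vanishing at the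
preimages of a Frobenius element and of a Kummer tame generator vanishes. -/
theorem eq_zero_of_tests {φ τ₀ : S53_helper35.GQ} (ht : KummerTests q p φ τ₀)
    (z' : lcCocycles₁ (levelQ q) (Rep.res (localGaloisToGlobal q) N))
    (hz : ∀ τ' : Gq q, (localGaloisToGlobal q τ' = φ ∨ localGaloisToGlobal q τ' = τ₀) →
      (z' : Gq q → N) τ' = 0) (τ' : Gq q) : (z' : Gq q → N) τ' = 0 := by
  obtain ⟨x, ζ, hx, hζ, hφ, hτ₀, hτ₀x⟩ := ht
  have hq : q.Prime := Fact.out
  have hp : p.Prime := Fact.out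
  have hA := TWLocalHlc.natCast_mem_nonunits_padicPlace q
  have hr := range_localGaloisToGlobal_eq q
  -- preimages of the test elements
  have hφD := hφ.mem_decompositionSubgroup
  rw [← hr] at hφD
  obtain ⟨f, hf⟩ := hφD
  obtain ⟨t₀, ht₀⟩ := TWLocal.exists_map_eq_of_mem_inertia (padicPlace q)
    (localGaloisToGlobal q) hr hτ₀
  have hpV : ∀ v : (Rep.res (localGaloisToGlobal q) N), p • v = 0 := fun v =>
    ZModModule.char_nsmul_eq_zero p v
  refine TWLocal.eq_zero_of_apply_eq_zero (padicPlace q) hq hA hp hpq x hx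
    (localGaloisToGlobal q) (Rep.res (localGaloisToGlobal q) N).ρ hr
    (TWLocalHlc.cocycle_of_mem q (Rep.res (localGaloisToGlobal q) N) z'.2)
    (TWLocalHlc.level_of_mem q (Rep.res (localGaloisToGlobal q) N) z'.2)
    (fun u hu => hN _ hu) hpV hφ hζ (t₀ := t₀) (f := f) ?_ ?_ hf (hz t₀ (Or.inr ht₀))
    (hz f (Or.inl hf)) τ'
  · rw [ht₀]; exact hτ₀
  · rw [ht₀]; exact hτ₀x

end One

section Family

variable (p : ℕ) [Fact p.Prime] (S : Finset Nat.Primes)
  (N : Rep (ZMod p) S53_helper35.GQ) [IsDiscrete (levelS S) N]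
  {Fr : Type} (pl : Fr → ↥S) (tests : Fr → Set S53_helper35.GQ)

/-- **`LocGen` for Kummer test elements** at framed primes `≠ p` where `N` is unramified. -/
theorem locGen_of_kummer
    (hne : ∀ w, p ≠ ((pl w : Nat.Primes) : ℕ))
    (hN : ∀ w, ∀ τ ∈ (padicPlace ((pl w : Nat.Primes) : ℕ)).inertiaSubgroupIn ℚ, N.ρ τ = 1)
    (htests : ∀ w, ∃ φ τ₀ : S53_helper35.GQ, KummerTests ((pl w : Nat.Primes) : ℕ) p φ τ₀ ∧
      φ ∈ tests w ∧ τ₀ ∈ tests w) :
    LocGen p S N (fun w => (pl w : (locDataQ S).ι)) tests := by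
  intro w z' hz τ'
  obtain ⟨φ, τ₀, ht, hφ, hτ₀⟩ := htests w
  haveI : IsDiscrete (levelQ ((pl w : Nat.Primes) : ℕ))
      (Rep.res (localGaloisToGlobal ((pl w : Nat.Primes) : ℕ)) N) :=
    isDiscrete_res_localGaloisToGlobal S ((pl w : Nat.Primes) : ℕ) N
  refine eq_zero_of_tests ((pl w : Nat.Primes) : ℕ) (hne w) N (hN w) ht z' (fun τ'' h => ?_) τ'
  refine hz τ'' ?_
  rcases h with h | h
  · rw [← h] at hφ; exact hφ
  · rw [← h] at hτ₀; exact hτ₀

end Family

end Fermat.Agent.GB.Def.LocGenInst
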