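/-
GATE-B / B2 (S56-framed), node GB-DEF-FRAMED-INST part 3 (helper11): **the framed plug from the
frozen binders with LOCAL GENERATION DISCHARGED**: the framed primes `q ∈ Su` are `≠ p` and outside
`Smin` (so `ρ̄`, hence `ad⁰ρ̄`, is unramified at `q` by the frozen `hmin`), and the test elements at
each framed place contain a Frobenius element and a Kummer tame generator
(`LocGenInst.KummerTests`; they exist: `LocGenInst.exists_kummerTests`).

* `adBar_ρ_eq_one_of_unramified`  : `ρ̄` unramified at `q` ⟹ inertia at `padicPlace q` acts trivially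
  on `adBar p ρbar b`;
* `locGen_adBar`                  : `LocGen` for `N = adBar p ρbar b`, canonical enumeration `frPl`;
* `FramedSurjKummerConcl`, `framedSurjKummer_of_concl`, `framedSurjKummer_frozen_SO/FL`.
Remaining binders for the caller: the ring `A → R^□` with `hresA`, `hrange` (helper4
`GB/Def/FrameRep.exists_framedEval`).
NEW file; imports only.
-/
import Mathlib
import Fermat.Agent.GB.Def.FramedInst
import Fermat.Agent.GB.Def.LocGenInst
import Fermat.Agent.GP.Loc.TWQFinrank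

set_option autoImplicit false
set_option linter.unusedSectionVars false
set_option linter.style.haveILetI false

namespace Fermat.Agent.GB.Def.FramedInstKummer

open IsLocalRing Fermat.Agent.S53_helper35 Matrix Fermat.Agent.GP.Tan.Cocycle
  Fermat.Agent.GP.Tan.TanTop Fermat.Agent.GP.Tan.SelmerFrozen Fermat.Agent.GP.Tan.SelmerCard
  Fermat.Agent.GC.Prof Fermat.Agent.GC.Prof.Cone Fermat.Agent.GC.Places
  Fermat.Agent.GC.Local.KR Fermat.Agent.GC.PT.LocDataQ Fermat.Agent.GC.C0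
  Fermat.Agent.GP.GW groupCohomology ExtCitation Module Polynomial CategoryTheory
  Fermat.Agent.GP.Core Fermat.Agent.GP.Bridge.Ad0
  Fermat.Agent.GB.Def.FramedNodes Fermat.Agent.GB.Def.FramedTan Fermat.Agent.GB.Def.FramedSel
  Fermat.Agent.GB.Def.FramedRing Fermat.Agent.GP.Tan.UnivInj
  Fermat.Agent.GB.Def.FramedInst Fermat.Agent.GB.Def.LocGenInst

local instance factPrimeFramedInstKummer (q : Nat.Primes) : Fact ((q : ℕ).Prime) := ⟨q.2⟩

/-- the prime under a place of `locDataQ S` is prime. -/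
instance factPrime_plOf (S : Finset Nat.Primes) (v : (locDataQ S).ι) : Fact (plOf S v).Prime :=
  ⟨((show ↥S from v) : Nat.Primes).2⟩

noncomputable section

variable {𝒪 : Type} [CommRing 𝒪] [IsDomain 𝒪] [IsDiscreteValuationRing 𝒪]
  [IsAdicComplete (maximalIdeal 𝒪) 𝒪] [Finite (ResidueField 𝒪)]
  (p : ℕ) [Fact p.Prime] [Algebra (ZMod p) (ResidueField 𝒪)]
  (ρbar : ResidualGaloisRep (ResidueField 𝒪))
  (b : Module.Basis (Fin 2) (ResidueField 𝒪) ρbar.V)

/-- inertia at `padicPlace q` acts trivially on `ad⁰ρ̄` when `ρ̄` is unramified at `q`. -/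
theorem adBar_ρ_eq_one_of_unramified (q : ℕ) [Fact q.Prime] (hq : ρbar.IsUnramifiedAt q) :
    ∀ τ ∈ (padicPlace q).inertiaSubgroupIn ℚ, (adBar p ρbar b).ρ τ = 1 := by
  intro τ hτ
  have h1 : toMatRes ρbar b τ = 1 :=
    toMatRes_eq_one_of_ρ_eq_one ρbar b
      (hq (padicPlace q) (Fermat.Agent.GP.Loc.TWLocalHlc.natCast_mem_nonunits_padicPlace q) τ hτ)
  have hτi : toMatRes ρbar b τ⁻¹ = 1 := by
    have h : toMatRes ρbar b τ⁻¹ * toMatRes ρbar b τ = 1 := by
      rw [← map_mul, inv_mul_cancel, map_one]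
    rwa [h1, Matrix.mul_one] at h
  apply LinearMap.ext
  intro x
  apply emb_injective p (toMatRes ρbar b) 1
  rw [emb_ρ_one, h1, hτi, Matrix.one_mul, Matrix.mul_one]
  rfl

/-- **`LocGen` for `ad⁰ρ̄`** at framed primes `≠ p` where `ρ̄` is unramified, for test sets
containing Kummer test elements; canonical enumeration of the framed places. -/
theorem locGen_adBar (Su Q : Finset ℕ) (S : Finset Nat.Primes)
    [IsDiscrete (levelS S) (adBar p ρbar b)]
    (hSu : ∀ q ∈ Su, q.Prime → q ∉ Q → p ≠ q ∧ ρbar.IsUnramifiedAt q)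
    (tests : FrPlaces Su Q S → Set S53_helper35.GQ)
    (htests : ∀ w : FrPlaces Su Q S, ∃ φ τ₀ : S53_helper35.GQ,
      KummerTests (plOf S w.1) p φ τ₀ ∧ φ ∈ tests w ∧ τ₀ ∈ tests w) :
    LocGen p S (adBar p ρbar b) (frPl Su Q S) tests := by
  have hw : ∀ w : FrPlaces Su Q S, p ≠ plOf S w.1 ∧ ρbar.IsUnramifiedAt (plOf S w.1) := fun w =>
    hSu _ w.2.2 (Fact.out : (plOf S w.1).Prime) w.2.1
  exact locGen_of_kummer p S (adBar p ρbar b) (fun w : FrPlaces Su Q S => (show ↥S from w.1)) tests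
    (fun w => (hw w).1)
    (fun w => adBar_ρ_eq_one_of_unramified p ρbar b _ (hw w).2) htests

/-- the conclusion of the framed instance with Kummer test elements (no `LocGen` binder). -/
def FramedSurjKummerConcl (base : Finset ℕ → ∀ ⦃A : Type⦄ [CommRing A] [IsLocalRing A]
    [Algebra 𝒪 A], GaloisRepAdic A → Prop) (S Smin Su : Finset ℕ) : Prop :=
  ∃ Sig : Finset Nat.Primes, (∀ q : Nat.Primes, (q : ℕ) ∈ Smin ∪ Su → q ∈ Sig) ∧
    ∃ r : ℕ, ∀ n : ℕ, ∃ qv : Fin r → ℕ, Function.Injective qv ∧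
      (∀ i, (qv i).Prime ∧ qv i ∉ S ∧ p ^ (n + 1) ∣ qv i - 1) ∧
      (∀ i, ∀ P : ValuationSubring (AlgebraicClosure ℚ), P.LiesOverPrime (qv i) →
        ∀ φ : AlgebraicClosure ℚ ≃ₐ[ℚ] AlgebraicClosure ℚ, P.IsFrobeniusAt φ (qv i) →
          ∃ α β : ResidueField 𝒪, α ≠ β ∧
            LinearMap.charpoly (ρbar.ρ φ) = (X - C α) * (X - C β)) ∧
      (∀ i, ∀ q ∈ Sig, ((q : Nat.Primes) : ℕ) ≠ qv i) ∧
      ∀ (DQ : GaloisRep.DeformationRingData 𝒪 ρbar
          (framedCond p base Smin Su (Finset.univ.image qv)))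
        (tests : FrPlaces Su (Finset.univ.image qv) (levelOfTW Sig qv) → Set S53_helper35.GQ),
        (∀ w : FrPlaces Su (Finset.univ.image qv) (levelOfTW Sig qv),
          ∃ φ τ₀ : S53_helper35.GQ,
            KummerTests (plOf (levelOfTW Sig qv) w.1) p φ τ₀ ∧
              φ ∈ tests w ∧ τ₀ ∈ tests w) →
        ∀ {A : Type} [CommRing A] [IsLocalRing A] [IsNoetherianRing A]
          [IsAdicComplete (maximalIdeal A) A] [Algebra 𝒪 A] [IsLocalHom (algebraMap 𝒪 A)]
          [Algebra A (FRing DQ (FrPlaces Su (Finset.univ.image qv) (levelOfTW Sig qv)))]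
          [IsScalarTower 𝒪 A (FRing DQ (FrPlaces Su (Finset.univ.image qv) (levelOfTW Sig qv)))]
          [IsLocalHom (algebraMap A
            (FRing DQ (FrPlaces Su (Finset.univ.image qv) (levelOfTW Sig qv))))],
          Function.Surjective (residue A ∘ algebraMap 𝒪 A) →
          (∀ v, ∀ τ ∈ tests v, ∀ i j,
            framedMat DQ (FrPlaces Su (Finset.univ.image qv) (levelOfTW Sig qv)) v τ i j ∈
              Set.range (algebraMap A
                (FRing DQ (FrPlaces Su (Finset.univ.image qv) (levelOfTW Sig qv))))) →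
          ∃ γ : MvPowerSeries (Fin r) A →ₐ[A]
              FRing DQ (FrPlaces Su (Finset.univ.image qv) (levelOfTW Sig qv)),
            Function.Surjective γ

/-- `LocGen` discharged: the framed primes are `≠ p` and outside `Smin`. -/
theorem framedSurjKummer_of_concl
    (base : Finset ℕ → ∀ ⦃A : Type⦄ [CommRing A] [IsLocalRing A] [Algebra 𝒪 A],
      GaloisRepAdic A → Prop)
    (S Smin Su : Finset ℕ) (hpSmin : p ∈ Smin)
    (hmin : ∀ q : ℕ, q.Prime → q ≠ p → (q ∈ Smin ↔ ¬ ρbar.IsUnramifiedAt q))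
    (hSu : ∀ q ∈ Su, q ∉ Smin)
    (h : FramedSurjConcl p ρbar b base S Smin Su) :
    FramedSurjKummerConcl p ρbar base S Smin Su := by
  obtain ⟨Sig, hSig, r, hr⟩ := h
  refine ⟨Sig, hSig, r, fun n => ?_⟩
  obtain ⟨qv, hinj, hTW1, hTW2, hTW3, hF⟩ := hr n
  refine ⟨qv, hinj, hTW1, hTW2, hTW3, ?_⟩
  intro DQ tests htests A _ _ _ _ _ _ _ _ _ hresA hrange
  haveI hdN : IsDiscrete (levelS (levelOfTW Sig qv)) (adBar p ρbar b) :=
    isDiscrete_adBar p ρbar b _
      (Fermat.Agent.GP.Tan.SelmerAd0.unramified_outside_of_hmin p ρbar Smin hpSmin hmin _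
        fun q hq => subset_levelOfTW Sig qv (hSig q (Finset.mem_union_left _ hq)))
  refine hF DQ tests ?_ hresA hrange
  refine locGen_adBar p ρbar b Su _ _ (fun q hq hqp _ => ?_) tests htests
  have hne : q ≠ p := fun h => hSu q hq (h ▸ hpSmin)
  refine ⟨fun h => hne h.symm, ?_⟩
  by_contra hram
  exact hSu q hq ((hmin q hqp hne).2 hram)

/-- **strict-ordinary, frozen binders, Kummer tests.** -/
theorem framedSurjKummer_frozen_SO (hp2 : p ≠ 2) (hp𝒪 : (p : 𝒪) ∈ maximalIdeal 𝒪)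
    (habs : ρbar.IsAbsolutelyIrreducible)
    (hdet : (GaloisRepAdic.ofResidualGaloisRep ρbar).DetIsCyclotomic p)
    (hsplit : ∀ σ : AlgebraicClosure ℚ ≃ₐ[ℚ] AlgebraicClosure ℚ,
      ∃ α β : ResidueField 𝒪, LinearMap.charpoly (ρbar.ρ σ) = (X - C α) * (X - C β))
    (hTW : ∀ (K : Type) [Field K] [Algebra (ResidueField 𝒪) K]
      (G : Subgroup (AlgebraicClosure ℚ ≃ₐ[ℚ] AlgebraicClosure ℚ)), G.index = 2 →
      ∀ V : Submodule K (ρbar.baseChange K).V,
        (∀ σ ∈ G, ∀ x ∈ V, (ρbar.baseChange K).ρ σ x ∈ V) → V = ⊥ ∨ V = ⊤)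
    (S Smin Su : Finset ℕ) (hpSmin : p ∈ Smin) (hpS : p ∈ S)
    (hmin : ∀ q : ℕ, q.Prime → q ≠ p → (q ∈ Smin ↔ ¬ ρbar.IsUnramifiedAt q))
    (hSu : ∀ q ∈ Su, q ∉ Smin) :
    FramedSurjKummerConcl p ρbar (GaloisRep.strictOrdinaryCondition 𝒪 p) S Smin Su :=
  framedSurjKummer_of_concl p ρbar (stdBasisRes ρbar) _ S Smin Su hpSmin hmin hSu
    (framedSurj_frozen_SO p ρbar (stdBasisRes ρbar) hp2 hp𝒪 habs hdet hsplit hTW S Smin Su hpSmin hpS hmin)

/-- **flat, frozen binders, Kummer tests.** -/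
theorem framedSurjKummer_frozen_FL (hp2 : p ≠ 2)
    (habs : ρbar.IsAbsolutelyIrreducible)
    (hdet : (GaloisRepAdic.ofResidualGaloisRep ρbar).DetIsCyclotomic p)
    (hsplit : ∀ σ : AlgebraicClosure ℚ ≃ₐ[ℚ] AlgebraicClosure ℚ,
      ∃ α β : ResidueField 𝒪, LinearMap.charpoly (ρbar.ρ σ) = (X - C α) * (X - C β))
    (hTW : ∀ (K : Type) [Field K] [Algebra (ResidueField 𝒪) K]
      (G : Subgroup (AlgebraicClosure ℚ ≃ₐ[ℚ] AlgebraicClosure ℚ)), G.index = 2 →
      ∀ V : Submodule K (ρbar.baseChange K).V,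
        (∀ σ ∈ G, ∀ x ∈ V, (ρbar.baseChange K).ρ σ x ∈ V) → V = ⊥ ∨ V = ⊤)
    (S Smin Su : Finset ℕ) (hpSmin : p ∈ Smin) (hpS : p ∈ S)
    (hmin : ∀ q : ℕ, q.Prime → q ≠ p → (q ∈ Smin ↔ ¬ ρbar.IsUnramifiedAt q))
    (hSu : ∀ q ∈ Su, q ∉ Smin) :
    FramedSurjKummerConcl p ρbar (GaloisRep.flatCondition 𝒪 p) S Smin Su :=
  framedSurjKummer_of_concl p ρbar (stdBasisRes ρbar) _ S Smin Su hpSmin hmin hSu
    (framedSurj_frozen_FL p ρbar (stdBasisRes ρbar) hp2 habs hdet hsplit hTW S Smin Su hpSmin hpS hmin)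

end

end Fermat.Agent.GB.Def.FramedInstKummer
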