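/-
GATE-B, node B2-FRAME (helper4): **framing for free**.

`R` a commutative ring (later: the universal deformation ring of S53), `ι` the set of framed
primes.  The framed ring is `Box ι R := R⟦z_{v,0}, z_{v,1}, z_{v,2} : v ∈ ι⟧`, the framing matrix at
`v` is `gMat v = 1 + Z_v`, `Z_v = [[z_{v,0}, z_{v,1}], [z_{v,2}, -z_{v,0}]]` (trace zero, as in
helper11's `FramedRing.frameGL`; a unit: its determinant has constant coefficient `1`), and the framed form of a matrix `M` over `R` is `frame v M = g_v · M · g_v⁻¹`.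

* `frame v : Matrix (Fin 2) (Fin 2) R →+* Matrix (Fin 2) (Fin 2) (Box ι R)` with
  `det_frame`, `trace_frame`, `map_constantCoeff_frame`, `frame_smul`, `frame_map` (naturality in
  `R`), `frameHom` (the framed form of a matrix representation);
* traceless coordinates `tl M = ((M₀₀ - M₁₁)/2, M₀₁, M₁₀)`, `ofTl`, `Qf a = a₀² + a₁ a₂`:
  `eq_smul_one_add_ofTl`, `trace_sq_eq`, `tl_frame_eq`, `Qf_tl_frame`;
* `tl_frame_mem_maximalIdeal` : over a local ring, the traceless coordinates of the framed form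
  of a residually scalar matrix lie in the maximal ideal of `Box ι R`;
* `exists_sqrt_lift`, `entries_mem_range` : a matrix whose traceless coordinates and determinant
  lie in the range of a local homomorphism `f : A → B` out of a henselian local ring (`2` a unit)
  has ALL its entries in the range of `f` (`tr = ±2√(det + Q(tl))`, uniqueness of square roots);
* `exists_evalHom`, `evalHom_unique`, `frame_entries_mem_range` : the evaluation homomorphism
  `𝒪⟦x_{k,i} : k ∈ κ, i < 3⟧ → Box ι R`, `x_{k,i} ↦ tl (frame (pl k) (T k)) i`, for a finite family of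
  residually scalar test matrices `T k` (helper54's `P6` is `κ = Fin 2`: Frobenius and tame
  generator), and the `hrange` binder of helper11's `FramedTan`;
* `map_tl_frame`, `map_comp_evalHom`, `tl_frame_of_tl_eq_smul`, `Qf_tl_frame_ofTl` : compatibility
  with points `x : R → R'` and stability of helper54's decomposition `(a', n') = (s₁ • u, s₂ • u)`
  under framing.
-/
import Mathlib
import Fermat.Agent.S53.PSBasic
import Fermat.Agent.S53.PSComplete
import Fermat.Agent.S53.PSEval

set_option autoImplicit false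
set_option linter.unusedSectionVars false
set_option linter.style.haveILetI false

namespace Fermat.Agent.GB.Def.Frame

open MvPowerSeries Matrix

/-! ### The framed ring and the framing matrix -/

section Basic

variable (ι : Type*) (R : Type*) [CommRing R]

/-- the framed ring `R⟦z_{v,i} : v ∈ ι, i < 3⟧` -/
abbrev Box := MvPowerSeries (ι × Fin 3) R

variable {ι R}

/-- the trace-zero matrix of frame coordinates `[[z_{v,0}, z_{v,1}], [z_{v,2}, -z_{v,0}]]`
(the same matrix as helper11's `FramedRing.frameZ`) -/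
noncomputable def frameZ (v : ι) : Matrix (Fin 2) (Fin 2) (Box ι R) :=
  !![X (v, 0), X (v, 1); X (v, 2), -X (v, 0)]

/-- the framing matrix `1 + Z_v` at `v` -/
noncomputable def gMat (v : ι) : Matrix (Fin 2) (Fin 2) (Box ι R) := 1 + frameZ v

/-- the determinant of the framing matrix -/
noncomputable def gDet (v : ι) : Box ι R := 1 - X (v, 0) ^ 2 - X (v, 1) * X (v, 2)

theorem gMat_eq (v : ι) :
    (gMat v : Matrix (Fin 2) (Fin 2) (Box ι R)) =
      !![1 + X (v, 0), X (v, 1); X (v, 2), 1 - X (v, 0)] := by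
  ext i j
  fin_cases i <;> fin_cases j <;> simp [gMat, frameZ, sub_eq_add_neg]

theorem det_gMat (v : ι) : (gMat v : Matrix (Fin 2) (Fin 2) (Box ι R)).det = gDet v := by
  rw [gMat_eq, Matrix.det_fin_two_of, gDet]
  ring

theorem constantCoeff_gDet (v : ι) : constantCoeff (gDet v : Box ι R) = 1 := by
  simp [gDet]

theorem isUnit_gDet (v : ι) : IsUnit (gDet v : Box ι R) :=
  MvPowerSeries.isUnit_iff_constantCoeff.mpr (by rw [constantCoeff_gDet]; exact isUnit_one)

theorem isUnit_det_gMat (v : ι) : IsUnit (gMat v : Matrix (Fin 2) (Fin 2) (Box ι R)).det := by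
  rw [det_gMat]
  exact isUnit_gDet v

theorem gMat_mul_inv (v : ι) :
    (gMat v : Matrix (Fin 2) (Fin 2) (Box ι R)) * (gMat v)⁻¹ = 1 :=
  Matrix.mul_nonsing_inv _ (isUnit_det_gMat v)

theorem gMat_inv_mul (v : ι) :
    (gMat v : Matrix (Fin 2) (Fin 2) (Box ι R))⁻¹ * gMat v = 1 :=
  Matrix.nonsing_inv_mul _ (isUnit_det_gMat v)

/-- the framing matrix as an element of `GL₂` -/
noncomputable def gGL (v : ι) : GL (Fin 2) (Box ι R) :=
  ⟨gMat v, (gMat v)⁻¹, gMat_mul_inv v, gMat_inv_mul v⟩

@[simp] theorem coe_gGL (v : ι) :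
    ((gGL v : GL (Fin 2) (Box ι R)) : Matrix (Fin 2) (Fin 2) (Box ι R)) = gMat v := rfl

/-- the image of the framing matrix under a ring homomorphism killing the three variables
is the identity -/
theorem gMat_map_eq_one {S : Type*} [CommRing S] (f : Box ι R →+* S) (v : ι)
    (hf : ∀ i : Fin 3, f (X (v, i)) = 0) :
    (gMat v : Matrix (Fin 2) (Fin 2) (Box ι R)).map f = 1 := by
  rw [gMat_eq]
  ext i j
  fin_cases i <;> fin_cases j <;> simp [hf]

theorem gMat_inv_map_eq_one {S : Type*} [CommRing S] (f : Box ι R →+* S) (v : ι)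
    (hf : ∀ i : Fin 3, f (X (v, i)) = 0) :
    ((gMat v : Matrix (Fin 2) (Fin 2) (Box ι R))⁻¹).map f = 1 := by
  have h := congrArg (fun M : Matrix (Fin 2) (Fin 2) (Box ι R) => M.map f) (gMat_mul_inv v)
  simp only [Matrix.map_mul, gMat_map_eq_one f v hf, Matrix.one_mul] at h
  rw [h]
  ext i j
  by_cases hij : i = j
  · subst hij; simp
  · simp [hij]

/-- naturality of the framing matrix in the coefficient ring -/
theorem gMat_map_map {R' : Type*} [CommRing R'] (x : R →+* R') (v : ι) :
    (gMat v : Matrix (Fin 2) (Fin 2) (Box ι R)).map (MvPowerSeries.map x) = gMat v := by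
  rw [gMat_eq, gMat_eq]
  ext i j
  fin_cases i <;> fin_cases j <;> simp

theorem gMat_inv_map_map {R' : Type*} [CommRing R'] (x : R →+* R') (v : ι) :
    ((gMat v : Matrix (Fin 2) (Fin 2) (Box ι R))⁻¹).map (MvPowerSeries.map x) = (gMat v)⁻¹ := by
  have h := congrArg (fun M : Matrix (Fin 2) (Fin 2) (Box ι R) => M.map (MvPowerSeries.map x))
    (gMat_mul_inv v)
  simp only [Matrix.map_mul, gMat_map_map x v] at h
  have h1 : ((1 : Matrix (Fin 2) (Fin 2) (Box ι R)).map (MvPowerSeries.map x)) = 1 := by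
    ext i j
    by_cases hij : i = j
    · subst hij; simp
    · simp [hij]
  rw [h1] at h
  calc ((gMat v : Matrix (Fin 2) (Fin 2) (Box ι R))⁻¹).map (MvPowerSeries.map x)
      = (gMat v)⁻¹ * (gMat v * ((gMat v : Matrix (Fin 2) (Fin 2) (Box ι R))⁻¹).map
          (MvPowerSeries.map x)) := by
        rw [← Matrix.mul_assoc, gMat_inv_mul, Matrix.one_mul]
    _ = (gMat v)⁻¹ := by rw [h, Matrix.mul_one]

end Basic

/-! ### The framed form of a matrix -/

section FrameDef

variable {ι : Type*} {R : Type*} [CommRing R]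

/-- **the framed form** `g_v · M · g_v⁻¹` of a matrix over `R`, as a ring homomorphism -/
noncomputable def frame (v : ι) :
    Matrix (Fin 2) (Fin 2) R →+* Matrix (Fin 2) (Fin 2) (Box ι R) where
  toFun M := gMat v * M.map (C : R →+* Box ι R) * (gMat v)⁻¹
  map_one' := by
    have h1 : ((1 : Matrix (Fin 2) (Fin 2) R).map (C : R →+* Box ι R)) = 1 := by
      ext i j
      by_cases hij : i = j
      · subst hij; simp
      · simp [hij]
    rw [h1, Matrix.mul_one, gMat_mul_inv]
  map_mul' M N := by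
    rw [Matrix.map_mul]
    calc gMat v * (M.map (C : R →+* Box ι R) * N.map (C : R →+* Box ι R)) * (gMat v)⁻¹
        = gMat v * M.map (C : R →+* Box ι R) * (1 : Matrix (Fin 2) (Fin 2) (Box ι R)) *
            N.map (C : R →+* Box ι R) * (gMat v)⁻¹ := by
          rw [Matrix.mul_one]
          simp only [Matrix.mul_assoc]
      _ = gMat v * M.map (C : R →+* Box ι R) * (gMat v)⁻¹ *
            (gMat v * N.map (C : R →+* Box ι R) * (gMat v)⁻¹) := by
          rw [← gMat_inv_mul v]
          simp only [Matrix.mul_assoc]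
  map_zero' := by
    have h0 : ((0 : Matrix (Fin 2) (Fin 2) R).map (C : R →+* Box ι R)) = 0 := by
      ext i j; simp
    rw [h0, Matrix.mul_zero, Matrix.zero_mul]
  map_add' M N := by
    have h : (M + N).map (C : R →+* Box ι R) =
        M.map (C : R →+* Box ι R) + N.map (C : R →+* Box ι R) := by
      ext i j; simp
    rw [h, Matrix.mul_add, Matrix.add_mul]

theorem frame_apply (v : ι) (M : Matrix (Fin 2) (Fin 2) R) :
    frame v M = gMat v * M.map (C : R →+* Box ι R) * (gMat v)⁻¹ := rfl

theorem frame_mul_gMat (v : ι) (M : Matrix (Fin 2) (Fin 2) R) :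
    frame v M * gMat v = gMat v * M.map (C : R →+* Box ι R) := by
  rw [frame_apply, Matrix.mul_assoc, gMat_inv_mul, Matrix.mul_one]

theorem det_frame (v : ι) (M : Matrix (Fin 2) (Fin 2) R) :
    (frame v M).det = C M.det := by
  have h := congrArg Matrix.det (frame_mul_gMat v M)
  rw [Matrix.det_mul, Matrix.det_mul, mul_comm] at h
  have h2 : (M.map (C : R →+* Box ι R)).det = C M.det := by
    rw [← RingHom.mapMatrix_apply, ← RingHom.map_det]
  rw [h2] at h
  exact (isUnit_det_gMat v).mul_left_cancel h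

theorem trace_frame (v : ι) (M : Matrix (Fin 2) (Fin 2) R) :
    (frame v M).trace = C M.trace := by
  rw [frame_apply, Matrix.trace_mul_cycle, gMat_inv_mul, Matrix.one_mul]
  simp [Matrix.trace, Matrix.map_apply]

/-- scalars: `frame v (a • M) = C a • frame v M` -/
theorem frame_smul (v : ι) (a : R) (M : Matrix (Fin 2) (Fin 2) R) :
    frame v (a • M) = (C a : Box ι R) • frame v M := by
  have h : (a • M).map (C : R →+* Box ι R) = (C a : Box ι R) • M.map (C : R →+* Box ι R) := by
    ext i j; simp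
  rw [frame_apply, frame_apply, h, Matrix.mul_smul, Matrix.smul_mul]

theorem frame_scalar (v : ι) (a : R) :
    frame v (a • (1 : Matrix (Fin 2) (Fin 2) R)) =
      (C a : Box ι R) • (1 : Matrix (Fin 2) (Fin 2) (Box ι R)) := by
  rw [frame_smul, map_one]

/-- any ring homomorphism killing the three variables at `v` undoes the framing -/
theorem frame_map_of_kill {S : Type*} [CommRing S] (f : Box ι R →+* S) (v : ι)
    (hf : ∀ i : Fin 3, f (X (v, i)) = 0) (M : Matrix (Fin 2) (Fin 2) R) :
    (frame v M).map f = M.map (f.comp (C : R →+* Box ι R)) := by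
  rw [frame_apply, Matrix.map_mul, Matrix.map_mul, gMat_map_eq_one f v hf,
    gMat_inv_map_eq_one f v hf, Matrix.one_mul, Matrix.mul_one]
  ext i j
  simp

theorem map_constantCoeff_frame (v : ι) (M : Matrix (Fin 2) (Fin 2) R) :
    (frame v M).map (constantCoeff : Box ι R →+* R) = M := by
  rw [frame_map_of_kill _ v (fun i => by simp)]
  ext i j
  simp

/-- **naturality in the coefficient ring** -/
theorem frame_map {R' : Type*} [CommRing R'] (x : R →+* R') (v : ι)
    (M : Matrix (Fin 2) (Fin 2) R) :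
    (frame v M).map (MvPowerSeries.map x : Box ι R →+* Box ι R') = frame v (M.map x) := by
  rw [frame_apply, frame_apply, Matrix.map_mul, Matrix.map_mul, gMat_map_map, gMat_inv_map_map]
  congr 2
  ext i j
  simp

/-- the framed form of a matrix representation -/
noncomputable def frameHom {G : Type*} [Monoid G] (v : ι)
    (r : G →* Matrix (Fin 2) (Fin 2) R) : G →* Matrix (Fin 2) (Fin 2) (Box ι R) :=
  ((frame v : Matrix (Fin 2) (Fin 2) R →+* Matrix (Fin 2) (Fin 2) (Box ι R)) :
    Matrix (Fin 2) (Fin 2) R →* Matrix (Fin 2) (Fin 2) (Box ι R)).comp r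

@[simp] theorem frameHom_apply {G : Type*} [Monoid G] (v : ι)
    (r : G →* Matrix (Fin 2) (Fin 2) R) (σ : G) : frameHom v r σ = frame v (r σ) := rfl

end FrameDef

/-! ### Traceless coordinates -/

section Traceless

variable {S : Type*} [CommRing S] [Invertible (2 : S)]

/-- the traceless coordinates `((M₀₀ - M₁₁)/2, M₀₁, M₁₀)` of a `2 × 2` matrix: its traceless part
is `[[a₀, a₁], [a₂, -a₀]]` -/
def tl (M : Matrix (Fin 2) (Fin 2) S) : Fin 3 → S :=
  ![⅟ (2 : S) * (M 0 0 - M 1 1), M 0 1, M 1 0]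

/-- the traceless matrix with coordinates `a` -/
def ofTl (a : Fin 3 → S) : Matrix (Fin 2) (Fin 2) S :=
  !![a 0, a 1; a 2, -a 0]

/-- the quadratic form `Q(a) = a₀² + a₁ a₂ = - det [[a₀, a₁], [a₂, -a₀]]` -/
def Qf {S : Type*} [CommRing S] (a : Fin 3 → S) : S := a 0 ^ 2 + a 1 * a 2

@[simp] theorem tl_zero_apply (M : Matrix (Fin 2) (Fin 2) S) :
    tl M 0 = ⅟ (2 : S) * (M 0 0 - M 1 1) := rfl

@[simp] theorem tl_one_apply (M : Matrix (Fin 2) (Fin 2) S) : tl M 1 = M 0 1 := rfl

@[simp] theorem tl_two_apply (M : Matrix (Fin 2) (Fin 2) S) : tl M 2 = M 1 0 := rfl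

omit [Invertible (2 : S)] in
theorem trace_ofTl (a : Fin 3 → S) : (ofTl a).trace = 0 := by
  simp [ofTl, Matrix.trace_fin_two]

omit [Invertible (2 : S)] in
theorem det_ofTl (a : Fin 3 → S) : (ofTl a).det = - Qf a := by
  rw [ofTl, Matrix.det_fin_two_of, Qf]
  ring

omit [Invertible (2 : S)] in
/-- Cayley–Hamilton for a traceless matrix -/
theorem ofTl_mul_self (a : Fin 3 → S) : ofTl a * ofTl a = Qf a • (1 : Matrix (Fin 2) (Fin 2) S) := by
  ext i j
  fin_cases i <;> fin_cases j <;> simp [ofTl, Qf, Matrix.mul_apply, Fin.sum_univ_two] <;> ring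

theorem tl_ofTl (a : Fin 3 → S) : tl (ofTl a) = a := by
  funext i
  fin_cases i
  · show ⅟ (2 : S) * (a 0 - -a 0) = a 0
    have : a 0 - -a 0 = 2 * a 0 := by ring
    rw [this, ← mul_assoc, invOf_mul_self, one_mul]
  · rfl
  · rfl

theorem tl_add (M N : Matrix (Fin 2) (Fin 2) S) : tl (M + N) = tl M + tl N := by
  funext i
  fin_cases i
  · show ⅟ (2 : S) * ((M + N) 0 0 - (M + N) 1 1) =
      ⅟ (2 : S) * (M 0 0 - M 1 1) + ⅟ (2 : S) * (N 0 0 - N 1 1)
    simp only [Matrix.add_apply]
    ring
  · rfl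
  · rfl

theorem tl_smul (c : S) (M : Matrix (Fin 2) (Fin 2) S) : tl (c • M) = c • tl M := by
  funext i
  fin_cases i
  · show ⅟ (2 : S) * ((c • M) 0 0 - (c • M) 1 1) = c • (⅟ (2 : S) * (M 0 0 - M 1 1))
    simp only [Matrix.smul_apply, smul_eq_mul]
    ring
  · rfl
  · rfl

theorem tl_smul_one (c : S) : tl (c • (1 : Matrix (Fin 2) (Fin 2) S)) = 0 := by
  funext i
  fin_cases i
  · show ⅟ (2 : S) * ((c • (1 : Matrix (Fin 2) (Fin 2) S)) 0 0 -
      (c • (1 : Matrix (Fin 2) (Fin 2) S)) 1 1) = 0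
    simp
  · show (c • (1 : Matrix (Fin 2) (Fin 2) S)) 0 1 = 0
    simp
  · show (c • (1 : Matrix (Fin 2) (Fin 2) S)) 1 0 = 0
    simp

omit [Invertible (2 : S)] in
theorem ofTl_apply_zero_zero (a : Fin 3 → S) : ofTl a 0 0 = a 0 := rfl

omit [Invertible (2 : S)] in
theorem ofTl_apply_zero_one (a : Fin 3 → S) : ofTl a 0 1 = a 1 := rfl

omit [Invertible (2 : S)] in
theorem ofTl_apply_one_zero (a : Fin 3 → S) : ofTl a 1 0 = a 2 := rfl

omit [Invertible (2 : S)] in
theorem ofTl_apply_one_one (a : Fin 3 → S) : ofTl a 1 1 = -a 0 := rfl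

/-- **decomposition into the scalar and the traceless part** -/
theorem eq_smul_one_add_ofTl (M : Matrix (Fin 2) (Fin 2) S) :
    M = (⅟ (2 : S) * M.trace) • (1 : Matrix (Fin 2) (Fin 2) S) + ofTl (tl M) := by
  have h2 : (⅟ (2 : S)) * 2 = 1 := invOf_mul_self 2
  ext i j
  fin_cases i <;> fin_cases j
  · show M 0 0 = ((⅟ (2 : S) * M.trace) • (1 : Matrix (Fin 2) (Fin 2) S) + ofTl (tl M)) 0 0
    rw [Matrix.add_apply, Matrix.smul_apply, ofTl_apply_zero_zero, Matrix.one_apply_eq,
      Matrix.trace_fin_two, tl_zero_apply, smul_eq_mul]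
    linear_combination (-(M 0 0)) * h2
  · show M 0 1 = ((⅟ (2 : S) * M.trace) • (1 : Matrix (Fin 2) (Fin 2) S) + ofTl (tl M)) 0 1
    rw [Matrix.add_apply, Matrix.smul_apply, ofTl_apply_zero_one,
      Matrix.one_apply_ne (by decide : (0 : Fin 2) ≠ 1), tl_one_apply, smul_zero, zero_add]
  · show M 1 0 = ((⅟ (2 : S) * M.trace) • (1 : Matrix (Fin 2) (Fin 2) S) + ofTl (tl M)) 1 0
    rw [Matrix.add_apply, Matrix.smul_apply, ofTl_apply_one_zero,
      Matrix.one_apply_ne (by decide : (1 : Fin 2) ≠ 0), tl_two_apply, smul_zero, zero_add]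
  · show M 1 1 = ((⅟ (2 : S) * M.trace) • (1 : Matrix (Fin 2) (Fin 2) S) + ofTl (tl M)) 1 1
    rw [Matrix.add_apply, Matrix.smul_apply, ofTl_apply_one_one, Matrix.one_apply_eq,
      Matrix.trace_fin_two, tl_zero_apply, smul_eq_mul]
    linear_combination (-(M 1 1)) * h2

/-- `(tr M)² = 4 (det M + Q(tl M))` -/
theorem trace_sq_eq (M : Matrix (Fin 2) (Fin 2) S) :
    M.trace ^ 2 = 4 * (M.det + Qf (tl M)) := by
  have h2 : (⅟ (2 : S)) * 2 = 1 := invOf_mul_self 2
  rw [Matrix.trace_fin_two, Matrix.det_fin_two, Qf, tl_zero_apply, tl_one_apply, tl_two_apply]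
  linear_combination (-(M 0 0 - M 1 1) ^ 2 * (⅟ (2 : S) * 2 + 1)) * h2

end Traceless

/-! ### Traceless coordinates of a framed matrix -/

section TlFrame

variable {ι : Type*} {R : Type*} [CommRing R] [Invertible (2 : R)]

/-- `2` is invertible in the framed ring -/
noncomputable instance invertibleTwoBox : Invertible (2 : Box ι R) :=
  (Invertible.map (C : R →+* Box ι R) (2 : R)).copy _ (map_ofNat (C : R →+* Box ι R) 2).symm

omit [Invertible (2 : R)] in
theorem constantCoeff_frame_apply (v : ι) (M : Matrix (Fin 2) (Fin 2) R) (i j : Fin 2) :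
    constantCoeff (frame v M i j : Box ι R) = M i j := by
  have h := congrFun (congrFun (map_constantCoeff_frame v M) i) j
  rwa [Matrix.map_apply] at h

/-- the traceless coordinates of a framed matrix only depend on the traceless part -/
theorem tl_frame_eq (v : ι) (M : Matrix (Fin 2) (Fin 2) R) :
    tl (frame v M : Matrix (Fin 2) (Fin 2) (Box ι R)) = tl (frame v (ofTl (tl M))) := by
  conv_lhs => rw [eq_smul_one_add_ofTl M]
  rw [map_add, frame_scalar, tl_add, tl_smul_one, zero_add]

/-- constant coefficients of the traceless coordinates of a framed matrix -/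
theorem constantCoeff_tl_frame (v : ι) (M : Matrix (Fin 2) (Fin 2) R) (i : Fin 3) :
    constantCoeff (tl (frame v M : Matrix (Fin 2) (Fin 2) (Box ι R)) i) = tl M i := by
  fin_cases i
  · show constantCoeff (⅟ (2 : Box ι R) * (frame v M 0 0 - frame v M 1 1)) =
      ⅟ (2 : R) * (M 0 0 - M 1 1)
    have h : (constantCoeff (⅟ (2 : Box ι R)) : R) * 2 = 1 := by
      have := congrArg (constantCoeff : Box ι R →+* R) (invOf_mul_self (2 : Box ι R))
      rwa [map_mul, map_one, map_ofNat] at this
    have h' : (constantCoeff (⅟ (2 : Box ι R)) : R) = ⅟ (2 : R) :=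
      calc (constantCoeff (⅟ (2 : Box ι R)) : R)
          = constantCoeff (⅟ (2 : Box ι R)) * (2 * ⅟ (2 : R)) := by
            rw [mul_invOf_self, mul_one]
        _ = ⅟ (2 : R) := by rw [← mul_assoc, h, one_mul]
    rw [map_mul, map_sub, constantCoeff_frame_apply, constantCoeff_frame_apply, h']
  · exact constantCoeff_frame_apply v M 0 1
  · exact constantCoeff_frame_apply v M 1 0

/-- the quadratic form of the traceless coordinates is invariant under framing -/
theorem Qf_tl_frame (v : ι) (M : Matrix (Fin 2) (Fin 2) R) :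
    Qf (tl (frame v M : Matrix (Fin 2) (Fin 2) (Box ι R))) = C (Qf (tl M)) := by
  have h1 := trace_sq_eq (frame v M : Matrix (Fin 2) (Fin 2) (Box ι R))
  have h2 := congrArg (C : R →+* Box ι R) (trace_sq_eq M)
  rw [trace_frame, det_frame] at h1
  rw [map_pow, map_mul, map_add, map_ofNat] at h2
  have h4 : (4 : Box ι R) * (Qf (tl (frame v M : Matrix (Fin 2) (Fin 2) (Box ι R))) -
      C (Qf (tl M))) = 0 := by
    linear_combination h2 - h1
  have hu : IsUnit (4 : Box ι R) := by
    have : (4 : Box ι R) = 2 * 2 := by norm_num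
    rw [this]
    exact (isUnit_of_invertible (2 : Box ι R)).mul (isUnit_of_invertible (2 : Box ι R))
  exact sub_eq_zero.mp (hu.mul_left_cancel (by rw [h4, mul_zero]))

end TlFrame

section Local

variable {ι : Type*} {R : Type*} [CommRing R] [IsLocalRing R] [Invertible (2 : R)]

/-- **the traceless coordinates of the framed form of a residually scalar matrix lie in the
maximal ideal** of the framed ring -/
theorem tl_frame_mem_maximalIdeal (v : ι) (M : Matrix (Fin 2) (Fin 2) R)
    (hM : ∀ i, tl M i ∈ IsLocalRing.maximalIdeal R) (i : Fin 3) :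
    tl (frame v M : Matrix (Fin 2) (Fin 2) (Box ι R)) i ∈ IsLocalRing.maximalIdeal (Box ι R) := by
  rw [Fermat.Agent.S53.mem_maximalIdeal_mvPowerSeries_iff, constantCoeff_tl_frame]
  exact hM i

/-- `tl M i ∈ 𝔪` for all `i` iff `M` is scalar modulo `𝔪` -/
theorem tl_mem_maximalIdeal_iff (M : Matrix (Fin 2) (Fin 2) R) :
    (∀ i, tl M i ∈ IsLocalRing.maximalIdeal R) ↔
      M 0 0 - M 1 1 ∈ IsLocalRing.maximalIdeal R ∧ M 0 1 ∈ IsLocalRing.maximalIdeal R ∧
        M 1 0 ∈ IsLocalRing.maximalIdeal R := by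
  constructor
  · intro h
    refine ⟨?_, h 1, h 2⟩
    have h0 := h 0
    rw [tl_zero_apply] at h0
    have : M 0 0 - M 1 1 = 2 * (⅟ (2 : R) * (M 0 0 - M 1 1)) := by
      rw [← mul_assoc, mul_invOf_self, one_mul]
    rw [this]
    exact Ideal.mul_mem_left _ _ h0
  · rintro ⟨h0, h1, h2⟩ i
    fin_cases i
    · exact Ideal.mul_mem_left _ _ h0
    · exact h1
    · exact h2

end Local

/-! ### Entries in the range -/

section Range

open IsLocalRing

variable {A B : Type*} [CommRing A] [IsLocalRing A] [CommRing B] [IsLocalRing B]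

/-- a local homomorphism maps the maximal ideal into the maximal ideal -/
theorem map_mem_maximalIdeal (f : A →+* B) [IsLocalHom f] {x : A} (hx : x ∈ maximalIdeal A) :
    f x ∈ maximalIdeal B := by
  rw [mem_maximalIdeal, mem_nonunits_iff] at hx ⊢
  exact fun h => hx (isUnit_of_map_unit f x h)

/-- a local homomorphism reflects membership in the maximal ideal -/
theorem mem_maximalIdeal_of_map (f : A →+* B) {x : A} (hx : f x ∈ maximalIdeal B) :
    x ∈ maximalIdeal A := by
  rw [mem_maximalIdeal, mem_nonunits_iff] at hx ⊢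
  exact fun h => hx (h.map f)

theorem isUnit_of_sub_mem {x y : B} (hx : IsUnit x) (h : y - x ∈ maximalIdeal B) : IsUnit y := by
  by_contra hy
  have h2 : y ∈ maximalIdeal B := (mem_maximalIdeal _).2 hy
  have h3 : x ∈ maximalIdeal B := by
    have : x = y - (y - x) := by ring
    rw [this]
    exact Ideal.sub_mem _ h2 h
  exact (mem_maximalIdeal _).1 h3 hx

/-- **lifting square roots** along a local homomorphism out of a henselian local ring: if
`t² = f u`, `t` is a unit, `2` is a unit and `t` is congruent to some `f s₀`, then `t = f s`. -/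
theorem exists_sqrt_lift [HenselianRing A (maximalIdeal A)] (f : A →+* B) [IsLocalHom f]
    (h2 : IsUnit (2 : A)) (u : A) (t : B) (ht : t ^ 2 = f u) (htu : IsUnit t) (s0 : A)
    (hs0 : t - f s0 ∈ maximalIdeal B) : ∃ s : A, f s = t := by
  have hfs0 : IsUnit (f s0) := by
    refine isUnit_of_sub_mem htu ?_
    have : f s0 - t = -(t - f s0) := by ring
    rw [this]
    exact neg_mem hs0
  have hs0u : IsUnit s0 := isUnit_of_map_unit f s0 hfs0
  have hev : s0 ^ 2 - u ∈ maximalIdeal A := by
    apply mem_maximalIdeal_of_map f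
    have : f (s0 ^ 2 - u) = -((t - f s0) * (f s0 + t)) := by
      rw [map_sub, map_pow, ← ht]
      ring
    rw [this]
    exact neg_mem (Ideal.mul_mem_right _ _ hs0)
  set g : Polynomial A := Polynomial.X ^ 2 - Polynomial.C u with hg
  have hmonic : g.Monic := by
    rw [hg]
    exact Polynomial.monic_X_pow_sub_C u (by norm_num)
  have heval : ∀ x : A, g.eval x = x ^ 2 - u := by
    intro x
    simp [hg]
  have hder : ∀ x : A, g.derivative.eval x = 2 * x := by
    intro x
    simp [hg]
    ring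
  obtain ⟨s, hs, hss⟩ := HenselianRing.is_henselian (I := maximalIdeal A) g hmonic s0
    (by rw [heval]; exact hev)
    (by rw [hder]; exact (h2.mul hs0u).map _)
  rw [Polynomial.IsRoot.def, heval] at hs
  refine ⟨s, ?_⟩
  have h1 : f s - t ∈ maximalIdeal B := by
    have : f s - t = f (s - s0) - (t - f s0) := by rw [map_sub]; ring
    rw [this]
    exact sub_mem (map_mem_maximalIdeal f hss) hs0
  have h2B : IsUnit (2 : B) := by
    have := h2.map f
    rwa [map_ofNat] at this
  have h3 : IsUnit (f s + t) := by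
    refine isUnit_of_sub_mem (h2B.mul htu) ?_
    have : f s + t - 2 * t = f s - t := by ring
    rw [this]
    exact h1
  have h4 : (f s + t) * (f s - t) = 0 := by
    have : f s ^ 2 = f u := by rw [← map_pow, sub_eq_zero.mp hs]
    linear_combination this - ht
  exact sub_eq_zero.mp (h3.mul_left_cancel (by rw [h4, mul_zero]))

variable [Invertible (2 : A)] [Invertible (2 : B)]

omit [IsLocalRing A] [IsLocalRing B] in
theorem map_invOf_two (f : A →+* B) : f (⅟ (2 : A)) = ⅟ (2 : B) := by
  symm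
  apply invOf_eq_right_inv
  rw [← map_ofNat f 2, ← map_mul, mul_invOf_self, map_one]

/-- **entries in the range**: a `2 × 2` matrix over `B` whose traceless coordinates lie in the
maximal ideal and in the range of a local homomorphism `f : A → B` from a henselian local ring,
whose determinant is a unit in the range of `f`, and whose trace is congruent to an element of
the range, has all its entries in the range of `f`. -/
theorem entries_mem_range [HenselianRing A (maximalIdeal A)] (f : A →+* B) [IsLocalHom f]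
    (M : Matrix (Fin 2) (Fin 2) B) (a : Fin 3 → A) (ha : ∀ i, tl M i = f (a i))
    (htl : ∀ i, tl M i ∈ maximalIdeal B) (d : A) (hd : M.det = f d) (hdu : IsUnit M.det)
    (s0 : A) (hs0 : M.trace - f s0 ∈ maximalIdeal B) (i j : Fin 2) :
    M i j ∈ Set.range f := by
  have h2A : IsUnit (2 : A) := isUnit_of_invertible 2
  have h2B : IsUnit (2 : B) := isUnit_of_invertible 2
  have hQ : Qf (tl M) = f (Qf a) := by
    rw [Qf, Qf, ha 0, ha 1, ha 2, map_add, map_pow, map_mul]
  have hQm : Qf (tl M) ∈ maximalIdeal B := by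
    rw [Qf, pow_two]
    exact add_mem (Ideal.mul_mem_left _ _ (htl 0)) (Ideal.mul_mem_left _ _ (htl 2))
  have ht2 : M.trace ^ 2 = f (4 * (d + Qf a)) := by
    rw [trace_sq_eq, hd, hQ, map_mul, map_add, map_ofNat]
  have htu : IsUnit M.trace := by
    have h4 : IsUnit (4 : B) := by
      have : (4 : B) = 2 * 2 := by norm_num
      rw [this]
      exact h2B.mul h2B
    have h1 : IsUnit (M.det + Qf (tl M)) := by
      refine isUnit_of_sub_mem hdu ?_
      have : M.det + Qf (tl M) - M.det = Qf (tl M) := by ring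
      rw [this]
      exact hQm
    have h3 : IsUnit (M.trace ^ 2) := by
      rw [trace_sq_eq]
      exact h4.mul h1
    exact (isUnit_pow_iff (by norm_num : (2 : ℕ) ≠ 0)).mp h3
  obtain ⟨s, hs⟩ := exists_sqrt_lift f h2A _ _ ht2 htu s0 hs0
  have hM := eq_smul_one_add_ofTl M
  fin_cases i <;> fin_cases j
  · refine ⟨⅟ (2 : A) * s + a 0, ?_⟩
    have h00 : M 0 0 = ⅟ (2 : B) * M.trace + tl M 0 := by
      conv_lhs => rw [hM]
      rw [Matrix.add_apply, Matrix.smul_apply, Matrix.one_apply_eq, ofTl_apply_zero_zero,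
        smul_eq_mul, mul_one]
    show f (⅟ (2 : A) * s + a 0) = M 0 0
    rw [h00, map_add, map_mul, map_invOf_two, hs, ha 0]
  · exact ⟨a 1, (ha 1).symm⟩
  · exact ⟨a 2, (ha 2).symm⟩
  · refine ⟨⅟ (2 : A) * s - a 0, ?_⟩
    have h11 : M 1 1 = ⅟ (2 : B) * M.trace - tl M 0 := by
      conv_lhs => rw [hM]
      rw [Matrix.add_apply, Matrix.smul_apply, Matrix.one_apply_eq, ofTl_apply_one_one,
        smul_eq_mul, mul_one, sub_eq_add_neg]
    show f (⅟ (2 : A) * s - a 0) = M 1 1
    rw [h11, map_sub, map_mul, map_invOf_two, hs, ha 0]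

end Range

/-! ### The evaluation homomorphism from the power series ring in the traceless coordinates -/

section Eval

open IsLocalRing

variable {𝒪 : Type*} [CommRing 𝒪] [IsLocalRing 𝒪]

/-- an `𝒪`-algebra homomorphism out of a power series ring over `𝒪`, sending the variables into
the maximal ideal of a local `𝒪`-algebra `B` with `𝒪 → B` local, maps the maximal ideal into the
maximal ideal -/
theorem algHom_mem_maximalIdeal {κ : Type*} [Finite κ] {B : Type*} [CommRing B] [IsLocalRing B]
    [Algebra 𝒪 B] [IsLocalHom (algebraMap 𝒪 B)] (γ : MvPowerSeries κ 𝒪 →ₐ[𝒪] B)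
    (hγ : ∀ k, γ (X k) ∈ maximalIdeal B) {f : MvPowerSeries κ 𝒪}
    (hf : f ∈ maximalIdeal (MvPowerSeries κ 𝒪)) : γ f ∈ maximalIdeal B := by
  haveI := Fintype.ofFinite κ
  rw [Fermat.Agent.S53.PSC.decomp f, map_add, map_sum]
  refine add_mem ?_ (sum_mem fun i _ => ?_)
  · have h1 : (C (constantCoeff f) : MvPowerSeries κ 𝒪) =
        algebraMap 𝒪 (MvPowerSeries κ 𝒪) (constantCoeff f) := by
      rw [MvPowerSeries.algebraMap_apply, Algebra.algebraMap_self, RingHom.id_apply]
    rw [h1, γ.commutes]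
    exact map_nonunit (algebraMap 𝒪 B) _
      ((Fermat.Agent.S53.mem_maximalIdeal_mvPowerSeries_iff 𝒪 κ f).1 hf)
  · rw [map_mul]
    exact Ideal.mul_mem_right _ _ (hγ i)

/-- such a homomorphism is local -/
theorem isLocalHom_algHom {κ : Type*} [Finite κ] {B : Type*} [CommRing B] [IsLocalRing B]
    [Algebra 𝒪 B] [IsLocalHom (algebraMap 𝒪 B)] (γ : MvPowerSeries κ 𝒪 →ₐ[𝒪] B)
    (hγ : ∀ k, γ (X k) ∈ maximalIdeal B) : IsLocalHom (γ : MvPowerSeries κ 𝒪 →+* B) := by
  constructor
  intro f hf
  by_contra hnu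
  have h1 : f ∈ maximalIdeal (MvPowerSeries κ 𝒪) := (mem_maximalIdeal _).2 hnu
  have h2 := algHom_mem_maximalIdeal γ hγ h1
  exact (mem_maximalIdeal _).1 h2 hf

variable {ι : Type*} [Finite ι] {R : Type*} [CommRing R] [IsLocalRing R] [IsNoetherianRing R]
  [IsAdicComplete (maximalIdeal R) R] [Algebra 𝒪 R] [Invertible (2 : R)]
  {κ : Type*} [Finite κ]

/-- **the evaluation homomorphism**: for a finite family of test matrices `T k` over `R`, each
residually scalar and framed at the place `pl k`, the `𝒪`-algebra homomorphism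
`𝒪⟦x_{k,i}⟧ → Box ι R` sending `x_{k,i}` to the `i`-th traceless coordinate of the framed form of
`T k`. -/
theorem exists_evalHom (pl : κ → ι) (T : κ → Matrix (Fin 2) (Fin 2) R)
    (hT : ∀ k i, tl (T k) i ∈ maximalIdeal R) :
    ∃ ev : MvPowerSeries (κ × Fin 3) 𝒪 →ₐ[𝒪] Box ι R,
      ∀ k i, ev (X (k, i)) = tl (frame (pl k) (T k) : Matrix (Fin 2) (Fin 2) (Box ι R)) i := by
  haveI : IsAdicComplete (maximalIdeal (Box ι R)) (Box ι R) :=
    Fermat.Agent.S53.isAdicComplete_mvPowerSeries R (ι × Fin 3)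
  obtain ⟨ev, hev⟩ := Fermat.Agent.S53.exists_algHom_X (𝒪 := 𝒪) (A := Box ι R)
    (fun ki : κ × Fin 3 =>
      tl (frame (pl ki.1) (T ki.1) : Matrix (Fin 2) (Fin 2) (Box ι R)) ki.2)
    (fun ki => tl_frame_mem_maximalIdeal (pl ki.1) (T ki.1) (hT ki.1) ki.2)
  exact ⟨ev, fun k i => hev (k, i)⟩

/-- uniqueness of the evaluation homomorphism -/
theorem evalHom_unique (pl : κ → ι) (T : κ → Matrix (Fin 2) (Fin 2) R)
    (hT : ∀ k i, tl (T k) i ∈ maximalIdeal R)
    (ev ev' : MvPowerSeries (κ × Fin 3) 𝒪 →ₐ[𝒪] Box ι R)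
    (hev : ∀ k i, ev (X (k, i)) =
      tl (frame (pl k) (T k) : Matrix (Fin 2) (Fin 2) (Box ι R)) i)
    (hev' : ∀ k i, ev' (X (k, i)) =
      tl (frame (pl k) (T k) : Matrix (Fin 2) (Fin 2) (Box ι R)) i) : ev = ev' := by
  haveI : IsAdicComplete (maximalIdeal (Box ι R)) (Box ι R) :=
    Fermat.Agent.S53.isAdicComplete_mvPowerSeries R (ι × Fin 3)
  refine Fermat.Agent.S53.algHom_ext_X ev ev' (fun ki => ?_) (fun ki => ?_)
  · rw [hev ki.1 ki.2]
    exact tl_frame_mem_maximalIdeal (pl ki.1) (T ki.1) (hT ki.1) ki.2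
  · rw [hev ki.1 ki.2, hev' ki.1 ki.2]

variable [IsLocalHom (algebraMap 𝒪 R)]

instance isLocalHom_algebraMap_box : IsLocalHom (algebraMap 𝒪 (Box ι R)) := by
  constructor
  intro a ha
  have h1 : IsUnit (constantCoeff (algebraMap 𝒪 (Box ι R) a)) := ha.map constantCoeff
  rw [MvPowerSeries.algebraMap_apply, constantCoeff_C] at h1
  exact isUnit_of_map_unit (algebraMap 𝒪 R) a h1

/-- the residue field of the framed ring is that of `𝒪` as soon as that of `R` is -/
theorem residue_surjective_box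
    (hres : Function.Surjective (residue R ∘ algebraMap 𝒪 R)) :
    Function.Surjective (residue (Box ι R) ∘ algebraMap 𝒪 (Box ι R)) := by
  intro y
  obtain ⟨f, rfl⟩ := residue_surjective y
  obtain ⟨a, ha⟩ := hres (residue R (constantCoeff f))
  refine ⟨a, ?_⟩
  rw [Function.comp_apply, ← sub_eq_zero, ← map_sub, residue_eq_zero_iff,
    Fermat.Agent.S53.mem_maximalIdeal_mvPowerSeries_iff, map_sub, MvPowerSeries.algebraMap_apply,
    constantCoeff_C, ← residue_eq_zero_iff, map_sub, sub_eq_zero]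
  exact ha

/-- **entries in the range of the evaluation homomorphism** (the `hrange` binder of helper11's
`FramedTan.exists_surjective_of_framedSelmerBound`): if moreover `𝒪` is complete, `2` is
invertible in `𝒪`, the residue field of `R` is that of `𝒪`, and the determinant of `T k` is a
unit coming from `𝒪`, then every entry of the framed form of `T k` lies in the range of `ev`. -/
theorem frame_entries_mem_range [IsNoetherianRing 𝒪] [IsAdicComplete (maximalIdeal 𝒪) 𝒪]
    [Invertible (2 : 𝒪)]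
    (hres : Function.Surjective (residue R ∘ algebraMap 𝒪 R))
    (pl : κ → ι) (T : κ → Matrix (Fin 2) (Fin 2) R)
    (hT : ∀ k i, tl (T k) i ∈ maximalIdeal R)
    (ev : MvPowerSeries (κ × Fin 3) 𝒪 →ₐ[𝒪] Box ι R)
    (hev : ∀ k i, ev (X (k, i)) =
      tl (frame (pl k) (T k) : Matrix (Fin 2) (Fin 2) (Box ι R)) i)
    (k : κ) (d : 𝒪) (hd : (T k).det = algebraMap 𝒪 R d) (hdu : IsUnit d) (i j : Fin 2) :
    (frame (pl k) (T k) : Matrix (Fin 2) (Fin 2) (Box ι R)) i j ∈
      Set.range (ev : MvPowerSeries (κ × Fin 3) 𝒪 → Box ι R) := by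
  haveI : IsAdicComplete (maximalIdeal (MvPowerSeries (κ × Fin 3) 𝒪))
      (MvPowerSeries (κ × Fin 3) 𝒪) :=
    Fermat.Agent.S53.isAdicComplete_mvPowerSeries 𝒪 (κ × Fin 3)
  haveI : Invertible (2 : MvPowerSeries (κ × Fin 3) 𝒪) :=
    (Invertible.map (C : 𝒪 →+* MvPowerSeries (κ × Fin 3) 𝒪) (2 : 𝒪)).copy _
      (map_ofNat (C : 𝒪 →+* MvPowerSeries (κ × Fin 3) 𝒪) 2).symm
  have hvar : ∀ ki : κ × Fin 3, ev (X ki) ∈ maximalIdeal (Box ι R) := by
    intro ki
    rw [hev ki.1 ki.2]
    exact tl_frame_mem_maximalIdeal (pl ki.1) (T ki.1) (hT ki.1) ki.2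
  haveI : IsLocalHom (ev : MvPowerSeries (κ × Fin 3) 𝒪 →+* Box ι R) := isLocalHom_algHom ev hvar
  have hdet : (frame (pl k) (T k) : Matrix (Fin 2) (Fin 2) (Box ι R)).det =
      (ev : MvPowerSeries (κ × Fin 3) 𝒪 →+* Box ι R) (C d) := by
    rw [det_frame, hd]
    have h1 : (C d : MvPowerSeries (κ × Fin 3) 𝒪) =
        algebraMap 𝒪 (MvPowerSeries (κ × Fin 3) 𝒪) d := by
      rw [MvPowerSeries.algebraMap_apply, Algebra.algebraMap_self, RingHom.id_apply]
    rw [h1]
    show _ = ev (algebraMap 𝒪 (MvPowerSeries (κ × Fin 3) 𝒪) d)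
    rw [ev.commutes, MvPowerSeries.algebraMap_apply]
  have hdetu : IsUnit (frame (pl k) (T k) : Matrix (Fin 2) (Fin 2) (Box ι R)).det := by
    rw [det_frame, hd]
    exact (hdu.map (algebraMap 𝒪 R)).map C
  obtain ⟨c, hc⟩ := residue_surjective_box (ι := ι) hres
    (residue (Box ι R) (frame (pl k) (T k) : Matrix (Fin 2) (Fin 2) (Box ι R)).trace)
  have hs0 : (frame (pl k) (T k) : Matrix (Fin 2) (Fin 2) (Box ι R)).trace -
      (ev : MvPowerSeries (κ × Fin 3) 𝒪 →+* Box ι R) (C c) ∈ maximalIdeal (Box ι R) := by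
    have h1 : (C c : MvPowerSeries (κ × Fin 3) 𝒪) =
        algebraMap 𝒪 (MvPowerSeries (κ × Fin 3) 𝒪) c := by
      rw [MvPowerSeries.algebraMap_apply, Algebra.algebraMap_self, RingHom.id_apply]
    rw [h1]
    show _ - ev (algebraMap 𝒪 (MvPowerSeries (κ × Fin 3) 𝒪) c) ∈ _
    rw [ev.commutes, ← residue_eq_zero_iff, map_sub, sub_eq_zero]
    exact hc.symm
  exact entries_mem_range (ev : MvPowerSeries (κ × Fin 3) 𝒪 →+* Box ι R)
    (frame (pl k) (T k)) (fun i => X (k, i)) (fun i => (hev k i).symm)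
    (tl_frame_mem_maximalIdeal (pl k) (T k) (hT k)) (C d) hdet hdetu (C c) hs0 i j

end Eval

/-! ### Points: naturality of the traceless coordinates, scalar multiples -/

section Points

variable {S S' : Type*} [CommRing S] [CommRing S'] [Invertible (2 : S)] [Invertible (2 : S')]

/-- traceless coordinates commute with ring homomorphisms -/
theorem map_tl (f : S →+* S') (M : Matrix (Fin 2) (Fin 2) S) (i : Fin 3) :
    f (tl M i) = tl (M.map f) i := by
  fin_cases i
  · show f (⅟ (2 : S) * (M 0 0 - M 1 1)) = ⅟ (2 : S') * ((M.map f) 0 0 - (M.map f) 1 1)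
    rw [map_mul, map_sub, map_invOf_two, Matrix.map_apply, Matrix.map_apply]
  · rfl
  · rfl

omit [Invertible (2 : S)] in
theorem ofTl_smul (c : S) (u : Fin 3 → S) : ofTl (c • u) = c • ofTl u := by
  ext i j
  fin_cases i <;> fin_cases j
  · show (c • u) 0 = c • u 0
    rfl
  · show (c • u) 1 = c • u 1
    rfl
  · show (c • u) 2 = c • u 2
    rfl
  · show -(c • u) 0 = c • -u 0
    simp

variable {ι : Type*} {R R' : Type*} [CommRing R] [CommRing R'] [Invertible (2 : R)]
  [Invertible (2 : R')]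

/-- **naturality of the framed traceless coordinates in the coefficient ring** -/
theorem map_tl_frame (x : R →+* R') (v : ι) (M : Matrix (Fin 2) (Fin 2) R) (i : Fin 3) :
    (MvPowerSeries.map x : Box ι R →+* Box ι R')
        (tl (frame v M : Matrix (Fin 2) (Fin 2) (Box ι R)) i) =
      tl (frame v (M.map x) : Matrix (Fin 2) (Fin 2) (Box ι R')) i := by
  rw [map_tl, frame_map]

/-- if the traceless part of `M` is `c • u`, the framed traceless coordinates of `M` are
`C c • (framed traceless coordinates of the traceless matrix u)`; this is the stability under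
framing of the decomposition `a' = s₁ • u`, `n' = s₂ • u` of helper54's `(R4)` -/
theorem tl_frame_of_tl_eq_smul (v : ι) (M : Matrix (Fin 2) (Fin 2) R) (c : R) (u : Fin 3 → R)
    (h : tl M = c • u) :
    tl (frame v M : Matrix (Fin 2) (Fin 2) (Box ι R)) =
      (C c : Box ι R) • tl (frame v (ofTl u) : Matrix (Fin 2) (Fin 2) (Box ι R)) := by
  rw [tl_frame_eq, h, ofTl_smul, frame_smul, tl_smul]

/-- the quadratic form of the framed coordinates of a traceless matrix -/
theorem Qf_tl_frame_ofTl (v : ι) (u : Fin 3 → R) :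
    Qf (tl (frame v (ofTl u) : Matrix (Fin 2) (Fin 2) (Box ι R))) = C (Qf u) := by
  rw [Qf_tl_frame, tl_ofTl]

/-- the framed coordinates of a traceless matrix with entries in the maximal ideal lie in the
maximal ideal of the framed ring -/
theorem tl_frame_ofTl_mem_maximalIdeal [IsLocalRing R] (v : ι) (u : Fin 3 → R)
    (hu : ∀ i, u i ∈ IsLocalRing.maximalIdeal R) (i : Fin 3) :
    tl (frame v (ofTl u) : Matrix (Fin 2) (Fin 2) (Box ι R)) i ∈
      IsLocalRing.maximalIdeal (Box ι R) :=
  tl_frame_mem_maximalIdeal v (ofTl u) (fun j => by rw [tl_ofTl]; exact hu j) i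

end Points

section EvalPoints

open IsLocalRing

variable {𝒪 : Type*} [CommRing 𝒪] [IsLocalRing 𝒪]
  {ι : Type*} [Finite ι] {R R' : Type*} [CommRing R] [CommRing R'] [IsLocalRing R']
  [IsNoetherianRing R'] [IsAdicComplete (maximalIdeal R') R'] [Algebra 𝒪 R] [Algebra 𝒪 R']
  [Invertible (2 : R)] [Invertible (2 : R')] {κ : Type*} [Finite κ]

/-- **compatibility of the evaluation homomorphism with points** `x : R → R'`: the composite
`𝒪⟦x_{k,i}⟧ → Box ι R → Box ι R'` is the evaluation homomorphism of the pushed-forward test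
matrices. -/
theorem map_comp_evalHom (x : R →ₐ[𝒪] R') (pl : κ → ι) (T : κ → Matrix (Fin 2) (Fin 2) R)
    (hT' : ∀ k i, tl ((T k).map x) i ∈ maximalIdeal R')
    (ev : MvPowerSeries (κ × Fin 3) 𝒪 →ₐ[𝒪] Box ι R)
    (hev : ∀ k i, ev (X (k, i)) =
      tl (frame (pl k) (T k) : Matrix (Fin 2) (Fin 2) (Box ι R)) i)
    (ev' : MvPowerSeries (κ × Fin 3) 𝒪 →ₐ[𝒪] Box ι R')
    (hev' : ∀ k i, ev' (X (k, i)) =
      tl (frame (pl k) ((T k).map x) : Matrix (Fin 2) (Fin 2) (Box ι R')) i) :
    (MvPowerSeries.mapAlgHom (σ := ι × Fin 3) x).comp ev = ev' := by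
  haveI : IsAdicComplete (maximalIdeal (Box ι R')) (Box ι R') :=
    Fermat.Agent.S53.isAdicComplete_mvPowerSeries R' (ι × Fin 3)
  have key : ∀ ki : κ × Fin 3,
      ((MvPowerSeries.mapAlgHom (σ := ι × Fin 3) x).comp ev) (X ki) = ev' (X ki) := by
    intro ki
    rw [AlgHom.comp_apply, hev ki.1 ki.2, hev' ki.1 ki.2, MvPowerSeries.mapAlgHom_apply]
    exact map_tl_frame (x : R →+* R') (pl ki.1) (T ki.1) ki.2
  refine Fermat.Agent.S53.algHom_ext_X _ _ (fun ki => ?_) key
  rw [key ki, hev' ki.1 ki.2]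
  exact tl_frame_mem_maximalIdeal (pl ki.1) ((T ki.1).map x) (hT' ki.1) ki.2

end EvalPoints

end Fermat.Agent.GB.Def.Frame
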