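/-
GATE-B, node B2-FRAME file 2 (helper4): **the framed universal deformation ring as an algebra over
the power series ring in the traceless coordinates of the local test matrices.**

`DQ : DeformationRingData 𝒪 ρbar 𝒟` (S53), `Fr` the finite set of framed places, `FRing DQ Fr`
helper11's framed ring, `framedMat DQ Fr v` the framed universal matrices.  For a finite family of
test elements `el k ∈ G_ℚ` at the places `pl k ∈ Fr` (e.g. `κ = Fr × Fin 2`: a Frobenius lift and a
tame generator at each framed place) whose universal matrices are residually scalar and have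
determinant a unit of `𝒪` (`q` resp. `1`):

* `framedMat_eq_frame` : `framedMat DQ Fr v σ = Frame.frame v (univMat DQ σ)`;
* `exists_framedEval` : the evaluation homomorphism
  `ev : 𝒪⟦x_{k,i} : k ∈ κ, i < 3⟧ →ₐ[𝒪] FRing DQ Fr`, `x_{k,i} ↦ tl (framedMat (pl k) (el k)) i`
  (helper54's `P6` for `κ = Fin 2`), a local homomorphism, with ALL entries of the test matrices
  in its range (= the `hrange` binder of helper11's `FramedTan`);
* `exists_surjective_plain` : with helper11's `FramedSelmerBound … r`, a SURJECTION from the PLAIN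
  power series ring `𝒪⟦x_{k,i}, y_1..y_r⟧ ↠ FRing DQ Fr` extending `ev` (the ring `R` of
  helper53's B9 design note N1).
-/
import Mathlib
import Fermat.Agent.GB.Def.Frame
import Fermat.Agent.GB.Def.FramedTan
import Fermat.Agent.GP.Tan.PowerSeriesSurj

set_option autoImplicit false
set_option linter.unusedSectionVars false
set_option linter.style.haveILetI false

namespace Fermat.Agent.GB.Def.FrameRep

open IsLocalRing MvPowerSeries Matrix
open Fermat.Agent.S53_helper35 Fermat.Agent.S53_helper84 Fermat.Agent.GP.Tan.Linear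
open Fermat.Agent.GP.Tan.UnivInj Fermat.Agent.GP.Tan.Cocycle
open Fermat.Agent.GB.Def.FramedRing Fermat.Agent.GB.Def.FramedTan Fermat.Agent.GB.Def.Frame

noncomputable section

variable {𝒪 : Type} [CommRing 𝒪] [IsDomain 𝒪] [IsDiscreteValuationRing 𝒪]
  [IsAdicComplete (maximalIdeal 𝒪) 𝒪]
  {ρbar : ResidualGaloisRep (ResidueField 𝒪)}
  {𝒟 : ∀ ⦃A : Type⦄ [CommRing A] [IsLocalRing A] [Algebra 𝒪 A], GaloisRepAdic A → Prop}
  (DQ : GaloisRep.DeformationRingData 𝒪 ρbar 𝒟)
  (Fr : Type) [Finite Fr]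

/-- helper11's frame `1 + Z_v` is the framing matrix of `Frame` -/
theorem one_add_frameZ_eq (v : Fr) :
    (1 + FramedRing.frameZ DQ Fr v : Matrix (Fin 2) (Fin 2) (FRing DQ Fr)) =
      (gMat v : Matrix (Fin 2) (Fin 2) (Box Fr DQ.R)) := rfl

/-- **helper11's framed universal matrices are the framed forms of the universal matrices** -/
theorem framedMat_eq_frame (v : Fr) (σ : GQ) :
    framedMat DQ Fr v σ = (frame v (univMat DQ σ) : Matrix (Fin 2) (Fin 2) (Box Fr DQ.R)) := by
  rw [framedMat, conjMat_apply, frame_apply, frameGL_val, one_add_frameZ_eq, univMatC,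
    mapMat_apply, Matrix.coe_units_inv, frameGL_val, one_add_frameZ_eq]

variable [Invertible (2 : 𝒪)]

/-- `2` is invertible in the universal deformation ring -/
instance invertibleTwoR : Invertible (2 : DQ.R) :=
  (Invertible.map (algebraMap 𝒪 DQ.R) (2 : 𝒪)).copy _ (map_ofNat (algebraMap 𝒪 DQ.R) 2).symm

variable {κ : Type} [Finite κ] (pl : κ → Fr) (el : κ → GQ)

/-- the test elements at the place `v` -/
def testsOf (v : Fr) : Set GQ := {τ | ∃ k, pl k = v ∧ el k = τ}

/-- **the evaluation homomorphism from the power series ring in the traceless coordinates**,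
local, with all the entries of the framed test matrices in its range. -/
theorem exists_framedEval
    (hsc : ∀ k i, tl (univMat DQ (el k)) i ∈ maximalIdeal DQ.R)
    (hdet : ∀ k, ∃ d : 𝒪, IsUnit d ∧ (univMat DQ (el k)).det = algebraMap 𝒪 DQ.R d) :
    ∃ ev : MvPowerSeries (κ × Fin 3) 𝒪 →ₐ[𝒪] FRing DQ Fr,
      (∀ k i, ev (X (k, i)) =
        tl (framedMat DQ Fr (pl k) (el k) : Matrix (Fin 2) (Fin 2) (FRing DQ Fr)) i) ∧
      IsLocalHom (ev : MvPowerSeries (κ × Fin 3) 𝒪 →+* FRing DQ Fr) ∧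
      ∀ v, ∀ τ ∈ testsOf Fr pl el v, ∀ i j, framedMat DQ Fr v τ i j ∈
        Set.range (ev : MvPowerSeries (κ × Fin 3) 𝒪 → FRing DQ Fr) := by
  obtain ⟨ev, hev⟩ := exists_evalHom (𝒪 := 𝒪) (ι := Fr) (R := DQ.R) pl
    (fun k => univMat DQ (el k)) hsc
  have hev' : ∀ k i, ev (X (k, i)) =
      tl (framedMat DQ Fr (pl k) (el k) : Matrix (Fin 2) (Fin 2) (FRing DQ Fr)) i := by
    intro k i
    rw [hev k i, framedMat_eq_frame]
  have hvar : ∀ ki : κ × Fin 3, ev (X ki) ∈ maximalIdeal (Box Fr DQ.R) := by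
    intro ki
    rw [hev ki.1 ki.2]
    exact tl_frame_mem_maximalIdeal (pl ki.1) (univMat DQ (el ki.1)) (hsc ki.1) ki.2
  refine ⟨ev, hev', isLocalHom_algHom ev hvar, ?_⟩
  rintro v τ ⟨k, rfl, rfl⟩ i j
  obtain ⟨d, hdu, hd⟩ := hdet k
  rw [framedMat_eq_frame]
  exact frame_entries_mem_range (𝒪 := 𝒪) (ι := Fr) (R := DQ.R) DQ.residue_surjective pl
    (fun k => univMat DQ (el k)) hsc ev hev k d hd hdu i j

/-- a surjective ring homomorphism between local rings is local -/
theorem isLocalHom_of_surjective {A B : Type*} [CommRing A] [IsLocalRing A] [CommRing B]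
    [IsLocalRing B] (f : A →+* B) (hf : Function.Surjective f) : IsLocalHom f := by
  constructor
  intro a ha
  by_contra hnu
  obtain ⟨u, hu⟩ := ha
  obtain ⟨g, hg⟩ := hf (↑u⁻¹ : B)
  have h1 : IsUnit (1 - a * g) := by
    have hm : a * g ∈ maximalIdeal A :=
      Ideal.mul_mem_right _ _ ((mem_maximalIdeal _).2 hnu)
    by_contra h
    have h2 : 1 - a * g ∈ maximalIdeal A := (mem_maximalIdeal _).2 h
    have h3 : (1 : A) ∈ maximalIdeal A := by
      have := add_mem h2 hm
      rwa [sub_add_cancel] at this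
    exact (Ideal.ne_top_iff_one _).1 (maximalIdeal.isMaximal A).ne_top h3
  have h4 : f (1 - a * g) = 0 := by
    rw [map_sub, map_one, map_mul, hg, ← hu, Units.mul_inv, sub_self]
  have h5 := h1.map f
  rw [h4] at h5
  exact not_isUnit_zero h5

variable [Finite (ResidueField 𝒪)]

/-- **the plain power series ring surjects onto the framed universal ring**, extending the
evaluation homomorphism of the traceless coordinates: the ring `R = 𝒪⟦x_{k,i}, y_1, …, y_r⟧` of
helper53's B9 design note N1. -/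
theorem exists_surjective_plain (b : Module.Basis (Fin 2) (ResidueField 𝒪) ρbar.V)
    (h2 : (2 : ResidueField 𝒪) ≠ 0)
    (h𝒟 : ∀ φ : DQ.R →ₐ[𝒪] DualNumber (ResidueField 𝒪), Function.Surjective φ →
      𝒟 (tangentRep DQ φ))
    (hsc : ∀ k i, tl (univMat DQ (el k)) i ∈ maximalIdeal DQ.R)
    (hdet : ∀ k, ∃ d : 𝒪, IsUnit d ∧ (univMat DQ (el k)).det = algebraMap 𝒪 DQ.R d)
    (tests : Fr → Set GQ) (htests : ∀ v, tests v ⊆ testsOf Fr pl el v)
    {r : ℕ} (hSel : FramedSelmerBound 𝒪 ρbar b 𝒟 Fr tests r) :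
    ∃ Ψ : MvPowerSeries ((κ × Fin 3) ⊕ Fin r) 𝒪 →ₐ[𝒪] FRing DQ Fr,
      Function.Surjective Ψ ∧
      ∀ k i, Ψ (X (Sum.inl (k, i))) =
        tl (framedMat DQ Fr (pl k) (el k) : Matrix (Fin 2) (Fin 2) (FRing DQ Fr)) i := by
  obtain ⟨ev, hev, hloc, hrange⟩ := exists_framedEval DQ Fr pl el hsc hdet
  -- the `A`-algebra structure on the framed ring, `A` the power series ring in the coordinates
  letI : Algebra (MvPowerSeries (κ × Fin 3) 𝒪) (FRing DQ Fr) :=
    (ev : MvPowerSeries (κ × Fin 3) 𝒪 →+* FRing DQ Fr).toAlgebra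
  haveI : IsScalarTower 𝒪 (MvPowerSeries (κ × Fin 3) 𝒪) (FRing DQ Fr) :=
    IsScalarTower.of_algebraMap_eq fun x => (ev.commutes x).symm
  haveI : IsLocalHom (algebraMap (MvPowerSeries (κ × Fin 3) 𝒪) (FRing DQ Fr)) := hloc
  haveI : IsAdicComplete (maximalIdeal (MvPowerSeries (κ × Fin 3) 𝒪))
      (MvPowerSeries (κ × Fin 3) 𝒪) :=
    Fermat.Agent.S53.isAdicComplete_mvPowerSeries 𝒪 (κ × Fin 3)
  haveI : IsLocalHom (algebraMap 𝒪 (MvPowerSeries (κ × Fin 3) 𝒪)) :=
    Fermat.Agent.S53.isLocalHom_algebraMap_mvPowerSeries 𝒪 (κ × Fin 3)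
  have hresA : Function.Surjective (residue (MvPowerSeries (κ × Fin 3) 𝒪) ∘
      algebraMap 𝒪 (MvPowerSeries (κ × Fin 3) 𝒪)) :=
    Fermat.Agent.S53.residue_algebraMap_mvPowerSeries_surjective 𝒪 (κ × Fin 3)
  obtain ⟨γ, hγ⟩ := exists_surjective_of_framedSelmerBound DQ b h2 h𝒟
    (A := MvPowerSeries (κ × Fin 3) 𝒪) hresA tests
    (fun v τ hτ i j => hrange v τ (htests v hτ) i j) hSel
  haveI hγloc : IsLocalHom (γ : MvPowerSeries (Fin r) (MvPowerSeries (κ × Fin 3) 𝒪) →+*
      FRing DQ Fr) := isLocalHom_of_surjective _ hγ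
  -- the generators
  let a : (κ × Fin 3) ⊕ Fin r → FRing DQ Fr :=
    Sum.elim (fun ki => ev (X ki)) (fun j => γ (X j))
  have hXj : ∀ j : Fin r, γ (X j) ∈ maximalIdeal (FRing DQ Fr) := by
    intro j
    refine map_mem_maximalIdeal (γ : MvPowerSeries (Fin r) (MvPowerSeries (κ × Fin 3) 𝒪) →+*
      FRing DQ Fr) ?_
    exact Fermat.Agent.S53.X_mem_maximalIdeal (MvPowerSeries (κ × Fin 3) 𝒪) (Fin r) j
  have hXk : ∀ ki : κ × Fin 3, ev (X ki) ∈ maximalIdeal (FRing DQ Fr) := by
    intro ki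
    refine map_mem_maximalIdeal (ev : MvPowerSeries (κ × Fin 3) 𝒪 →+* FRing DQ Fr) ?_
    exact Fermat.Agent.S53.X_mem_maximalIdeal 𝒪 (κ × Fin 3) ki
  have ha : ∀ s, a s ∈ maximalIdeal (FRing DQ Fr) := by
    rintro (ki | j)
    · exact hXk ki
    · exact hXj j
  have hspan : maximalIdeal (FRing DQ Fr) ≤ Ideal.span (Set.range a) ⊔
      (maximalIdeal 𝒪).map (algebraMap 𝒪 (FRing DQ Fr)) ⊔ maximalIdeal (FRing DQ Fr) ^ 2 := by
    intro y hy
    refine Ideal.mem_sup_left ?_
    obtain ⟨f, rfl⟩ := hγ y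
    have hf : f ∈ maximalIdeal (MvPowerSeries (Fin r) (MvPowerSeries (κ × Fin 3) 𝒪)) :=
      mem_maximalIdeal_of_map (γ : MvPowerSeries (Fin r) (MvPowerSeries (κ × Fin 3) 𝒪) →+*
        FRing DQ Fr) hy
    haveI := Fintype.ofFinite κ
    rw [Fermat.Agent.S53.PSC.decomp f, map_add, map_sum]
    refine add_mem ?_ (sum_mem fun j _ => ?_)
    · -- the constant term: an element of the maximal ideal of `A`
      set c := constantCoeff f with hc
      have hcm : c ∈ maximalIdeal (MvPowerSeries (κ × Fin 3) 𝒪) :=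
        (Fermat.Agent.S53.mem_maximalIdeal_mvPowerSeries_iff _ (Fin r) f).1 hf
      have h1 : γ (C c) = ev c := by
        have : (C c : MvPowerSeries (Fin r) (MvPowerSeries (κ × Fin 3) 𝒪)) =
            algebraMap (MvPowerSeries (κ × Fin 3) 𝒪) _ c := by
          rw [MvPowerSeries.algebraMap_apply, Algebra.algebraMap_self, RingHom.id_apply]
        rw [this, γ.commutes]
        rfl
      rw [h1, Fermat.Agent.S53.PSC.decomp c, map_add, map_sum]
      refine add_mem (Ideal.mem_sup_right ?_) (sum_mem fun ki _ => Ideal.mem_sup_left ?_)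
      · have h3 : (C (constantCoeff c) : MvPowerSeries (κ × Fin 3) 𝒪) =
            algebraMap 𝒪 (MvPowerSeries (κ × Fin 3) 𝒪) (constantCoeff c) := by
          rw [MvPowerSeries.algebraMap_apply, Algebra.algebraMap_self, RingHom.id_apply]
        rw [h3, ev.commutes]
        exact Ideal.mem_map_of_mem _
          ((Fermat.Agent.S53.mem_maximalIdeal_mvPowerSeries_iff 𝒪 (κ × Fin 3) c).1 hcm)
      · rw [map_mul]
        exact Ideal.mul_mem_right _ _ (Ideal.subset_span ⟨Sum.inl ki, rfl⟩)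
    · rw [map_mul]
      exact Ideal.mem_sup_left (Ideal.mul_mem_right _ _ (Ideal.subset_span ⟨Sum.inr j, rfl⟩))
  obtain ⟨Ψ, hΨ, hsurj⟩ := Fermat.Agent.GP.Tan.exists_surjective_of_span_noeth (𝒪 := 𝒪)
    (A := FRing DQ Fr) (residue_surjective_fRing DQ Fr) a ha hspan
  refine ⟨Ψ, hsurj, fun k i => ?_⟩
  rw [hΨ (Sum.inl (k, i))]
  exact hev k i

end

end Fermat.Agent.GB.Def.FrameRep
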