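/-
GATE-B, node B2-FRAME file 3 (helper4): **the two consumer obligations `hsc`, `hdet` of
`FrameRep.exists_framedEval` / `exists_surjective_plain` from the frozen vocabulary.**

* `tl_univMat_mem_of_scalar` : `ρbar.ρ τ = c • 1` (the residual representation is SCALAR at `τ`,
  e.g. `τ` a Frobenius lift at the prime `q` of CASE B, or `τ` in the inertia group at a prime where
  `ρ̄` is unramified) ⟹ the traceless coordinates of the universal matrix at `τ` lie in the maximal
  ideal of the universal deformation ring (`hsc`);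
* `det_eq_natCast_of_detIsCyclotomic` : over a noetherian local ring, `DetIsCyclotomic p` and
  `σ μ = μ ^ a` on all `p`-power roots of unity ⟹ `det ρ(σ) = a` (Krull's intersection theorem);
* `det_univMat_frob`, `det_univMat_inertia` : the determinant of the universal matrix at a
  Frobenius lift at `q ≠ p` is `q`, on the inertia group at `q ≠ p` it is `1` (`hdet`).
-/
import Mathlib
import Fermat.Agent.GB.Def.FrameRep
import Fermat.Agent.GJ.Cyc.FrobCyc
import Fermat.Prelude.Def_GaloisRep_LocalConditions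

set_option autoImplicit false
set_option linter.unusedSectionVars false
set_option linter.style.haveILetI false

namespace Fermat.Agent.GB.Def.FrameRes

open IsLocalRing Matrix
open Fermat.Agent.S53_helper35 Fermat.Agent.GP.Tan.Linear Fermat.Agent.GB.Def.Frame

noncomputable section

/-! ### scalar endomorphisms and equivalences -/

section Scalar

variable {k : Type} [Field k]

/-- equivalent residual representations are scalar at the same elements, with the same scalar -/
theorem scalar_of_isEquiv {ρ₁ ρ₂ : ResidualGaloisRep k} (h : ρ₁.IsEquiv ρ₂) (τ : GQ) (c : k)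
    (hc : ρ₂.ρ τ = c • (1 : Module.End k ρ₂.V)) : ρ₁.ρ τ = c • (1 : Module.End k ρ₁.V) := by
  obtain ⟨e⟩ := h
  refine LinearMap.ext fun x => ?_
  apply e.toLinearEquiv.injective
  rw [e.map_apply, hc, LinearMap.smul_apply, LinearMap.smul_apply, Module.End.one_apply,
    Module.End.one_apply, map_smul]

/-- base change preserves scalar endomorphisms -/
theorem scalar_baseChangeAlong {k' : Type} [Field k'] (ψ : k →+* k') (ρ : ResidualGaloisRep k)
    (τ : GQ) (c : k) (hc : ρ.ρ τ = c • (1 : Module.End k ρ.V)) :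
    (ρ.baseChangeAlong ψ).ρ τ = ψ c • (1 : Module.End k' (ρ.baseChangeAlong ψ).V) := by
  letI : Algebra k k' := ψ.toAlgebra
  show (ρ.ρ τ).baseChange k' = ψ c • (1 : Module.End k' (TensorProduct k k' ρ.V))
  rw [hc]
  refine LinearMap.ext fun x => ?_
  induction x using TensorProduct.induction_on with
  | zero => rw [map_zero, map_zero]
  | tmul a v =>
    rw [LinearMap.baseChange_tmul, LinearMap.smul_apply, Module.End.one_apply,
      LinearMap.smul_apply, Module.End.one_apply, TensorProduct.tmul_smul,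
      TensorProduct.smul_tmul']
    show (c • a) ⊗ₜ[k] v = (ψ c • a) ⊗ₜ[k] v
    rw [Algebra.smul_def, smul_eq_mul]
    rfl
  | add x y hx hy => rw [map_add, map_add, hx, hy]

end Scalar

section Univ

variable {𝒪 : Type} [CommRing 𝒪] [IsDomain 𝒪] [IsDiscreteValuationRing 𝒪]
  [IsAdicComplete (maximalIdeal 𝒪) 𝒪]
  {ρbar : ResidualGaloisRep (ResidueField 𝒪)}
  {𝒟 : ∀ ⦃A : Type⦄ [CommRing A] [IsLocalRing A] [Algebra 𝒪 A], GaloisRepAdic A → Prop}
  (DQ : GaloisRep.DeformationRingData 𝒪 ρbar 𝒟)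

/-- the residue of the universal matrix at an element where `ρ̄` is scalar is scalar -/
theorem map_residue_univMat_of_scalar (τ : GQ) (c : ResidueField 𝒪)
    (hc : ρbar.ρ τ = c • (1 : Module.End (ResidueField 𝒪) ρbar.V)) :
    (univMat DQ τ).map (residue DQ.R) =
      (ResidueField.map (algebraMap 𝒪 DQ.R) c) • (1 : Matrix (Fin 2) (Fin 2) (ResidueField DQ.R)) := by
  have h1 := scalar_baseChangeAlong (ResidueField.map (algebraMap 𝒪 DQ.R)) ρbar τ c hc
  have h2 := scalar_of_isEquiv DQ.residual_isEquiv τ _ h1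
  have h3 := congrFun (congrArg DFunLike.coe
    (toMatRes_residual DQ.ρ (stdBasis DQ.ρ))) τ
  rw [mapMat_apply, toMatRes_apply, h2] at h3
  rw [univMat, ← h3, map_smul]
  congr 1
  exact LinearMap.toMatrix_one _

variable [Invertible (2 : 𝒪)]

open Fermat.Agent.GB.Def.FrameRep in
/-- **`hsc`**: the traceless coordinates of the universal matrix at an element where `ρ̄` is
scalar lie in the maximal ideal -/
theorem tl_univMat_mem_of_scalar (τ : GQ) (c : ResidueField 𝒪)
    (hc : ρbar.ρ τ = c • (1 : Module.End (ResidueField 𝒪) ρbar.V)) (i : Fin 3) :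
    tl (univMat DQ τ) i ∈ maximalIdeal DQ.R := by
  have h := map_residue_univMat_of_scalar DQ τ c hc
  have hent : ∀ a b : Fin 2, residue DQ.R (univMat DQ τ a b) =
      ((ResidueField.map (algebraMap 𝒪 DQ.R) c) •
        (1 : Matrix (Fin 2) (Fin 2) (ResidueField DQ.R))) a b := by
    intro a b
    rw [← h, Matrix.map_apply]
  revert i
  rw [tl_mem_maximalIdeal_iff]
  refine ⟨?_, ?_, ?_⟩
  · rw [← residue_eq_zero_iff, map_sub, hent 0 0, hent 1 1, Matrix.smul_apply, Matrix.smul_apply,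
      Matrix.one_apply_eq, Matrix.one_apply_eq, sub_self]
  · rw [← residue_eq_zero_iff, hent 0 1, Matrix.smul_apply,
      Matrix.one_apply_ne (by decide : (0 : Fin 2) ≠ 1), smul_zero]
  · rw [← residue_eq_zero_iff, hent 1 0, Matrix.smul_apply,
      Matrix.one_apply_ne (by decide : (1 : Fin 2) ≠ 0), smul_zero]

end Univ

/-! ### determinants -/

section Det

variable {A : Type} [CommRing A] [IsLocalRing A] [IsNoetherianRing A]

/-- **Krull**: `DetIsCyclotomic p` and `σ μ = μ ^ a` on all `p`-power roots of unity force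
`det ρ(σ) = a` over a noetherian local ring -/
theorem det_eq_natCast_of_detIsCyclotomic (ρ : GaloisRepAdic A) (p : ℕ)
    (hdet : ρ.DetIsCyclotomic p) (σ : GQ) (a : ℕ)
    (h : ∀ n : ℕ, ∀ μ : AlgebraicClosure ℚ, μ ^ p ^ n = 1 → σ μ = μ ^ a) :
    LinearMap.det (ρ.ρ σ) = (a : A) := by
  obtain ⟨hp, hd⟩ := hdet
  rw [← sub_eq_zero, ← Ideal.mem_bot,
    ← Ideal.iInf_pow_eq_bot_of_isLocalRing (maximalIdeal A) (maximalIdeal.isMaximal A).ne_top,
    Ideal.mem_iInf]
  intro n
  have h1 := hd n σ a (h n)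
  have h2 : Ideal.span {((p ^ n : ℕ) : A)} ≤ maximalIdeal A ^ n := by
    rw [Ideal.span_singleton_le_iff_mem, Nat.cast_pow]
    exact Ideal.pow_mem_pow hp n
  exact h2 h1

end Det

section UnivDet

variable {𝒪 : Type} [CommRing 𝒪] [IsDomain 𝒪] [IsDiscreteValuationRing 𝒪]
  [IsAdicComplete (maximalIdeal 𝒪) 𝒪]
  {ρbar : ResidualGaloisRep (ResidueField 𝒪)}
  {𝒟 : ∀ ⦃A : Type⦄ [CommRing A] [IsLocalRing A] [Algebra 𝒪 A], GaloisRepAdic A → Prop}
  (DQ : GaloisRep.DeformationRingData 𝒪 ρbar 𝒟)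

theorem det_univMat (σ : GQ) : (univMat DQ σ).det = LinearMap.det (DQ.ρ.ρ σ) := by
  rw [univMat, toMat_apply, LinearMap.det_toMatrix]

/-- a natural number prime to `p` is a unit of `𝒪` when `p ∈ 𝔪_𝒪` -/
theorem isUnit_natCast_of_coprime {p a : ℕ} (hp : (p : 𝒪) ∈ maximalIdeal 𝒪)
    (ha : Nat.Coprime a p) : IsUnit (a : 𝒪) := by
  by_contra hnu
  have h1 : (a : 𝒪) ∈ maximalIdeal 𝒪 := (mem_maximalIdeal _).2 hnu
  have h2 : ((Nat.gcd a p : ℕ) : 𝒪) ∈ maximalIdeal 𝒪 := by
    have hb := Nat.gcd_eq_gcd_ab a p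
    have : ((Nat.gcd a p : ℕ) : 𝒪) = (a : 𝒪) * ((Nat.gcdA a p : ℤ) : 𝒪) +
        (p : 𝒪) * ((Nat.gcdB a p : ℤ) : 𝒪) := by
      have := congrArg (fun z : ℤ => (z : 𝒪)) hb
      simpa using this
    rw [this]
    exact add_mem (Ideal.mul_mem_right _ _ h1) (Ideal.mul_mem_right _ _ hp)
  rw [ha, Nat.cast_one] at h2
  exact (Ideal.ne_top_iff_one _).1 (maximalIdeal.isMaximal 𝒪).ne_top h2

/-- **`hdet` at a Frobenius lift**: the determinant of the universal matrix at a Frobenius lift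
at `q ≠ p` is `q`, a unit of `𝒪` -/
theorem det_univMat_frob {p q : ℕ} (hp : p.Prime) (hq : q.Prime) (hqp : q ≠ p)
    (hp𝒪 : (p : 𝒪) ∈ maximalIdeal 𝒪) (hcyc : DQ.ρ.DetIsCyclotomic p)
    (P : ValuationSubring (AlgebraicClosure ℚ)) (hP : P.LiesOverPrime q) (σ : GQ)
    (hσ : P.IsFrobeniusAt σ q) :
    ∃ d : 𝒪, IsUnit d ∧ (univMat DQ σ).det = algebraMap 𝒪 DQ.R d := by
  refine ⟨(q : 𝒪), isUnit_natCast_of_coprime hp𝒪 ((Nat.coprime_primes hq hp).2 hqp), ?_⟩
  rw [det_univMat, map_natCast]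
  refine det_eq_natCast_of_detIsCyclotomic DQ.ρ p hcyc σ q fun n μ hμ => ?_
  refine Fermat.Agent.GJ.Cyc.frob_rootOfUnity P q hq hP σ hσ (p ^ n) ?_ μ hμ
  intro hdvd
  exact hqp ((Nat.prime_dvd_prime_iff_eq hq hp).1 (hq.dvd_of_dvd_pow hdvd))

/-- **`hdet` on inertia**: the determinant of the universal matrix on the inertia group at
`q ≠ p` is `1` -/
theorem det_univMat_inertia {p q : ℕ} (hp : p.Prime) (hq : q.Prime) (hqp : q ≠ p)
    (hcyc : DQ.ρ.DetIsCyclotomic p)
    (P : ValuationSubring (AlgebraicClosure ℚ)) (hP : P.LiesOverPrime q) (σ : GQ)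
    (hσ : σ ∈ P.inertiaSubgroupIn ℚ) :
    ∃ d : 𝒪, IsUnit d ∧ (univMat DQ σ).det = algebraMap 𝒪 DQ.R d := by
  refine ⟨1, isUnit_one, ?_⟩
  rw [det_univMat, map_one]
  have h := det_eq_natCast_of_detIsCyclotomic DQ.ρ p hcyc σ 1 fun n μ hμ => by
    rw [pow_one]
    refine Fermat.Agent.GJ.Cyc.inertia_rootOfUnity P q hq hP σ hσ (p ^ n) ?_ μ hμ
    intro hdvd
    exact hqp ((Nat.prime_dvd_prime_iff_eq hq hp).1 (hq.dvd_of_dvd_pow hdvd))
  rw [h, Nat.cast_one]

end UnivDet

end

end Fermat.Agent.GB.Def.FrameRes
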