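/-
GATE-B, node GB-B9-THETA (helper4): **the surjection `Θ : (𝒪⟦J⟧)⟦x₁,…,x_r⟧ ↠ R^□_Q`** from helper11's
frozen-binder framed instance (`FramedInstKummer.FramedSurjKummerConcl`), for ANY choice of local
coordinates `ev : 𝒪⟦J⟧ → R^□_Q` at the framed places.

* `exists_theta_of_tail` : one deformation datum `DQ`, one local coordinate homomorphism
  `ev : MvPowerSeries J 𝒪 →ₐ[𝒪] FRing DQ Fr` (variables into the maximal ideal, all entries of the
  framed test matrices in its range) and the tail `SurjTail` of helper11's conclusion give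
  `Θ : MvPowerSeries (Fin r) (MvPowerSeries J 𝒪) →ₐ[𝒪] FRing DQ Fr` surjective with
  `Θ (C f) = ev f` (ITERATED power series: helper54's `Rinf` shape);
* `residual_isUnramifiedAt`, `residual_ρ_eq_smul` : the residual inputs of helper67's
  `TamePairFramed.isTamePair_framedMat_of_residual` from `ρ̄`;
* `exists_theta_P6` : ONE framed place, helper6's `P6` coordinates (`ABig.exists_eval` at the tame
  pair `(framedMat w φ, framedMat w τ₀)`): `Θ : MvPowerSeries (Fin r) (P6 𝒪) →ₐ[𝒪] FRing DQ Fr`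
  with `(PhiU d).map (Θ ∘ C) = framedMat w φ`, `(SigU d).map (Θ ∘ C) = framedMat w τ₀`;
The frozen-binder instances (`ThetaConcl`, `P6ThetaConcl`) are in `FrameThetaInst.lean`.
NEW file; imports only.
-/
import Mathlib
import Fermat.Agent.GB.Def.FrameRes
import Fermat.Agent.GB.E2.TamePairFramed

set_option autoImplicit false
set_option linter.unusedSectionVars false
set_option linter.style.haveILetI false

namespace Fermat.Agent.GB.Def.FrameTheta

open IsLocalRing MvPowerSeries Matrix Polynomial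
open Fermat.Agent.S53_helper35 Fermat.Agent.S53_helper84 Fermat.Agent.GP.Tan.Linear
open Fermat.Agent.GP.Tan.UnivInj Fermat.Agent.GP.Tan.Cocycle
open Fermat.Agent.GB.Def.FramedRing Fermat.Agent.GB.Def.FramedTan Fermat.Agent.GB.Def.Frame
open Fermat.Agent.GB.Def.FrameRep

noncomputable section

section One

variable {𝒪 : Type} [CommRing 𝒪] [IsDomain 𝒪] [IsDiscreteValuationRing 𝒪]
  [IsAdicComplete (maximalIdeal 𝒪) 𝒪]
  {ρbar : ResidualGaloisRep (ResidueField 𝒪)}
  {𝒟 : ∀ ⦃A : Type⦄ [CommRing A] [IsLocalRing A] [Algebra 𝒪 A], GaloisRepAdic A → Prop}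
  (DQ : GaloisRep.DeformationRingData 𝒪 ρbar 𝒟) (Fr : Type) [Finite Fr]

/-- **the tail of helper11's framed conclusions** (`FramedInst.FramedSurjConcl`,
`FramedInstKummer.FramedSurjKummerConcl`): every complete noetherian local `𝒪`-algebra `A → R^□`
with residue field that of `𝒪` whose range contains the entries of the framed test matrices has
`A⟦x₁,…,x_r⟧ ↠ R^□`. -/
def SurjTail (tests : Fr → Set GQ) (r : ℕ) : Prop :=
  ∀ {A : Type} [CommRing A] [IsLocalRing A] [IsNoetherianRing A]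
    [IsAdicComplete (maximalIdeal A) A] [Algebra 𝒪 A] [IsLocalHom (algebraMap 𝒪 A)]
    [Algebra A (FRing DQ Fr)] [IsScalarTower 𝒪 A (FRing DQ Fr)]
    [IsLocalHom (algebraMap A (FRing DQ Fr))],
    Function.Surjective (residue A ∘ algebraMap 𝒪 A) →
    (∀ v, ∀ τ ∈ tests v, ∀ i j,
      framedMat DQ Fr v τ i j ∈ Set.range (algebraMap A (FRing DQ Fr))) →
    ∃ γ : MvPowerSeries (Fin r) A →ₐ[A] FRing DQ Fr, Function.Surjective γ

variable {DQ Fr}

/-- **`Θ` from a coordinate homomorphism**: iterated power series over the coordinate ring. -/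
theorem exists_theta_of_tail {J : Type} [Finite J]
    (ev : MvPowerSeries J 𝒪 →ₐ[𝒪] FRing DQ Fr)
    (hev : ∀ j, ev (X j) ∈ maximalIdeal (FRing DQ Fr))
    (tests : Fr → Set GQ)
    (hrange : ∀ v, ∀ τ ∈ tests v, ∀ i j, framedMat DQ Fr v τ i j ∈
      Set.range (ev : MvPowerSeries J 𝒪 → FRing DQ Fr))
    {r : ℕ} (htail : SurjTail DQ Fr tests r) :
    ∃ Θ : MvPowerSeries (Fin r) (MvPowerSeries J 𝒪) →ₐ[𝒪] FRing DQ Fr,
      Function.Surjective Θ ∧ ∀ f : MvPowerSeries J 𝒪, Θ (C f) = ev f := by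
  letI : Algebra (MvPowerSeries J 𝒪) (FRing DQ Fr) :=
    (ev : MvPowerSeries J 𝒪 →+* FRing DQ Fr).toAlgebra
  haveI : IsScalarTower 𝒪 (MvPowerSeries J 𝒪) (FRing DQ Fr) :=
    IsScalarTower.of_algebraMap_eq fun x => (ev.commutes x).symm
  haveI : IsLocalHom (algebraMap (MvPowerSeries J 𝒪) (FRing DQ Fr)) := isLocalHom_algHom ev hev
  haveI : IsAdicComplete (maximalIdeal (MvPowerSeries J 𝒪)) (MvPowerSeries J 𝒪) :=
    Fermat.Agent.S53.isAdicComplete_mvPowerSeries 𝒪 J
  haveI : IsLocalHom (algebraMap 𝒪 (MvPowerSeries J 𝒪)) :=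
    Fermat.Agent.S53.isLocalHom_algebraMap_mvPowerSeries 𝒪 J
  have hresA : Function.Surjective (residue (MvPowerSeries J 𝒪) ∘
      algebraMap 𝒪 (MvPowerSeries J 𝒪)) :=
    Fermat.Agent.S53.residue_algebraMap_mvPowerSeries_surjective 𝒪 J
  obtain ⟨γ, hγ⟩ := htail (A := MvPowerSeries J 𝒪) hresA hrange
  refine ⟨γ.restrictScalars 𝒪, hγ, fun f => ?_⟩
  show γ (C f) = ev f
  have : (C f : MvPowerSeries (Fin r) (MvPowerSeries J 𝒪)) =
      algebraMap (MvPowerSeries J 𝒪) _ f := by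
    rw [MvPowerSeries.algebraMap_apply, Algebra.algebraMap_self, RingHom.id_apply]
  rw [this, γ.commutes]
  rfl

end One

/-! ### one framed place, `P6` coordinates -/

section P6

open Fermat.Agent.GB.Local.ABig Fermat.Agent.GB.Def.FrameRes

variable {𝒪 : Type} [CommRing 𝒪] [IsDomain 𝒪] [IsDiscreteValuationRing 𝒪]
  [IsAdicComplete (maximalIdeal 𝒪) 𝒪]
  {ρbar : ResidualGaloisRep (ResidueField 𝒪)}
  {𝒟 : ∀ ⦃A : Type⦄ [CommRing A] [IsLocalRing A] [Algebra 𝒪 A], GaloisRepAdic A → Prop}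
  (DQ : GaloisRep.DeformationRingData 𝒪 ρbar 𝒟) (Fr : Type) [Finite Fr]

/-- the residual representation of the universal deformation is unramified where `ρ̄` is. -/
theorem residual_isUnramifiedAt (q : ℕ) (h : ρbar.IsUnramifiedAt q) :
    DQ.ρ.residual.IsUnramifiedAt q := by
  intro A hA σ hσ
  have h1 : ρbar.ρ σ = (1 : ResidueField 𝒪) • (1 : Module.End (ResidueField 𝒪) ρbar.V) := by
    rw [h A hA σ hσ, one_smul]
  have h2 := scalar_of_isEquiv DQ.residual_isEquiv σ _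
    (scalar_baseChangeAlong (ResidueField.map (algebraMap 𝒪 DQ.R)) ρbar σ 1 h1)
  rwa [map_one, one_smul] at h2

/-- the residual representation of the universal deformation is scalar where `ρ̄` is. -/
theorem residual_ρ_eq_smul (φ : GQ) (u : 𝒪)
    (h : ρbar.ρ φ = residue 𝒪 u • (1 : Module.End (ResidueField 𝒪) ρbar.V)) :
    DQ.ρ.residual.ρ φ = residue DQ.R (algebraMap 𝒪 DQ.R u) •
      (1 : Module.End (ResidueField DQ.R) DQ.ρ.residual.V) := by
  have h2 := scalar_of_isEquiv DQ.residual_isEquiv φ _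
    (scalar_baseChangeAlong (ResidueField.map (algebraMap 𝒪 DQ.R)) ρbar φ _ h)
  rwa [ResidueField.map_residue] at h2

variable {DQ Fr}

/-- **`Θ` in helper6's `P6` coordinates at ONE framed place**: the universal pair
`(PhiU d, SigU d)` is mapped to the framed universal matrices at a Frobenius lift `φ` (residually
the scalar `d.u`) and an element `τ₀` of inertia at the prime `d.q ≠ p` where `ρ̄` is unramified. -/
theorem exists_theta_P6 (w : Fr) (hw : ∀ v : Fr, v = w) (d : TameDatum 𝒪) {p : ℕ} (hp : p.Prime)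
    (hq : d.q.Prime) (hpq : p ≠ d.q) (hcyc : DQ.ρ.DetIsCyclotomic p)
    (hunr : ρbar.IsUnramifiedAt d.q)
    (P : ValuationSubring (AlgebraicClosure ℚ)) (hP : P.LiesOverPrime d.q) {φ τ₀ : GQ}
    (hφ : P.IsFrobeniusAt φ d.q) (hτ₀ : τ₀ ∈ P.inertiaSubgroupIn ℚ)
    (hφu : ρbar.ρ φ = residue 𝒪 d.u • (1 : Module.End (ResidueField 𝒪) ρbar.V))
    {r : ℕ} (htail : SurjTail DQ Fr (fun _ => {φ, τ₀}) r) :
    ∃ Θ : MvPowerSeries (Fin r) (P6 𝒪) →ₐ[𝒪] FRing DQ Fr, Function.Surjective Θ ∧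
      (PhiU d).map (fun f => Θ (C f)) = framedMat DQ Fr w φ ∧
      (SigU d).map (fun f => Θ (C f)) = framedMat DQ Fr w τ₀ ∧
      IsTamePair d (framedMat DQ Fr w φ) (framedMat DQ Fr w τ₀) ∧
      framedMat DQ Fr w φ * framedMat DQ Fr w τ₀ =
        framedMat DQ Fr w τ₀ ^ d.q * framedMat DQ Fr w φ := by
  obtain ⟨hpair, hrel⟩ := Fermat.Agent.GB.E2.TamePairFramed.isTamePair_framedMat_of_residual
    DQ Fr w d P hcyc hp hq hpq hP hφ (residual_isUnramifiedAt DQ d.q hunr)
    (residual_ρ_eq_smul DQ φ d.u hφu) hτ₀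
  obtain ⟨ev, hevX, hΦ, hS⟩ := exists_eval d hpair
  have hev : ∀ s, ev (X s) ∈ maximalIdeal (FRing DQ Fr) := fun s => by
    rw [hevX]
    exact hpair.coords_mem d s
  have hrange : ∀ v : Fr, ∀ τ ∈ ({φ, τ₀} : Set GQ), ∀ i j, framedMat DQ Fr v τ i j ∈
      Set.range (ev : P6 𝒪 → FRing DQ Fr) := by
    intro v τ hτ i j
    rw [hw v]
    rcases hτ with rfl | hτ
    · exact ⟨PhiU d i j, by rw [← hΦ]; rfl⟩
    · rw [Set.mem_singleton_iff] at hτ
      subst hτ
      exact ⟨SigU d i j, by rw [← hS]; rfl⟩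
  obtain ⟨Θ, hΘ, hΘC⟩ := exists_theta_of_tail ev hev (fun _ => {φ, τ₀}) hrange htail
  refine ⟨Θ, hΘ, ?_, ?_, hpair, hrel⟩
  · rw [← hΦ]
    exact Matrix.ext fun i j => hΘC _
  · rw [← hS]
    exact Matrix.ext fun i j => hΘC _

end P6

end

end Fermat.Agent.GB.Def.FrameTheta
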