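/-
GATE-B, node GB-B9-THETA file 3 (helper4): **`Θ` for SEVERAL framed places (ruling R4), FLAT form.**

* `exists_flat_of_theta` : an iterated `Θ : (𝒪⟦J⟧)⟦x₁,…,x_r⟧ ↠ R^□` extending a local coordinate
  homomorphism `ev` gives a FLAT `Ψ : 𝒪⟦J ⊕ Fin r⟧ ↠ R^□` with `Ψ (X (inl j)) = ev (X j)`,
  `Ψ (X (inr k)) = Θ (X k)` (helper54's flat ring `R` of B1-MULTI, helper9's patching ring);
* `exists_flat_of_tail` : the same directly from the tail `FrameTheta.SurjTail`;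
* `exists_theta_multiP6` : framed places enumerated by `pl : I → Fr` (surjective), at each `i` a tame
  datum `d i` (prime `q_i ≠ p`, `ρ̄` unramified at `q_i`, residual Frobenius the scalar `u_i`), a
  Frobenius lift `φ i` and an element `τ₀ i` of inertia:
  `Ψ : 𝒪⟦(I × Fin 6) ⊕ Fin r⟧ ↠ R^□` with `Ψ (X (inl (i, s)))` the `s`-th of helper6's six traceless
  coordinates `ABig.coords` of the tame pair `(framedMat (pl i) (φ i), framedMat (pl i) (τ₀ i))`;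
* `map_PhiU_SigU_comp` : for any block inclusion `inc : P6 𝒪 → 𝒪⟦(I × Fin 6) ⊕ Fin r⟧`,
  `X s ↦ X (inl (i, s))`, the universal pair `(PhiU (d i), SigU (d i))` is mapped by `Ψ ∘ inc` to
  that tame pair.
NEW file; imports only.
-/
import Mathlib
import Fermat.Agent.GB.Def.FrameTheta

set_option autoImplicit false
set_option linter.unusedSectionVars false
set_option linter.style.haveILetI false

namespace Fermat.Agent.GB.Def.FrameThetaMulti

open IsLocalRing MvPowerSeries Matrix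
open Fermat.Agent.S53_helper35 Fermat.Agent.S53_helper84 Fermat.Agent.GP.Tan.Linear
open Fermat.Agent.GP.Tan.UnivInj Fermat.Agent.GP.Tan.Cocycle
open Fermat.Agent.GB.Def.FramedRing Fermat.Agent.GB.Def.FramedTan Fermat.Agent.GB.Def.Frame
open Fermat.Agent.GB.Def.FrameRep Fermat.Agent.GB.Def.FrameTheta

noncomputable section

variable {𝒪 : Type} [CommRing 𝒪] [IsDomain 𝒪] [IsDiscreteValuationRing 𝒪]
  [IsAdicComplete (maximalIdeal 𝒪) 𝒪]
  {ρbar : ResidualGaloisRep (ResidueField 𝒪)}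
  {𝒟 : ∀ ⦃A : Type⦄ [CommRing A] [IsLocalRing A] [Algebra 𝒪 A], GaloisRepAdic A → Prop}
  {DQ : GaloisRep.DeformationRingData 𝒪 ρbar 𝒟} {Fr : Type} [Finite Fr]

section Flat

/-- **flattening**: an iterated surjection extending a local coordinate homomorphism gives a
surjection from the PLAIN power series ring in the coordinates and the extra variables. -/
theorem exists_flat_of_theta {J : Type} [Finite J] {r : ℕ}
    (ev : MvPowerSeries J 𝒪 →ₐ[𝒪] FRing DQ Fr)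
    (hev : ∀ j, ev (X j) ∈ maximalIdeal (FRing DQ Fr))
    (Θ : MvPowerSeries (Fin r) (MvPowerSeries J 𝒪) →ₐ[𝒪] FRing DQ Fr)
    (hΘ : Function.Surjective Θ) (hΘC : ∀ f : MvPowerSeries J 𝒪, Θ (C f) = ev f) :
    ∃ Ψ : MvPowerSeries (J ⊕ Fin r) 𝒪 →ₐ[𝒪] FRing DQ Fr, Function.Surjective Ψ ∧
      (∀ j, Ψ (X (Sum.inl j)) = ev (X j)) ∧ ∀ k, Ψ (X (Sum.inr k)) = Θ (X k) := by
  haveI hΘloc : IsLocalHom (Θ : MvPowerSeries (Fin r) (MvPowerSeries J 𝒪) →+* FRing DQ Fr) :=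
    isLocalHom_of_surjective _ hΘ
  let a : J ⊕ Fin r → FRing DQ Fr := Sum.elim (fun j => ev (X j)) (fun k => Θ (X k))
  have hXk : ∀ k : Fin r, Θ (X k) ∈ maximalIdeal (FRing DQ Fr) := by
    intro k
    refine map_mem_maximalIdeal (Θ : MvPowerSeries (Fin r) (MvPowerSeries J 𝒪) →+*
      FRing DQ Fr) ?_
    exact Fermat.Agent.S53.X_mem_maximalIdeal (MvPowerSeries J 𝒪) (Fin r) k
  have ha : ∀ s, a s ∈ maximalIdeal (FRing DQ Fr) := by
    rintro (j | k)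
    · exact hev j
    · exact hXk k
  have hspan : maximalIdeal (FRing DQ Fr) ≤ Ideal.span (Set.range a) ⊔
      (maximalIdeal 𝒪).map (algebraMap 𝒪 (FRing DQ Fr)) ⊔ maximalIdeal (FRing DQ Fr) ^ 2 := by
    intro y hy
    refine Ideal.mem_sup_left ?_
    obtain ⟨f, rfl⟩ := hΘ y
    have hf : f ∈ maximalIdeal (MvPowerSeries (Fin r) (MvPowerSeries J 𝒪)) :=
      mem_maximalIdeal_of_map (Θ : MvPowerSeries (Fin r) (MvPowerSeries J 𝒪) →+*
        FRing DQ Fr) hy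
    haveI := Fintype.ofFinite J
    rw [Fermat.Agent.S53.PSC.decomp f, map_add, map_sum]
    refine add_mem ?_ (sum_mem fun k _ => ?_)
    · set c := constantCoeff f with hc
      have hcm : c ∈ maximalIdeal (MvPowerSeries J 𝒪) :=
        (Fermat.Agent.S53.mem_maximalIdeal_mvPowerSeries_iff _ (Fin r) f).1 hf
      rw [hΘC c, Fermat.Agent.S53.PSC.decomp c, map_add, map_sum]
      refine add_mem (Ideal.mem_sup_right ?_) (sum_mem fun j _ => Ideal.mem_sup_left ?_)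
      · have h3 : (C (constantCoeff c) : MvPowerSeries J 𝒪) =
            algebraMap 𝒪 (MvPowerSeries J 𝒪) (constantCoeff c) := by
          rw [MvPowerSeries.algebraMap_apply, Algebra.algebraMap_self, RingHom.id_apply]
        rw [h3, ev.commutes]
        exact Ideal.mem_map_of_mem _
          ((Fermat.Agent.S53.mem_maximalIdeal_mvPowerSeries_iff 𝒪 J c).1 hcm)
      · rw [map_mul]
        exact Ideal.mul_mem_right _ _ (Ideal.subset_span ⟨Sum.inl j, rfl⟩)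
    · rw [map_mul]
      exact Ideal.mem_sup_left (Ideal.mul_mem_right _ _ (Ideal.subset_span ⟨Sum.inr k, rfl⟩))
  obtain ⟨Ψ, hΨ, hsurj⟩ := Fermat.Agent.GP.Tan.exists_surjective_of_span_noeth (𝒪 := 𝒪)
    (A := FRing DQ Fr) (residue_surjective_fRing DQ Fr) a ha hspan
  exact ⟨Ψ, hsurj, fun j => hΨ (Sum.inl j), fun k => hΨ (Sum.inr k)⟩

/-- the flat form directly from the tail of helper11's conclusions. -/
theorem exists_flat_of_tail {J : Type} [Finite J]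
    (ev : MvPowerSeries J 𝒪 →ₐ[𝒪] FRing DQ Fr)
    (hev : ∀ j, ev (X j) ∈ maximalIdeal (FRing DQ Fr))
    (tests : Fr → Set GQ)
    (hrange : ∀ v, ∀ τ ∈ tests v, ∀ i j, framedMat DQ Fr v τ i j ∈
      Set.range (ev : MvPowerSeries J 𝒪 → FRing DQ Fr))
    {r : ℕ} (htail : SurjTail DQ Fr tests r) :
    ∃ Ψ : MvPowerSeries (J ⊕ Fin r) 𝒪 →ₐ[𝒪] FRing DQ Fr, Function.Surjective Ψ ∧
      ∀ j, Ψ (X (Sum.inl j)) = ev (X j) := by
  obtain ⟨Θ, hΘ, hΘC⟩ := exists_theta_of_tail ev hev tests hrange htail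
  obtain ⟨Ψ, hΨ, hΨl, -⟩ := exists_flat_of_theta ev hev Θ hΘ hΘC
  exact ⟨Ψ, hΨ, hΨl⟩

end Flat

/-! ### several framed places, `P6` coordinates at each -/

section Multi

open Fermat.Agent.GB.Local.ABig Fermat.Agent.GB.Def.FrameRes

variable {I : Type} [Finite I]

/-- the test elements at the framed place `v` for the enumeration `pl` and the pairs
`(φ i, τ₀ i)`. -/
def pairTests (pl : I → Fr) (φ τ₀ : I → GQ) (v : Fr) : Set GQ :=
  {σ | ∃ i, pl i = v ∧ (σ = φ i ∨ σ = τ₀ i)}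

theorem mem_pairTests_left (pl : I → Fr) (φ τ₀ : I → GQ) (i : I) :
    φ i ∈ pairTests pl φ τ₀ (pl i) := ⟨i, rfl, Or.inl rfl⟩

theorem mem_pairTests_right (pl : I → Fr) (φ τ₀ : I → GQ) (i : I) :
    τ₀ i ∈ pairTests pl φ τ₀ (pl i) := ⟨i, rfl, Or.inr rfl⟩

/-- **`Ψ` for several framed places in helper6's `P6` coordinates** (flat form): the variable
`X (inl (i, s))` goes to the `s`-th traceless coordinate of the tame pair at the place `pl i`. -/
theorem exists_theta_multiP6 (pl : I → Fr) (d : I → TameDatum 𝒪) {p : ℕ} (hp : p.Prime)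
    (hq : ∀ i, (d i).q.Prime) (hpq : ∀ i, p ≠ (d i).q) (hcyc : DQ.ρ.DetIsCyclotomic p)
    (hunr : ∀ i, ρbar.IsUnramifiedAt (d i).q)
    (P : I → ValuationSubring (AlgebraicClosure ℚ)) (hP : ∀ i, (P i).LiesOverPrime (d i).q)
    (φ τ₀ : I → GQ) (hφ : ∀ i, (P i).IsFrobeniusAt (φ i) (d i).q)
    (hτ₀ : ∀ i, τ₀ i ∈ (P i).inertiaSubgroupIn ℚ)
    (hφu : ∀ i, ρbar.ρ (φ i) =
      residue 𝒪 (d i).u • (1 : Module.End (ResidueField 𝒪) ρbar.V))
    {r : ℕ} (htail : SurjTail DQ Fr (pairTests pl φ τ₀) r) :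
    ∃ Ψ : MvPowerSeries ((I × Fin 6) ⊕ Fin r) 𝒪 →ₐ[𝒪] FRing DQ Fr, Function.Surjective Ψ ∧
      (∀ i s, Ψ (X (Sum.inl (i, s))) =
        coords (d i) (framedMat DQ Fr (pl i) (φ i)) (framedMat DQ Fr (pl i) (τ₀ i)) s) ∧
      (∀ i, IsTamePair (d i) (framedMat DQ Fr (pl i) (φ i)) (framedMat DQ Fr (pl i) (τ₀ i))) ∧
      ∀ i, framedMat DQ Fr (pl i) (φ i) * framedMat DQ Fr (pl i) (τ₀ i) =
        framedMat DQ Fr (pl i) (τ₀ i) ^ (d i).q * framedMat DQ Fr (pl i) (φ i) := by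
  have hpr : ∀ i, IsTamePair (d i) (framedMat DQ Fr (pl i) (φ i))
      (framedMat DQ Fr (pl i) (τ₀ i)) ∧
      framedMat DQ Fr (pl i) (φ i) * framedMat DQ Fr (pl i) (τ₀ i) =
        framedMat DQ Fr (pl i) (τ₀ i) ^ (d i).q * framedMat DQ Fr (pl i) (φ i) := fun i =>
    Fermat.Agent.GB.E2.TamePairFramed.isTamePair_framedMat_of_residual
      DQ Fr (pl i) (d i) (P i) hcyc hp (hq i) (hpq i) (hP i) (hφ i)
      (residual_isUnramifiedAt DQ (d i).q (hunr i))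
      (residual_ρ_eq_smul DQ (φ i) (d i).u (hφu i)) (hτ₀ i)
  -- the coordinate homomorphism
  obtain ⟨ev, hevX⟩ := Fermat.Agent.S53.exists_algHom_X (𝒪 := 𝒪) (A := FRing DQ Fr)
    (fun is : I × Fin 6 => coords (d is.1) (framedMat DQ Fr (pl is.1) (φ is.1))
      (framedMat DQ Fr (pl is.1) (τ₀ is.1)) is.2)
    (fun is => (hpr is.1).1.coords_mem (d is.1) is.2)
  have hev : ∀ is, ev (X is) ∈ maximalIdeal (FRing DQ Fr) := fun is => by
    rw [hevX]
    exact (hpr is.1).1.coords_mem (d is.1) is.2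
  -- the block inclusions
  haveI : IsAdicComplete (maximalIdeal (MvPowerSeries (I × Fin 6) 𝒪))
      (MvPowerSeries (I × Fin 6) 𝒪) :=
    Fermat.Agent.S53.isAdicComplete_mvPowerSeries 𝒪 (I × Fin 6)
  have hrange : ∀ v, ∀ τ ∈ pairTests pl φ τ₀ v, ∀ a b, framedMat DQ Fr v τ a b ∈
      Set.range (ev : MvPowerSeries (I × Fin 6) 𝒪 → FRing DQ Fr) := by
    rintro v τ ⟨i, rfl, hτ⟩ a b
    obtain ⟨inc, hinc⟩ := Fermat.Agent.S53.exists_algHom_X (𝒪 := 𝒪)
      (A := MvPowerSeries (I × Fin 6) 𝒪) (fun s : Fin 6 => X (i, s))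
      (fun s => Fermat.Agent.S53.X_mem_maximalIdeal 𝒪 (I × Fin 6) (i, s))
    have hc : ∀ s, (ev.comp inc) (X s) = coords (d i) (framedMat DQ Fr (pl i) (φ i))
        (framedMat DQ Fr (pl i) (τ₀ i)) s := fun s => by
      rw [AlgHom.comp_apply, hinc, hevX]
    obtain ⟨hΦ, hS⟩ := map_PhiU_SigU_of_coords (d i) (hpr i).1 (ev.comp inc) hc
    rcases hτ with rfl | rfl
    · exact ⟨inc (PhiU (d i) a b), by rw [← hΦ]; rfl⟩
    · exact ⟨inc (SigU (d i) a b), by rw [← hS]; rfl⟩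
  obtain ⟨Ψ, hΨ, hΨl⟩ := exists_flat_of_tail ev hev (pairTests pl φ τ₀) hrange htail
  exact ⟨Ψ, hΨ, fun i s => by rw [hΨl, hevX], fun i => (hpr i).1, fun i => (hpr i).2⟩

/-- the universal pair of the `i`-th block is mapped to the tame pair at `pl i`. -/
theorem map_PhiU_SigU_comp {r : ℕ} (pl : I → Fr) (d : I → TameDatum 𝒪) (φ τ₀ : I → GQ)
    (Ψ : MvPowerSeries ((I × Fin 6) ⊕ Fin r) 𝒪 →ₐ[𝒪] FRing DQ Fr)
    (hΨ : ∀ i s, Ψ (X (Sum.inl (i, s))) =
      coords (d i) (framedMat DQ Fr (pl i) (φ i)) (framedMat DQ Fr (pl i) (τ₀ i)) s)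
    (i : I)
    (hpair : IsTamePair (d i) (framedMat DQ Fr (pl i) (φ i)) (framedMat DQ Fr (pl i) (τ₀ i)))
    (inc : P6 𝒪 →ₐ[𝒪] MvPowerSeries ((I × Fin 6) ⊕ Fin r) 𝒪)
    (hinc : ∀ s, inc (X s) = X (Sum.inl (i, s))) :
    (PhiU (d i)).map (fun f => Ψ (inc f)) = framedMat DQ Fr (pl i) (φ i) ∧
      (SigU (d i)).map (fun f => Ψ (inc f)) = framedMat DQ Fr (pl i) (τ₀ i) := by
  have hc : ∀ s, (Ψ.comp inc) (X s) = coords (d i) (framedMat DQ Fr (pl i) (φ i))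
      (framedMat DQ Fr (pl i) (τ₀ i)) s := fun s => by
    rw [AlgHom.comp_apply, hinc, hΨ]
  exact map_PhiU_SigU_of_coords (d i) hpair (Ψ.comp inc) hc

end Multi

end

end Fermat.Agent.GB.Def.FrameThetaMulti
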