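/-
GATE-B, node GB-B9-THETA file 2 (helper4): **the surjections `Θ_n : (𝒪⟦J⟧)⟦x₁,…,x_r⟧ ↠ R^□_{Q_n}`
for every `n` from the FROZEN S56 binders** (helper11's `FramedInstKummer.FramedSurjKummerConcl`
plugged into `FrameTheta.exists_theta_of_tail` / `exists_theta_P6`).

* `ThetaConcl`, `thetaConcl_of_kummerConcl`, `thetaConcl_frozen_SO/FL` : uniform `r`, the
  Taylor–Wiles sets of S56 for every `n`; for every deformation datum of the framed problem, Kummer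
  test elements at the framed places and ANY local coordinate homomorphism `ev : 𝒪⟦J⟧ → R^□` whose
  range contains the entries of the framed test matrices, `Θ` surjective with `Θ (C f) = ev f`;
* `P6ThetaConcl`, `p6ThetaConcl_of_kummerConcl`, `p6ThetaConcl_frozen_SO/FL` : the single-prime
  engine input `Su = {q}` in helper6's `P6` coordinates;
* `MultiP6ThetaConcl`, `multiP6ThetaConcl_of_kummerConcl`, `multiP6ThetaConcl_frozen_SO/FL` : the
  multi-prime engine input (rulings R4/R5), FLAT `Ψ : 𝒪⟦(I × Fin 6) ⊕ Fin r⟧ ↠ R^□_{Q_n}`.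
NEW file; imports only.
-/
import Mathlib
import Fermat.Agent.GB.Def.FrameTheta
import Fermat.Agent.GB.Def.FrameThetaMulti
import Fermat.Agent.GB.Def.FramedInstKummer

set_option autoImplicit false
set_option linter.unusedSectionVars false
set_option linter.style.haveILetI false

namespace Fermat.Agent.GB.Def.FrameThetaInst

open IsLocalRing MvPowerSeries Matrix Polynomial
open Fermat.Agent.S53_helper35 Fermat.Agent.S53_helper84 Fermat.Agent.GP.Tan.Linear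
open Fermat.Agent.GP.Tan.UnivInj Fermat.Agent.GP.Tan.Cocycle
open Fermat.Agent.GB.Def.FramedRing Fermat.Agent.GB.Def.FramedTan Fermat.Agent.GB.Def.Frame
open Fermat.Agent.GB.Def.FrameRep Fermat.Agent.GB.Def.FrameTheta

noncomputable section

/-! ### the frozen-binder family -/

section Family

open Fermat.Agent.GP.Tan.SelmerFrozen Fermat.Agent.GP.Core Fermat.Agent.GC.PT.LocDataQ
  Fermat.Agent.GB.Def.FramedNodes Fermat.Agent.GB.Def.FramedSel
  Fermat.Agent.GB.Def.FramedInst Fermat.Agent.GB.Def.LocGenInst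
  Fermat.Agent.GB.Def.FramedInstKummer

variable {𝒪 : Type} [CommRing 𝒪] [IsDomain 𝒪] [IsDiscreteValuationRing 𝒪]
  [IsAdicComplete (maximalIdeal 𝒪) 𝒪] [Finite (ResidueField 𝒪)]
  (p : ℕ) [Fact p.Prime] [Algebra (ZMod p) (ResidueField 𝒪)]
  (ρbar : ResidualGaloisRep (ResidueField 𝒪))

/-- **the conclusion in `Θ` form**: uniform `r`, the Taylor–Wiles sets of S56 for every `n`, and
for every deformation datum of the framed problem, Kummer test elements and ANY local coordinate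
homomorphism `ev : 𝒪⟦J⟧ → R^□` whose range contains the entries of the framed test matrices, a
surjection `Θ : (𝒪⟦J⟧)⟦x₁,…,x_r⟧ ↠ R^□` extending `ev`. -/
def ThetaConcl (base : Finset ℕ → ∀ ⦃A : Type⦄ [CommRing A] [IsLocalRing A]
    [Algebra 𝒪 A], GaloisRepAdic A → Prop) (S Smin Su : Finset ℕ) : Prop :=
  ∃ Sig : Finset Nat.Primes, (∀ q : Nat.Primes, (q : ℕ) ∈ Smin ∪ Su → q ∈ Sig) ∧
    ∃ r : ℕ, ∀ n : ℕ, ∃ qv : Fin r → ℕ, Function.Injective qv ∧
      (∀ i, (qv i).Prime ∧ qv i ∉ S ∧ p ^ (n + 1) ∣ qv i - 1) ∧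
      (∀ i, ∀ P : ValuationSubring (AlgebraicClosure ℚ), P.LiesOverPrime (qv i) →
        ∀ φ : AlgebraicClosure ℚ ≃ₐ[ℚ] AlgebraicClosure ℚ, P.IsFrobeniusAt φ (qv i) →
          ∃ α β : ResidueField 𝒪, α ≠ β ∧
            LinearMap.charpoly (ρbar.ρ φ) = (Polynomial.X - Polynomial.C α) *
              (Polynomial.X - Polynomial.C β)) ∧
      (∀ i, ∀ q ∈ Sig, ((q : Nat.Primes) : ℕ) ≠ qv i) ∧
      ∀ (DQ : GaloisRep.DeformationRingData 𝒪 ρbar
          (framedCond p base Smin Su (Finset.univ.image qv)))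
        (tests : FrPlaces Su (Finset.univ.image qv) (levelOfTW Sig qv) → Set S53_helper35.GQ),
        (∀ w : FrPlaces Su (Finset.univ.image qv) (levelOfTW Sig qv),
          ∃ φ τ₀ : S53_helper35.GQ,
            KummerTests (plOf (levelOfTW Sig qv) w.1) p φ τ₀ ∧
              φ ∈ tests w ∧ τ₀ ∈ tests w) →
        ∀ {J : Type} [Finite J]
          (ev : MvPowerSeries J 𝒪 →ₐ[𝒪]
            FRing DQ (FrPlaces Su (Finset.univ.image qv) (levelOfTW Sig qv))),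
          (∀ j, ev (MvPowerSeries.X j) ∈ maximalIdeal
            (FRing DQ (FrPlaces Su (Finset.univ.image qv) (levelOfTW Sig qv)))) →
          (∀ v, ∀ τ ∈ tests v, ∀ i j,
            framedMat DQ (FrPlaces Su (Finset.univ.image qv) (levelOfTW Sig qv)) v τ i j ∈
              Set.range (ev : MvPowerSeries J 𝒪 →
                FRing DQ (FrPlaces Su (Finset.univ.image qv) (levelOfTW Sig qv)))) →
          ∃ Θ : MvPowerSeries (Fin r) (MvPowerSeries J 𝒪) →ₐ[𝒪]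
              FRing DQ (FrPlaces Su (Finset.univ.image qv) (levelOfTW Sig qv)),
            Function.Surjective Θ ∧ ∀ f : MvPowerSeries J 𝒪, Θ (MvPowerSeries.C f) = ev f

/-- `Θ` form from helper11's Kummer form. -/
theorem thetaConcl_of_kummerConcl
    (base : Finset ℕ → ∀ ⦃A : Type⦄ [CommRing A] [IsLocalRing A] [Algebra 𝒪 A],
      GaloisRepAdic A → Prop)
    (S Smin Su : Finset ℕ) (h : FramedSurjKummerConcl p ρbar base S Smin Su) :
    ThetaConcl p ρbar base S Smin Su := by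
  obtain ⟨Sig, hSig, r, hr⟩ := h
  refine ⟨Sig, hSig, r, fun n => ?_⟩
  obtain ⟨qv, hinj, hTW1, hTW2, hTW3, hF⟩ := hr n
  refine ⟨qv, hinj, hTW1, hTW2, hTW3, ?_⟩
  intro DQ tests htests J _ ev hev hrange
  exact exists_theta_of_tail ev hev tests hrange (fun {A} _ _ _ _ _ _ _ _ _ hresA hr' =>
    hF DQ tests htests hresA hr')

/-- **strict-ordinary, frozen binders.** -/
theorem thetaConcl_frozen_SO (hp2 : p ≠ 2) (hp𝒪 : (p : 𝒪) ∈ maximalIdeal 𝒪)
    (habs : ρbar.IsAbsolutelyIrreducible)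
    (hdet : (GaloisRepAdic.ofResidualGaloisRep ρbar).DetIsCyclotomic p)
    (hsplit : ∀ σ : AlgebraicClosure ℚ ≃ₐ[ℚ] AlgebraicClosure ℚ,
      ∃ α β : ResidueField 𝒪, LinearMap.charpoly (ρbar.ρ σ) =
        (Polynomial.X - Polynomial.C α) * (Polynomial.X - Polynomial.C β))
    (hTW : ∀ (K : Type) [Field K] [Algebra (ResidueField 𝒪) K]
      (G : Subgroup (AlgebraicClosure ℚ ≃ₐ[ℚ] AlgebraicClosure ℚ)), G.index = 2 →
      ∀ V : Submodule K (ρbar.baseChange K).V,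
        (∀ σ ∈ G, ∀ x ∈ V, (ρbar.baseChange K).ρ σ x ∈ V) → V = ⊥ ∨ V = ⊤)
    (S Smin Su : Finset ℕ) (hpSmin : p ∈ Smin) (hpS : p ∈ S)
    (hmin : ∀ q : ℕ, q.Prime → q ≠ p → (q ∈ Smin ↔ ¬ ρbar.IsUnramifiedAt q))
    (hSu : ∀ q ∈ Su, q ∉ Smin) :
    ThetaConcl p ρbar (GaloisRep.strictOrdinaryCondition 𝒪 p) S Smin Su :=
  thetaConcl_of_kummerConcl p ρbar _ S Smin Su
    (framedSurjKummer_frozen_SO p ρbar hp2 hp𝒪 habs hdet hsplit hTW S Smin Su hpSmin hpS hmin hSu)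

/-- **flat, frozen binders.** -/
theorem thetaConcl_frozen_FL (hp2 : p ≠ 2)
    (habs : ρbar.IsAbsolutelyIrreducible)
    (hdet : (GaloisRepAdic.ofResidualGaloisRep ρbar).DetIsCyclotomic p)
    (hsplit : ∀ σ : AlgebraicClosure ℚ ≃ₐ[ℚ] AlgebraicClosure ℚ,
      ∃ α β : ResidueField 𝒪, LinearMap.charpoly (ρbar.ρ σ) =
        (Polynomial.X - Polynomial.C α) * (Polynomial.X - Polynomial.C β))
    (hTW : ∀ (K : Type) [Field K] [Algebra (ResidueField 𝒪) K]
      (G : Subgroup (AlgebraicClosure ℚ ≃ₐ[ℚ] AlgebraicClosure ℚ)), G.index = 2 →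
      ∀ V : Submodule K (ρbar.baseChange K).V,
        (∀ σ ∈ G, ∀ x ∈ V, (ρbar.baseChange K).ρ σ x ∈ V) → V = ⊥ ∨ V = ⊤)
    (S Smin Su : Finset ℕ) (hpSmin : p ∈ Smin) (hpS : p ∈ S)
    (hmin : ∀ q : ℕ, q.Prime → q ≠ p → (q ∈ Smin ↔ ¬ ρbar.IsUnramifiedAt q))
    (hSu : ∀ q ∈ Su, q ∉ Smin) :
    ThetaConcl p ρbar (GaloisRep.flatCondition 𝒪 p) S Smin Su :=
  thetaConcl_of_kummerConcl p ρbar _ S Smin Su
    (framedSurjKummer_frozen_FL p ρbar hp2 habs hdet hsplit hTW S Smin Su hpSmin hpS hmin hSu)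

end Family

/-! ### the single-prime engine input: `Su = {q}` -/

section Engine

open Fermat.Agent.GB.Local.ABig Fermat.Agent.GB.Def.FrameRes
open Fermat.Agent.GP.Tan.SelmerFrozen Fermat.Agent.GP.Core Fermat.Agent.GC.PT.LocDataQ
  Fermat.Agent.GC.Places
  Fermat.Agent.GB.Def.FramedNodes Fermat.Agent.GB.Def.FramedSel
  Fermat.Agent.GB.Def.FramedInst Fermat.Agent.GB.Def.LocGenInst
  Fermat.Agent.GB.Def.FramedInstKummer

variable {𝒪 : Type} [CommRing 𝒪] [IsDomain 𝒪] [IsDiscreteValuationRing 𝒪]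
  [IsAdicComplete (maximalIdeal 𝒪) 𝒪] [Finite (ResidueField 𝒪)]
  (p : ℕ) [Fact p.Prime] [Algebra (ZMod p) (ResidueField 𝒪)]
  (ρbar : ResidualGaloisRep (ResidueField 𝒪))

/-- Kummer test elements only depend on the prime. -/
theorem kummerTests_congr {q q' : ℕ} [Fact q.Prime] [Fact q'.Prime] (h : q = q')
    {φ τ₀ : S53_helper35.GQ} (ht : KummerTests q p φ τ₀) : KummerTests q' p φ τ₀ := by
  subst h
  exact ht

/-- **the single-prime engine input**: `Su = {q}`, `q = d.q`; uniform `r`, the Taylor–Wiles sets of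
S56 for every `n`, and for every deformation datum `DQ` of the framed problem and every pair of
Kummer test elements `(φ, τ₀)` at `q` with `ρ̄(φ) = ū`, the unique framed place `w` and a surjection
`Θ : (P6 𝒪)⟦x₁,…,x_r⟧ ↠ R^□_Q` mapping helper6's universal pair to the framed universal matrices
`(framedMat w φ, framedMat w τ₀)`, a tame pair satisfying the tame relation. -/
def P6ThetaConcl (base : Finset ℕ → ∀ ⦃A : Type⦄ [CommRing A] [IsLocalRing A]
    [Algebra 𝒪 A], GaloisRepAdic A → Prop) (S Smin : Finset ℕ) (d : TameDatum 𝒪)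
    [Fact d.q.Prime] : Prop :=
  ∃ Sig : Finset Nat.Primes, (∀ q : Nat.Primes, (q : ℕ) ∈ Smin ∪ {d.q} → q ∈ Sig) ∧
    ∃ r : ℕ, ∀ n : ℕ, ∃ qv : Fin r → ℕ, Function.Injective qv ∧
      (∀ i, (qv i).Prime ∧ qv i ∉ S ∧ p ^ (n + 1) ∣ qv i - 1) ∧
      (∀ i, ∀ P : ValuationSubring (AlgebraicClosure ℚ), P.LiesOverPrime (qv i) →
        ∀ φ : AlgebraicClosure ℚ ≃ₐ[ℚ] AlgebraicClosure ℚ, P.IsFrobeniusAt φ (qv i) →
          ∃ α β : ResidueField 𝒪, α ≠ β ∧
            LinearMap.charpoly (ρbar.ρ φ) = (Polynomial.X - Polynomial.C α) *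
              (Polynomial.X - Polynomial.C β)) ∧
      (∀ i, ∀ q ∈ Sig, ((q : Nat.Primes) : ℕ) ≠ qv i) ∧
      ∀ (DQ : GaloisRep.DeformationRingData 𝒪 ρbar
          (framedCond p base Smin {d.q} (Finset.univ.image qv)))
        (φ τ₀ : S53_helper35.GQ), KummerTests d.q p φ τ₀ →
        ρbar.ρ φ = residue 𝒪 d.u • (1 : Module.End (ResidueField 𝒪) ρbar.V) →
        ∃ (w : FrPlaces {d.q} (Finset.univ.image qv) (levelOfTW Sig qv))
          (Θ : MvPowerSeries (Fin r) (P6 𝒪) →ₐ[𝒪]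
            FRing DQ (FrPlaces {d.q} (Finset.univ.image qv) (levelOfTW Sig qv))),
          plOf (levelOfTW Sig qv) w.1 = d.q ∧ Function.Surjective Θ ∧
          (PhiU d).map (fun f => Θ (MvPowerSeries.C f)) = framedMat DQ _ w φ ∧
          (SigU d).map (fun f => Θ (MvPowerSeries.C f)) = framedMat DQ _ w τ₀ ∧
          IsTamePair d (framedMat DQ _ w φ) (framedMat DQ _ w τ₀) ∧
          framedMat DQ _ w φ * framedMat DQ _ w τ₀ =
            framedMat DQ _ w τ₀ ^ d.q * framedMat DQ _ w φ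

/-- the single-prime engine input from helper11's Kummer form. -/
theorem p6ThetaConcl_of_kummerConcl
    (base : Finset ℕ → ∀ ⦃A : Type⦄ [CommRing A] [IsLocalRing A] [Algebra 𝒪 A],
      GaloisRepAdic A → Prop)
    (hbase : BaseGlobal 𝒪 p base)
    (S Smin : Finset ℕ) (d : TameDatum 𝒪) [Fact d.q.Prime] (hpq : p ≠ d.q)
    (hunr : ρbar.IsUnramifiedAt d.q)
    (h : FramedSurjKummerConcl p ρbar base S Smin {d.q}) :
    P6ThetaConcl p ρbar base S Smin d := by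
  have hq : d.q.Prime := Fact.out
  obtain ⟨Sig, hSig, r, hr⟩ := h
  refine ⟨Sig, hSig, r, fun n => ?_⟩
  obtain ⟨qv, hinj, hTW1, hTW2, hTW3, hF⟩ := hr n
  refine ⟨qv, hinj, hTW1, hTW2, hTW3, ?_⟩
  intro DQ φ τ₀ hK hφu
  -- the framed place
  have hqSig : (⟨d.q, hq⟩ : Nat.Primes) ∈ Sig :=
    hSig ⟨d.q, hq⟩ (Finset.mem_union_right _ (Finset.mem_singleton_self _))
  have hqlev : (⟨d.q, hq⟩ : Nat.Primes) ∈ levelOfTW Sig qv := subset_levelOfTW Sig qv hqSig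
  have hqQ : d.q ∉ Finset.univ.image qv := by
    intro hmem
    obtain ⟨i, -, hi⟩ := Finset.mem_image.1 hmem
    exact hTW3 i _ hqSig hi.symm
  let w : FrPlaces {d.q} (Finset.univ.image qv) (levelOfTW Sig qv) :=
    ⟨(⟨⟨d.q, hq⟩, hqlev⟩ : ↥(levelOfTW Sig qv)), hqQ, Finset.mem_singleton_self _⟩
  have hplw : plOf (levelOfTW Sig qv) w.1 = d.q := rfl
  have hw : ∀ v : FrPlaces {d.q} (Finset.univ.image qv) (levelOfTW Sig qv), v = w := by
    intro v
    have hv : plOf (levelOfTW Sig qv) v.1 = d.q := Finset.mem_singleton.1 v.2.2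
    apply Subtype.ext
    show (show ↥(levelOfTW Sig qv) from v.1) = ⟨⟨d.q, hq⟩, hqlev⟩
    apply Subtype.ext
    apply Subtype.ext
    exact hv
  have hcyc : DQ.ρ.DetIsCyclotomic p := (hbase _ DQ.ρ DQ.isOfType.1).1
  obtain ⟨x, ζ, hx, hζ, hφ, hτ₀, hτ₀x⟩ := hK
  have htail : SurjTail DQ (FrPlaces {d.q} (Finset.univ.image qv) (levelOfTW Sig qv))
      (fun _ => {φ, τ₀}) r := by
    intro A _ _ _ _ _ _ _ _ _ hresA hr'
    refine hF DQ (fun _ => {φ, τ₀}) (fun v => ⟨φ, τ₀, ?_, Set.mem_insert _ _,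
      Set.mem_insert_of_mem _ (Set.mem_singleton _)⟩) hresA hr'
    have hv : plOf (levelOfTW Sig qv) v.1 = d.q := Finset.mem_singleton.1 v.2.2
    exact kummerTests_congr p hv.symm ⟨x, ζ, hx, hζ, hφ, hτ₀, hτ₀x⟩
  obtain ⟨Θ, hΘ, hΦ, hS, hpair, hrel⟩ := exists_theta_P6 w hw d (Fact.out : p.Prime) hq hpq hcyc
    hunr (padicPlace d.q) (Fermat.Agent.GP.Loc.TWLocalHlc.natCast_mem_nonunits_padicPlace d.q)
    hφ hτ₀ hφu htail
  exact ⟨w, Θ, hplw, hΘ, hΦ, hS, hpair, hrel⟩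

/-- **strict-ordinary, frozen binders, `Su = {q}`.** -/
theorem p6ThetaConcl_frozen_SO (hp2 : p ≠ 2) (hp𝒪 : (p : 𝒪) ∈ maximalIdeal 𝒪)
    (habs : ρbar.IsAbsolutelyIrreducible)
    (hdet : (GaloisRepAdic.ofResidualGaloisRep ρbar).DetIsCyclotomic p)
    (hsplit : ∀ σ : AlgebraicClosure ℚ ≃ₐ[ℚ] AlgebraicClosure ℚ,
      ∃ α β : ResidueField 𝒪, LinearMap.charpoly (ρbar.ρ σ) =
        (Polynomial.X - Polynomial.C α) * (Polynomial.X - Polynomial.C β))
    (hTW : ∀ (K : Type) [Field K] [Algebra (ResidueField 𝒪) K]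
      (G : Subgroup (AlgebraicClosure ℚ ≃ₐ[ℚ] AlgebraicClosure ℚ)), G.index = 2 →
      ∀ V : Submodule K (ρbar.baseChange K).V,
        (∀ σ ∈ G, ∀ x ∈ V, (ρbar.baseChange K).ρ σ x ∈ V) → V = ⊥ ∨ V = ⊤)
    (S Smin : Finset ℕ) (hpSmin : p ∈ Smin) (hpS : p ∈ S)
    (hmin : ∀ q : ℕ, q.Prime → q ≠ p → (q ∈ Smin ↔ ¬ ρbar.IsUnramifiedAt q))
    (d : TameDatum 𝒪) [Fact d.q.Prime] (hqSmin : d.q ∉ Smin) :
    P6ThetaConcl p ρbar (GaloisRep.strictOrdinaryCondition 𝒪 p) S Smin d := by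
  have hqp : d.q ≠ p := fun h => hqSmin (h ▸ hpSmin)
  have hunr : ρbar.IsUnramifiedAt d.q := by
    by_contra hram
    exact hqSmin ((hmin d.q Fact.out hqp).2 hram)
  exact p6ThetaConcl_of_kummerConcl p ρbar _ (baseGlobal_strictOrdinary 𝒪 p) S Smin d
    (fun h => hqp h.symm) hunr
    (framedSurjKummer_frozen_SO p ρbar hp2 hp𝒪 habs hdet hsplit hTW S Smin {d.q} hpSmin hpS hmin
      (fun q hq => by rw [Finset.mem_singleton.1 hq]; exact hqSmin))

/-- **flat, frozen binders, `Su = {q}`.** -/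
theorem p6ThetaConcl_frozen_FL (hp2 : p ≠ 2)
    (habs : ρbar.IsAbsolutelyIrreducible)
    (hdet : (GaloisRepAdic.ofResidualGaloisRep ρbar).DetIsCyclotomic p)
    (hsplit : ∀ σ : AlgebraicClosure ℚ ≃ₐ[ℚ] AlgebraicClosure ℚ,
      ∃ α β : ResidueField 𝒪, LinearMap.charpoly (ρbar.ρ σ) =
        (Polynomial.X - Polynomial.C α) * (Polynomial.X - Polynomial.C β))
    (hTW : ∀ (K : Type) [Field K] [Algebra (ResidueField 𝒪) K]
      (G : Subgroup (AlgebraicClosure ℚ ≃ₐ[ℚ] AlgebraicClosure ℚ)), G.index = 2 →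
      ∀ V : Submodule K (ρbar.baseChange K).V,
        (∀ σ ∈ G, ∀ x ∈ V, (ρbar.baseChange K).ρ σ x ∈ V) → V = ⊥ ∨ V = ⊤)
    (S Smin : Finset ℕ) (hpSmin : p ∈ Smin) (hpS : p ∈ S)
    (hmin : ∀ q : ℕ, q.Prime → q ≠ p → (q ∈ Smin ↔ ¬ ρbar.IsUnramifiedAt q))
    (d : TameDatum 𝒪) [Fact d.q.Prime] (hqSmin : d.q ∉ Smin) :
    P6ThetaConcl p ρbar (GaloisRep.flatCondition 𝒪 p) S Smin d := by
  have hqp : d.q ≠ p := fun h => hqSmin (h ▸ hpSmin)
  have hunr : ρbar.IsUnramifiedAt d.q := by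
    by_contra hram
    exact hqSmin ((hmin d.q Fact.out hqp).2 hram)
  exact p6ThetaConcl_of_kummerConcl p ρbar _ (baseGlobal_flat 𝒪 p) S Smin d
    (fun h => hqp h.symm) hunr
    (framedSurjKummer_frozen_FL p ρbar hp2 habs hdet hsplit hTW S Smin {d.q} hpSmin hpS hmin
      (fun q hq => by rw [Finset.mem_singleton.1 hq]; exact hqSmin))

end Engine

/-! ### several framed places (rulings R4/R5): `Su` arbitrary, `P6` coordinates at each place -/

section MultiEngine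

open Fermat.Agent.GB.Local.ABig Fermat.Agent.GB.Def.FrameRes
open Fermat.Agent.GP.Tan.SelmerFrozen Fermat.Agent.GP.Core Fermat.Agent.GC.PT.LocDataQ
  Fermat.Agent.GC.Places
  Fermat.Agent.GB.Def.FramedNodes Fermat.Agent.GB.Def.FramedSel
  Fermat.Agent.GB.Def.FramedInst Fermat.Agent.GB.Def.LocGenInst
  Fermat.Agent.GB.Def.FramedInstKummer Fermat.Agent.GB.Def.FrameThetaMulti

variable {𝒪 : Type} [CommRing 𝒪] [IsDomain 𝒪] [IsDiscreteValuationRing 𝒪]
  [IsAdicComplete (maximalIdeal 𝒪) 𝒪] [Finite (ResidueField 𝒪)]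
  (p : ℕ) [Fact p.Prime] [Algebra (ZMod p) (ResidueField 𝒪)]
  (ρbar : ResidualGaloisRep (ResidueField 𝒪))

/-- **the multi-prime engine input** (`Su` = all framed primes, each with scalar residual
Frobenius): uniform `r`, the Taylor–Wiles sets of S56 for every `n`, and for every deformation
datum `DQ` of the framed problem, every enumeration `pl : I → (framed places)` (onto), tame data
`d i` at the prime under `pl i`, Kummer test elements `(φ i, τ₀ i)` with `ρ̄(φ i) = ū_i`: a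
surjection `Ψ : 𝒪⟦(I × Fin 6) ⊕ Fin r⟧ ↠ R^□_Q` from the FLAT power series ring, mapping
`X (inl (i, s))` to the `s`-th traceless coordinate of the tame pair at `pl i`. -/
def MultiP6ThetaConcl (base : Finset ℕ → ∀ ⦃A : Type⦄ [CommRing A] [IsLocalRing A]
    [Algebra 𝒪 A], GaloisRepAdic A → Prop) (S Smin Su : Finset ℕ) : Prop :=
  ∃ Sig : Finset Nat.Primes, (∀ q : Nat.Primes, (q : ℕ) ∈ Smin ∪ Su → q ∈ Sig) ∧
    ∃ r : ℕ, ∀ n : ℕ, ∃ qv : Fin r → ℕ, Function.Injective qv ∧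
      (∀ i, (qv i).Prime ∧ qv i ∉ S ∧ p ^ (n + 1) ∣ qv i - 1) ∧
      (∀ i, ∀ P : ValuationSubring (AlgebraicClosure ℚ), P.LiesOverPrime (qv i) →
        ∀ φ : AlgebraicClosure ℚ ≃ₐ[ℚ] AlgebraicClosure ℚ, P.IsFrobeniusAt φ (qv i) →
          ∃ α β : ResidueField 𝒪, α ≠ β ∧
            LinearMap.charpoly (ρbar.ρ φ) = (Polynomial.X - Polynomial.C α) *
              (Polynomial.X - Polynomial.C β)) ∧
      (∀ i, ∀ q ∈ Sig, ((q : Nat.Primes) : ℕ) ≠ qv i) ∧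
      ∀ (DQ : GaloisRep.DeformationRingData 𝒪 ρbar
          (framedCond p base Smin Su (Finset.univ.image qv)))
        {I : Type} [Finite I]
        (pl : I → FrPlaces Su (Finset.univ.image qv) (levelOfTW Sig qv))
        (_ : Function.Surjective pl) (d : I → TameDatum 𝒪)
        (_ : ∀ i, (d i).q = plOf (levelOfTW Sig qv) (pl i).1)
        (φ τ₀ : I → S53_helper35.GQ)
        (_ : ∀ i, KummerTests (plOf (levelOfTW Sig qv) (pl i).1) p (φ i) (τ₀ i))
        (_ : ∀ i, ρbar.ρ (φ i) =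
          residue 𝒪 (d i).u • (1 : Module.End (ResidueField 𝒪) ρbar.V)),
        ∃ Ψ : MvPowerSeries ((I × Fin 6) ⊕ Fin r) 𝒪 →ₐ[𝒪]
            FRing DQ (FrPlaces Su (Finset.univ.image qv) (levelOfTW Sig qv)),
          Function.Surjective Ψ ∧
          (∀ i s, Ψ (MvPowerSeries.X (Sum.inl (i, s))) =
            coords (d i) (framedMat DQ _ (pl i) (φ i)) (framedMat DQ _ (pl i) (τ₀ i)) s) ∧
          (∀ i, IsTamePair (d i) (framedMat DQ _ (pl i) (φ i)) (framedMat DQ _ (pl i) (τ₀ i))) ∧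
          ∀ i, framedMat DQ _ (pl i) (φ i) * framedMat DQ _ (pl i) (τ₀ i) =
            framedMat DQ _ (pl i) (τ₀ i) ^ (d i).q * framedMat DQ _ (pl i) (φ i)

/-- the multi-prime engine input from helper11's Kummer form. -/
theorem multiP6ThetaConcl_of_kummerConcl
    (base : Finset ℕ → ∀ ⦃A : Type⦄ [CommRing A] [IsLocalRing A] [Algebra 𝒪 A],
      GaloisRepAdic A → Prop)
    (hbase : BaseGlobal 𝒪 p base)
    (S Smin Su : Finset ℕ) (hpSu : ∀ q ∈ Su, p ≠ q)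
    (hunr : ∀ q ∈ Su, q.Prime → ρbar.IsUnramifiedAt q)
    (h : FramedSurjKummerConcl p ρbar base S Smin Su) :
    MultiP6ThetaConcl p ρbar base S Smin Su := by
  obtain ⟨Sig, hSig, r, hr⟩ := h
  refine ⟨Sig, hSig, r, fun n => ?_⟩
  obtain ⟨qv, hinj, hTW1, hTW2, hTW3, hF⟩ := hr n
  refine ⟨qv, hinj, hTW1, hTW2, hTW3, ?_⟩
  intro DQ I _ pl hpl d hd φ τ₀ hK hφu
  have hcyc : DQ.ρ.DetIsCyclotomic p := (hbase _ DQ.ρ DQ.isOfType.1).1
  have hmemSu : ∀ i, (d i).q ∈ Su := fun i => by rw [hd i]; exact (pl i).2.2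
  have hqpr : ∀ i, (d i).q.Prime := fun i => by
    rw [hd i]
    exact (Fact.out : (plOf (levelOfTW Sig qv) (pl i).1).Prime)
  -- the places and the local facts, with the prime spelled `(d i).q`
  have hloc : ∀ i, ∃ P : ValuationSubring (AlgebraicClosure ℚ), P.LiesOverPrime (d i).q ∧
      P.IsFrobeniusAt (φ i) (d i).q ∧ τ₀ i ∈ P.inertiaSubgroupIn ℚ := by
    intro i
    obtain ⟨x, ζ, hx, hζ, hφ, hτ, hτx⟩ := hK i
    have h1 : ∃ P : ValuationSubring (AlgebraicClosure ℚ),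
        P.LiesOverPrime (plOf (levelOfTW Sig qv) (pl i).1) ∧
        P.IsFrobeniusAt (φ i) (plOf (levelOfTW Sig qv) (pl i).1) ∧
        τ₀ i ∈ P.inertiaSubgroupIn ℚ :=
      ⟨padicPlace (plOf (levelOfTW Sig qv) (pl i).1),
        Fermat.Agent.GP.Loc.TWLocalHlc.natCast_mem_nonunits_padicPlace _, hφ, hτ⟩
    rw [← hd i] at h1
    exact h1
  choose P hP hφ hτ using hloc
  have htail : SurjTail DQ (FrPlaces Su (Finset.univ.image qv) (levelOfTW Sig qv))
      (pairTests pl φ τ₀) r := by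
    intro A _ _ _ _ _ _ _ _ _ hresA hr'
    refine hF DQ (pairTests pl φ τ₀) (fun w => ?_) hresA hr'
    obtain ⟨i, rfl⟩ := hpl w
    exact ⟨φ i, τ₀ i, hK i, mem_pairTests_left pl φ τ₀ i, mem_pairTests_right pl φ τ₀ i⟩
  exact exists_theta_multiP6 pl d (Fact.out : p.Prime) hqpr (fun i => hpSu _ (hmemSu i)) hcyc
    (fun i => hunr _ (hmemSu i) (hqpr i)) P hP φ τ₀ hφ hτ hφu htail

/-- **strict-ordinary, frozen binders, several framed places.** -/
theorem multiP6ThetaConcl_frozen_SO (hp2 : p ≠ 2) (hp𝒪 : (p : 𝒪) ∈ maximalIdeal 𝒪)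
    (habs : ρbar.IsAbsolutelyIrreducible)
    (hdet : (GaloisRepAdic.ofResidualGaloisRep ρbar).DetIsCyclotomic p)
    (hsplit : ∀ σ : AlgebraicClosure ℚ ≃ₐ[ℚ] AlgebraicClosure ℚ,
      ∃ α β : ResidueField 𝒪, LinearMap.charpoly (ρbar.ρ σ) =
        (Polynomial.X - Polynomial.C α) * (Polynomial.X - Polynomial.C β))
    (hTW : ∀ (K : Type) [Field K] [Algebra (ResidueField 𝒪) K]
      (G : Subgroup (AlgebraicClosure ℚ ≃ₐ[ℚ] AlgebraicClosure ℚ)), G.index = 2 →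
      ∀ V : Submodule K (ρbar.baseChange K).V,
        (∀ σ ∈ G, ∀ x ∈ V, (ρbar.baseChange K).ρ σ x ∈ V) → V = ⊥ ∨ V = ⊤)
    (S Smin Su : Finset ℕ) (hpSmin : p ∈ Smin) (hpS : p ∈ S)
    (hmin : ∀ q : ℕ, q.Prime → q ≠ p → (q ∈ Smin ↔ ¬ ρbar.IsUnramifiedAt q))
    (hSu : ∀ q ∈ Su, q ∉ Smin) :
    MultiP6ThetaConcl p ρbar (GaloisRep.strictOrdinaryCondition 𝒪 p) S Smin Su := by
  have hqp : ∀ q ∈ Su, q ≠ p := fun q hq h => hSu q hq (h ▸ hpSmin)
  refine multiP6ThetaConcl_of_kummerConcl p ρbar _ (baseGlobal_strictOrdinary 𝒪 p) S Smin Su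
    (fun q hq h => hqp q hq h.symm) (fun q hq hqpr => ?_)
    (framedSurjKummer_frozen_SO p ρbar hp2 hp𝒪 habs hdet hsplit hTW S Smin Su hpSmin hpS hmin hSu)
  by_contra hram
  exact hSu q hq ((hmin q hqpr (hqp q hq)).2 hram)

/-- **flat, frozen binders, several framed places.** -/
theorem multiP6ThetaConcl_frozen_FL (hp2 : p ≠ 2)
    (habs : ρbar.IsAbsolutelyIrreducible)
    (hdet : (GaloisRepAdic.ofResidualGaloisRep ρbar).DetIsCyclotomic p)
    (hsplit : ∀ σ : AlgebraicClosure ℚ ≃ₐ[ℚ] AlgebraicClosure ℚ,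
      ∃ α β : ResidueField 𝒪, LinearMap.charpoly (ρbar.ρ σ) =
        (Polynomial.X - Polynomial.C α) * (Polynomial.X - Polynomial.C β))
    (hTW : ∀ (K : Type) [Field K] [Algebra (ResidueField 𝒪) K]
      (G : Subgroup (AlgebraicClosure ℚ ≃ₐ[ℚ] AlgebraicClosure ℚ)), G.index = 2 →
      ∀ V : Submodule K (ρbar.baseChange K).V,
        (∀ σ ∈ G, ∀ x ∈ V, (ρbar.baseChange K).ρ σ x ∈ V) → V = ⊥ ∨ V = ⊤)
    (S Smin Su : Finset ℕ) (hpSmin : p ∈ Smin) (hpS : p ∈ S)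
    (hmin : ∀ q : ℕ, q.Prime → q ≠ p → (q ∈ Smin ↔ ¬ ρbar.IsUnramifiedAt q))
    (hSu : ∀ q ∈ Su, q ∉ Smin) :
    MultiP6ThetaConcl p ρbar (GaloisRep.flatCondition 𝒪 p) S Smin Su := by
  have hqp : ∀ q ∈ Su, q ≠ p := fun q hq h => hSu q hq (h ▸ hpSmin)
  refine multiP6ThetaConcl_of_kummerConcl p ρbar _ (baseGlobal_flat 𝒪 p) S Smin Su
    (fun q hq h => hqp q hq h.symm) (fun q hq hqpr => ?_)
    (framedSurjKummer_frozen_FL p ρbar hp2 habs hdet hsplit hTW S Smin Su hpSmin hpS hmin hSu)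
  by_contra hram
  exact hSu q hq ((hmin q hqpr (hqp q hq)).2 hram)

end MultiEngine

end

end Fermat.Agent.GB.Def.FrameThetaInst
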