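/-
GATE-B / B2-COND (helper93): basic tools for "the S56-shaped conditions are deformation conditions".

* `finite_of_isArtinianTestAlgebra` : over a base with finite residue field every Artinian test
  algebra is a FINITE ring.
* coordinates of `1 ⊗ v` in a base change of a free module; injectivity of `v ↦ 1 ⊗ v` and of
  `f ↦ f.baseChange B` along an injective ring hom; the joint forms for a fibre product `P ↪ A × B`.
* `IsSubquotPow.of_injective`, `IsSubquotPow.of_pi_surjective`.
* `flatMod_prod` : the frozen finite-flat-model shape `FlatMod` passes to products.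
-/
import Mathlib
import Fermat.Prelude.Def_GaloisRep_DeformationCondition
import Fermat.Prelude.Def_GaloisRep_Flat
import Fermat.Agent.GH.S32.FlatMod

set_option autoImplicit false
set_option linter.unusedSectionVars false

open scoped TensorProduct
open IsLocalRing

namespace Fermat.Agent.GB.Def.Cond

local notation "GQ" => (AlgebraicClosure ℚ ≃ₐ[ℚ] AlgebraicClosure ℚ)

/-! ### Artinian test algebras are finite rings -/

section Finite

variable {𝒪 : Type} [CommRing 𝒪] [IsLocalRing 𝒪] [Finite (ResidueField 𝒪)]
  {A : Type} [CommRing A] [IsLocalRing A] [Algebra 𝒪 A]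

/-- the residue field of a test algebra is finite. -/
theorem finite_residueField_of_residue_surjective
    (h : Function.Surjective (IsLocalRing.residue A ∘ algebraMap 𝒪 A))
    (hloc : IsLocalHom (algebraMap 𝒪 A)) : Finite (ResidueField A) := by
  have := hloc
  refine Finite.of_surjective
    (fun x : ResidueField 𝒪 => ResidueField.map (algebraMap 𝒪 A) x) fun y => ?_
  obtain ⟨a, ha⟩ := h y
  refine ⟨IsLocalRing.residue 𝒪 a, ?_⟩
  show ResidueField.map (algebraMap 𝒪 A) (IsLocalRing.residue 𝒪 a) = y
  rw [ResidueField.map_residue]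
  exact ha

/-- a local Artinian ring with finite residue field is finite. -/
theorem finite_of_isArtinianRing_of_finite_residueField [IsArtinianRing A]
    [Finite (ResidueField A)] : Finite A := by
  obtain ⟨n, hn⟩ := (isArtinianRing_iff_isNilpotent_maximalIdeal A).mp inferInstance
  have hfg : (maximalIdeal A).FG := IsNoetherian.noetherian _
  have h0 : Finite (A ⧸ maximalIdeal A) := ‹Finite (ResidueField A)›
  have h1 : Finite (A ⧸ maximalIdeal A ^ n) := Ideal.finite_quotient_pow hfg n
  rw [hn] at h1
  exact Finite.of_equiv _ (RingEquiv.quotientBot A).toEquiv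

/-- **Artinian test algebras over a base with finite residue field are finite rings.** -/
theorem finite_of_isArtinianTestAlgebra (hA : GaloisRep.IsArtinianTestAlgebra 𝒪 A) : Finite A := by
  have := hA.isArtinian
  have := finite_residueField_of_residue_surjective hA.residue_surjective hA.isLocalHom
  exact finite_of_isArtinianRing_of_finite_residueField

end Finite

/-! ### coordinates in a base change -/

section Coord

variable {A B : Type*} [CommRing A] [CommRing B] [Algebra A B]
  {V : Type*} [AddCommGroup V] [Module A V] [Module.Free A V] [Module.Finite A V]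

/-- coordinates of `1 ⊗ v` in the base-changed basis. -/
theorem repr_one_tmul {ι : Type*} [Fintype ι] [DecidableEq ι] (b : Module.Basis ι A V) (v : V)
    (i : ι) : (b.baseChange B).repr ((1 : B) ⊗ₜ[A] v) i = algebraMap A B (b.repr v i) := by
  rw [Module.Basis.baseChange_repr_tmul, Algebra.smul_def, mul_one]

/-- `1 ⊗ v = 0` iff all coordinates of `v` die in `B`. -/
theorem one_tmul_eq_zero_iff {ι : Type*} [Fintype ι] [DecidableEq ι] (b : Module.Basis ι A V)
    (v : V) : (1 : B) ⊗ₜ[A] v = 0 ↔ ∀ i, algebraMap A B (b.repr v i) = 0 := by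
  constructor
  · intro h i
    rw [← repr_one_tmul (B := B) b v i, h, map_zero, Finsupp.zero_apply]
  · intro h
    apply (b.baseChange B).repr.injective
    ext i
    rw [repr_one_tmul, h i, map_zero, Finsupp.zero_apply]

/-- along an injective ring hom, `v ↦ 1 ⊗ v` is injective on a finite free module. -/
theorem one_tmul_injective (hinj : Function.Injective (algebraMap A B)) :
    Function.Injective (fun v : V => (1 : B) ⊗ₜ[A] v) := by
  classical
  intro v w hvw
  have h0 : (1 : B) ⊗ₜ[A] (v - w) = 0 := by
    rw [TensorProduct.tmul_sub]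
    exact sub_eq_zero.mpr hvw
  let b := Module.Free.chooseBasis A V
  have h1 := (one_tmul_eq_zero_iff (B := B) b (v - w)).mp h0
  have h2 : v - w = 0 := by
    apply b.repr.injective
    ext i
    rw [map_zero, Finsupp.zero_apply]
    exact hinj (by rw [h1 i, map_zero])
  exact sub_eq_zero.mp h2

/-- along an injective ring hom, `f ↦ f.baseChange B` is injective on endomorphisms of a finite
free module. -/
theorem baseChange_injective (hinj : Function.Injective (algebraMap A B)) {f g : Module.End A V}
    (h : f.baseChange B = g.baseChange B) : f = g := by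
  refine LinearMap.ext fun v => one_tmul_injective (B := B) hinj ?_
  show (1 : B) ⊗ₜ[A] f v = (1 : B) ⊗ₜ[A] g v
  rw [← LinearMap.baseChange_tmul, ← LinearMap.baseChange_tmul, h]

end Coord

section CoordTwo

variable {P A B : Type*} [CommRing P] [CommRing A] [CommRing B] [Algebra P A] [Algebra P B]
  {V : Type*} [AddCommGroup V] [Module P V] [Module.Free P V] [Module.Finite P V]

/-- for a jointly injective pair `P → A`, `P → B`: `v ↦ (1 ⊗ v, 1 ⊗ v)` is injective. -/
theorem one_tmul_pair_injective
    (hinj : Function.Injective (fun x : P => (algebraMap P A x, algebraMap P B x))) :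
    Function.Injective (fun v : V => ((1 : A) ⊗ₜ[P] v, (1 : B) ⊗ₜ[P] v)) := by
  classical
  intro v w hvw
  have hA : (1 : A) ⊗ₜ[P] (v - w) = 0 := by
    rw [TensorProduct.tmul_sub]
    exact sub_eq_zero.mpr (congrArg Prod.fst hvw)
  have hB : (1 : B) ⊗ₜ[P] (v - w) = 0 := by
    rw [TensorProduct.tmul_sub]
    exact sub_eq_zero.mpr (congrArg Prod.snd hvw)
  let b := Module.Free.chooseBasis P V
  have h1 := (one_tmul_eq_zero_iff (B := A) b (v - w)).mp hA
  have h2 := (one_tmul_eq_zero_iff (B := B) b (v - w)).mp hB
  have h3 : v - w = 0 := by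
    apply b.repr.injective
    ext i
    rw [map_zero, Finsupp.zero_apply]
    apply hinj
    show (algebraMap P A _, algebraMap P B _) = (algebraMap P A 0, algebraMap P B 0)
    rw [h1 i, h2 i, map_zero, map_zero]
  exact sub_eq_zero.mp h3

/-- for a jointly injective pair: two endomorphisms with the same base changes are equal. -/
theorem baseChange_pair_injective
    (hinj : Function.Injective (fun x : P => (algebraMap P A x, algebraMap P B x)))
    {f g : Module.End P V} (hA : f.baseChange A = g.baseChange A)
    (hB : f.baseChange B = g.baseChange B) : f = g := by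
  refine LinearMap.ext fun v => one_tmul_pair_injective (A := A) (B := B) hinj ?_
  show ((1 : A) ⊗ₜ[P] f v, (1 : B) ⊗ₜ[P] f v) = ((1 : A) ⊗ₜ[P] g v, (1 : B) ⊗ₜ[P] g v)
  have h1 : (1 : A) ⊗ₜ[P] f v = (1 : A) ⊗ₜ[P] g v := by
    rw [← LinearMap.baseChange_tmul, ← LinearMap.baseChange_tmul, hA]
  have h2 : (1 : B) ⊗ₜ[P] f v = (1 : B) ⊗ₜ[P] g v := by
    rw [← LinearMap.baseChange_tmul, ← LinearMap.baseChange_tmul, hB]
  rw [h1, h2]

end CoordTwo

/-! ### two more constructors of `IsSubquotPow` -/

section Subquot

open Fermat.Agent.GH.S32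

variable {G : Type*} {M M' : Type*} [AddCommGroup M] [AddCommGroup M']

/-- an equivariant injection `M' ↪ M` exhibits `M'` as a subquotient of `M`. -/
theorem isSubquotPow_of_injective {act : G → M → M} {act' : G → M' → M'} (j : M' →+ M)
    (hj : Function.Injective j) (heq : ∀ g x, j (act' g x) = act g (j x)) :
    IsSubquotPow act act' := by
  apply isSubquotPow_of_isSubquotGraph (ι := Unit)
  let φ : ((Unit → M) × M') →+ M :=
    { toFun := fun q => q.1 () - j q.2
      map_zero' := by simp
      map_add' := fun a b => by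
        simp only [Prod.fst_add, Prod.snd_add, Pi.add_apply, map_add]
        abel }
  refine ⟨φ.ker, ?_, ?_, ?_⟩
  · intro y
    exact ⟨fun _ => j y, by simp [φ, AddMonoidHom.mem_ker]⟩
  · intro y hy
    have h1 : (0 : M) - j y = 0 := hy
    rw [zero_sub, neg_eq_zero] at h1
    exact hj (by rw [h1, map_zero])
  · intro g q hq
    have h1 : q.1 () - j q.2 = 0 := hq
    show act g (q.1 ()) - j (act' g q.2) = 0
    rw [heq, sub_eq_zero.mp h1, sub_self]

/-- an equivariant surjection from a finite power. -/
theorem isSubquotPow_of_pi_surjective {ι : Type*} [Finite ι] {act : G → M → M}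
    {act' : G → M' → M'} (F : (ι → M) →+ M') (hF : Function.Surjective F)
    (heq : ∀ g x, F (fun i => act g (x i)) = act' g (F x)) : IsSubquotPow act act' := by
  refine IsSubquotPow.of_fintype (ι := ι) (⊤ : AddSubgroup (ι → M))
    (F.comp (AddSubgroup.subtype ⊤)) ?_ (fun _ _ _ => AddSubgroup.mem_top _) ?_
  · intro y
    obtain ⟨x, rfl⟩ := hF y
    exact ⟨⟨x, AddSubgroup.mem_top _⟩, rfl⟩
  · intro g x
    exact heq g x.1

end Subquot

/-! ### products of finite flat models -/

section Prod

open Fermat.Agent.GH.S32 Fermat.Agent.GH.Closure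

variable {p : ℕ} [Fact p.Prime]

/-- **`FlatMod` passes to products.** -/
theorem flatMod_prod {M₁ M₂ : Type} [AddCommGroup M₁] [AddCommGroup M₂]
    {act₁ : GQ → M₁ → M₁} {act₂ : GQ → M₂ → M₂}
    (h₁ : FlatMod p M₁ act₁) (h₂ : FlatMod p M₂ act₂) :
    FlatMod p (M₁ × M₂) (fun σ x => (act₁ σ x.1, act₂ σ x.2)) := by
  have hfin₁ : Finite M₁ := finite_of_flatMod h₁
  have hfin₂ : Finite M₂ := finite_of_flatMod h₂
  obtain ⟨H₁, hH₁⟩ := isStableOrder_of_flatMod h₁
  obtain ⟨H₂, hH₂⟩ := isStableOrder_of_flatMod h₂
  let a₁ : GQ → M₁ →+ M₁ := fun σ =>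
    { toFun := act₁ σ
      map_zero' := hH₁.act_zero σ
      map_add' := act_add_of_isStableOrder hH₁ σ }
  let a₂ : GQ → M₂ →+ M₂ := fun σ =>
    { toFun := act₂ σ
      map_zero' := hH₂.act_zero σ
      map_add' := act_add_of_isStableOrder hH₂ σ }
  have k₁ : HasFinOrder p a₁ := hasFinOrder_of_isStableOrder (act := a₁) hH₁
  have k₂ : HasFinOrder p a₂ := hasFinOrder_of_isStableOrder (act := a₂) hH₂
  obtain ⟨H, hH, hfin⟩ := k₁.prod k₂
  exact flatMod_of_isStableOrder (isStableOrder_of_isDeltaOrder hH hfin)

end Prod

end Fermat.Agent.GB.Def.Cond
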