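/-
GATE-B / B2-COND (helper93): the three "equational" conjuncts of the S56-shaped conditions
(`DetIsCyclotomic p`, `IsUnramifiedAt q`, `IsUnipotentOnInertiaAt q`) descend along injective local
homs, along fibre products (jointly injective pairs) and from the quotients `A ⧸ 𝔪 ^ k` of a
Noetherian local ring.

Key remark for `DetIsCyclotomic` over a ring with `p ^ N = 0`: the family of congruences
`det ρ(σ) ≡ a mod p ^ n` is equivalent to the EQUALITIES `det ρ(σ) = a` for `σ = (·)^a` on `μ_{p^N}`.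
-/
import Fermat.Agent.GB.Def.CondBasic
import Fermat.Agent.GP.Tan.BaseChangeCond
import Fermat.Agent.GS.DetCyc
import Fermat.Agent.GP.Loc.StrictOrdShape
import Fermat.Agent.S53_helper35.DefCond2

set_option autoImplicit false
set_option linter.unusedSectionVars false

open scoped TensorProduct
open IsLocalRing

namespace Fermat.Agent.GB.Def.Cond

local notation "GQ" => (AlgebraicClosure ℚ ≃ₐ[ℚ] AlgebraicClosure ℚ)
local notation "Qb" => AlgebraicClosure ℚ

/-! ### exponents of the cyclotomic action -/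

section Exponents

variable {p : ℕ} [Fact p.Prime]

/-- two exponents describing `σ` on `μ_{p^n}` have congruent images in any ring. -/
theorem natCast_sub_mem_span_of_exponents {T : Type} [CommRing T] [IsLocalRing T] {n a a' : ℕ}
    (σ : GQ) (h : ∀ μ : Qb, μ ^ p ^ n = 1 → σ μ = μ ^ a)
    (h' : ∀ μ : Qb, μ ^ p ^ n = 1 → σ μ = μ ^ a') :
    (a : T) - (a' : T) ∈ Ideal.span {((p ^ n : ℕ) : T)} :=
  Fermat.Agent.GS.DetCyc.natCast_sub_mem_span_of_zmod_eq
    ((Fermat.Agent.GS.DetCyc.cycMod_eq_of_forall p n σ a h).symm.trans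
      (Fermat.Agent.GS.DetCyc.cycMod_eq_of_forall p n σ a' h'))

/-- an exponent at level `m` is an exponent at every level `n ≤ m`. -/
theorem exponent_of_le {n m a : ℕ} (hnm : n ≤ m) {σ : GQ}
    (h : ∀ μ : Qb, μ ^ p ^ m = 1 → σ μ = μ ^ a) : ∀ μ : Qb, μ ^ p ^ n = 1 → σ μ = μ ^ a := by
  intro μ hμ
  refine h μ ?_
  obtain ⟨d, rfl⟩ := Nat.exists_eq_add_of_le hnm
  rw [pow_add, pow_mul, hμ, one_pow]

/-- exponents exist at every level. -/
theorem exists_exponent (m : ℕ) (σ : GQ) :
    ∃ a : ℕ, ∀ μ : Qb, μ ^ p ^ m = 1 → σ μ = μ ^ a :=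
  Fermat.Agent.GP.Loc.StrictOrdShape.exists_cyclotomic_exponent (p ^ m)
    (pow_ne_zero _ (Fact.out : p.Prime).ne_zero) σ

/-- **congruences ⟸ equalities at a level where `p ^ N = 0`.**  If `x = a' y` for every exponent
`a'` of `σ` at level `N` and `p ^ N = 0`, then `x - a y ∈ (p ^ n)` for every exponent `a` at any
level `n`. -/
theorem sub_natCast_mul_mem_span_of_eq {T : Type} [CommRing T] [IsLocalRing T] {N : ℕ}
    (_hN : (p : T) ^ N = 0) (σ : GQ) (x y : T)
    (hxy : ∀ a' : ℕ, (∀ μ : Qb, μ ^ p ^ N = 1 → σ μ = μ ^ a') → x = (a' : T) * y)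
    (n a : ℕ) (ha : ∀ μ : Qb, μ ^ p ^ n = 1 → σ μ = μ ^ a) :
    x - (a : T) * y ∈ Ideal.span {((p ^ n : ℕ) : T)} := by
  obtain ⟨a', ha'⟩ := exists_exponent (p := p) (max n N) σ
  have h1 := hxy a' (exponent_of_le (le_max_right n N) ha')
  have h2 : (a' : T) - (a : T) ∈ Ideal.span {((p ^ n : ℕ) : T)} :=
    natCast_sub_mem_span_of_exponents σ (exponent_of_le (le_max_left n N) ha') ha
  have e : x - (a : T) * y = ((a' : T) - (a : T)) * y := by rw [h1]; ring
  rw [e]
  exact Ideal.mul_mem_right _ _ h2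

/-- **equalities ⟸ congruences at a level where `p ^ N = 0`.** -/
theorem eq_natCast_mul_of_mem_span {T : Type} [CommRing T] {N : ℕ}
    (hN : (p : T) ^ N = 0) {x y : T} {a : ℕ}
    (h : x - (a : T) * y ∈ Ideal.span {((p ^ N : ℕ) : T)}) : x = (a : T) * y := by
  rw [Nat.cast_pow, hN, Ideal.span_singleton_eq_bot.mpr rfl, Ideal.mem_bot, sub_eq_zero] at h
  exact h

end Exponents

/-! ### small facts on local rings -/

section Local

variable {A B : Type*} [CommRing A] [IsLocalRing A] [CommRing B] [IsLocalRing B]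

theorem mem_maximalIdeal_of_map_mem (φ : A →+* B) {x : A} (h : φ x ∈ maximalIdeal B) :
    x ∈ maximalIdeal A := by
  rw [mem_maximalIdeal, mem_nonunits_iff] at h ⊢
  exact fun hx => h (hx.map φ)

theorem natCast_mem_of_map (φ : A →+* B) {p : ℕ} (h : (p : B) ∈ maximalIdeal B) :
    (p : A) ∈ maximalIdeal A :=
  mem_maximalIdeal_of_map_mem φ (by rwa [map_natCast])

end Local

/-! ### Krull in coordinates -/

section Krull

variable {A : Type} [CommRing A] [IsLocalRing A] [IsNoetherianRing A]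

theorem eq_zero_of_forall_mem_pow {x : A} (h : ∀ k : ℕ, 1 ≤ k → x ∈ maximalIdeal A ^ k) :
    x = 0 := by
  have h0 : x ∈ ⨅ k : ℕ, maximalIdeal A ^ k := by
    rw [Ideal.mem_iInf]
    intro k
    rcases Nat.eq_zero_or_pos k with rfl | hk
    · rw [pow_zero, Ideal.one_eq_top]; exact Submodule.mem_top
    · exact h k hk
  rw [Ideal.iInf_pow_eq_bot_of_isLocalRing (maximalIdeal A)
    (maximalIdeal.isMaximal A).ne_top, Ideal.mem_bot] at h0
  exact h0

/-- coordinates of `f v - g v` die in `B` when `f` and `g` have the same base change to `B`. -/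
theorem repr_sub_mem_ker_of_baseChange_eq {A₀ B : Type*} [CommRing A₀] [CommRing B] [Algebra A₀ B]
    {V : Type*} [AddCommGroup V] [Module A₀ V] [Module.Free A₀ V] [Module.Finite A₀ V]
    {ι : Type*} [Fintype ι] [DecidableEq ι] (b : Module.Basis ι A₀ V) {f g : Module.End A₀ V}
    (h : f.baseChange B = g.baseChange B) (v : V) (i : ι) :
    b.repr (f v - g v) i ∈ RingHom.ker (algebraMap A₀ B) := by
  have h0 : (1 : B) ⊗ₜ[A₀] (f v - g v) = 0 := by
    rw [TensorProduct.tmul_sub, ← LinearMap.baseChange_tmul, ← LinearMap.baseChange_tmul, h,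
      sub_self]
  exact (one_tmul_eq_zero_iff (B := B) b (f v - g v)).mp h0 i

end Krull

/-! ### the level hypothesis -/

section Levels

variable {A : Type} [CommRing A] [IsLocalRing A]

/-- "`Pr` holds for `ρ ⊗ A ⧸ 𝔪 ^ k` for every `k ≥ 1`". -/
def AtLevels (Pr : ∀ ⦃B : Type⦄ [CommRing B] [IsLocalRing B], GaloisRepAdic B → Prop)
    (ρ : GaloisRepAdic A) : Prop :=
  ∀ k : ℕ, 1 ≤ k → ∀ (_ : IsLocalRing (A ⧸ maximalIdeal A ^ k))
    (hq : IsLocalHom (Ideal.Quotient.mk (maximalIdeal A ^ k))),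
    Pr (ρ.baseChangeAlong (Ideal.Quotient.mk (maximalIdeal A ^ k)) hq)

end Levels

/-! ### `DetIsCyclotomic` -/

section Det

variable {p : ℕ} [Fact p.Prime]

section One

variable {A : Type} [CommRing A] [IsLocalRing A]

theorem natCast_mem_maximalIdeal_of_pow_eq_zero {N : ℕ} (hN : (p : A) ^ N = 0) :
    (p : A) ∈ maximalIdeal A := by
  rw [mem_maximalIdeal, mem_nonunits_iff]
  intro hu
  have h1 : IsUnit ((p : A) ^ N) := hu.pow N
  rw [hN] at h1
  exact not_isUnit_zero h1

/-- over a ring with `p ^ N = 0`, the cyclotomic determinant condition is a family of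
EQUALITIES. -/
theorem detIsCyclotomic_iff_of_pow_eq_zero {N : ℕ} (hN : (p : A) ^ N = 0) (ρ : GaloisRepAdic A) :
    ρ.DetIsCyclotomic p ↔ ∀ (σ : GQ) (a : ℕ), (∀ μ : Qb, μ ^ p ^ N = 1 → σ μ = μ ^ a) →
      LinearMap.det (ρ.ρ σ) = (a : A) := by
  constructor
  · intro h σ a ha
    have h1 := h.2 N σ a ha
    have h2 : LinearMap.det (ρ.ρ σ) - (a : A) * 1 ∈ Ideal.span {((p ^ N : ℕ) : A)} := by
      rwa [mul_one]
    rw [eq_natCast_mul_of_mem_span hN h2, mul_one]
  · intro h
    refine ⟨natCast_mem_maximalIdeal_of_pow_eq_zero hN, fun n σ a ha => ?_⟩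
    have h1 := sub_natCast_mul_mem_span_of_eq hN σ (LinearMap.det (ρ.ρ σ)) 1
      (fun a' ha' => by rw [mul_one]; exact h σ a' ha') n a ha
    rwa [mul_one] at h1

end One

section Inj

variable {A B : Type} [CommRing A] [IsLocalRing A] [CommRing B] [IsLocalRing B]

theorem det_baseChangeAlong (φ : A →+* B) (hφ : IsLocalHom φ) (ρ : GaloisRepAdic A) (σ : GQ) :
    LinearMap.det ((ρ.baseChangeAlong φ hφ).ρ σ) = φ (LinearMap.det (ρ.ρ σ)) := by
  let _ : Algebra A B := φ.toAlgebra
  show LinearMap.det ((ρ.ρ σ).baseChange B) = _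
  rw [LinearMap.det_baseChange]
  rfl

/-- **DET descends along injective local homs** (source with `p` nilpotent). -/
theorem detIsCyclotomic_of_baseChangeAlong_injective (φ : A →+* B) (hφ : IsLocalHom φ)
    (hinj : Function.Injective φ) {N : ℕ} (hN : (p : A) ^ N = 0) {ρ : GaloisRepAdic A}
    (h : (ρ.baseChangeAlong φ hφ).DetIsCyclotomic p) : ρ.DetIsCyclotomic p := by
  have hNB : (p : B) ^ N = 0 := by
    have := congrArg φ hN
    rwa [map_pow, map_natCast, map_zero] at this
  rw [detIsCyclotomic_iff_of_pow_eq_zero hN]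
  intro σ a ha
  have h1 := (detIsCyclotomic_iff_of_pow_eq_zero hNB _).mp h σ a ha
  rw [det_baseChangeAlong] at h1
  apply hinj
  rw [h1, map_natCast]

end Inj

section Fib

variable {P A B : Type} [CommRing P] [IsLocalRing P] [CommRing A] [IsLocalRing A]
  [CommRing B] [IsLocalRing B]

/-- **DET for fibre products.** -/
theorem detIsCyclotomic_of_fibreProduct (pA : P →+* A) (pB : P →+* B) (hpA : IsLocalHom pA)
    (hpB : IsLocalHom pB) (hinj : Function.Injective (fun x : P => (pA x, pB x)))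
    {N : ℕ} (hN : (p : P) ^ N = 0) {ρ : GaloisRepAdic P}
    (hA : (ρ.baseChangeAlong pA hpA).DetIsCyclotomic p)
    (hB : (ρ.baseChangeAlong pB hpB).DetIsCyclotomic p) : ρ.DetIsCyclotomic p := by
  have hNA : (p : A) ^ N = 0 := by
    have := congrArg pA hN
    rwa [map_pow, map_natCast, map_zero] at this
  have hNB : (p : B) ^ N = 0 := by
    have := congrArg pB hN
    rwa [map_pow, map_natCast, map_zero] at this
  rw [detIsCyclotomic_iff_of_pow_eq_zero hN]
  intro σ a ha
  have h1 := (detIsCyclotomic_iff_of_pow_eq_zero hNA _).mp hA σ a ha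
  have h2 := (detIsCyclotomic_iff_of_pow_eq_zero hNB _).mp hB σ a ha
  rw [det_baseChangeAlong] at h1 h2
  apply hinj
  show (pA _, pB _) = (pA _, pB _)
  rw [h1, h2, map_natCast, map_natCast]

end Fib

section Lev

variable {A : Type} [CommRing A] [IsLocalRing A] [IsNoetherianRing A]

/-- **DET from the levels `A ⧸ 𝔪 ^ k`.** -/
theorem detIsCyclotomic_of_atLevels {ρ : GaloisRepAdic A}
    (h : AtLevels (fun _ _ _ ρ' => ρ'.DetIsCyclotomic p) ρ) : ρ.DetIsCyclotomic p := by
  have hloc : ∀ k : ℕ, 1 ≤ k → IsLocalRing (A ⧸ maximalIdeal A ^ k) := fun k hk =>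
    Fermat.Agent.S53_helper35.isLocalRing_quotient_maxPow k hk
  refine ⟨?_, fun n σ a ha => ?_⟩
  · have i1 := hloc 1 le_rfl
    have hq : IsLocalHom (Ideal.Quotient.mk (maximalIdeal A ^ 1)) :=
      IsLocalHom.of_surjective _ Ideal.Quotient.mk_surjective
    exact natCast_mem_of_map (Ideal.Quotient.mk (maximalIdeal A ^ 1)) (h 1 le_rfl i1 hq).1
  · refine Fermat.Agent.GS.DetCyc.mem_of_forall_mem_sup_pow _ _ fun k => ?_
    rcases Nat.eq_zero_or_pos k with rfl | hk
    · rw [pow_zero, Ideal.one_eq_top, sup_top_eq]; exact Submodule.mem_top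
    · have i1 := hloc k hk
      have hq : IsLocalHom (Ideal.Quotient.mk (maximalIdeal A ^ k)) :=
        IsLocalHom.of_surjective _ Ideal.Quotient.mk_surjective
      have h1 := (h k hk i1 hq).2 n σ a ha
      rw [det_baseChangeAlong] at h1
      obtain ⟨c, hc⟩ := Ideal.mem_span_singleton'.mp h1
      obtain ⟨c₀, rfl⟩ := Ideal.Quotient.mk_surjective c
      have h2 : Ideal.Quotient.mk (maximalIdeal A ^ k)
          (LinearMap.det (ρ.ρ σ) - (a : A) - c₀ * ((p ^ n : ℕ) : A)) = 0 := by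
        rw [map_sub, map_sub, map_mul, map_natCast, map_natCast, hc, sub_self]
      have h3 := Ideal.Quotient.eq_zero_iff_mem.mp h2
      have e : LinearMap.det (ρ.ρ σ) - (a : A) =
          c₀ * ((p ^ n : ℕ) : A) +
            (LinearMap.det (ρ.ρ σ) - (a : A) - c₀ * ((p ^ n : ℕ) : A)) := by ring
      rw [e]
      exact Submodule.add_mem_sup (Ideal.mul_mem_left _ _ (Ideal.subset_span rfl)) h3

end Lev

end Det

/-! ### `IsUnramifiedAt` -/

section Unr

section Inj

variable {A B : Type} [CommRing A] [IsLocalRing A] [CommRing B] [IsLocalRing B]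

theorem isUnramifiedAt_of_baseChangeAlong_injective (φ : A →+* B) (hφ : IsLocalHom φ)
    (hinj : Function.Injective φ) {q : ℕ} {ρ : GaloisRepAdic A}
    (h : (ρ.baseChangeAlong φ hφ).IsUnramifiedAt q) : ρ.IsUnramifiedAt q := by
  let _ : Algebra A B := φ.toAlgebra
  intro P hP σ hσ
  have h1 : (ρ.ρ σ).baseChange B = 1 := h P hP σ hσ
  refine baseChange_injective (A := A) (B := B) hinj ?_
  rw [h1, LinearMap.baseChange_one]

end Inj

section Fib

variable {P A B : Type} [CommRing P] [IsLocalRing P] [CommRing A] [IsLocalRing A]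
  [CommRing B] [IsLocalRing B]

theorem isUnramifiedAt_of_fibreProduct (pA : P →+* A) (pB : P →+* B) (hpA : IsLocalHom pA)
    (hpB : IsLocalHom pB) (hinj : Function.Injective (fun x : P => (pA x, pB x))) {q : ℕ}
    {ρ : GaloisRepAdic P} (hA : (ρ.baseChangeAlong pA hpA).IsUnramifiedAt q)
    (hB : (ρ.baseChangeAlong pB hpB).IsUnramifiedAt q) : ρ.IsUnramifiedAt q := by
  let _ : Algebra P A := pA.toAlgebra
  let _ : Algebra P B := pB.toAlgebra
  intro Q hQ σ hσ
  have h1 : (ρ.ρ σ).baseChange A = 1 := hA Q hQ σ hσ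
  have h2 : (ρ.ρ σ).baseChange B = 1 := hB Q hQ σ hσ
  refine baseChange_pair_injective (P := P) (A := A) (B := B) hinj ?_ ?_
  · rw [h1, LinearMap.baseChange_one]
  · rw [h2, LinearMap.baseChange_one]

end Fib

section Lev

variable {A : Type} [CommRing A] [IsLocalRing A] [IsNoetherianRing A]

theorem isUnramifiedAt_of_atLevels {q : ℕ} {ρ : GaloisRepAdic A}
    (h : AtLevels (fun _ _ _ ρ' => ρ'.IsUnramifiedAt q) ρ) : ρ.IsUnramifiedAt q := by
  intro P hP σ hσ
  classical
  refine LinearMap.ext fun v => ?_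
  rw [← sub_eq_zero]
  let b := Module.Free.chooseBasis A ρ.V
  apply b.repr.injective
  ext i
  rw [map_zero, Finsupp.zero_apply]
  refine eq_zero_of_forall_mem_pow fun k hk => ?_
  have i1 : IsLocalRing (A ⧸ maximalIdeal A ^ k) :=
    Fermat.Agent.S53_helper35.isLocalRing_quotient_maxPow k hk
  have hq : IsLocalHom (Ideal.Quotient.mk (maximalIdeal A ^ k)) :=
    IsLocalHom.of_surjective _ Ideal.Quotient.mk_surjective
  let _ : Algebra A (A ⧸ maximalIdeal A ^ k) := (Ideal.Quotient.mk (maximalIdeal A ^ k)).toAlgebra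
  have h1 : (ρ.ρ σ).baseChange (A ⧸ maximalIdeal A ^ k) =
      (1 : Module.End A ρ.V).baseChange (A ⧸ maximalIdeal A ^ k) := by
    rw [LinearMap.baseChange_one]
    exact h k hk i1 hq P hP σ hσ
  have h2 := repr_sub_mem_ker_of_baseChange_eq (B := A ⧸ maximalIdeal A ^ k) b h1 v i
  have h3 : RingHom.ker (algebraMap A (A ⧸ maximalIdeal A ^ k)) = maximalIdeal A ^ k :=
    Ideal.mk_ker
  rw [h3] at h2
  exact h2

end Lev

end Unr

/-! ### `IsUnipotentOnInertiaAt` -/

section Unip

open Polynomial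

section Inj

variable {A B : Type} [CommRing A] [IsLocalRing A] [CommRing B] [IsLocalRing B]

theorem charpoly_baseChangeAlong (φ : A →+* B) (hφ : IsLocalHom φ) (ρ : GaloisRepAdic A)
    (σ : GQ) :
    LinearMap.charpoly ((ρ.baseChangeAlong φ hφ).ρ σ) = (LinearMap.charpoly (ρ.ρ σ)).map φ := by
  let _ : Algebra A B := φ.toAlgebra
  show LinearMap.charpoly ((ρ.ρ σ).baseChange B) = _
  rw [LinearMap.charpoly_baseChange]
  rfl

theorem isUnipotentOnInertiaAt_of_baseChangeAlong_injective (φ : A →+* B) (hφ : IsLocalHom φ)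
    (hinj : Function.Injective φ) {q : ℕ} {ρ : GaloisRepAdic A}
    (h : (ρ.baseChangeAlong φ hφ).IsUnipotentOnInertiaAt q) : ρ.IsUnipotentOnInertiaAt q := by
  intro P hP σ hσ
  have h1 := h P hP σ hσ
  rw [charpoly_baseChangeAlong] at h1
  apply Polynomial.map_injective φ hinj
  rw [h1]
  simp

end Inj

section Fib

variable {P A B : Type} [CommRing P] [IsLocalRing P] [CommRing A] [IsLocalRing A]
  [CommRing B] [IsLocalRing B]

theorem isUnipotentOnInertiaAt_of_fibreProduct (pA : P →+* A) (pB : P →+* B)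
    (hpA : IsLocalHom pA) (hpB : IsLocalHom pB)
    (hinj : Function.Injective (fun x : P => (pA x, pB x))) {q : ℕ}
    {ρ : GaloisRepAdic P} (hA : (ρ.baseChangeAlong pA hpA).IsUnipotentOnInertiaAt q)
    (hB : (ρ.baseChangeAlong pB hpB).IsUnipotentOnInertiaAt q) : ρ.IsUnipotentOnInertiaAt q := by
  intro Q hQ σ hσ
  have h1 := hA Q hQ σ hσ
  have h2 := hB Q hQ σ hσ
  rw [charpoly_baseChangeAlong] at h1 h2
  ext i
  apply hinj
  show (pA _, pB _) = (pA _, pB _)
  rw [← Polynomial.coeff_map, ← Polynomial.coeff_map, ← Polynomial.coeff_map,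
    ← Polynomial.coeff_map, h1, h2]
  simp

end Fib

section Lev

variable {A : Type} [CommRing A] [IsLocalRing A] [IsNoetherianRing A]

theorem isUnipotentOnInertiaAt_of_atLevels {q : ℕ} {ρ : GaloisRepAdic A}
    (h : AtLevels (fun _ _ _ ρ' => ρ'.IsUnipotentOnInertiaAt q) ρ) :
    ρ.IsUnipotentOnInertiaAt q := by
  intro P hP σ hσ
  ext i
  rw [← sub_eq_zero]
  refine eq_zero_of_forall_mem_pow fun k hk => ?_
  have i1 : IsLocalRing (A ⧸ maximalIdeal A ^ k) :=
    Fermat.Agent.S53_helper35.isLocalRing_quotient_maxPow k hk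
  have hq : IsLocalHom (Ideal.Quotient.mk (maximalIdeal A ^ k)) :=
    IsLocalHom.of_surjective _ Ideal.Quotient.mk_surjective
  have h1 := h k hk i1 hq P hP σ hσ
  rw [charpoly_baseChangeAlong] at h1
  have h2 := congrArg (fun f => Polynomial.coeff f i) h1
  simp only [Polynomial.coeff_map] at h2
  apply Ideal.Quotient.eq_zero_iff_mem.mp
  rw [map_sub, h2, ← Polynomial.coeff_map]
  simp

end Lev

end Unip

end Fermat.Agent.GB.Def.Cond
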