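/-
GATE-B / B2-COND (helper93): the pair `DetIsCyclotomic p ∧ IsStrictOrdinaryAt p` (`p` odd) descends
along injective local homs, along fibre products and from the levels `A ⧸ 𝔪 ^ k`.

The ordinary line is UNIQUE: with `σ₀ ∈ I_P`, `det ρ(σ₀) - 1` a unit (`GS/DetCyc`), it is
`A ∙ (ρ(σ₀) v₀ - v₀)` for any `v₀` with `ρ(σ₀) v₀ - v₀ ∉ 𝔪 V`.  In a basis `b` with
`b 0 = ρ(σ₀) v₀ - v₀` the strict-ordinary clause at `P` becomes three statements on matrix entries
(`SOCoordVia`): `m₁₀(σ) = 0` on `D_P`, `m₁₁(σ) = 1` on `I_P`, `m₀₀(σ) ≡ a m₁₁(σ) mod p ^ n` on `D_P`;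
these descend entrywise.
-/
import Fermat.Agent.GB.Def.CondAtom
import Fermat.Agent.GP.Flat.ConnEt.OrdShape
import Fermat.Agent.GP.Tan.CondIsEquiv

set_option autoImplicit false
set_option linter.unusedSectionVars false

open scoped TensorProduct
open IsLocalRing

namespace Fermat.Agent.GB.Def.Cond

local notation "GQ" => (AlgebraicClosure ℚ ≃ₐ[ℚ] AlgebraicClosure ℚ)
local notation "Qb" => AlgebraicClosure ℚ

/-! ### linear algebra in a basis indexed by `Fin 2` -/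

section LinAlg

variable {A : Type*} [CommRing A] {V : Type*} [AddCommGroup V] [Module A V]

theorem repr_mem_of_mem_smul_top {ι : Type*} (b : Module.Basis ι A V) {I : Ideal A} {w : V}
    (hw : w ∈ I • (⊤ : Submodule A V)) (i : ι) : b.repr w i ∈ I := by
  refine Submodule.smul_induction_on (p := fun w => b.repr w i ∈ I) hw ?_ ?_
  · intro a ha x _
    rw [map_smul, Finsupp.smul_apply, smul_eq_mul]
    exact Ideal.mul_mem_right _ _ ha
  · intro x y hx hy
    rw [map_add, Finsupp.add_apply]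
    exact Ideal.add_mem _ hx hy

theorem eq_smul_add_smul (b : Module.Basis (Fin 2) A V) (w : V) :
    w = b.repr w 0 • b 0 + b.repr w 1 • b 1 := by
  conv_lhs => rw [← b.sum_repr w, Fin.sum_univ_two]

theorem mem_span_zero_iff (b : Module.Basis (Fin 2) A V) (w : V) :
    w ∈ Submodule.span A {b 0} ↔ b.repr w 1 = 0 := by
  constructor
  · intro h
    obtain ⟨s, rfl⟩ := Submodule.mem_span_singleton.mp h
    rw [map_smul, Module.Basis.repr_self, Finsupp.smul_apply, Finsupp.single_apply]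
    simp
  · intro h
    rw [eq_smul_add_smul b w, h, zero_smul, add_zero]
    exact Submodule.smul_mem _ _ (Submodule.mem_span_singleton_self _)

theorem eq_smul_of_mem_span_zero (b : Module.Basis (Fin 2) A V) {w : V}
    (h : w ∈ Submodule.span A {b 0}) : w = b.repr w 0 • b 0 := by
  have h1 := (mem_span_zero_iff b w).mp h
  conv_lhs => rw [eq_smul_add_smul b w, h1, zero_smul, add_zero]

end LinAlg

section NonDeg

variable {A : Type*} [CommRing A] [IsLocalRing A] {V : Type*} [AddCommGroup V] [Module A V]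
  [Module.Free A V] [Module.Finite A V]

/-- an endomorphism congruent to `1` modulo `𝔪` has determinant congruent to `1`. -/
theorem exists_not_mem_of_isUnit_det_sub_one (h2 : Module.finrank A V = 2) (g : Module.End A V)
    (hu : IsUnit (LinearMap.det g - 1)) :
    ∃ v : V, g v - v ∉ maximalIdeal A • (⊤ : Submodule A V) := by
  classical
  by_contra hcon
  have hall : ∀ v : V, g v - v ∈ maximalIdeal A • (⊤ : Submodule A V) := by
    intro v
    by_contra hv
    exact hcon ⟨v, hv⟩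
  let β : Module.Basis (Fin 2) A V := Module.finBasisOfFinrankEq A V h2
  have hentry : ∀ i j : Fin 2, β.repr (g (β j)) i - β.repr (β j) i ∈ maximalIdeal A := by
    intro i j
    have := repr_mem_of_mem_smul_top β (hall (β j)) i
    rwa [map_sub, Finsupp.sub_apply] at this
  have h00 := hentry 0 0
  have h01 := hentry 0 1
  have h10 := hentry 1 0
  have h11 := hentry 1 1
  rw [Module.Basis.repr_self] at h00 h01 h10 h11
  simp only [Finsupp.single_apply] at h00 h01 h10 h11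
  norm_num at h00 h01 h10 h11
  have hdet : LinearMap.det g = β.repr (g (β 0)) 0 * β.repr (g (β 1)) 1 -
      β.repr (g (β 1)) 0 * β.repr (g (β 0)) 1 := by
    rw [← LinearMap.det_toMatrix β, Matrix.det_fin_two]
    simp only [LinearMap.toMatrix_apply]
  have hmem : LinearMap.det g - 1 ∈ maximalIdeal A := by
    have e : LinearMap.det g - 1 =
        (β.repr (g (β 0)) 0 - 1) * β.repr (g (β 1)) 1 + (β.repr (g (β 1)) 1 - 1) -
          β.repr (g (β 1)) 0 * β.repr (g (β 0)) 1 := by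
      rw [hdet]; ring
    rw [e]
    exact Ideal.sub_mem _ (Ideal.add_mem _ (Ideal.mul_mem_right _ _ h00) h11)
      (Ideal.mul_mem_left _ _ h10)
  exact (mem_nonunits_iff.mp ((mem_maximalIdeal _).mp hmem)) hu

end NonDeg

/-! ### the strict-ordinary clause at one place, and its coordinate form -/

section Defs

variable {A : Type} [CommRing A] [IsLocalRing A]

/-- the clause of the frozen `IsStrictOrdinaryAt` at one place `P`. -/
def SOAt (ρ : GaloisRepAdic A) (p : ℕ) (P : ValuationSubring Qb) : Prop :=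
  ∃ L : Submodule A ρ.V,
    (∃ b : Module.Basis (Fin 2) A ρ.V, L = A ∙ b 0) ∧
    (∀ σ ∈ P.decompositionSubgroup ℚ, ∀ v ∈ L, ρ.ρ σ v ∈ L) ∧
    (∀ σ ∈ P.inertiaSubgroupIn ℚ, ∀ v : ρ.V, ρ.ρ σ v - v ∈ L) ∧
    (∀ σ ∈ P.decompositionSubgroup ℚ, ∃ x z : A,
      (∀ w ∈ L, ρ.ρ σ w = x • w) ∧ (∀ v : ρ.V, ρ.ρ σ v - z • v ∈ L) ∧
      ∀ (n a : ℕ), (∀ μ : Qb, μ ^ p ^ n = 1 → σ μ = μ ^ a) →
        x - (a : A) * z ∈ Ideal.span {((p ^ n : ℕ) : A)})

theorem isStrictOrdinaryAt_iff (ρ : GaloisRepAdic A) (p : ℕ) :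
    ρ.IsStrictOrdinaryAt p ↔ (p : A) ∈ maximalIdeal A ∧
      ∀ P : ValuationSubring Qb, P.LiesOverPrime p → SOAt ρ p P := Iff.rfl

variable {B : Type} [CommRing B]

/-- the coordinate form of the clause at `P`, seen through a ring hom `φ : A → B`. -/
structure SOCoordVia (φ : A →+* B) (ρ : GaloisRepAdic A) (p : ℕ) (P : ValuationSubring Qb)
    (b : Module.Basis (Fin 2) A ρ.V) : Prop where
  hD : ∀ σ ∈ P.decompositionSubgroup ℚ, φ (b.repr (ρ.ρ σ (b 0)) 1) = 0
  hI : ∀ σ ∈ P.inertiaSubgroupIn ℚ, φ (b.repr (ρ.ρ σ (b 1)) 1) = 1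
  hC : ∀ σ ∈ P.decompositionSubgroup ℚ, ∀ (n a : ℕ),
    (∀ μ : Qb, μ ^ p ^ n = 1 → σ μ = μ ^ a) →
      φ (b.repr (ρ.ρ σ (b 0)) 0) - (a : B) * φ (b.repr (ρ.ρ σ (b 1)) 1) ∈
        Ideal.span {((p ^ n : ℕ) : B)}

end Defs

/-! ### assembly: coordinates ⟹ clause -/

section Assembly

variable {A : Type} [CommRing A] [IsLocalRing A]

theorem soAt_of_soCoord {ρ : GaloisRepAdic A} {p : ℕ} {P : ValuationSubring Qb}
    {b : Module.Basis (Fin 2) A ρ.V} (h : SOCoordVia (RingHom.id A) ρ p P b) : SOAt ρ p P := by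
  have hD : ∀ σ ∈ P.decompositionSubgroup ℚ, b.repr (ρ.ρ σ (b 0)) 1 = 0 := h.hD
  have hI : ∀ σ ∈ P.inertiaSubgroupIn ℚ, b.repr (ρ.ρ σ (b 1)) 1 = 1 := h.hI
  have hb0 : ∀ σ ∈ P.decompositionSubgroup ℚ,
      ρ.ρ σ (b 0) = b.repr (ρ.ρ σ (b 0)) 0 • b 0 := by
    intro σ hσ
    exact eq_smul_of_mem_span_zero b ((mem_span_zero_iff b _).mpr (hD σ hσ))
  have hLact : ∀ σ ∈ P.decompositionSubgroup ℚ, ∀ w ∈ Submodule.span A {b 0},
      ρ.ρ σ w = b.repr (ρ.ρ σ (b 0)) 0 • w := by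
    intro σ hσ w hw
    obtain ⟨s, rfl⟩ := Submodule.mem_span_singleton.mp hw
    rw [map_smul]
    conv_lhs => rw [hb0 σ hσ]
    rw [smul_comm]
  -- the `b 1`-coordinate of `ρ σ v`
  have hcoord : ∀ σ ∈ P.decompositionSubgroup ℚ, ∀ v : ρ.V,
      b.repr (ρ.ρ σ v) 1 = b.repr v 1 * b.repr (ρ.ρ σ (b 1)) 1 := by
    intro σ hσ v
    conv_lhs => rw [eq_smul_add_smul b v]
    rw [map_add, map_smul, map_smul, map_add, map_smul, map_smul, Finsupp.add_apply,
      Finsupp.smul_apply, Finsupp.smul_apply, hD σ hσ, smul_eq_mul, smul_eq_mul, mul_zero,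
      zero_add]
  refine ⟨Submodule.span A {b 0}, ⟨b, rfl⟩, ?_, ?_, ?_⟩
  · intro σ hσ w hw
    rw [hLact σ hσ w hw]
    exact Submodule.smul_mem _ _ hw
  · intro σ hσ v
    have hσD := Fermat.Agent.GP.Loc.StrictOrdShape.mem_decomposition_of_mem_inertiaIn hσ
    rw [mem_span_zero_iff, map_sub, Finsupp.sub_apply, hcoord σ hσD v, hI σ hσ, mul_one, sub_self]
  · intro σ hσ
    refine ⟨b.repr (ρ.ρ σ (b 0)) 0, b.repr (ρ.ρ σ (b 1)) 1, hLact σ hσ, ?_, ?_⟩
    · intro v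
      rw [mem_span_zero_iff, map_sub, Finsupp.sub_apply, hcoord σ hσ v, map_smul,
        Finsupp.smul_apply, smul_eq_mul, mul_comm, sub_self]
    · intro n a ha
      exact h.hC σ hσ n a ha

end Assembly

/-! ### the single-hom lemma: clause over `B` ⟹ coordinates through `φ` -/

section SingleHom

/-- generic tensor form of the single-hom lemma. -/
theorem soCoordVia_aux {A B : Type} [CommRing A] [CommRing B] [IsLocalRing B] [Algebra A B]
    {V : Type} [AddCommGroup V] [Module A V] (r : GQ → Module.End A V)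
    (p : ℕ) (P : ValuationSubring Qb) (b : Module.Basis (Fin 2) A V) {σ₀ : GQ}
    (hσ₀ : σ₀ ∈ P.inertiaSubgroupIn ℚ) {v₀ : V} (hb : b 0 = r σ₀ v₀ - v₀)
    (h : ∃ L : Submodule B (B ⊗[A] V),
      (∃ c : Module.Basis (Fin 2) B (B ⊗[A] V), L = B ∙ c 0) ∧
      (∀ σ ∈ P.decompositionSubgroup ℚ, ∀ v ∈ L, (r σ).baseChange B v ∈ L) ∧
      (∀ σ ∈ P.inertiaSubgroupIn ℚ, ∀ v : B ⊗[A] V, (r σ).baseChange B v - v ∈ L) ∧
      (∀ σ ∈ P.decompositionSubgroup ℚ, ∃ x z : B,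
        (∀ w ∈ L, (r σ).baseChange B w = x • w) ∧
        (∀ v : B ⊗[A] V, (r σ).baseChange B v - z • v ∈ L) ∧
        ∀ (n a : ℕ), (∀ μ : Qb, μ ^ p ^ n = 1 → σ μ = μ ^ a) →
          x - (a : B) * z ∈ Ideal.span {((p ^ n : ℕ) : B)})) :
    (∀ σ ∈ P.decompositionSubgroup ℚ, algebraMap A B (b.repr (r σ (b 0)) 1) = 0) ∧
    (∀ σ ∈ P.inertiaSubgroupIn ℚ, algebraMap A B (b.repr (r σ (b 1)) 1) = 1) ∧
    (∀ σ ∈ P.decompositionSubgroup ℚ, ∀ (n a : ℕ),
      (∀ μ : Qb, μ ^ p ^ n = 1 → σ μ = μ ^ a) →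
        algebraMap A B (b.repr (r σ (b 0)) 0) - (a : B) * algebraMap A B (b.repr (r σ (b 1)) 1) ∈
          Ideal.span {((p ^ n : ℕ) : B)}) := by
  classical
  have := Module.Free.of_basis b
  have := Module.Finite.of_basis b
  obtain ⟨L, ⟨c, hL⟩, hD, hI, hS⟩ := h
  let bB : Module.Basis (Fin 2) B (B ⊗[A] V) := b.baseChange B
  have hbB : ∀ i, bB i = (1 : B) ⊗ₜ[A] b i := fun i => Module.Basis.baseChange_apply _ _ _
  have hrepr : ∀ (w : V) (i : Fin 2),
      bB.repr ((1 : B) ⊗ₜ[A] w) i = algebraMap A B (b.repr w i) :=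
    fun w i => repr_one_tmul (B := B) b w i
  have hact : ∀ (σ : GQ) (w : V),
      (r σ).baseChange B ((1 : B) ⊗ₜ[A] w) = (1 : B) ⊗ₜ[A] (r σ w) :=
    fun σ w => LinearMap.baseChange_tmul _ _ _
  -- `e0 = 1 ⊗ b 0` lies on the line
  have he0 : (1 : B) ⊗ₜ[A] b 0 ∈ L := by
    have h1 := hI σ₀ hσ₀ ((1 : B) ⊗ₜ[A] v₀)
    rw [hact, ← TensorProduct.tmul_sub, ← hb] at h1
    exact h1
  -- the line is `B ∙ e0`
  have hLeq : L = Submodule.span B {bB 0} := by
    rw [hL] at he0 ⊢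
    obtain ⟨t, ht⟩ := Submodule.mem_span_singleton.mp he0
    have htu : IsUnit t := by
      by_contra hnu
      have htm : t ∈ maximalIdeal B := (mem_maximalIdeal t).mpr hnu
      have h1 : bB.repr ((1 : B) ⊗ₜ[A] b 0) 0 = 1 := by
        rw [← hbB 0, Module.Basis.repr_self, Finsupp.single_apply, if_pos rfl]
      rw [← ht, map_smul, Finsupp.smul_apply, smul_eq_mul] at h1
      have h2 : (1 : B) ∈ maximalIdeal B := by
        rw [← h1]
        exact Ideal.mul_mem_right _ _ htm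
      exact (maximalIdeal.isMaximal B).ne_top ((Ideal.eq_top_iff_one _).mpr h2)
    rw [hbB 0, ← ht, Submodule.span_singleton_smul_eq htu]
  have hmem : ∀ w' : B ⊗[A] V, w' ∈ L → bB.repr w' 1 = 0 := by
    intro w' hw'
    rw [hLeq] at hw'
    exact (mem_span_zero_iff bB w').mp hw'
  have e00 : bB.repr ((1 : B) ⊗ₜ[A] b 0) 0 = 1 := by
    rw [← hbB 0, Module.Basis.repr_self, Finsupp.single_apply, if_pos rfl]
  have e11 : bB.repr ((1 : B) ⊗ₜ[A] b 1) 1 = 1 := by
    rw [← hbB 1, Module.Basis.repr_self, Finsupp.single_apply, if_pos rfl]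
  refine ⟨?_, ?_, ?_⟩
  · intro σ hσ
    have h1 := hmem _ (hD σ hσ _ he0)
    rw [hact, hrepr] at h1
    exact h1
  · intro σ hσ
    have h1 := hmem _ (hI σ hσ ((1 : B) ⊗ₜ[A] b 1))
    rw [hact, map_sub, Finsupp.sub_apply, e11, hrepr, sub_eq_zero] at h1
    exact h1
  · intro σ hσ n a ha
    obtain ⟨x, z, hx, hz, hc⟩ := hS σ hσ
    have h1 : algebraMap A B (b.repr (r σ (b 0)) 0) = x := by
      have h2 : bB.repr ((r σ).baseChange B ((1 : B) ⊗ₜ[A] b 0)) 0 =
          bB.repr (x • ((1 : B) ⊗ₜ[A] b 0)) 0 := by rw [hx _ he0]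
      rw [hact, hrepr, map_smul, Finsupp.smul_apply, e00, smul_eq_mul, mul_one] at h2
      exact h2
    have h3 : algebraMap A B (b.repr (r σ (b 1)) 1) = z := by
      have h4 := hmem _ (hz ((1 : B) ⊗ₜ[A] b 1))
      rw [hact, map_sub, Finsupp.sub_apply, map_smul, Finsupp.smul_apply, e11, hrepr,
        smul_eq_mul, mul_one, sub_eq_zero] at h4
      exact h4
    rw [h1, h3]
    exact hc n a ha

variable {A B : Type} [CommRing A] [IsLocalRing A] [CommRing B] [IsLocalRing B]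

theorem soCoordVia_of_soAt (φ : A →+* B) (hφ : IsLocalHom φ) {ρ : GaloisRepAdic A} {p : ℕ}
    {P : ValuationSubring Qb} (b : Module.Basis (Fin 2) A ρ.V) {σ₀ : GQ}
    (hσ₀ : σ₀ ∈ P.inertiaSubgroupIn ℚ) {v₀ : ρ.V} (hb : b 0 = ρ.ρ σ₀ v₀ - v₀)
    (h : SOAt (ρ.baseChangeAlong φ hφ) p P) : SOCoordVia φ ρ p P b := by
  let _ : Algebra A B := φ.toAlgebra
  obtain ⟨h1, h2, h3⟩ := soCoordVia_aux (B := B) (fun σ => ρ.ρ σ) p P b hσ₀ hb h
  exact ⟨h1, h2, h3⟩

end SingleHom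

/-! ### the adapted basis -/

section Adapted

variable {p : ℕ} [Fact p.Prime] {A : Type} [CommRing A] [IsLocalRing A]

/-- with cyclotomic determinant and `p` odd: an inertia element `σ₀`, a vector `v₀` and a basis `b`
with `b 0 = ρ(σ₀) v₀ - v₀`. -/
theorem exists_adapted_basis (hp2 : p ≠ 2) (ρ : GaloisRepAdic A) (hdet : ρ.DetIsCyclotomic p)
    (P : ValuationSubring Qb) (hP : P.LiesOverPrime p) :
    ∃ σ₀ ∈ P.inertiaSubgroupIn ℚ, ∃ (v₀ : ρ.V) (b : Module.Basis (Fin 2) A ρ.V),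
      b 0 = ρ.ρ σ₀ v₀ - v₀ := by
  obtain ⟨σ₀, hσ₀, hu, -, -⟩ :=
    Fermat.Agent.GS.DetCyc.exists_inertia_isUnit_det_sub_one (Fact.out : p.Prime) hp2 ρ hdet P hP
  obtain ⟨v₀, hv₀⟩ := exists_not_mem_of_isUnit_det_sub_one ρ.finrank_eq (ρ.ρ σ₀) hu
  obtain ⟨b, hb⟩ := Fermat.Agent.GP.Flat.ConnEt.exists_basis_zero_eq ρ.finrank_eq hv₀
  exact ⟨σ₀, hσ₀, v₀, b, hb⟩

end Adapted

/-! ### descent of the coordinate form -/

section CoordDescent

variable {p : ℕ} [Fact p.Prime]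

section Inj

variable {A B : Type} [CommRing A] [IsLocalRing A] [CommRing B] [IsLocalRing B]

theorem soCoord_of_injective (φ : A →+* B) (hinj : Function.Injective φ) {N : ℕ}
    (hN : (p : A) ^ N = 0) {ρ : GaloisRepAdic A} {P : ValuationSubring Qb}
    {b : Module.Basis (Fin 2) A ρ.V} (h : SOCoordVia φ ρ p P b) :
    SOCoordVia (RingHom.id A) ρ p P b := by
  have hNB : (p : B) ^ N = 0 := by
    have := congrArg φ hN
    rwa [map_pow, map_natCast, map_zero] at this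
  refine ⟨fun σ hσ => ?_, fun σ hσ => ?_, fun σ hσ n a ha => ?_⟩
  · rw [RingHom.id_apply]
    exact hinj (by rw [h.hD σ hσ, map_zero])
  · rw [RingHom.id_apply]
    exact hinj (by rw [h.hI σ hσ, map_one])
  · rw [RingHom.id_apply, RingHom.id_apply]
    refine sub_natCast_mul_mem_span_of_eq hN σ _ _ (fun a' ha' => ?_) n a ha
    have h1 := eq_natCast_mul_of_mem_span hNB (h.hC σ hσ N a' ha')
    apply hinj
    rw [h1, map_mul, map_natCast]

end Inj

section Fib

variable {Pr A B : Type} [CommRing Pr] [IsLocalRing Pr] [CommRing A] [IsLocalRing A]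
  [CommRing B] [IsLocalRing B]

theorem soCoord_of_fibreProduct (pA : Pr →+* A) (pB : Pr →+* B)
    (hinj : Function.Injective (fun x : Pr => (pA x, pB x))) {N : ℕ}
    (hN : (p : Pr) ^ N = 0) {ρ : GaloisRepAdic Pr} {P : ValuationSubring Qb}
    {b : Module.Basis (Fin 2) Pr ρ.V} (hA : SOCoordVia pA ρ p P b)
    (hB : SOCoordVia pB ρ p P b) : SOCoordVia (RingHom.id Pr) ρ p P b := by
  have hNA : (p : A) ^ N = 0 := by
    have := congrArg pA hN
    rwa [map_pow, map_natCast, map_zero] at this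
  have hNB : (p : B) ^ N = 0 := by
    have := congrArg pB hN
    rwa [map_pow, map_natCast, map_zero] at this
  have key : ∀ x y : Pr, pA x = pA y → pB x = pB y → x = y := fun x y h1 h2 =>
    hinj (by show (pA x, pB x) = (pA y, pB y); rw [h1, h2])
  refine ⟨fun σ hσ => ?_, fun σ hσ => ?_, fun σ hσ n a ha => ?_⟩
  · rw [RingHom.id_apply]
    exact key _ _ (by rw [hA.hD σ hσ, map_zero]) (by rw [hB.hD σ hσ, map_zero])
  · rw [RingHom.id_apply]
    exact key _ _ (by rw [hA.hI σ hσ, map_one]) (by rw [hB.hI σ hσ, map_one])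
  · rw [RingHom.id_apply, RingHom.id_apply]
    refine sub_natCast_mul_mem_span_of_eq hN σ _ _ (fun a' ha' => ?_) n a ha
    have h1 := eq_natCast_mul_of_mem_span hNA (hA.hC σ hσ N a' ha')
    have h2 := eq_natCast_mul_of_mem_span hNB (hB.hC σ hσ N a' ha')
    refine key _ _ ?_ ?_
    · rw [h1, map_mul, map_natCast]
    · rw [h2, map_mul, map_natCast]

end Fib

section Lev

variable {A : Type} [CommRing A] [IsLocalRing A] [IsNoetherianRing A]

/-- Krull for principal ideals, through the quotients `A ⧸ 𝔪 ^ k`. -/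
theorem mem_span_of_forall_mk_mem_span (x y : A)
    (h : ∀ k : ℕ, 1 ≤ k → Ideal.Quotient.mk (maximalIdeal A ^ k) x ∈
      Ideal.span {Ideal.Quotient.mk (maximalIdeal A ^ k) y}) : x ∈ Ideal.span {y} := by
  refine Fermat.Agent.GS.DetCyc.mem_of_forall_mem_sup_pow _ _ fun k => ?_
  rcases Nat.eq_zero_or_pos k with rfl | hk
  · rw [pow_zero, Ideal.one_eq_top, sup_top_eq]; exact Submodule.mem_top
  · obtain ⟨c, hc⟩ := Ideal.mem_span_singleton'.mp (h k hk)
    obtain ⟨c₀, rfl⟩ := Ideal.Quotient.mk_surjective c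
    have h2 : Ideal.Quotient.mk (maximalIdeal A ^ k) (x - c₀ * y) = 0 := by
      rw [map_sub, map_mul, hc, sub_self]
    have h3 := Ideal.Quotient.eq_zero_iff_mem.mp h2
    have e : x = c₀ * y + (x - c₀ * y) := by ring
    rw [e]
    exact Submodule.add_mem_sup (Ideal.mul_mem_left _ _ (Ideal.subset_span rfl)) h3

theorem soCoord_of_levels {ρ : GaloisRepAdic A} {P : ValuationSubring Qb}
    {b : Module.Basis (Fin 2) A ρ.V}
    (h : ∀ k : ℕ, 1 ≤ k → SOCoordVia (Ideal.Quotient.mk (maximalIdeal A ^ k)) ρ p P b) :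
    SOCoordVia (RingHom.id A) ρ p P b := by
  refine ⟨fun σ hσ => ?_, fun σ hσ => ?_, fun σ hσ n a ha => ?_⟩
  · rw [RingHom.id_apply]
    exact eq_zero_of_forall_mem_pow fun k hk =>
      Ideal.Quotient.eq_zero_iff_mem.mp ((h k hk).hD σ hσ)
  · rw [RingHom.id_apply, ← sub_eq_zero]
    refine eq_zero_of_forall_mem_pow fun k hk => Ideal.Quotient.eq_zero_iff_mem.mp ?_
    rw [map_sub, (h k hk).hI σ hσ, map_one, sub_self]
  · rw [RingHom.id_apply, RingHom.id_apply]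
    refine mem_span_of_forall_mk_mem_span _ _ fun k hk => ?_
    have h1 := (h k hk).hC σ hσ n a ha
    rw [map_sub, map_mul, map_natCast, map_natCast]
    exact h1

end Lev

end CoordDescent

/-! ### the three descents for `DetIsCyclotomic ∧ IsStrictOrdinaryAt` -/

section Main

variable {p : ℕ} [Fact p.Prime]

section Inj

variable {A B : Type} [CommRing A] [IsLocalRing A] [CommRing B] [IsLocalRing B]

/-- **DET ∧ SO descends along injective local homs** (source with `p` nilpotent, `p` odd). -/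
theorem detSO_of_baseChangeAlong_injective (hp2 : p ≠ 2) (φ : A →+* B) (hφ : IsLocalHom φ)
    (hinj : Function.Injective φ) {N : ℕ} (hN : (p : A) ^ N = 0) {ρ : GaloisRepAdic A}
    (h : (ρ.baseChangeAlong φ hφ).DetIsCyclotomic p ∧
      (ρ.baseChangeAlong φ hφ).IsStrictOrdinaryAt p) :
    ρ.DetIsCyclotomic p ∧ ρ.IsStrictOrdinaryAt p := by
  have hdet := detIsCyclotomic_of_baseChangeAlong_injective φ hφ hinj hN h.1
  refine ⟨hdet, hdet.1, fun P hP => ?_⟩
  obtain ⟨σ₀, hσ₀, v₀, b, hb⟩ := exists_adapted_basis hp2 ρ hdet P hP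
  exact soAt_of_soCoord (soCoord_of_injective φ hinj hN
    (soCoordVia_of_soAt φ hφ b hσ₀ hb (h.2.2 P hP)))

end Inj

section Fib

variable {Pr A B : Type} [CommRing Pr] [IsLocalRing Pr] [CommRing A] [IsLocalRing A]
  [CommRing B] [IsLocalRing B]

/-- **DET ∧ SO for fibre products.** -/
theorem detSO_of_fibreProduct (hp2 : p ≠ 2) (pA : Pr →+* A) (pB : Pr →+* B)
    (hpA : IsLocalHom pA) (hpB : IsLocalHom pB)
    (hinj : Function.Injective (fun x : Pr => (pA x, pB x))) {N : ℕ} (hN : (p : Pr) ^ N = 0)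
    {ρ : GaloisRepAdic Pr}
    (hA : (ρ.baseChangeAlong pA hpA).DetIsCyclotomic p ∧
      (ρ.baseChangeAlong pA hpA).IsStrictOrdinaryAt p)
    (hB : (ρ.baseChangeAlong pB hpB).DetIsCyclotomic p ∧
      (ρ.baseChangeAlong pB hpB).IsStrictOrdinaryAt p) :
    ρ.DetIsCyclotomic p ∧ ρ.IsStrictOrdinaryAt p := by
  have hdet := detIsCyclotomic_of_fibreProduct pA pB hpA hpB hinj hN hA.1 hB.1
  refine ⟨hdet, hdet.1, fun P hP => ?_⟩
  obtain ⟨σ₀, hσ₀, v₀, b, hb⟩ := exists_adapted_basis hp2 ρ hdet P hP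
  exact soAt_of_soCoord (soCoord_of_fibreProduct pA pB hinj hN
    (soCoordVia_of_soAt pA hpA b hσ₀ hb (hA.2.2 P hP))
    (soCoordVia_of_soAt pB hpB b hσ₀ hb (hB.2.2 P hP)))

end Fib

section Lev

variable {A : Type} [CommRing A] [IsLocalRing A] [IsNoetherianRing A]

/-- **DET ∧ SO from the levels `A ⧸ 𝔪 ^ k`.** -/
theorem detSO_of_atLevels (hp2 : p ≠ 2) {ρ : GaloisRepAdic A}
    (h : AtLevels (fun _ _ _ ρ' => ρ'.DetIsCyclotomic p ∧ ρ'.IsStrictOrdinaryAt p) ρ) :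
    ρ.DetIsCyclotomic p ∧ ρ.IsStrictOrdinaryAt p := by
  have hdet : ρ.DetIsCyclotomic p :=
    detIsCyclotomic_of_atLevels fun k hk i1 hq => (h k hk i1 hq).1
  refine ⟨hdet, hdet.1, fun P hP => ?_⟩
  obtain ⟨σ₀, hσ₀, v₀, b, hb⟩ := exists_adapted_basis hp2 ρ hdet P hP
  refine soAt_of_soCoord (b := b) (soCoord_of_levels (b := b) fun k hk => ?_)
  have i1 : IsLocalRing (A ⧸ maximalIdeal A ^ k) :=
    Fermat.Agent.S53_helper35.isLocalRing_quotient_maxPow k hk
  have hq : IsLocalHom (Ideal.Quotient.mk (maximalIdeal A ^ k)) :=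
    IsLocalHom.of_surjective _ Ideal.Quotient.mk_surjective
  exact soCoordVia_of_soAt _ hq b hσ₀ hb ((h k hk i1 hq).2.2 P hP)

end Lev

end Main

end Fermat.Agent.GB.Def.Cond
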