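/-
GATE-B (helper93): ordinary + cyclotomic determinant + "the quotient character has square one"
implies STRICT ordinary.  Pure algebra over any local ring `A`; the adapter between a geometric
statement at `p` ("`p`-new implies `z(σ) ^ 2 = 1` on `D_P`", B10' / CaseBTNew) and the frozen
`GaloisRepAdic.IsStrictOrdinaryAt`.

For `σ ∈ D_P` write `x` for the scalar on the line `L` and `z` for the scalar on `V / L`;
`det ρ(σ) = x z`.  If `σ = (ζ ↦ ζ ^ a)` on `μ_{p ^ n}` then `x z - a ∈ (p ^ n)`.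

* `z`-form: `z * z = 1` gives `x - a z = (x z - a) z ∈ (p ^ n)`.
* `x`-form: `x - a η ∈ (p ^ n)` with `η * η = 1` gives
  `x (x - a z) = (x - a η) (x + a η) - a (x z - a) ∈ (p ^ n)`, and `x` is a unit.
-/
import Fermat.Agent.GB.Def.CondStrict

set_option autoImplicit false
set_option linter.unusedSectionVars false

open IsLocalRing

namespace Fermat.Agent.GB.Def.StrictOfSq

local notation "GQ" => (AlgebraicClosure ℚ ≃ₐ[ℚ] AlgebraicClosure ℚ)
local notation "Qb" => AlgebraicClosure ℚ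

open Fermat.Agent.GB.Def.Cond

/-! ### linear algebra: an endomorphism stabilising the line `A ∙ b 0` -/

section LinAlg

variable {A : Type*} [CommRing A] {V : Type*} [AddCommGroup V] [Module A V]

/-- an endomorphism `g` with `g (b 0) ∈ A ∙ b 0`: the scalar `x` on the line, the scalar `z` on
the quotient, `det g = x * z`, and `z` is the ONLY scalar through which `g` acts on `V / L`. -/
theorem exists_scalars_of_stable (b : Module.Basis (Fin 2) A V) (g : Module.End A V)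
    (hg : g (b 0) ∈ Submodule.span A {b 0}) :
    ∃ x z : A, (∀ w ∈ Submodule.span A {b 0}, g w = x • w) ∧
      (∀ v : V, g v - z • v ∈ Submodule.span A {b 0}) ∧ LinearMap.det g = x * z ∧
      (∀ z' : A, (∀ v : V, g v - z' • v ∈ Submodule.span A {b 0}) → z' = z) ∧
      (∀ x' : A, (∀ w ∈ Submodule.span A {b 0}, g w = x' • w) → x' = x) := by
  classical
  set x : A := b.repr (g (b 0)) 0 with hx
  set z : A := b.repr (g (b 1)) 1 with hz
  have h10 : b.repr (g (b 0)) 1 = 0 := (mem_span_zero_iff b _).mp hg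
  have hb0 : g (b 0) = x • b 0 := eq_smul_of_mem_span_zero b hg
  refine ⟨x, z, ?_, ?_, ?_, ?_, ?_⟩
  · intro w hw
    obtain ⟨s, rfl⟩ := Submodule.mem_span_singleton.mp hw
    rw [map_smul, hb0, smul_comm]
  · intro v
    rw [mem_span_zero_iff]
    conv_lhs => rw [eq_smul_add_smul b v]
    simp only [map_add, map_smul, map_sub, Finsupp.coe_add, Finsupp.coe_smul, Finsupp.coe_sub,
      Pi.add_apply, Pi.smul_apply, Pi.sub_apply, smul_eq_mul, Module.Basis.repr_self, h10,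
      mul_zero, zero_add]
    rw [← hz]
    simp
    ring
  · rw [← LinearMap.det_toMatrix b, Matrix.det_fin_two]
    simp only [LinearMap.toMatrix_apply]
    rw [h10, mul_zero, sub_zero]
  · intro z' hz'
    have h1 := (mem_span_zero_iff b _).mp (hz' (b 1))
    rw [map_sub, map_smul, Module.Basis.repr_self, Finsupp.sub_apply, Finsupp.smul_apply,
      Finsupp.single_apply, if_pos rfl, smul_eq_mul, mul_one, sub_eq_zero] at h1
    exact h1.symm
  · intro x' hx'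
    have h1 := hx' (b 0) (Submodule.mem_span_singleton_self _)
    rw [hb0] at h1
    have h2 := congrArg (fun w => b.repr w 0) h1
    simp only [map_smul, Module.Basis.repr_self, Finsupp.smul_apply, Finsupp.single_apply,
      if_true, smul_eq_mul, mul_one] at h2
    exact h2.symm

end LinAlg

/-! ### the two adapters -/

section Main

variable {A : Type} [CommRing A] [IsLocalRing A]

/-- the clause at one place, `z`-form: the quotient scalar of every `σ ∈ D_P` has square one. -/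
theorem soAt_of_quot_sq {ρ : GaloisRepAdic A} {p : ℕ} (hdet : ρ.DetIsCyclotomic p)
    {P : ValuationSubring Qb} {L : Submodule A ρ.V}
    (hb : ∃ b : Module.Basis (Fin 2) A ρ.V, L = A ∙ b 0)
    (hD : ∀ σ ∈ P.decompositionSubgroup ℚ, ∀ v ∈ L, ρ.ρ σ v ∈ L)
    (hI : ∀ σ ∈ P.inertiaSubgroupIn ℚ, ∀ v : ρ.V, ρ.ρ σ v - v ∈ L)
    (hsq : ∀ σ ∈ P.decompositionSubgroup ℚ, ∃ z : A,
      (∀ v : ρ.V, ρ.ρ σ v - z • v ∈ L) ∧ z * z = 1) : SOAt ρ p P := by
  obtain ⟨b, rfl⟩ := hb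
  refine ⟨_, ⟨b, rfl⟩, hD, hI, fun σ hσ => ?_⟩
  obtain ⟨x, z, hx, hz, hdt, huz, -⟩ := exists_scalars_of_stable b (ρ.ρ σ)
    (hD σ hσ _ (Submodule.mem_span_singleton_self _))
  obtain ⟨z', hz', hsq'⟩ := hsq σ hσ
  obtain rfl : z' = z := huz z' hz'
  refine ⟨x, z', hx, hz, fun n a ha => ?_⟩
  have h1 := hdet.2 n σ a ha
  rw [hdt] at h1
  have e : x - (a : A) * z' = (x * z' - (a : A)) * z' := by
    rw [sub_mul, mul_assoc, hsq', mul_one]
  rw [e]
  exact Ideal.mul_mem_right _ _ h1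

/-- the clause at one place, `x`-form: the scalar of every `σ ∈ D_P` on the line is
`ε(σ) η(σ)` with `η(σ) ^ 2 = 1`. -/
theorem soAt_of_line_sq {ρ : GaloisRepAdic A} {p : ℕ} (hdet : ρ.DetIsCyclotomic p)
    {P : ValuationSubring Qb} {L : Submodule A ρ.V}
    (hb : ∃ b : Module.Basis (Fin 2) A ρ.V, L = A ∙ b 0)
    (hD : ∀ σ ∈ P.decompositionSubgroup ℚ, ∀ v ∈ L, ρ.ρ σ v ∈ L)
    (hI : ∀ σ ∈ P.inertiaSubgroupIn ℚ, ∀ v : ρ.V, ρ.ρ σ v - v ∈ L)
    (hsq : ∀ σ ∈ P.decompositionSubgroup ℚ, ∃ x η : A,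
      (∀ w ∈ L, ρ.ρ σ w = x • w) ∧ η * η = 1 ∧
      ∀ (n a : ℕ), (∀ μ : Qb, μ ^ p ^ n = 1 → σ μ = μ ^ a) →
        x - (a : A) * η ∈ Ideal.span {((p ^ n : ℕ) : A)}) : SOAt ρ p P := by
  obtain ⟨b, rfl⟩ := hb
  refine ⟨_, ⟨b, rfl⟩, hD, hI, fun σ hσ => ?_⟩
  obtain ⟨x, z, hx, hz, hdt, -, hux⟩ := exists_scalars_of_stable b (ρ.ρ σ)
    (hD σ hσ _ (Submodule.mem_span_singleton_self _))
  obtain ⟨x', η, hx', hη, hcong⟩ := hsq σ hσ
  obtain rfl : x' = x := hux x' hx'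
  -- `x'` is a unit: `det ρ(σ) = x' z` is a unit
  have hunit : IsUnit (x' * z) := by
    rw [← hdt]
    have : IsUnit (ρ.ρ σ) := (Group.isUnit σ).map ρ.ρ
    exact this.map (LinearMap.det : Module.End A ρ.V →* A)
  have hxu : IsUnit x' := isUnit_of_mul_isUnit_left hunit
  refine ⟨x', z, hx, hz, fun n a ha => ?_⟩
  have h1 := hdet.2 n σ a ha
  rw [hdt] at h1
  have h2 := hcong n a ha
  have e : x' * (x' - (a : A) * z) =
      (x' - (a : A) * η) * (x' + (a : A) * η) - (a : A) * (x' * z - (a : A)) := by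
    have : (a : A) * η * ((a : A) * η) = (a : A) * (a : A) := by
      rw [mul_mul_mul_comm, hη, mul_one]
    linear_combination this
  have h3 : x' * (x' - (a : A) * z) ∈ Ideal.span {((p ^ n : ℕ) : A)} := by
    rw [e]
    exact Ideal.sub_mem _ (Ideal.mul_mem_right _ _ h2) (Ideal.mul_mem_left _ _ h1)
  obtain ⟨u, rfl⟩ := hxu
  have := Ideal.mul_mem_left _ (↑u⁻¹ : A) h3
  rwa [← mul_assoc, Units.inv_mul, one_mul] at this

/-- the clause at one place, `σ²`-form: `(ρ(σ)² - 1) V ⊆ L` for every `σ ∈ D_P` (what the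
levelwise transfer + Krull gives). -/
theorem soAt_of_sq_sub_mem {ρ : GaloisRepAdic A} {p : ℕ} (hdet : ρ.DetIsCyclotomic p)
    {P : ValuationSubring Qb} {L : Submodule A ρ.V}
    (hb : ∃ b : Module.Basis (Fin 2) A ρ.V, L = A ∙ b 0)
    (hD : ∀ σ ∈ P.decompositionSubgroup ℚ, ∀ v ∈ L, ρ.ρ σ v ∈ L)
    (hI : ∀ σ ∈ P.inertiaSubgroupIn ℚ, ∀ v : ρ.V, ρ.ρ σ v - v ∈ L)
    (hsq : ∀ σ ∈ P.decompositionSubgroup ℚ, ∀ v : ρ.V, ρ.ρ σ (ρ.ρ σ v) - v ∈ L) :
    SOAt ρ p P := by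
  refine soAt_of_quot_sq hdet hb hD hI fun σ hσ => ?_
  obtain ⟨b, rfl⟩ := hb
  obtain ⟨x, z, -, hz, -, -, -⟩ := exists_scalars_of_stable b (ρ.ρ σ)
    (hD σ hσ _ (Submodule.mem_span_singleton_self _))
  refine ⟨z, hz, ?_⟩
  -- `(z * z - 1) • b 1 ∈ L`
  have h1 : (z * z - 1) • b 1 ∈ Submodule.span A {b 0} := by
    have e : (z * z - 1) • b 1 = (ρ.ρ σ (ρ.ρ σ (b 1)) - b 1)
        - ρ.ρ σ (ρ.ρ σ (b 1) - z • b 1) - z • (ρ.ρ σ (b 1) - z • b 1) := by
      rw [map_sub, map_smul, sub_smul, one_smul, mul_smul, smul_sub]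
      abel
    rw [e]
    exact Submodule.sub_mem _ (Submodule.sub_mem _ (hsq σ hσ (b 1)) (hD σ hσ _ (hz (b 1))))
      (Submodule.smul_mem _ _ (hz (b 1)))
  have h2 := (mem_span_zero_iff b _).mp h1
  rw [map_smul, Module.Basis.repr_self, Finsupp.smul_apply, Finsupp.single_apply, if_pos rfl,
    smul_eq_mul, mul_one, sub_eq_zero] at h2
  exact h2

/-- **`σ²`-form.**  `DetIsCyclotomic p`, and at every place `P` over `p` an ordinary line `L` with
`(ρ(σ)² - 1) V ⊆ L` for every `σ ∈ D_P`: strictly ordinary. -/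
theorem isStrictOrdinaryAt_of_sq_sub_mem {ρ : GaloisRepAdic A} {p : ℕ}
    (hdet : ρ.DetIsCyclotomic p)
    (h : ∀ P : ValuationSubring Qb, P.LiesOverPrime p → ∃ L : Submodule A ρ.V,
      (∃ b : Module.Basis (Fin 2) A ρ.V, L = A ∙ b 0) ∧
      (∀ σ ∈ P.decompositionSubgroup ℚ, ∀ v ∈ L, ρ.ρ σ v ∈ L) ∧
      (∀ σ ∈ P.inertiaSubgroupIn ℚ, ∀ v : ρ.V, ρ.ρ σ v - v ∈ L) ∧
      (∀ σ ∈ P.decompositionSubgroup ℚ, ∀ v : ρ.V, ρ.ρ σ (ρ.ρ σ v) - v ∈ L)) :
    ρ.IsStrictOrdinaryAt p := by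
  refine ⟨hdet.1, fun P hP => ?_⟩
  obtain ⟨L, hb, hD, hI, hsq⟩ := h P hP
  exact soAt_of_sq_sub_mem hdet hb hD hI hsq

/-- **`z`-form.**  `DetIsCyclotomic p`, and at every place `P` over `p` an ordinary line such
that the scalar of every `σ ∈ D_P` on the quotient has square one: strictly ordinary. -/
theorem isStrictOrdinaryAt_of_quot_sq {ρ : GaloisRepAdic A} {p : ℕ} (hdet : ρ.DetIsCyclotomic p)
    (h : ∀ P : ValuationSubring Qb, P.LiesOverPrime p → ∃ L : Submodule A ρ.V,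
      (∃ b : Module.Basis (Fin 2) A ρ.V, L = A ∙ b 0) ∧
      (∀ σ ∈ P.decompositionSubgroup ℚ, ∀ v ∈ L, ρ.ρ σ v ∈ L) ∧
      (∀ σ ∈ P.inertiaSubgroupIn ℚ, ∀ v : ρ.V, ρ.ρ σ v - v ∈ L) ∧
      (∀ σ ∈ P.decompositionSubgroup ℚ, ∃ z : A,
        (∀ v : ρ.V, ρ.ρ σ v - z • v ∈ L) ∧ z * z = 1)) : ρ.IsStrictOrdinaryAt p := by
  refine ⟨hdet.1, fun P hP => ?_⟩
  obtain ⟨L, hb, hD, hI, hsq⟩ := h P hP
  exact soAt_of_quot_sq hdet hb hD hI hsq

/-- **`x`-form.**  `DetIsCyclotomic p`, and at every place `P` over `p` an ordinary line on which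
every `σ ∈ D_P` acts through `ε(σ) η(σ)` with `η(σ) ^ 2 = 1`: strictly ordinary. -/
theorem isStrictOrdinaryAt_of_line_sq {ρ : GaloisRepAdic A} {p : ℕ} (hdet : ρ.DetIsCyclotomic p)
    (h : ∀ P : ValuationSubring Qb, P.LiesOverPrime p → ∃ L : Submodule A ρ.V,
      (∃ b : Module.Basis (Fin 2) A ρ.V, L = A ∙ b 0) ∧
      (∀ σ ∈ P.decompositionSubgroup ℚ, ∀ v ∈ L, ρ.ρ σ v ∈ L) ∧
      (∀ σ ∈ P.inertiaSubgroupIn ℚ, ∀ v : ρ.V, ρ.ρ σ v - v ∈ L) ∧
      (∀ σ ∈ P.decompositionSubgroup ℚ, ∃ x η : A,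
        (∀ w ∈ L, ρ.ρ σ w = x • w) ∧ η * η = 1 ∧
        ∀ (n a : ℕ), (∀ μ : Qb, μ ^ p ^ n = 1 → σ μ = μ ^ a) →
          x - (a : A) * η ∈ Ideal.span {((p ^ n : ℕ) : A)})) : ρ.IsStrictOrdinaryAt p := by
  refine ⟨hdet.1, fun P hP => ?_⟩
  obtain ⟨L, hb, hD, hI, hsq⟩ := h P hP
  exact soAt_of_line_sq hdet hb hD hI hsq

/-- **ordinary + a condition on EVERY ordinary line.**  `IsOrdinaryAt p`, `DetIsCyclotomic p`,
and: for every place, every ordinary line `L` there and every `σ ∈ D_P`, any scalar `z` through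
which `σ` acts on `V / L` has square one.  (When `p` is odd the ordinary line is unique —
`GB/Def/CondStrict` — so this is no stronger than the `z`-form.) -/
theorem isStrictOrdinaryAt_of_isOrdinaryAt {ρ : GaloisRepAdic A} {p : ℕ}
    (hdet : ρ.DetIsCyclotomic p) (hord : ρ.IsOrdinaryAt p)
    (hsq : ∀ P : ValuationSubring Qb, P.LiesOverPrime p → ∀ L : Submodule A ρ.V,
      (∃ b : Module.Basis (Fin 2) A ρ.V, L = A ∙ b 0) →
      (∀ σ ∈ P.decompositionSubgroup ℚ, ∀ v ∈ L, ρ.ρ σ v ∈ L) →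
      (∀ σ ∈ P.inertiaSubgroupIn ℚ, ∀ v : ρ.V, ρ.ρ σ v - v ∈ L) →
      ∀ σ ∈ P.decompositionSubgroup ℚ, ∀ z : A, (∀ v : ρ.V, ρ.ρ σ v - z • v ∈ L) → z * z = 1) :
    ρ.IsStrictOrdinaryAt p := by
  refine isStrictOrdinaryAt_of_quot_sq hdet fun P hP => ?_
  obtain ⟨L, hb, hD, hI⟩ := hord P hP
  refine ⟨L, hb, hD, hI, fun σ hσ => ?_⟩
  obtain ⟨b, rfl⟩ := hb
  obtain ⟨x, z, -, hz, -, -, -⟩ := exists_scalars_of_stable b (ρ.ρ σ)
    (hD σ hσ _ (Submodule.mem_span_singleton_self _))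
  exact ⟨z, hz, hsq P hP _ ⟨b, rfl⟩ hD hI σ hσ z hz⟩

/-- **ordinary + `σ²`-condition on every ordinary line.** -/
theorem isStrictOrdinaryAt_of_isOrdinaryAt_of_sq {ρ : GaloisRepAdic A} {p : ℕ}
    (hdet : ρ.DetIsCyclotomic p) (hord : ρ.IsOrdinaryAt p)
    (hsq : ∀ P : ValuationSubring Qb, P.LiesOverPrime p → ∀ L : Submodule A ρ.V,
      (∃ b : Module.Basis (Fin 2) A ρ.V, L = A ∙ b 0) →
      (∀ σ ∈ P.decompositionSubgroup ℚ, ∀ v ∈ L, ρ.ρ σ v ∈ L) →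
      (∀ σ ∈ P.inertiaSubgroupIn ℚ, ∀ v : ρ.V, ρ.ρ σ v - v ∈ L) →
      ∀ σ ∈ P.decompositionSubgroup ℚ, ∀ v : ρ.V, ρ.ρ σ (ρ.ρ σ v) - v ∈ L) :
    ρ.IsStrictOrdinaryAt p := by
  refine isStrictOrdinaryAt_of_sq_sub_mem hdet fun P hP => ?_
  obtain ⟨L, hb, hD, hI⟩ := hord P hP
  exact ⟨L, hb, hD, hI, hsq P hP L hb hD hI⟩

/-- conversely, strict ordinary + cyclotomic determinant force the quotient scalar to have
square one MODULO every `p ^ n` (the statement is sharp: this is why `p`-old points are never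
strictly ordinary). -/
theorem quot_sq_sub_one_mem_of_strict {ρ : GaloisRepAdic A} {p : ℕ} (hdet : ρ.DetIsCyclotomic p)
    {σ : GQ} {L : Submodule A ρ.V} {x z : A}
    (hb : ∃ b : Module.Basis (Fin 2) A ρ.V, L = A ∙ b 0)
    (hL : ∀ v ∈ L, ρ.ρ σ v ∈ L)
    (hx : ∀ w ∈ L, ρ.ρ σ w = x • w) (hz : ∀ v : ρ.V, ρ.ρ σ v - z • v ∈ L) {n a : ℕ}
    (ha : ∀ μ : Qb, μ ^ p ^ n = 1 → σ μ = μ ^ a)
    (hstrict : x - (a : A) * z ∈ Ideal.span {((p ^ n : ℕ) : A)}) :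
    (a : A) * (z * z - 1) ∈ Ideal.span {((p ^ n : ℕ) : A)} := by
  obtain ⟨b, rfl⟩ := hb
  obtain ⟨x₀, z₀, -, -, hdt, huz, hux⟩ := exists_scalars_of_stable b (ρ.ρ σ)
    (hL _ (Submodule.mem_span_singleton_self _))
  obtain rfl : x = x₀ := hux x hx
  obtain rfl : z = z₀ := huz z hz
  have h1 := hdet.2 n σ a ha
  rw [hdt] at h1
  have e : (a : A) * (z * z - 1) = (x * z - (a : A)) - (x - (a : A) * z) * z := by ring
  rw [e]
  exact Ideal.sub_mem _ h1 (Ideal.mul_mem_right _ _ hstrict)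

end Main

end Fermat.Agent.GB.Def.StrictOfSq
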