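/-
GATE-B / B2 "S56-framed", CORE half (helper94; node GB-DEF-FRAMED-NODES).

The Taylor–Wiles/Selmer machine of S56 (`GP/Core`) with a FIFTH class of places: a finite set
`Su` of primes at which the deformation problem is FRAMED, i.e. the local condition is `L_v := ⊥`
(the class of the tangent cocycle is required to be a coboundary, the framing variables account for
`H⁰(G_v, ad⁰)`).  The Taylor–Wiles sets are the SAME as in S56: `CzKill.exists_hTWK` kills the dual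
Selmer group of EVERY family `L` with `L_v = ⊤` on `Q`.

* `FramedFamily` : the family-level package at one level `S` and one auxiliary set `Q`
  (`Δ`, `L`, `e`, `L = ⊤` on `Q`, `L = ⊥` on `Su ∖ Q`, `PreEuler`, `TateLe`, `dualSelmerGrp = ⊥`,
  `h⁰(N) = 0`, `d ≤ dim N^{c=1}`, the local bounds, the total excess, the membership clause off
  `Su`);
* `FramedFamily.selmer_count` : `dim Sel_L + Σ_{v ∈ Su ∖ Q} h⁰(G_v, N) ≤ r·d`
  (the framed terms cancel: `g = r` for any number of framed primes);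
* `framedFamily_of_localConds` : twin of `CoreLoc.selmerBound_base_of_localConds`;
* `framedNodes_of_nodes`       : twin of `CoreAsm.selmerBounds_base_of_nodes`;
* `framedNodes_adBar`          : twin of `CoreInstAdBar.selmerBounds_base_adBar` (from the FROZEN
  S56 hypotheses).
NEW file; imports only (the closure of S56 is frozen and untouched).
-/
import Mathlib
import Fermat.Agent.GP.Core.CoreInstAdBar
import Fermat.Agent.GP.GW.Euler.KeyLeavesHypFinal
import Fermat.Agent.GP.Flat.SSTop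

set_option autoImplicit false
set_option linter.unusedSectionVars false
set_option linter.style.haveILetI false

namespace Fermat.Agent.GB.Def.FramedNodes

open IsLocalRing Fermat.Agent.S53_helper35 Matrix Fermat.Agent.GP.Tan.Cocycle
  Fermat.Agent.GP.Tan.TanTop Fermat.Agent.GP.Tan.SelmerFrozen Fermat.Agent.GP.Tan.SelmerCard
  Fermat.Agent.GC.Prof Fermat.Agent.GC.Prof.Cone Fermat.Agent.GC.Places
  Fermat.Agent.GC.Local.KR Fermat.Agent.GC.PT.LocDataQ Fermat.Agent.GC.C0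
  Fermat.Agent.GP.GW groupCohomology ExtCitation Module Polynomial CategoryTheory
  Fermat.Agent.GP.Core

local instance factPrimeFramedNodes (q : Nat.Primes) : Fact ((q : ℕ).Prime) := ⟨q.2⟩

section Family

variable {𝒪 : Type} [CommRing 𝒪] [IsLocalRing 𝒪]
  (ρbar : ResidualGaloisRep (ResidueField 𝒪))
  (b : Module.Basis (Fin 2) (ResidueField 𝒪) ρbar.V)
  (p : ℕ) [Fact p.Prime]
  (cond : ∀ ⦃A : Type⦄ [CommRing A] [IsLocalRing A] [Algebra 𝒪 A], GaloisRepAdic A → Prop)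
  (Su Q : Finset ℕ) (S : Finset Nat.Primes)
  [IsDiscrete (levelS S) (TChi p)]
  (N : Rep (ZMod p) S53_helper35.GQ) [FiniteDimensional (ZMod p) N]
  [IsDiscrete (levelS S) N] [IsDiscrete (levelS S) (N.dualTwist (cycloChar p))]
  (emb : N →+ Matrix (Fin 2) (Fin 2) (ResidueField 𝒪))

/-- the underlying prime number of a place of `locDataQ S`. -/
def plOf (S : Finset Nat.Primes) (v : (locDataQ S).ι) : ℕ := (((show ↥S from v) : Nat.Primes) : ℕ)

@[simp] theorem plOf_eq (S : Finset Nat.Primes) (v : ↥S) : plOf S v = ((v : Nat.Primes) : ℕ) := rfl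

/-- **The family-level package of the framed Selmer problem** at the level `S`, for the auxiliary
set `Q`, the framed set `Su` and the deformation condition `cond` (a condition on
`k[ε]`-representations suffices; it is stated for all coefficient rings to match `SelmerBound`). -/
structure FramedFamily (r d : ℕ) : Type 1 where
  /-- the Poitou–Tate data of the level -/
  Δ : PTData (p := p) S
  /-- the local conditions -/
  L : ∀ v, Submodule (ZMod p) (Hloc S N v 1)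
  /-- the local excesses -/
  e : (locDataQ S).ι → ℕ
  L_top : ∀ v : (locDataQ S).ι, plOf S v ∈ Q → L v = ⊤
  L_bot : ∀ v : (locDataQ S).ι, plOf S v ∉ Q → plOf S v ∈ Su → L v = ⊥
  e_zero : ∀ v : (locDataQ S).ι, plOf S v ∉ Q → plOf S v ∈ Su → e v = 0
  pre : PreEuler N Δ L
  tate : TateLe S (N.dualTwist (cycloChar p))
  dual : dualSelmerGrp N Δ L = ⊥
  H0 : finrank (ZMod p) (Hlc (levelS S) N 0) = 0
  conj : d ≤ finrank (ZMod p) (LinearMap.ker (N.ρ complexConjugation - 1))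
  card : ∀ v : (locDataQ S).ι, (plOf S v ∈ Q ∨ plOf S v ∉ Su) →
    finrank (ZMod p) (L v) ≤ finrank (ZMod p) (Hloc S N v 0) + e v
  esum : ∑ v, e v ≤ d + r * d
  mem : ∀ v : (locDataQ S).ι, (plOf S v ∈ Q ∨ plOf S v ∉ Su) →
    ∀ (t : S53_helper35.GQ →* Matrix (Fin 2) (Fin 2) (DualNumber (ResidueField 𝒪)))
      (ht : MatCont t), rfst t = toMatRes ρbar b →
      (∃ ρ : GaloisRepAdic (DualNumber (ResidueField 𝒪)), cond ρ ∧ ρ.IsEquiv (ofMat t ht)) →
      ∀ z : lcCocycles₁ ((locDataQ S).𝒰v v) (Rep.res ((locDataQ S).r v) N),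
        (∀ τ : (locDataQ S).Gv v,
          emb ((z : (locDataQ S).Gv v → N) τ) = tanCocycle t ((locDataQ S).r v τ)) →
        Hlc1π ((locDataQ S).𝒰v v) (Rep.res ((locDataQ S).r v) N) z ∈ L v

variable {ρbar b p cond Su Q S N emb}

/-- **The framed Selmer count**: `dim Sel_L + Σ_{v ∈ Su ∖ Q} h⁰(G_v, N) ≤ r · d`.  The framed
places contribute `-h⁰(G_v, N)` to Wiles' formula, which is what the three framing variables at `v`
compensate: the number of generators of the framed ring over the local framed rings is `r` for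
any number of framed primes. -/
theorem FramedFamily.selmer_count {r d : ℕ} (F : FramedFamily ρbar b p cond Su Q S N emb r d)
    (hp2 : p ≠ 2) :
    finrank (ZMod p) (selmerGrp S N F.L) +
        ∑ v : (locDataQ S).ι, (if plOf S v ∉ Q ∧ plOf S v ∈ Su then
          finrank (ZMod p) (Hloc S N v 0) else 0) ≤ r * d := by
  classical
  have hsum := ModelConj.selmer_le_conj_sum N hp2 F.Δ F.L F.pre F.tate F.dual
  have h1 : ∀ v : (locDataQ S).ι, finrank (ZMod p) (F.L v) +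
      (if plOf S v ∉ Q ∧ plOf S v ∈ Su then finrank (ZMod p) (Hloc S N v 0) else 0) ≤
      finrank (ZMod p) (Hloc S N v 0) + F.e v := by
    intro v
    by_cases hv : plOf S v ∉ Q ∧ plOf S v ∈ Su
    · rw [if_pos hv, F.L_bot v hv.1 hv.2, finrank_bot, zero_add]
      exact Nat.le_add_right _ _
    · rw [if_neg hv, add_zero]
      refine F.card v ?_
      by_contra hcon
      push Not at hcon
      exact hv ⟨hcon.1, hcon.2⟩
  have h2 := Finset.sum_le_sum fun v (_ : v ∈ (Finset.univ : Finset (locDataQ S).ι)) => h1 v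
  rw [Finset.sum_add_distrib, Finset.sum_add_distrib] at h2
  have h3 := F.esum
  have h4 := F.H0
  have h5 := F.conj
  omega

end Family

section CoreLocFramed

variable {𝒪 : Type} [CommRing 𝒪] [IsLocalRing 𝒪]
  (ρbar : ResidualGaloisRep (ResidueField 𝒪))
  (b : Module.Basis (Fin 2) (ResidueField 𝒪) ρbar.V)
  (p : ℕ) [Fact p.Prime]
  (base : Finset ℕ → ∀ ⦃A : Type⦄ [CommRing A] [IsLocalRing A] [Algebra 𝒪 A],
    GaloisRepAdic A → Prop)
  (hbase : BaseGlobal 𝒪 p base)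
  (Smin Su Q : Finset ℕ) (S : Finset Nat.Primes)
  [IsDiscrete (levelS S) (TChi p)]
  (N : Rep (ZMod p) S53_helper35.GQ) [FiniteDimensional (ZMod p) N]
  [IsDiscrete (levelS S) N] [IsDiscrete (levelS S) (N.dualTwist (cycloChar p))]
  (emb : N →+ Matrix (Fin 2) (Fin 2) (ResidueField 𝒪))

/-- discreteness of the restriction of `N` to `G_v`, in `levelQ` / `localGaloisToGlobal` form. -/
local instance isDiscrete_res_framed (v : ↥S) :
    IsDiscrete (levelQ ((v : Nat.Primes) : ℕ))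
      (Rep.res (localGaloisToGlobal ((v : Nat.Primes) : ℕ)) N) :=
  isDiscrete_res_localGaloisToGlobal S ((v : Nat.Primes) : ℕ) N

/-- the framed deformation condition: the frozen-shaped base condition at the level
`Smin ∪ Su ∪ Q` (unramified outside, fixed determinant, the condition at `p`), unipotent inertia on
`Smin ∖ {p}`, NO condition on `Su ∪ Q`. -/
def framedCond (Smin Su Q : Finset ℕ) :
    ∀ ⦃A : Type⦄ [CommRing A] [IsLocalRing A] [Algebra 𝒪 A], GaloisRepAdic A → Prop :=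
  fun _A _ _ _ ρ =>
    base (Smin ∪ Su ∪ Q) ρ ∧ ∀ q ∈ Smin, q.Prime → q ≠ p → ρ.IsUnipotentOnInertiaAt q

include hbase in
/-- **CORE layer A' with a framed class** (twin of `CoreLoc.selmerBound_base_of_localConds`): the
family of local conditions `Q ↦ ⊤`, `Su ∖ Q ↦ ⊥`, then `p`, `Smin`, unramified from the `LocalCond`
contracts, as a `FramedFamily`. -/
theorem framedFamily_of_localConds (r d : ℕ)
    (Pp : GaloisRepAdic (DualNumber (ResidueField 𝒪)) → Prop)
    (hbaseP : ∀ (T : Finset ℕ) (ρ : GaloisRepAdic (DualNumber (ResidueField 𝒪))),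
      base T ρ → Pp ρ)
    (hQr : Q.card ≤ r)
    (Δ : PTData (p := p) S)
    (hpre : ∀ L : ∀ v, Submodule (ZMod p) (Hloc S N v 1), PreEuler N Δ L)
    (htate : TateLe S (N.dualTwist (cycloChar p)))
    (hdual : ∀ L : ∀ v, Submodule (ZMod p) (Hloc S N v 1),
      (∀ v : ↥S, ((v : Nat.Primes) : ℕ) ∈ Q → L v = ⊤) → dualSelmerGrp N Δ L = ⊥)
    (hH0 : finrank (ZMod p) (Hlc (levelS S) N 0) = 0)
    (hconj : d ≤ finrank (ZMod p) (LinearMap.ker (N.ρ complexConjugation - 1)))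
    (hlocp : ∀ v : ↥S, ((v : Nat.Primes) : ℕ) = p →
      LocalCond ρbar b p N emb ((v : Nat.Primes) : ℕ) Pp d)
    (hlocSmin : ∀ v : ↥S, ((v : Nat.Primes) : ℕ) ∈ Smin → ((v : Nat.Primes) : ℕ) ≠ p →
      LocalCond ρbar b p N emb ((v : Nat.Primes) : ℕ)
        (fun ρ => ρ.IsUnipotentOnInertiaAt ((v : Nat.Primes) : ℕ)) 0)
    (hlocUnr : ∀ v : ↥S, ((v : Nat.Primes) : ℕ) ∉ Smin → ((v : Nat.Primes) : ℕ) ∉ Su →
      ((v : Nat.Primes) : ℕ) ∉ Q → ((v : Nat.Primes) : ℕ) ≠ p →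
      LocalCond ρbar b p N emb ((v : Nat.Primes) : ℕ)
        (fun ρ => ρ.IsUnramifiedAt ((v : Nat.Primes) : ℕ)) 0)
    (hlocQ : ∀ v : ↥S, ((v : Nat.Primes) : ℕ) ∈ Q →
      finrank (ZMod p) (Hlc (levelQ ((v : Nat.Primes) : ℕ))
          (Rep.res (localGaloisToGlobal ((v : Nat.Primes) : ℕ)) N) 1) ≤
        finrank (ZMod p) (Hlc (levelQ ((v : Nat.Primes) : ℕ))
          (Rep.res (localGaloisToGlobal ((v : Nat.Primes) : ℕ)) N) 0) + d) :
    Nonempty (FramedFamily ρbar b p (framedCond p base Smin Su Q) Su Q S N emb r d) := by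
  classical
  -- the family of local conditions (`Q` FIRST, then the framed set)
  let L : ∀ v : ↥S, Submodule (ZMod p) (Hloc S N v 1) := fun v =>
    if hvq : ((v : Nat.Primes) : ℕ) ∈ Q then ⊤
    else if hvu : ((v : Nat.Primes) : ℕ) ∈ Su then ⊥
    else if hvp : ((v : Nat.Primes) : ℕ) = p then Classical.choose (hlocp v hvp)
    else if hvs : ((v : Nat.Primes) : ℕ) ∈ Smin then Classical.choose (hlocSmin v hvs hvp)
    else Classical.choose (hlocUnr v hvs hvu hvq hvp)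
  let e : ↥S → ℕ := fun v =>
    if ((v : Nat.Primes) : ℕ) ∉ Q ∧ ((v : Nat.Primes) : ℕ) ∈ Su then 0 else
    (if ((v : Nat.Primes) : ℕ) = p then d else 0) + (if ((v : Nat.Primes) : ℕ) ∈ Q then d else 0)
  have hLq : ∀ (v : ↥S) (_ : ((v : Nat.Primes) : ℕ) ∈ Q), L v = ⊤ :=
    fun v hvq => dif_pos hvq
  have hLb : ∀ (v : ↥S) (_ : ((v : Nat.Primes) : ℕ) ∉ Q) (_ : ((v : Nat.Primes) : ℕ) ∈ Su),
      L v = ⊥ := fun v hvq hvu => (dif_neg hvq).trans (dif_pos hvu)
  have hLp : ∀ (v : ↥S) (_ : ((v : Nat.Primes) : ℕ) ∉ Q) (_ : ((v : Nat.Primes) : ℕ) ∉ Su)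
      (hvp : ((v : Nat.Primes) : ℕ) = p),
      L v = Classical.choose (hlocp v hvp) := fun v hvq hvu hvp => by
    exact (dif_neg hvq).trans ((dif_neg hvu).trans (dif_pos hvp))
  have hLs : ∀ (v : ↥S) (_ : ((v : Nat.Primes) : ℕ) ∉ Q) (_ : ((v : Nat.Primes) : ℕ) ∉ Su)
      (hvp : ((v : Nat.Primes) : ℕ) ≠ p)
      (hvs : ((v : Nat.Primes) : ℕ) ∈ Smin), L v = Classical.choose (hlocSmin v hvs hvp) :=
    fun v hvq hvu hvp hvs => by
      exact (dif_neg hvq).trans ((dif_neg hvu).trans ((dif_neg hvp).trans (dif_pos hvs)))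
  have hLu : ∀ (v : ↥S) (hvq : ((v : Nat.Primes) : ℕ) ∉ Q) (hvu : ((v : Nat.Primes) : ℕ) ∉ Su)
      (hvp : ((v : Nat.Primes) : ℕ) ≠ p)
      (hvs : ((v : Nat.Primes) : ℕ) ∉ Smin),
      L v = Classical.choose (hlocUnr v hvs hvu hvq hvp) :=
    fun v hvq hvu hvp hvs => by
      exact (dif_neg hvq).trans ((dif_neg hvu).trans ((dif_neg hvp).trans (dif_neg hvs)))
  have he_eq : ∀ v : ↥S, (((v : Nat.Primes) : ℕ) ∈ Q ∨ ((v : Nat.Primes) : ℕ) ∉ Su) →
      e v = (if ((v : Nat.Primes) : ℕ) = p then d else 0) +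
        (if ((v : Nat.Primes) : ℕ) ∈ Q then d else 0) := by
    intro v hv
    refine if_neg ?_
    rintro ⟨h1, h2⟩
    rcases hv with h | h
    · exact h1 h
    · exact h h2
  -- the dimension bounds
  have hcard : ∀ v : ↥S, (((v : Nat.Primes) : ℕ) ∈ Q ∨ ((v : Nat.Primes) : ℕ) ∉ Su) →
      finrank (ZMod p) (L v) ≤ finrank (ZMod p) (Hloc S N v 0) + e v := by
    intro v hv
    rw [he_eq v hv]
    by_cases hvq : ((v : Nat.Primes) : ℕ) ∈ Q
    · rw [hLq v hvq, finrank_top]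
      have h1 := hlocQ v hvq
      have h2 : d ≤ (if ((v : Nat.Primes) : ℕ) = p then d else 0) +
          (if ((v : Nat.Primes) : ℕ) ∈ Q then d else 0) := by
        rw [if_pos hvq]
        exact Nat.le_add_left _ _
      exact h1.trans (Nat.add_le_add_left h2 _)
    · have hvu : ((v : Nat.Primes) : ℕ) ∉ Su := hv.resolve_left hvq
      by_cases hvp : ((v : Nat.Primes) : ℕ) = p
      · rw [hLp v hvq hvu hvp]
        have h1 := (Classical.choose_spec (hlocp v hvp)).2.1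
        have h2 : d ≤ (if ((v : Nat.Primes) : ℕ) = p then d else 0) +
            (if ((v : Nat.Primes) : ℕ) ∈ Q then d else 0) := by
          rw [if_pos hvp]
          exact Nat.le_add_right _ _
        exact h1.trans (Nat.add_le_add_left h2 _)
      · by_cases hvs : ((v : Nat.Primes) : ℕ) ∈ Smin
        · rw [hLs v hvq hvu hvp hvs]
          exact (Classical.choose_spec (hlocSmin v hvs hvp)).2.1.trans
            (Nat.add_le_add_left (Nat.zero_le _) _)
        · rw [hLu v hvq hvu hvp hvs]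
          exact (Classical.choose_spec (hlocUnr v hvs hvu hvq hvp)).2.1.trans
            (Nat.add_le_add_left (Nat.zero_le _) _)
  -- the total excess
  have he : ∑ v : ↥S, e v ≤ d + r * d := by
    have hinjS : Function.Injective fun v : ↥S => ((v : Nat.Primes) : ℕ) := fun v w hvw =>
      Subtype.ext (Subtype.ext hvw)
    have hle : ∀ v : ↥S, e v ≤ (if ((v : Nat.Primes) : ℕ) = p then d else 0) +
        (if ((v : Nat.Primes) : ℕ) ∈ Q then d else 0) := by
      intro v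
      show (if ((v : Nat.Primes) : ℕ) ∉ Q ∧ ((v : Nat.Primes) : ℕ) ∈ Su then 0 else
        (if ((v : Nat.Primes) : ℕ) = p then d else 0) +
          (if ((v : Nat.Primes) : ℕ) ∈ Q then d else 0)) ≤ _
      split_ifs <;> omega
    refine (Finset.sum_le_sum fun v _ => hle v).trans ?_
    rw [Finset.sum_add_distrib]
    refine Nat.add_le_add ?_ ?_
    · rw [Finset.sum_ite, Finset.sum_const_zero, add_zero, Finset.sum_const, smul_eq_mul]
      have h1 : (Finset.univ.filter fun v : ↥S => ((v : Nat.Primes) : ℕ) = p).card ≤ 1 := by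
        rw [Finset.card_le_one]
        intro v hv w hw
        rw [Finset.mem_filter] at hv hw
        exact hinjS (hv.2.trans hw.2.symm)
      calc _ ≤ 1 * d := Nat.mul_le_mul_right d h1
        _ = d := one_mul d
    · rw [Finset.sum_ite, Finset.sum_const_zero, add_zero, Finset.sum_const, smul_eq_mul]
      have h1 : (Finset.univ.filter fun v : ↥S => ((v : Nat.Primes) : ℕ) ∈ Q).card ≤ Q.card := by
        refine Finset.card_le_card_of_injOn (fun v : ↥S => ((v : Nat.Primes) : ℕ)) ?_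
          (hinjS.injOn)
        intro v hv
        exact (Finset.mem_filter.mp hv).2
      exact Nat.mul_le_mul_right d (h1.trans hQr)
  refine ⟨{
    Δ := Δ
    L := L
    e := e
    L_top := fun (v : ↥S) hv => hLq v hv
    L_bot := fun (v : ↥S) hq hu => hLb v hq hu
    e_zero := fun (v : ↥S) hq hu => if_pos ⟨hq, hu⟩
    pre := hpre L
    tate := htate
    dual := hdual L hLq
    H0 := hH0
    conj := hconj
    card := fun (v : ↥S) hv => hcard v hv
    esum := he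
    mem := ?_ }⟩
  intro (v : ↥S) hv t ht hfst h𝒟 z hz
  obtain ⟨ρ, ⟨hb, hunip⟩, hρe⟩ := h𝒟
  by_cases hvq : ((v : Nat.Primes) : ℕ) ∈ Q
  · rw [hLq v hvq]
    exact Submodule.mem_top
  · have hvu : ((v : Nat.Primes) : ℕ) ∉ Su := hv.resolve_left hvq
    by_cases hvp : ((v : Nat.Primes) : ℕ) = p
    · rw [hLp v hvq hvu hvp]
      exact (Classical.choose_spec (hlocp v hvp)).2.2 t ht hfst
        ⟨ρ, hbaseP _ ρ hb, hρe⟩ z hz
    · by_cases hvs : ((v : Nat.Primes) : ℕ) ∈ Smin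
      · rw [hLs v hvq hvu hvp hvs]
        exact (Classical.choose_spec (hlocSmin v hvs hvp)).2.2 t ht hfst
          ⟨ρ, hunip _ hvs (v : Nat.Primes).2 hvp, hρe⟩ z hz
      · rw [hLu v hvq hvu hvp hvs]
        refine (Classical.choose_spec (hlocUnr v hvs hvu hvq hvp)).2.2 t ht hfst
          ⟨ρ, (hbase _ ρ hb).2 _ (v : Nat.Primes).2 ?_, hρe⟩ z hz
        intro hmem
        rcases Finset.mem_union.mp hmem with h | h
        · rcases Finset.mem_union.mp h with h' | h'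
          · exact hvs h'
          · exact hvu h'
        · exact hvq h

end CoreLocFramed

section CoreAsmFramed

variable {𝒪 : Type} [CommRing 𝒪] [IsLocalRing 𝒪]
  (ρbar : ResidualGaloisRep (ResidueField 𝒪))
  (b : Module.Basis (Fin 2) (ResidueField 𝒪) ρbar.V)
  (p : ℕ) [Fact p.Prime]
  (base : Finset ℕ → ∀ ⦃A : Type⦄ [CommRing A] [IsLocalRing A] [Algebra 𝒪 A],
    GaloisRepAdic A → Prop)
  (hbase : BaseGlobal 𝒪 p base)
  (N : Rep (ZMod p) S53_helper35.GQ) [FiniteDimensional (ZMod p) N]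
  (emb : N →+ Matrix (Fin 2) (Fin 2) (ResidueField 𝒪))

include hbase in
/-- **CORE layer C with a framed class** (twin of `CoreAsm.selmerBounds_base_of_nodes`): the
`∃ r, ∀ n, ∃ qv` assembly, ending in a `FramedFamily` at the level `levelOfTW Sig qv`. -/
theorem framedNodes_of_nodes
    (S Smin Su : Finset ℕ)
    (Sig : Finset Nat.Primes)
    (d : ℕ)
    (Pp : GaloisRepAdic (DualNumber (ResidueField 𝒪)) → Prop)
    (hbaseP : ∀ (T : Finset ℕ) (ρ : GaloisRepAdic (DualNumber (ResidueField 𝒪))),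
      base T ρ → Pp ρ)
    -- discreteness of the local restrictions
    (hdloc : ∀ q : Nat.Primes,
      IsDiscrete (levelQ (q : ℕ)) (Rep.res (localGaloisToGlobal (q : ℕ)) N))
    -- [P-GW]
    (hPT : ∀ (S' : Finset Nat.Primes) [IsDiscrete (levelS S') (TChi p)], Sig ⊆ S' →
      Nonempty (PTData (p := p) S'))
    (hpre : ∀ (S' : Finset Nat.Primes) [IsDiscrete (levelS S') (TChi p)]
      [IsDiscrete (levelS S') N] [IsDiscrete (levelS S') (N.dualTwist (cycloChar p))],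
      Sig ⊆ S' → ∀ (Δ : PTData (p := p) S') (L : ∀ v, Submodule (ZMod p) (Hloc S' N v 1)),
        PreEuler N Δ L)
    (htate : ∀ (S' : Finset Nat.Primes) [IsDiscrete (levelS S') (N.dualTwist (cycloChar p))],
      Sig ⊆ S' → TateLe S' (N.dualTwist (cycloChar p)))
    -- GLOB-H0 and ARCH
    (hH0 : ∀ (S' : Finset Nat.Primes) [IsDiscrete (levelS S') N], Sig ⊆ S' →
      finrank (ZMod p) (Hlc (levelS S') N 0) = 0)
    (hconj : d ≤ finrank (ZMod p) (LinearMap.ker (N.ρ complexConjugation - 1)))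
    -- [P-TW] + TW-KILL: the Taylor–Wiles sets
    (r : ℕ)
    (hTWK : ∀ n : ℕ, ∃ qv : Fin r → ℕ, Function.Injective qv ∧
      (∀ i, (qv i).Prime ∧ qv i ∉ S ∧ p ^ (n + 1) ∣ qv i - 1) ∧
      (∀ i, ∀ P : ValuationSubring (AlgebraicClosure ℚ), P.LiesOverPrime (qv i) →
        ∀ φ : AlgebraicClosure ℚ ≃ₐ[ℚ] AlgebraicClosure ℚ, P.IsFrobeniusAt φ (qv i) →
          ∃ α β : ResidueField 𝒪, α ≠ β ∧
            LinearMap.charpoly (ρbar.ρ φ) = (X - C α) * (X - C β)) ∧
      (∀ i, ∀ q ∈ Sig, ((q : Nat.Primes) : ℕ) ≠ qv i) ∧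
      ∀ [IsDiscrete (levelS (levelOfTW Sig qv)) (TChi p)]
        [IsDiscrete (levelS (levelOfTW Sig qv)) N]
        [IsDiscrete (levelS (levelOfTW Sig qv)) (N.dualTwist (cycloChar p))]
        (Δ : PTData (p := p) (levelOfTW Sig qv))
        (L : ∀ v, Submodule (ZMod p) (Hloc (levelOfTW Sig qv) N v 1)),
        (∀ v : ↥(levelOfTW Sig qv),
          ((v : Nat.Primes) : ℕ) ∈ Finset.univ.image qv → L v = ⊤) →
        dualSelmerGrp N Δ L = ⊥)
    -- the local adapters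
    (hlocp : ∀ q : Nat.Primes, (q : ℕ) = p →
      @LocalCond 𝒪 _ _ ρbar b p _ N emb (q : ℕ) _ (hdloc q) Pp d)
    (hlocSmin : ∀ q : Nat.Primes, (q : ℕ) ∈ Smin → (q : ℕ) ≠ p →
      @LocalCond 𝒪 _ _ ρbar b p _ N emb (q : ℕ) _ (hdloc q)
        (fun ρ => ρ.IsUnipotentOnInertiaAt (q : ℕ)) 0)
    (hlocUnr : ∀ q : Nat.Primes, q ∈ Sig → (q : ℕ) ∉ Smin → (q : ℕ) ≠ p →
      @LocalCond 𝒪 _ _ ρbar b p _ N emb (q : ℕ) _ (hdloc q)
        (fun ρ => ρ.IsUnramifiedAt (q : ℕ)) 0)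
    (hlocQ : ∀ q : Nat.Primes, q ∉ Sig → (q : ℕ) ∉ S →
      (∃ n : ℕ, p ^ (n + 1) ∣ (q : ℕ) - 1) →
      (∀ P : ValuationSubring (AlgebraicClosure ℚ), P.LiesOverPrime (q : ℕ) →
        ∀ φ : AlgebraicClosure ℚ ≃ₐ[ℚ] AlgebraicClosure ℚ, P.IsFrobeniusAt φ (q : ℕ) →
          ∃ α β : ResidueField 𝒪, α ≠ β ∧
            LinearMap.charpoly (ρbar.ρ φ) = (X - C α) * (X - C β)) →
      finrank (ZMod p) (@Hlc _ _ _ _ (levelQ (q : ℕ))
          (Rep.res (localGaloisToGlobal (q : ℕ)) N) (hdloc q) 1) ≤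
        finrank (ZMod p) (@Hlc _ _ _ _ (levelQ (q : ℕ))
          (Rep.res (localGaloisToGlobal (q : ℕ)) N) (hdloc q) 0) + d) :
    ∃ r : ℕ, ∀ n : ℕ, ∃ qv : Fin r → ℕ, Function.Injective qv ∧
      (∀ i, (qv i).Prime ∧ qv i ∉ S ∧ p ^ (n + 1) ∣ qv i - 1) ∧
      (∀ i, ∀ P : ValuationSubring (AlgebraicClosure ℚ), P.LiesOverPrime (qv i) →
        ∀ φ : AlgebraicClosure ℚ ≃ₐ[ℚ] AlgebraicClosure ℚ, P.IsFrobeniusAt φ (qv i) →
          ∃ α β : ResidueField 𝒪, α ≠ β ∧
            LinearMap.charpoly (ρbar.ρ φ) = (X - C α) * (X - C β)) ∧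
      (∀ i, ∀ q ∈ Sig, ((q : Nat.Primes) : ℕ) ≠ qv i) ∧
      ∀ [IsDiscrete (levelS (levelOfTW Sig qv)) (TChi p)]
        [IsDiscrete (levelS (levelOfTW Sig qv)) N]
        [IsDiscrete (levelS (levelOfTW Sig qv)) (N.dualTwist (cycloChar p))],
        Nonempty (FramedFamily ρbar b p (framedCond p base Smin Su (Finset.univ.image qv)) Su
          (Finset.univ.image qv) (levelOfTW Sig qv) N emb r d) := by
  classical
  refine ⟨r, fun n => ?_⟩
  obtain ⟨qv, hqinj, hcl2, hcl3, hdisj, hdual⟩ := hTWK n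
  refine ⟨qv, hqinj, hcl2, hcl3, hdisj, ?_⟩
  intro _ _ _
  have hsub : Sig ⊆ levelOfTW Sig qv := subset_levelOfTW Sig qv
  obtain ⟨Δ⟩ := hPT (levelOfTW Sig qv) hsub
  have hQr : (Finset.univ.image qv).card ≤ r :=
    Finset.card_image_le.trans (by simp)
  -- the primes of the level outside `Sig` are the Taylor–Wiles primes
  have hmemQ : ∀ v : ↥(levelOfTW Sig qv), (v : Nat.Primes) ∉ Sig →
      ((v : Nat.Primes) : ℕ) ∈ Finset.univ.image qv := by
    intro v hv
    rcases Finset.mem_union.1 v.2 with h | h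
    · exact absurd h hv
    · exact mem_primesIn.1 h
  have hnotSig : ∀ v : ↥(levelOfTW Sig qv), ((v : Nat.Primes) : ℕ) ∈ Finset.univ.image qv →
      (v : Nat.Primes) ∉ Sig := by
    intro v hv hmem
    obtain ⟨i, -, hi⟩ := Finset.mem_image.1 hv
    exact hdisj i _ hmem hi.symm
  refine framedFamily_of_localConds ρbar b p base hbase Smin Su (Finset.univ.image qv)
    (levelOfTW Sig qv) N emb r d Pp hbaseP hQr Δ
    (fun L => hpre (levelOfTW Sig qv) hsub Δ L) (htate (levelOfTW Sig qv) hsub)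
    (fun L hL => hdual Δ L hL) (hH0 (levelOfTW Sig qv) hsub) hconj ?_ ?_ ?_ ?_
  · intro v hv
    exact hlocp (v : Nat.Primes) hv
  · intro v hv hvp
    exact hlocSmin (v : Nat.Primes) hv hvp
  · intro v hvs _ hvq hvp
    refine hlocUnr (v : Nat.Primes) ?_ hvs hvp
    by_contra hcon
    exact hvq (hmemQ v hcon)
  · intro v hv
    obtain ⟨i, -, hi⟩ := Finset.mem_image.1 hv
    have h2' := hcl2 i
    rw [hi] at h2'
    refine hlocQ (v : Nat.Primes) (hnotSig v hv) h2'.2.1 ⟨n, h2'.2.2⟩ ?_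
    intro P hP φ hφ
    have := hcl3 i
    rw [hi] at this
    exact this P hP φ hφ

end CoreAsmFramed

section InstFramed

open Fermat.Agent.GP.Bridge.Ad0

variable {𝒪 : Type} [CommRing 𝒪] [IsLocalRing 𝒪] [Finite (ResidueField 𝒪)]
  (p : ℕ) [Fact p.Prime] [Algebra (ZMod p) (ResidueField 𝒪)]
  (ρbar : ResidualGaloisRep (ResidueField 𝒪))
  (b : Module.Basis (Fin 2) (ResidueField 𝒪) ρbar.V)
  (base : Finset ℕ → ∀ ⦃A : Type⦄ [CommRing A] [IsLocalRing A] [Algebra 𝒪 A],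
    GaloisRepAdic A → Prop)
  (hbase : BaseGlobal 𝒪 p base)

include hbase in
/-- **The framed nodes at the concrete model** `N := adBar p ρbar b`, `emb := Ad0.emb`, from the
FROZEN hypotheses of S56 (twin of `CoreInstAdBar.selmerBounds_base_adBar`): for a global level
`Sig ⊇ Smin` (take `Sig ⊇ Smin ∪ Su`; it is NOT needed here) the SAME `r` and the SAME
Taylor–Wiles sets as in S56 carry a `FramedFamily` with `L = ⊥` on the framed set `Su`. -/
theorem framedNodes_adBar (hp2 : p ≠ 2)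
    (habs : ρbar.IsAbsolutelyIrreducible)
    (hdet : (GaloisRepAdic.ofResidualGaloisRep ρbar).DetIsCyclotomic p)
    (hsplit : ∀ σ : AlgebraicClosure ℚ ≃ₐ[ℚ] AlgebraicClosure ℚ,
      ∃ α β : ResidueField 𝒪, LinearMap.charpoly (ρbar.ρ σ) = (X - C α) * (X - C β))
    (hTW : ∀ (K : Type) [Field K] [Algebra (ResidueField 𝒪) K]
      (G : Subgroup (AlgebraicClosure ℚ ≃ₐ[ℚ] AlgebraicClosure ℚ)), G.index = 2 →
      ∀ V : Submodule K (ρbar.baseChange K).V,
        (∀ σ ∈ G, ∀ x ∈ V, (ρbar.baseChange K).ρ σ x ∈ V) → V = ⊥ ∨ V = ⊤)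
    (S Smin Su : Finset ℕ) (hpSmin : p ∈ Smin) (hpS : p ∈ S)
    (hmin : ∀ q : ℕ, q.Prime → q ≠ p → (q ∈ Smin ↔ ¬ ρbar.IsUnramifiedAt q))
    (Sig : Finset Nat.Primes) (hSig : ∀ q : Nat.Primes, (q : ℕ) ∈ Smin → q ∈ Sig)
    (Pp : GaloisRepAdic (DualNumber (ResidueField 𝒪)) → Prop)
    (hbaseP : ∀ (T : Finset ℕ) (ρ : GaloisRepAdic (DualNumber (ResidueField 𝒪))),
      base T ρ → Pp ρ)
    (htate : ∀ (S' : Finset Nat.Primes)
      [IsDiscrete (levelS S') ((adBar p ρbar b).dualTwist (cycloChar p))],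
      Sig ⊆ S' → TateLe S' ((adBar p ρbar b).dualTwist (cycloChar p)))
    (hlocp : ∀ [IsDiscrete (levelQ p) (Rep.res (localGaloisToGlobal p) (adBar p ρbar b))],
      LocalCond ρbar b p (adBar p ρbar b) (emb p (toMatRes ρbar b) 1) p Pp
        (finrank (ZMod p) (ResidueField 𝒪))) :
    ∃ r : ℕ, ∀ n : ℕ, ∃ qv : Fin r → ℕ, Function.Injective qv ∧
      (∀ i, (qv i).Prime ∧ qv i ∉ S ∧ p ^ (n + 1) ∣ qv i - 1) ∧
      (∀ i, ∀ P : ValuationSubring (AlgebraicClosure ℚ), P.LiesOverPrime (qv i) →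
        ∀ φ : AlgebraicClosure ℚ ≃ₐ[ℚ] AlgebraicClosure ℚ, P.IsFrobeniusAt φ (qv i) →
          ∃ α β : ResidueField 𝒪, α ≠ β ∧
            LinearMap.charpoly (ρbar.ρ φ) = (X - C α) * (X - C β)) ∧
      (∀ i, ∀ q ∈ Sig, ((q : Nat.Primes) : ℕ) ≠ qv i) ∧
      ∀ [IsDiscrete (levelS (levelOfTW Sig qv)) (TChi p)]
        [IsDiscrete (levelS (levelOfTW Sig qv)) (adBar p ρbar b)]
        [IsDiscrete (levelS (levelOfTW Sig qv)) ((adBar p ρbar b).dualTwist (cycloChar p))],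
        Nonempty (FramedFamily ρbar b p (framedCond p base Smin Su (Finset.univ.image qv)) Su
          (Finset.univ.image qv) (levelOfTW Sig qv) (adBar p ρbar b)
          (emb p (toMatRes ρbar b) 1) r (finrank (ZMod p) (ResidueField 𝒪))) := by
  classical
  have h2 : (2 : ResidueField 𝒪) ≠ 0 := two_ne_zero_of_odd p hp2
  have hpSig : pPrime p ∈ Sig := hSig (pPrime p) hpSmin
  have hur : ∀ q : Nat.Primes, q ∉ Sig → ρbar.IsUnramifiedAt (q : ℕ) :=
    Fermat.Agent.GP.Tan.SelmerAd0.unramified_outside_of_hmin p ρbar Smin hpSmin hmin Sig hSig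
  have hdN : IsDiscrete (levelS Sig) (adBar p ρbar b) :=
    isDiscrete_adBar p ρbar b Sig hur
  have hdloc : ∀ q : Nat.Primes,
      IsDiscrete (levelQ (q : ℕ)) (Rep.res (localGaloisToGlobal (q : ℕ)) (adBar p ρbar b)) :=
    fun q => isDiscrete_res_localGaloisToGlobal Sig (q : ℕ) (adBar p ρbar b)
  have hk : Nat.card (ResidueField 𝒪) = p ^ finrank (ZMod p) (ResidueField 𝒪) :=
    natCard_eq_pow_finrank_zmod p (ResidueField 𝒪)
  haveI : CharP (ResidueField 𝒪) p := by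
    have := (algebraMap (ZMod p) (ResidueField 𝒪)).injective
    exact (RingHom.charP_iff (algebraMap (ZMod p) (ResidueField 𝒪)) this p).1 inferInstance
  obtain ⟨r, hTWK⟩ := Fermat.Agent.GP.TW.CzKill.exists_hTWK (p := p) (ρbar := ρbar) (b := b)
    hp2 habs hdet hsplit hTW S Sig hpSig hur
  exact framedNodes_of_nodes ρbar b p base hbase (adBar p ρbar b)
    (emb p (toMatRes ρbar b) 1) S Smin Su Sig (finrank (ZMod p) (ResidueField 𝒪)) Pp hbaseP
    hdloc
    (fun S' _ hS' => nonempty_ptData hp2 S' (hS' hpSig))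
    (fun S' _ _ _ hS' Δ L => NineTermFinal.preEuler_holds Δ (hS' hpSig) (adBar p ρbar b) L)
    htate
    (fun S' _ _ => finrank_Hlc_zero_adBar p ρbar b S' habs h2)
    (finrank_ker_conj_adBar p ρbar b hp2 hdet).ge
    r hTWK
    (fun q hq => CoreInstAdBar.localCond_of_eq ρbar b p (adBar p ρbar b)
      (emb p (toMatRes ρbar b) 1) Pp _ q hq (hdloc q) hlocp)
    (Fermat.Agent.GP.Loc.SminHlc.hlocSmin_of_hmin ρbar b p (adBar p ρbar b)
      (emb p (toMatRes ρbar b) 1) (emb_injective p _ 1) (emb_surjective p _ 1) (emb_ρ_one p _)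
      hdloc hp2 Smin hmin)
    (fun q _ _ _ => Fermat.Agent.GP.Loc.SminHlc.hlocUnr_all ρbar b p (adBar p ρbar b)
      (emb p (toMatRes ρbar b) 1) (emb_injective p _ 1) hdloc q)
    (Fermat.Agent.GP.Loc.TWQFinrank.hlocQ_adBar p ρbar b S hpS Sig hur hdloc hk)

end InstFramed

section FrozenCores

open Fermat.Agent.GP.Bridge.Ad0

variable {𝒪 : Type} [CommRing 𝒪] [IsDomain 𝒪] [IsDiscreteValuationRing 𝒪]
  [IsAdicComplete (maximalIdeal 𝒪) 𝒪] [Finite (ResidueField 𝒪)]
  (p : ℕ) [Fact p.Prime] [Algebra (ZMod p) (ResidueField 𝒪)]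
  (ρbar : ResidualGaloisRep (ResidueField 𝒪))
  (b : Module.Basis (Fin 2) (ResidueField 𝒪) ρbar.V)

/-- the conclusion shared by the two frozen-shaped framed cores. -/
def FramedNodesConcl (base : Finset ℕ → ∀ ⦃A : Type⦄ [CommRing A] [IsLocalRing A] [Algebra 𝒪 A],
    GaloisRepAdic A → Prop) (S Smin Su : Finset ℕ) : Prop :=
  ∃ Sig : Finset Nat.Primes, (∀ q : Nat.Primes, (q : ℕ) ∈ Smin ∪ Su → q ∈ Sig) ∧
    ∃ r : ℕ, ∀ n : ℕ, ∃ qv : Fin r → ℕ, Function.Injective qv ∧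
      (∀ i, (qv i).Prime ∧ qv i ∉ S ∧ p ^ (n + 1) ∣ qv i - 1) ∧
      (∀ i, ∀ P : ValuationSubring (AlgebraicClosure ℚ), P.LiesOverPrime (qv i) →
        ∀ φ : AlgebraicClosure ℚ ≃ₐ[ℚ] AlgebraicClosure ℚ, P.IsFrobeniusAt φ (qv i) →
          ∃ α β : ResidueField 𝒪, α ≠ β ∧
            LinearMap.charpoly (ρbar.ρ φ) = (X - C α) * (X - C β)) ∧
      (∀ i, ∀ q ∈ Sig, ((q : Nat.Primes) : ℕ) ≠ qv i) ∧
      ∀ [IsDiscrete (levelS (levelOfTW Sig qv)) (TChi p)]
        [IsDiscrete (levelS (levelOfTW Sig qv)) (adBar p ρbar b)]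
        [IsDiscrete (levelS (levelOfTW Sig qv)) ((adBar p ρbar b).dualTwist (cycloChar p))],
        Nonempty (FramedFamily ρbar b p (framedCond p base Smin Su (Finset.univ.image qv)) Su
          (Finset.univ.image qv) (levelOfTW Sig qv) (adBar p ρbar b)
          (emb p (toMatRes ρbar b) 1) r (finrank (ZMod p) (ResidueField 𝒪)))

/-- `R1` in the `∃ Σ ⊇ Smin ∪ Su` form, from the frozen hypotheses. -/
theorem exists_sigma_htate_framed (hp2 : p ≠ 2) (Smin Su : Finset ℕ) (hpSmin : p ∈ Smin)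
    (hmin : ∀ q : ℕ, q.Prime → q ≠ p → (q ∈ Smin ↔ ¬ ρbar.IsUnramifiedAt q)) :
    ∃ Sig : Finset Nat.Primes, (∀ q : Nat.Primes, (q : ℕ) ∈ Smin ∪ Su → q ∈ Sig) ∧
      ∀ (S' : Finset Nat.Primes)
        [IsDiscrete (levelS S') ((adBar p ρbar b).dualTwist (cycloChar p))],
        Sig ⊆ S' → TateLe S' ((adBar p ρbar b).dualTwist (cycloChar p)) := by
  have hS₀ : ∀ q : Nat.Primes, (q : ℕ) ∈ Smin → q ∈ primesIn Smin := fun q hq => mem_primesIn.2 hq
  obtain ⟨Sig, hsub, ht⟩ :=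
    Fermat.Agent.GP.GW.Euler.KeyLeavesHypFinal.exists_sigma_htate_adBar_final ρbar b hp2
      (primesIn Smin) (hS₀ (pPrime p) hpSmin)
      (Fermat.Agent.GP.Tan.SelmerAd0.unramified_outside_of_hmin p ρbar Smin hpSmin hmin
        (primesIn Smin) hS₀) (primesIn Su)
  refine ⟨Sig, fun q hq => ?_, ht⟩
  rcases Finset.mem_union.1 hq with h | h
  · exact hsub (Finset.mem_union_left _ (hS₀ q h))
  · exact hsub (Finset.mem_union_right _ (mem_primesIn.2 h))

/-- **The strict-ordinary framed core, from the FROZEN hypotheses of S56** and a finite set `Su`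
of framed primes: no residual binder. -/
theorem framedNodes_frozen_SO (hp2 : p ≠ 2) (hp𝒪 : (p : 𝒪) ∈ maximalIdeal 𝒪)
    (habs : ρbar.IsAbsolutelyIrreducible)
    (hdet : (GaloisRepAdic.ofResidualGaloisRep ρbar).DetIsCyclotomic p)
    (hsplit : ∀ σ : AlgebraicClosure ℚ ≃ₐ[ℚ] AlgebraicClosure ℚ,
      ∃ α β : ResidueField 𝒪, LinearMap.charpoly (ρbar.ρ σ) = (X - C α) * (X - C β))
    (hTW : ∀ (K : Type) [Field K] [Algebra (ResidueField 𝒪) K]
      (G : Subgroup (AlgebraicClosure ℚ ≃ₐ[ℚ] AlgebraicClosure ℚ)), G.index = 2 →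
      ∀ V : Submodule K (ρbar.baseChange K).V,
        (∀ σ ∈ G, ∀ x ∈ V, (ρbar.baseChange K).ρ σ x ∈ V) → V = ⊥ ∨ V = ⊤)
    (S Smin Su : Finset ℕ) (hpSmin : p ∈ Smin) (hpS : p ∈ S)
    (hmin : ∀ q : ℕ, q.Prime → q ≠ p → (q ∈ Smin ↔ ¬ ρbar.IsUnramifiedAt q)) :
    FramedNodesConcl p ρbar b (GaloisRep.strictOrdinaryCondition 𝒪 p) S Smin Su := by
  obtain ⟨Sig, hSig, htate⟩ := exists_sigma_htate_framed p ρbar b hp2 Smin Su hpSmin hmin
  have hk : Nat.card (ResidueField 𝒪) = p ^ finrank (ZMod p) (ResidueField 𝒪) :=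
    natCard_eq_pow_finrank_zmod p (ResidueField 𝒪)
  haveI : CharP (ResidueField 𝒪) p := charP_residueField p hp𝒪
  refine ⟨Sig, hSig, ?_⟩
  exact framedNodes_adBar p ρbar b (GaloisRep.strictOrdinaryCondition 𝒪 p)
    (baseGlobal_strictOrdinary 𝒪 p) hp2 habs hdet hsplit hTW S Smin Su hpSmin hpS hmin Sig
    (fun q hq => hSig q (Finset.mem_union_left _ hq))
    (fun ρ => ρ.DetIsCyclotomic p ∧ ρ.IsStrictOrdinaryAt p) (fun _T _ρ h => ⟨h.1, h.2.1⟩) htate
    (Fermat.Agent.GP.Loc.StrictOrdLocalCond.localCond_strict ρbar b p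
      (adBar p ρbar b) (emb p (toMatRes ρbar b) 1) hp2 hp𝒪 (emb_injective p _ 1)
      (emb_surjective p _ 1) (emb_ρ_one p _) _ hk)

/-- **The flat framed core, from the FROZEN hypotheses of S56** and a finite set `Su` of framed
primes: no residual binder (`R3-FL` = `SSTop.localCond_flat` does not assume `ρbar` flat). -/
theorem framedNodes_frozen_FL (hp2 : p ≠ 2)
    (habs : ρbar.IsAbsolutelyIrreducible)
    (hdet : (GaloisRepAdic.ofResidualGaloisRep ρbar).DetIsCyclotomic p)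
    (hsplit : ∀ σ : AlgebraicClosure ℚ ≃ₐ[ℚ] AlgebraicClosure ℚ,
      ∃ α β : ResidueField 𝒪, LinearMap.charpoly (ρbar.ρ σ) = (X - C α) * (X - C β))
    (hTW : ∀ (K : Type) [Field K] [Algebra (ResidueField 𝒪) K]
      (G : Subgroup (AlgebraicClosure ℚ ≃ₐ[ℚ] AlgebraicClosure ℚ)), G.index = 2 →
      ∀ V : Submodule K (ρbar.baseChange K).V,
        (∀ σ ∈ G, ∀ x ∈ V, (ρbar.baseChange K).ρ σ x ∈ V) → V = ⊥ ∨ V = ⊤)
    (S Smin Su : Finset ℕ) (hpSmin : p ∈ Smin) (hpS : p ∈ S)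
    (hmin : ∀ q : ℕ, q.Prime → q ≠ p → (q ∈ Smin ↔ ¬ ρbar.IsUnramifiedAt q)) :
    FramedNodesConcl p ρbar b (GaloisRep.flatCondition 𝒪 p) S Smin Su := by
  obtain ⟨Sig, hSig, htate⟩ := exists_sigma_htate_framed p ρbar b hp2 Smin Su hpSmin hmin
  refine ⟨Sig, hSig, ?_⟩
  exact framedNodes_adBar p ρbar b (GaloisRep.flatCondition 𝒪 p)
    (baseGlobal_flat 𝒪 p) hp2 habs hdet hsplit hTW S Smin Su hpSmin hpS hmin Sig
    (fun q hq => hSig q (Finset.mem_union_left _ hq))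
    (fun ρ => ρ.DetIsCyclotomic p ∧ ρ.IsFlatAt p) (fun _T _ρ h => ⟨h.1, h.2.1⟩) htate
    (Fermat.Agent.GP.Flat.SSTop.localCond_flat ρbar b p hp2 hdet hsplit
      ⟨emb_injective p _ 1, emb_surjective p _ 1, emb_ρ_one p _⟩ _
      (natCard_eq_pow_finrank_zmod p (ResidueField 𝒪)))

end FrozenCores

end Fermat.Agent.GB.Def.FramedNodes
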