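/-
GATE-B / B2-COND, FLAT ATOM (helper57), file 2: the module theory behind the five
`IsDeformationCondition` fields for `IsFlatAt` — relations between the finite levels `V/IV` of a
module with operators and the finite levels of its base change `B ⊗[A] V`.

Generic frame: `A → B` commutative rings (`[Algebra A B]`), `V` an `A`-module, `G` acting on `V`
by `A`-linear maps `r g`.

* `lvl I r` : the operator induced by `r` on `V ⧸ I • ⊤` (= the frozen `levelAction`, `rfl`);
* `isSubquotPow_lvl_baseChange` : `(B ⊗ V)/J(B ⊗ V)` is an equivariant quotient of a finite power of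
  `V/IV` as soon as `B/J` is finite and `I` maps into `J`;
* `one_tmul_eq_zero` : for `V` free, `1 ⊗ v = 0` forces the coordinates of `v` into `ker (A → B)`;
* `lvlToBot`, `lvlToBot_injective` : `V/IV ↪ (B ⊗ V)/(⊥ • ⊤)` when `ker (A → B) ≤ I`.

Mathlib + GH/S32/IsSubquot only.
-/
import Mathlib
import Fermat.Agent.GH.S32.IsSubquot

set_option autoImplicit false
set_option linter.unusedSectionVars false

open scoped TensorProduct

namespace Fermat.Agent.GB.Def.CondFlat

open Fermat.Agent.GH.S32 Function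

section Lvl

variable {A : Type*} [CommRing A] {V : Type*} [AddCommGroup V] [Module A V]

/-- the operator induced on the level `V ⧸ I • ⊤` -/
def lvl (I : Ideal A) (r : Module.End A V) :
    (V ⧸ (I • (⊤ : Submodule A V))) →ₗ[A] (V ⧸ (I • (⊤ : Submodule A V))) :=
  Submodule.mapQ _ _ r (by
    rw [← Submodule.map_le_iff_le_comap, Submodule.map_smul'']
    exact Submodule.smul_mono le_rfl le_top)

@[simp]
theorem lvl_mk (I : Ideal A) (r : Module.End A V) (v : V) :
    lvl I r (Submodule.Quotient.mk v) = Submodule.Quotient.mk (r v) := rfl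

end Lvl

section BaseChange

variable {G : Type*} {A B : Type*} [CommRing A] [CommRing B] [Algebra A B]
  {V : Type*} [AddCommGroup V] [Module A V]

/-- `[v] ↦ [b ⊗ v]` from the level `I` of `V` to the level `J` of `B ⊗ V` -/
noncomputable def lvlTmul (I : Ideal A) (J : Ideal B) (hIJ : ∀ a ∈ I, algebraMap A B a ∈ J) (b : B) :
    (V ⧸ (I • (⊤ : Submodule A V))) →ₗ[A]
      ((B ⊗[A] V) ⧸ (J • (⊤ : Submodule B (B ⊗[A] V)))) :=
  Submodule.liftQ _
    (((J • (⊤ : Submodule B (B ⊗[A] V))).mkQ.restrictScalars A).comp (TensorProduct.mk A B V b))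
    (by
      rw [Submodule.smul_le]
      intro a ha v _
      rw [LinearMap.mem_ker, LinearMap.comp_apply, TensorProduct.mk_apply,
        LinearMap.restrictScalars_apply, Submodule.mkQ_apply, Submodule.Quotient.mk_eq_zero,
        TensorProduct.tmul_smul, TensorProduct.smul_tmul', Algebra.smul_def, ← smul_eq_mul,
        ← TensorProduct.smul_tmul']
      exact Submodule.smul_mem_smul (hIJ a ha) Submodule.mem_top)

@[simp]
theorem lvlTmul_mk (I : Ideal A) (J : Ideal B) (hIJ : ∀ a ∈ I, algebraMap A B a ∈ J) (b : B)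
    (v : V) :
    lvlTmul I J hIJ b (Submodule.Quotient.mk v) = Submodule.Quotient.mk (b ⊗ₜ[A] v) := rfl

theorem lvlTmul_lvl (I : Ideal A) (J : Ideal B) (hIJ : ∀ a ∈ I, algebraMap A B a ∈ J) (b : B)
    (r : Module.End A V) (x : V ⧸ (I • (⊤ : Submodule A V))) :
    lvlTmul I J hIJ b (lvl I r x) = lvl J (r.baseChange B) (lvlTmul I J hIJ b x) := by
  obtain ⟨v, rfl⟩ := Submodule.Quotient.mk_surjective _ x
  rw [lvl_mk, lvlTmul_mk, lvlTmul_mk, lvl_mk, LinearMap.baseChange_tmul]

/-- **base change**: the level `J` of `B ⊗ V` is an equivariant quotient of a finite power of the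
level `I` of `V`. -/
theorem isSubquotPow_lvl_baseChange (r : G → Module.End A V) (I : Ideal A) (J : Ideal B)
    [Finite (B ⧸ J)] (hIJ : ∀ a ∈ I, algebraMap A B a ∈ J) :
    IsSubquotPow (fun g x => lvl I (r g) x) (fun g y => lvl J ((r g).baseChange B) y) := by
  classical
  have : Fintype (B ⧸ J) := Fintype.ofFinite _
  -- representatives
  let rep : B ⧸ J → B := fun c => Quotient.out c
  have hrep : ∀ x : B, x - rep (Ideal.Quotient.mk J x) ∈ J := by
    intro x
    rw [← Ideal.Quotient.eq]
    exact (Quotient.out_eq _).symm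
  let g : ((B ⧸ J) → V ⧸ (I • (⊤ : Submodule A V))) →+
      ((B ⊗[A] V) ⧸ (J • (⊤ : Submodule B (B ⊗[A] V)))) :=
    ∑ c, (lvlTmul I J hIJ (rep c)).toAddMonoidHom.comp (Pi.evalAddMonoidHom _ c)
  have hg : ∀ x, g x = ∑ c, lvlTmul I J hIJ (rep c) (x c) := by
    intro x
    simp only [g, AddMonoidHom.finsetSum_apply]
    rfl
  refine IsSubquotPow.of_fintype (ι := B ⧸ J) ⊤ (g.comp (AddSubgroup.subtype _)) ?_ ?_ ?_
  · -- surjectivity
    intro y
    obtain ⟨w, rfl⟩ := Submodule.Quotient.mk_surjective _ y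
    induction w using TensorProduct.induction_on with
    | zero => exact ⟨0, by simp⟩
    | tmul b v =>
      refine ⟨⟨Pi.single (Ideal.Quotient.mk J b) (Submodule.Quotient.mk v), AddSubgroup.mem_top _⟩, ?_⟩
      show g (Pi.single (Ideal.Quotient.mk J b) (Submodule.Quotient.mk v)) = _
      rw [hg, Finset.sum_eq_single (Ideal.Quotient.mk J b)]
      · rw [Pi.single_eq_same, lvlTmul_mk, eq_comm, ← sub_eq_zero, ← Submodule.Quotient.mk_sub,
          Submodule.Quotient.mk_eq_zero, ← TensorProduct.sub_tmul]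
        have : (b - rep (Ideal.Quotient.mk J b)) ⊗ₜ[A] v
            = (b - rep (Ideal.Quotient.mk J b)) • ((1 : B) ⊗ₜ[A] v) := by
          rw [TensorProduct.smul_tmul', smul_eq_mul, mul_one]
        rw [this]
        exact Submodule.smul_mem_smul (hrep b) Submodule.mem_top
      · intro c _ hc
        rw [Pi.single_eq_of_ne hc, map_zero]
      · intro h
        exact absurd (Finset.mem_univ _) h
    | add w₁ w₂ h₁ h₂ =>
      obtain ⟨x₁, hx₁⟩ := h₁
      obtain ⟨x₂, hx₂⟩ := h₂
      exact ⟨x₁ + x₂, by rw [map_add, hx₁, hx₂]; rfl⟩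
  · intro _ _ _
    exact AddSubgroup.mem_top _
  · intro σ x
    rw [AddMonoidHom.comp_apply, AddMonoidHom.comp_apply, AddSubgroup.subtype_apply,
      AddSubgroup.subtype_apply, hg, hg, map_sum]
    exact Finset.sum_congr rfl fun c _ => lvlTmul_lvl I J hIJ (rep c) (r σ) (x.1 c)

end BaseChange

section Free

variable {A B : Type*} [CommRing A] [CommRing B] [Algebra A B]
  {V : Type*} [AddCommGroup V] [Module A V]

/-- for a free module, `1 ⊗ v = 0` in `B ⊗ V` forces the coordinates of `v` into the kernel of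
`A → B` -/
theorem one_tmul_eq_zero {ι : Type*} (b : Module.Basis ι A V) (v : V)
    (h : (1 : B) ⊗ₜ[A] v = 0) (i : ι) : algebraMap A B (b.repr v i) = 0 := by
  have h1 := congrArg (fun w => (Algebra.TensorProduct.basis B b).repr w i) h
  simpa using h1

/-- for a free module and `A → B` injective, `v ↦ 1 ⊗ v` is injective -/
theorem one_tmul_injective [Module.Free A V] (hinj : Injective (algebraMap A B)) :
    Injective (fun v : V => (1 : B) ⊗ₜ[A] v) := by
  intro v w hvw
  have h0 : (1 : B) ⊗ₜ[A] (v - w) = 0 := by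
    rw [TensorProduct.tmul_sub]
    exact sub_eq_zero.mpr hvw
  let b := Module.Free.chooseBasis A V
  have h1 : b.repr (v - w) = 0 := by
    ext i
    have := one_tmul_eq_zero b (v - w) h0 i
    rw [← map_zero (algebraMap A B)] at this
    exact hinj this
  have h2 : v - w = 0 := by
    rw [← b.repr.map_eq_zero_iff]
    exact h1
  exact sub_eq_zero.mp h2

/-- for a free module, `1 ⊗ v = 0` in `B ⊗ V` forces `v ∈ ker (A → B) • ⊤` -/
theorem mem_smul_top_of_one_tmul_eq_zero [Module.Free A V] (I : Ideal A)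
    (hker : ∀ a : A, algebraMap A B a = 0 → a ∈ I) (v : V) (h : (1 : B) ⊗ₜ[A] v = 0) :
    v ∈ I • (⊤ : Submodule A V) := by
  let b := Module.Free.chooseBasis A V
  rw [← b.linearCombination_repr v, Finsupp.linearCombination_apply]
  refine Submodule.sum_mem _ fun i _ => ?_
  exact Submodule.smul_mem_smul (hker _ (one_tmul_eq_zero b v h i)) Submodule.mem_top

/-- `v ↦ [1 ⊗ v]` into the level `⊥` of `B ⊗ V` -/
noncomputable def toBot (A : Type*) (B : Type*) [CommRing A] [CommRing B] [Algebra A B]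
    (V : Type*) [AddCommGroup V] [Module A V] :
    V →ₗ[A] ((B ⊗[A] V) ⧸ ((⊥ : Ideal B) • (⊤ : Submodule B (B ⊗[A] V)))) :=
  (((⊥ : Ideal B) • (⊤ : Submodule B (B ⊗[A] V))).mkQ.restrictScalars A).comp
    (TensorProduct.mk A B V 1)

@[simp]
theorem toBot_apply (v : V) : toBot A B V v = Submodule.Quotient.mk ((1 : B) ⊗ₜ[A] v) := rfl

theorem toBot_eq_zero_iff (v : V) : toBot A B V v = 0 ↔ (1 : B) ⊗ₜ[A] v = 0 := by
  rw [toBot_apply, Submodule.Quotient.mk_eq_zero, Submodule.bot_smul, Submodule.mem_bot]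

theorem toBot_lvl (r : Module.End A V) (v : V) :
    toBot A B V (r v) = lvl ⊥ (r.baseChange B) (toBot A B V v) := by
  rw [toBot_apply, toBot_apply, lvl_mk, LinearMap.baseChange_tmul]

theorem toBot_injective [Module.Free A V] (hinj : Injective (algebraMap A B)) :
    Injective (toBot A B V) := by
  rw [injective_iff_map_eq_zero]
  intro v hv
  rw [toBot_eq_zero_iff] at hv
  have h0 : (1 : B) ⊗ₜ[A] (0 : V) = 0 := TensorProduct.tmul_zero _ _
  exact one_tmul_injective (B := B) hinj (hv.trans h0.symm)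

/-- the level `I` of `V` embeds into the level `⊥` of `B ⊗ V` when `ker (A → B) ≤ I ≤ ker` -/
theorem lvlTmul_bot_injective [Module.Free A V] (I : Ideal A)
    (hI : ∀ a ∈ I, algebraMap A B a ∈ (⊥ : Ideal B))
    (hker : ∀ a : A, algebraMap A B a = 0 → a ∈ I) :
    Injective (lvlTmul (V := V) I (⊥ : Ideal B) hI 1) := by
  rw [injective_iff_map_eq_zero]
  intro x hx
  obtain ⟨v, rfl⟩ := Submodule.Quotient.mk_surjective _ x
  rw [lvlTmul_mk, Submodule.Quotient.mk_eq_zero, Submodule.bot_smul, Submodule.mem_bot] at hx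
  rw [Submodule.Quotient.mk_eq_zero]
  exact mem_smul_top_of_one_tmul_eq_zero I hker v hx

end Free

end Fermat.Agent.GB.Def.CondFlat
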