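/-
GATE-B / B2-COND, FLAT ATOM (helper57), file 1: closure tools for the frozen finite-flat-model
predicate `GH.S32.FlatMod` beyond `flatMod_of_isSubquotPow`:

* `flatMod_prod` : binary products of two DIFFERENT Galois modules;
* `flatMod_of_injective`, `flatMod_of_surjective`, `flatMod_of_addEquiv`;
* `isSubquotPow_of_injective` : an equivariant injection `M' →+ M` gives `IsSubquotPow act act'`.

Mathlib + GH/S32/{IsSubquot, FlatMod} + GH/Closure only.
-/
import Mathlib
import Fermat.Agent.GH.S32.FlatMod

set_option autoImplicit false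
set_option linter.unusedSectionVars false

namespace Fermat.Agent.GB.Def.CondFlat

open Fermat.Agent.GH.S32 Fermat.Agent.GH.Closure Function

/-- `G_ℚ`. -/
local notation "GQ" => (AlgebraicClosure ℚ ≃ₐ[ℚ] AlgebraicClosure ℚ)

section General

variable {G : Type*} {M M' : Type*} [AddCommGroup M] [AddCommGroup M']

/-- an equivariant injection `M' →+ M` exhibits `M'` as a stable subgroup of `M¹` -/
theorem isSubquotPow_of_injective {act : G → M → M} {act' : G → M' → M'} (j : M' →+ M)
    (hj : Injective j) (heq : ∀ g x, j (act' g x) = act g (j x)) : IsSubquotPow act act' := by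
  classical
  -- `X₁ := {x : Unit → M | x () ∈ range j}`, `f := j⁻¹ ∘ eval`
  let ev : (Unit → M) →+ M := Pi.evalAddMonoidHom (fun _ => M) ()
  let X₁ : AddSubgroup (Unit → M) := j.range.comap ev
  have hmem : ∀ x : X₁, ∃ y : M', j y = x.1 () := fun x => x.2
  let f : X₁ →+ M' :=
    { toFun := fun x => (hmem x).choose
      map_zero' := by
        apply hj
        rw [(hmem 0).choose_spec, map_zero]
        rfl
      map_add' := by
        intro x y
        apply hj
        rw [(hmem (x + y)).choose_spec, map_add, (hmem x).choose_spec, (hmem y).choose_spec]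
        rfl }
  have hf : ∀ x : X₁, j (f x) = x.1 () := fun x => (hmem x).choose_spec
  refine IsSubquotPow.of_fintype (ι := Unit) X₁ f ?_ ?_ ?_
  · intro y
    refine ⟨⟨fun _ => j y, ⟨y, rfl⟩⟩, ?_⟩
    apply hj
    rw [hf]
  · intro g x hx
    obtain ⟨y, hy⟩ := hx
    exact ⟨act' g y, by rw [heq, hy]; rfl⟩
  · intro g x
    apply hj
    rw [hf, heq, hf]

end General

section Flat

variable {p : ℕ} [Fact p.Prime]

/-- `FlatMod` passes to equivariant subgroups. -/
theorem flatMod_of_injective {M M' : Type} [AddCommGroup M] [AddCommGroup M']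
    {act : GQ → M → M} {act' : GQ → M' → M'} (h : FlatMod p M act) (j : M' →+ M)
    (hj : Injective j) (heq : ∀ g x, j (act' g x) = act g (j x)) : FlatMod p M' act' :=
  flatMod_of_isSubquotPow h (isSubquotPow_of_injective j hj heq)

/-- `FlatMod` passes to equivariant quotients. -/
theorem flatMod_of_surjective {M M' : Type} [AddCommGroup M] [AddCommGroup M']
    {act : GQ → M → M} {act' : GQ → M' → M'} (h : FlatMod p M act) (f : M →+ M')
    (hf : Surjective f) (heq : ∀ g x, f (act g x) = act' g (f x)) : FlatMod p M' act' :=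
  flatMod_of_isSubquotPow h (IsSubquotPow.of_surjective f hf heq)

/-- `FlatMod` is invariant under equivariant isomorphisms. -/
theorem flatMod_of_addEquiv {M M' : Type} [AddCommGroup M] [AddCommGroup M']
    {act : GQ → M → M} {act' : GQ → M' → M'} (h : FlatMod p M act) (e : M ≃+ M')
    (heq : ∀ g x, e (act g x) = act' g (e x)) : FlatMod p M' act' :=
  flatMod_of_isSubquotPow h (IsSubquotPow.of_addEquiv e heq)

/-- **binary products**: `FlatMod` for `M₁` and `M₂` gives `FlatMod` for `M₁ × M₂`. -/
theorem flatMod_prod {M₁ M₂ : Type} [AddCommGroup M₁] [AddCommGroup M₂]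
    {act₁ : GQ → M₁ → M₁} {act₂ : GQ → M₂ → M₂}
    (h₁ : FlatMod p M₁ act₁) (h₂ : FlatMod p M₂ act₂) :
    FlatMod p (M₁ × M₂) (fun σ x => (act₁ σ x.1, act₂ σ x.2)) := by
  have hfin₁ : Finite M₁ := finite_of_flatMod h₁
  have hfin₂ : Finite M₂ := finite_of_flatMod h₂
  obtain ⟨H₁, hH₁⟩ := isStableOrder_of_flatMod h₁
  obtain ⟨H₂, hH₂⟩ := isStableOrder_of_flatMod h₂
  let a₁ : GQ → M₁ →+ M₁ := fun σ =>
    { toFun := act₁ σ
      map_zero' := hH₁.act_zero σ
      map_add' := act_add_of_isStableOrder hH₁ σ }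
  let a₂ : GQ → M₂ →+ M₂ := fun σ =>
    { toFun := act₂ σ
      map_zero' := hH₂.act_zero σ
      map_add' := act_add_of_isStableOrder hH₂ σ }
  have k₁ : HasFinOrder p a₁ := hasFinOrder_of_isStableOrder (act := a₁) hH₁
  have k₂ : HasFinOrder p a₂ := hasFinOrder_of_isStableOrder (act := a₂) hH₂
  obtain ⟨H', hH', hfin'⟩ := k₁.prod k₂
  exact flatMod_of_isStableOrder (isStableOrder_of_isDeltaOrder hH' hfin')

end Flat

end Fermat.Agent.GB.Def.CondFlat
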