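/-
GATE-B / B2-COND, FLAT ATOM (helper57), file 3: **the frozen `IsFlatAt p` is a deformation
condition** — the five fields of `GaloisRep.IsDeformationCondition 𝒪` for the single condition
`fun ρ => ρ.IsFlatAt p`, over a local ring `𝒪` with finite residue field, `p` prime.

* `isFlatAt_of_isEquiv` (any local `A`);
* `isFlatAt_baseChangeAlong` (any local hom `A → B` with `B` of finite residue field);
* `isFlatAt_of_baseChangeAlong_injective` (`A ↪ B`, `B` finite);
* `isFlatAt_of_fibreProduct` (`P ↪ A × B`, `A`, `B` finite);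
* `isFlatAt_iff_forall_surjective` (any local `𝒪`-algebra `A` with `𝒪 → k_A` onto: flat iff all
  Artinian quotients are flat);
* `isDeformationCondition_isFlatAt : IsDeformationCondition 𝒪 (fun _ _ _ _ ρ => ρ.IsFlatAt p)`.

All through `GH/S32/FlatMod` (`flatMod_of_isSubquotPow`) + `GH/Closure` (`HasFinOrder.prod`).
-/
import Mathlib
import Fermat.Prelude.Def_GaloisRep_DeformationCondition
import Fermat.Prelude.Def_GaloisRep_Flat
import Fermat.Agent.GH.S32.FlatMod
import Fermat.Agent.S53_helper84.TestAlg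
import Fermat.Agent.S53_helper35.DefCond2
import Fermat.Agent.GB.Def.CondFlatAtomTools
import Fermat.Agent.GB.Def.CondFlatAtomLevel

set_option autoImplicit false
set_option linter.unusedSectionVars false
set_option linter.style.haveILetI false

open scoped TensorProduct

namespace Fermat.Agent.GB.Def.CondFlat

open Fermat.Agent.GH.S32 GaloisRep IsLocalRing Function

variable {p : ℕ} [Fact p.Prime]

/-- `G_ℚ`. -/
local notation "GQ" => (AlgebraicClosure ℚ ≃ₐ[ℚ] AlgebraicClosure ℚ)

section Basic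

variable {A : Type} [CommRing A] [IsLocalRing A]

theorem levelAction_eq_lvl (ρ : GaloisRepAdic A) (I : Ideal A) (σ : GQ) :
    ρ.levelAction I σ = lvl I (ρ.ρ σ) := rfl

/-- the level `I` of a flat representation -/
theorem IsFlatAt.flatMod {ρ : GaloisRepAdic A} (h : ρ.IsFlatAt p) (I : Ideal A)
    (hI : Finite (A ⧸ I)) :
    FlatMod p (ρ.V ⧸ (I • (⊤ : Submodule A ρ.V))) (fun σ x => lvl I (ρ.ρ σ) x) :=
  h.2 I hI

/-- a representation on a finite module with a flat model is flat at every level -/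
theorem isFlatAt_of_flatMod_V {ρ : GaloisRepAdic A} (hres : Finite (ResidueField A))
    (h : FlatMod p ρ.V (fun σ v => ρ.ρ σ v)) : ρ.IsFlatAt p := by
  refine ⟨hres, fun I _ => ?_⟩
  exact flatMod_of_surjective h (Submodule.mkQ _).toAddMonoidHom
    (Submodule.mkQ_surjective _) (fun σ v => rfl)

/-- **field 1**: invariance under equivalence -/
theorem isFlatAt_of_isEquiv {ρ ρ' : GaloisRepAdic A} (h : ρ.IsEquiv ρ') (hρ : ρ.IsFlatAt p) :
    ρ'.IsFlatAt p := by
  obtain ⟨e⟩ := h
  refine ⟨hρ.1, fun I hI => ?_⟩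
  have h1 := IsFlatAt.flatMod hρ I hI
  let E : (ρ.V ⧸ (I • (⊤ : Submodule A ρ.V))) ≃ₗ[A] (ρ'.V ⧸ (I • (⊤ : Submodule A ρ'.V))) :=
    Submodule.Quotient.equiv _ _ e.toLinearEquiv (by
      rw [Submodule.map_smul'', Submodule.map_top, LinearEquiv.range])
  refine flatMod_of_addEquiv h1 E.toAddEquiv ?_
  intro σ x
  obtain ⟨v, rfl⟩ := Submodule.Quotient.mk_surjective _ x
  show E (lvl I (ρ.ρ σ) (Submodule.Quotient.mk v)) = ρ'.levelAction I σ (E (Submodule.Quotient.mk v))
  rw [levelAction_eq_lvl, lvl_mk]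
  show Submodule.Quotient.mk (e.toLinearEquiv (ρ.ρ σ v))
    = lvl I (ρ'.ρ σ) (Submodule.Quotient.mk (e.toLinearEquiv v))
  rw [lvl_mk, e.map_apply]

end Basic

section TwoRings

variable {A B : Type} [CommRing A] [IsLocalRing A] [CommRing B] [IsLocalRing B]

/-- **field 2**: base change along a local homomorphism -/
theorem isFlatAt_baseChangeAlong (φ : A →+* B) (hφ : IsLocalHom φ)
    (hB : Finite (ResidueField B)) {ρ : GaloisRepAdic A} (hρ : ρ.IsFlatAt p) :
    (ρ.baseChangeAlong φ hφ).IsFlatAt p := by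
  letI : Algebra A B := φ.toAlgebra
  refine ⟨hB, fun J hJ => ?_⟩
  have hfinI : Finite (A ⧸ J.comap φ) :=
    Finite.of_injective (Ideal.quotientMap J φ le_rfl) (Ideal.quotientMap_injective)
  have h1 := IsFlatAt.flatMod hρ (J.comap φ) hfinI
  exact flatMod_of_isSubquotPow h1
    (isSubquotPow_lvl_baseChange (B := B) (fun σ => ρ.ρ σ) (J.comap φ) J (fun a ha => ha))

/-- **field 3**: descent along an injective local homomorphism into a finite ring -/
theorem isFlatAt_of_baseChangeAlong_injective (φ : A →+* B) (hφ : IsLocalHom φ)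
    (hinj : Injective φ) [Finite B] (hA : Finite (ResidueField A)) {ρ : GaloisRepAdic A}
    (h : (ρ.baseChangeAlong φ hφ).IsFlatAt p) : ρ.IsFlatAt p := by
  letI : Algebra A B := φ.toAlgebra
  have hfin : Finite (B ⧸ (⊥ : Ideal B)) := Finite.of_surjective _ Ideal.Quotient.mk_surjective
  have h0 : FlatMod p ((B ⊗[A] ρ.V) ⧸ ((⊥ : Ideal B) • (⊤ : Submodule B (B ⊗[A] ρ.V))))
      (fun σ y => lvl ⊥ ((ρ.ρ σ).baseChange B) y) := h.2 ⊥ hfin
  refine isFlatAt_of_flatMod_V hA ?_
  exact flatMod_of_injective h0 (toBot A B ρ.V).toAddMonoidHom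
    (toBot_injective (A := A) (B := B) (V := ρ.V) hinj) (fun σ v => toBot_lvl (ρ.ρ σ) v)

end TwoRings

section FibreProduct

variable {P A B : Type} [CommRing P] [IsLocalRing P] [CommRing A] [IsLocalRing A]
  [CommRing B] [IsLocalRing B]

/-- **field 4**: fibre products (only `P ↪ A × B` is used) -/
theorem isFlatAt_of_fibreProduct (pA : P →+* A) (pB : P →+* B) (hpA : IsLocalHom pA)
    (hpB : IsLocalHom pB) (hinj : Injective (fun x => (pA x, pB x))) [Finite A] [Finite B]
    (hP : Finite (ResidueField P)) {ρ : GaloisRepAdic P}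
    (hA : (ρ.baseChangeAlong pA hpA).IsFlatAt p) (hB : (ρ.baseChangeAlong pB hpB).IsFlatAt p) :
    ρ.IsFlatAt p := by
  letI algA : Algebra P A := pA.toAlgebra
  letI algB : Algebra P B := pB.toAlgebra
  have hfinA : Finite (A ⧸ (⊥ : Ideal A)) := Finite.of_surjective _ Ideal.Quotient.mk_surjective
  have hfinB : Finite (B ⧸ (⊥ : Ideal B)) := Finite.of_surjective _ Ideal.Quotient.mk_surjective
  have hA0 : FlatMod p ((A ⊗[P] ρ.V) ⧸ ((⊥ : Ideal A) • (⊤ : Submodule A (A ⊗[P] ρ.V))))
      (fun σ y => lvl ⊥ ((ρ.ρ σ).baseChange A) y) := hA.2 ⊥ hfinA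
  have hB0 : FlatMod p ((B ⊗[P] ρ.V) ⧸ ((⊥ : Ideal B) • (⊤ : Submodule B (B ⊗[P] ρ.V))))
      (fun σ y => lvl ⊥ ((ρ.ρ σ).baseChange B) y) := hB.2 ⊥ hfinB
  have hAB := flatMod_prod hA0 hB0
  refine isFlatAt_of_flatMod_V hP ?_
  refine flatMod_of_injective hAB
    ((toBot P A ρ.V).toAddMonoidHom.prod (toBot P B ρ.V).toAddMonoidHom) ?_ ?_
  · rw [injective_iff_map_eq_zero]
    intro v hv
    have h1 : toBot P A ρ.V v = 0 := congrArg Prod.fst hv
    have h2 : toBot P B ρ.V v = 0 := congrArg Prod.snd hv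
    rw [toBot_eq_zero_iff] at h1 h2
    let b := Module.Free.chooseBasis P ρ.V
    have h3 : b.repr v = 0 := by
      ext i
      have e1 : pA (b.repr v i) = 0 := one_tmul_eq_zero (B := A) b v h1 i
      have e2 : pB (b.repr v i) = 0 := one_tmul_eq_zero (B := B) b v h2 i
      apply hinj
      show (pA (b.repr v i), pB (b.repr v i)) = (pA 0, pB 0)
      rw [e1, e2, map_zero, map_zero]
    rw [← b.repr.map_eq_zero_iff]
    exact h3
  · intro σ v
    exact Prod.ext (toBot_lvl (ρ.ρ σ) v) (toBot_lvl (ρ.ρ σ) v)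

end FibreProduct

section Complete

variable {𝒪 : Type} [CommRing 𝒪] [IsLocalRing 𝒪] [Finite (ResidueField 𝒪)]
  {A : Type} [CommRing A] [IsLocalRing A] [Algebra 𝒪 A]

/-- the residue field of a local `𝒪`-algebra with `𝒪 → k_A` onto is finite -/
theorem finite_residueField_of_surjective
    (hres : Surjective (IsLocalRing.residue A ∘ algebraMap 𝒪 A)) : Finite (ResidueField A) := by
  -- the kernel of `𝒪 → k_A` contains nothing but nonunits, so it factors through `k_𝒪`
  have hker : ∀ a : 𝒪, a ∈ maximalIdeal 𝒪 → ((IsLocalRing.residue A).comp (algebraMap 𝒪 A)) a = 0 := by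
    intro a ha
    by_contra hne
    have hu : IsUnit (((IsLocalRing.residue A).comp (algebraMap 𝒪 A)) a) := IsUnit.mk0 _ hne
    -- pick `b` with image the inverse
    obtain ⟨b, hb⟩ := hres (((IsLocalRing.residue A).comp (algebraMap 𝒪 A)) a)⁻¹
    have h1 : ((IsLocalRing.residue A).comp (algebraMap 𝒪 A)) (a * b) = 1 := by
      rw [map_mul]
      rw [Function.comp_apply] at hb
      rw [RingHom.comp_apply (IsLocalRing.residue A) (algebraMap 𝒪 A) b, hb]
      exact mul_inv_cancel₀ hne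
    have h2 : a * b ∈ maximalIdeal 𝒪 := Ideal.mul_mem_right _ _ ha
    have h3 : (1 - a * b) ∈ maximalIdeal 𝒪 → False := by
      intro h
      have : (1 : 𝒪) ∈ maximalIdeal 𝒪 := by
        have h6 := Ideal.add_mem _ h h2
        rwa [sub_add_cancel] at h6
      exact (Ideal.ne_top_iff_one _).1 (Ideal.IsMaximal.ne_top inferInstance) this
    have h4 : IsUnit (1 - a * b) := by
      by_contra hnu
      exact h3 ((mem_maximalIdeal _).2 hnu)
    have h5 : ((IsLocalRing.residue A).comp (algebraMap 𝒪 A)) (1 - a * b) = 0 := by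
      rw [map_sub, map_one, h1, sub_self]
    exact (h4.map ((IsLocalRing.residue A).comp (algebraMap 𝒪 A))).ne_zero h5
  let f : ResidueField 𝒪 →+* ResidueField A :=
    Ideal.Quotient.lift (maximalIdeal 𝒪) ((IsLocalRing.residue A).comp (algebraMap 𝒪 A)) hker
  refine Finite.of_surjective f ?_
  intro y
  obtain ⟨a, ha⟩ := hres y
  exact ⟨IsLocalRing.residue 𝒪 a, ha⟩

/-- **field 5**: flatness is tested on Artinian quotients -/
theorem isFlatAt_iff_forall_surjective (hloc : IsLocalHom (algebraMap 𝒪 A))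
    (hres : Surjective (IsLocalRing.residue A ∘ algebraMap 𝒪 A)) (ρ : GaloisRepAdic A) :
    ρ.IsFlatAt p ↔ ∀ ⦃B : Type⦄ [CommRing B] [IsLocalRing B] [Algebra 𝒪 B],
      IsArtinianTestAlgebra 𝒪 B → ∀ (q : A →ₐ[𝒪] B) (hq : IsLocalHom (q : A →+* B)),
        Surjective q → (ρ.baseChangeAlong (q : A →+* B) hq).IsFlatAt p := by
  constructor
  · intro hρ B _ _ _ hB q hq _
    exact isFlatAt_baseChangeAlong (q : A →+* B) hq
      (Fermat.Agent.S53_helper84.finite_residueField_of_isArtinianTestAlgebra hB) hρ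
  · intro h
    refine ⟨finite_residueField_of_surjective hres, fun I hI => ?_⟩
    by_cases hItop : I = ⊤
    · have : Subsingleton (ρ.V ⧸ (I • (⊤ : Submodule A ρ.V))) := by
        rw [Submodule.Quotient.subsingleton_iff, hItop, Submodule.top_smul]
      exact flatMod_of_subsingleton _
    · have hnt : Nontrivial (A ⧸ I) := Ideal.Quotient.nontrivial_iff.mpr hItop
      haveI hlocQ : IsLocalRing (A ⧸ I) :=
        IsLocalRing.of_surjective' (Ideal.Quotient.mk I) Ideal.Quotient.mk_surjective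
      have htest : IsArtinianTestAlgebra 𝒪 (A ⧸ I) :=
        ⟨Fermat.Agent.S53_helper35.isLocalHom_algebraMap_quot hloc I,
          Fermat.Agent.S53_helper35.residue_surjective_quot hres I, inferInstance⟩
      let q : A →ₐ[𝒪] (A ⧸ I) := Ideal.Quotient.mkₐ 𝒪 I
      have hq : IsLocalHom (q : A →+* (A ⧸ I)) :=
        IsLocalHom.of_surjective _ (Ideal.Quotient.mkₐ_surjective 𝒪 I)
      have hflat := h htest q hq (Ideal.Quotient.mkₐ_surjective 𝒪 I)
      letI : Algebra A (A ⧸ I) := (q : A →+* (A ⧸ I)).toAlgebra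
      have hfin : Finite ((A ⧸ I) ⧸ (⊥ : Ideal (A ⧸ I))) :=
        Finite.of_surjective _ Ideal.Quotient.mk_surjective
      have h0 : FlatMod p (((A ⧸ I) ⊗[A] ρ.V) ⧸
          ((⊥ : Ideal (A ⧸ I)) • (⊤ : Submodule (A ⧸ I) ((A ⧸ I) ⊗[A] ρ.V))))
          (fun σ y => lvl ⊥ ((ρ.ρ σ).baseChange (A ⧸ I)) y) := hflat.2 ⊥ hfin
      have hI0 : ∀ a ∈ I, algebraMap A (A ⧸ I) a ∈ (⊥ : Ideal (A ⧸ I)) := by
        intro a ha
        rw [Ideal.mem_bot]
        exact Ideal.Quotient.eq_zero_iff_mem.2 ha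
      have hker : ∀ a : A, algebraMap A (A ⧸ I) a = 0 → a ∈ I := by
        intro a ha
        exact Ideal.Quotient.eq_zero_iff_mem.1 ha
      exact flatMod_of_injective h0 (lvlTmul (V := ρ.V) I ⊥ hI0 1).toAddMonoidHom
        (lvlTmul_bot_injective I hI0 hker) (fun σ x => lvlTmul_lvl I ⊥ hI0 1 (ρ.ρ σ) x)

end Complete

section Package

variable (𝒪 : Type) [CommRing 𝒪] [IsLocalRing 𝒪] [Finite (ResidueField 𝒪)] (p)

/-- **`IsFlatAt p` is a deformation condition.** -/
theorem isDeformationCondition_isFlatAt :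
    IsDeformationCondition 𝒪 (fun _A _ _ _ ρ => ρ.IsFlatAt p) where
  of_isEquiv := by
    intro A _ _ _ _ ρ ρ' h hρ
    exact isFlatAt_of_isEquiv h hρ
  baseChangeAlong := by
    intro A B _ _ _ _ _ _ _ hB φ hφ ρ hρ
    exact isFlatAt_baseChangeAlong (φ : A →+* B) hφ
      (Fermat.Agent.S53_helper84.finite_residueField_of_isArtinianTestAlgebra hB) hρ
  of_baseChangeAlong_injective := by
    intro A B _ _ _ _ _ _ hA hB φ hφ hinj ρ hρ
    haveI : Finite B := Fermat.Agent.S53_helper84.finite_of_isArtinianTestAlgebra hB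
    exact isFlatAt_of_baseChangeAlong_injective (φ : A →+* B) hφ hinj
      (Fermat.Agent.S53_helper84.finite_residueField_of_isArtinianTestAlgebra hA) hρ
  of_fibreProduct := by
    intro A B C P _ _ _ _ _ _ _ _ _ _ _ _ hA hB _ hP f g pA pB hpA hpB _ hinj _ ρ hρA hρB
    haveI : Finite A := Fermat.Agent.S53_helper84.finite_of_isArtinianTestAlgebra hA
    haveI : Finite B := Fermat.Agent.S53_helper84.finite_of_isArtinianTestAlgebra hB
    exact isFlatAt_of_fibreProduct (pA : P →+* A) (pB : P →+* B) hpA hpB hinj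
      (Fermat.Agent.S53_helper84.finite_residueField_of_isArtinianTestAlgebra hP) hρA hρB
  iff_forall_surjective := by
    intro A _ _ _ _ _ hloc hres ρ
    exact isFlatAt_iff_forall_surjective hloc hres ρ

end Package

end Fermat.Agent.GB.Def.CondFlat
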