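/-
GATE-B / B2-COND (helper93): **`DetIsCyclotomic p ∧ IsStrictOrdinaryAt p` is a deformation
condition** (`p` odd), i.e. the binder `hdso` of `GB/Def/Cond/Atom.isDeformationCondition_SO_of_det_and`
(helper14); hence the S56-shaped strict-ordinary condition `𝒟SO p T Smin` is a deformation condition.
-/
import Fermat.Agent.GB.Def.CondStrict
import Fermat.Agent.GB.Def.Cond.Atom

set_option autoImplicit false
set_option linter.unusedSectionVars false

open IsLocalRing

namespace Fermat.Agent.GB.Def.Cond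

open GaloisRep

section Tools

theorem exists_natCast_pow_eq_zero_of_mem {A : Type} [CommRing A] [IsLocalRing A]
    [IsArtinianRing A] {p : ℕ} (h : (p : A) ∈ maximalIdeal A) : ∃ N : ℕ, (p : A) ^ N = 0 := by
  obtain ⟨n, hn⟩ := (isArtinianRing_iff_isNilpotent_maximalIdeal A).mp inferInstance
  refine ⟨n, ?_⟩
  have h1 : (p : A) ^ n ∈ maximalIdeal A ^ n := Ideal.pow_mem_pow h n
  rw [hn] at h1
  exact h1

/-- the hypothesis of field 5 of `IsDeformationCondition`, specialised to `A ⧸ 𝔪 ^ k`. -/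
theorem atLevels_of_forall_surjective {𝒪 : Type} [CommRing 𝒪] [IsLocalRing 𝒪] {A : Type}
    [CommRing A] [IsLocalRing A] [IsNoetherianRing A] [Algebra 𝒪 A]
    (hloc : IsLocalHom (algebraMap 𝒪 A))
    (hres : Function.Surjective (IsLocalRing.residue A ∘ algebraMap 𝒪 A))
    (Pr : ∀ ⦃B : Type⦄ [CommRing B] [IsLocalRing B], GaloisRepAdic B → Prop)
    (ρ : GaloisRepAdic A)
    (h : ∀ ⦃B : Type⦄ [CommRing B] [IsLocalRing B] [Algebra 𝒪 B], IsArtinianTestAlgebra 𝒪 B →
      ∀ (q : A →ₐ[𝒪] B) (hq : IsLocalHom (q : A →+* B)), Function.Surjective q →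
        Pr (ρ.baseChangeAlong (q : A →+* B) hq)) : AtLevels Pr ρ := by
  intro k hk i1 hq
  have hT : IsArtinianTestAlgebra 𝒪 (A ⧸ maximalIdeal A ^ k) :=
    Fermat.Agent.S53_helper35.isTestAlgebra_quotient_maxPow hloc hres k
  exact h hT (Ideal.Quotient.mkₐ 𝒪 (maximalIdeal A ^ k)) hq
    (Ideal.Quotient.mkₐ_surjective 𝒪 _)

end Tools

section Pkg

variable (𝒪 : Type) [CommRing 𝒪] [IsLocalRing 𝒪] (p : ℕ) [Fact p.Prime]

/-- **`DET ∧ SO` is a deformation condition** (`p` odd). -/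
theorem isDeformationCondition_detSO (hp2 : p ≠ 2) :
    IsDeformationCondition 𝒪
      (fun _A _ _ _ ρ => ρ.DetIsCyclotomic p ∧ ρ.IsStrictOrdinaryAt p) where
  of_isEquiv := by
    intro A _ _ _ _ ρ ρ' h hρ
    exact ⟨Fermat.Agent.GP.Tan.Cocycle.detIsCyclotomic_of_isEquiv h hρ.1,
      Fermat.Agent.GP.Tan.isStrictOrdinaryAt_of_isEquiv h hρ.2⟩
  baseChangeAlong := by
    intro A B _ _ _ _ _ _ _ _ φ hφ ρ hρ
    exact ⟨Fermat.Agent.GP.Tan.detIsCyclotomic_baseChangeAlong _ hφ hρ.1,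
      Fermat.Agent.GP.Tan.isStrictOrdinaryAt_baseChangeAlong _ hφ hρ.2⟩
  of_baseChangeAlong_injective := by
    intro A B _ _ _ _ _ _ hA _ φ hφ hinj ρ h
    have := hA.isArtinian
    have hpA : (p : A) ∈ maximalIdeal A := natCast_mem_of_map (φ : A →+* B) h.1.1
    obtain ⟨N, hN⟩ := exists_natCast_pow_eq_zero_of_mem hpA
    exact detSO_of_baseChangeAlong_injective hp2 (φ : A →+* B) hφ hinj hN h
  of_fibreProduct := by
    intro A B C P _ _ _ _ _ _ _ _ _ _ _ _ _ _ _ hP f g pA pB hpA hpB _ hinj _ ρ h1 h2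
    have := hP.isArtinian
    have hpP : (p : P) ∈ maximalIdeal P := natCast_mem_of_map (pA : P →+* A) h1.1.1
    obtain ⟨N, hN⟩ := exists_natCast_pow_eq_zero_of_mem hpP
    exact detSO_of_fibreProduct hp2 (pA : P →+* A) (pB : P →+* B) hpA hpB hinj hN h1 h2
  iff_forall_surjective := by
    intro A _ _ _ _ _ hloc hres ρ
    constructor
    · intro hρ B _ _ _ _ q hq _
      exact ⟨Fermat.Agent.GP.Tan.detIsCyclotomic_baseChangeAlong _ hq hρ.1,
        Fermat.Agent.GP.Tan.isStrictOrdinaryAt_baseChangeAlong _ hq hρ.2⟩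
    · intro h
      exact detSO_of_atLevels hp2
        (atLevels_of_forall_surjective hloc hres
          (fun _ _ _ ρ' => ρ'.DetIsCyclotomic p ∧ ρ'.IsStrictOrdinaryAt p) ρ h)

/-- **the S56-shaped strict-ordinary condition is a deformation condition** (any `T`, `Smin`). -/
theorem isDeformationCondition_SO (hp2 : p ≠ 2) (T Smin : Finset ℕ) :
    IsDeformationCondition 𝒪 (fun _A _ _ _ ρ =>
      GaloisRep.strictOrdinaryCondition 𝒪 p T ρ ∧
        ∀ q ∈ Smin, q.Prime → q ≠ p → ρ.IsUnipotentOnInertiaAt q) :=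
  Atom.isDeformationCondition_SO_of_det_and p (isDeformationCondition_detSO 𝒪 p hp2) T Smin

end Pkg

end Fermat.Agent.GB.Def.Cond
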