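/-
GATE-B / B2-COND (helper93): the PLUG — existence of the deformation rings `R_Q` for the S56-shaped
conditions (flat / strict-ordinary at `p`, any ramification set `T`, unipotent at `Smin`) from a
`SelmerBound`, through the landed S53; and `R_Q ↠ T_Q` through the landed S54.

Inputs on main: `isDeformationCondition_FL` (helper14, helper57), `isDeformationCondition_SO`
(`CondStrictPkg`), `TanFin.tangentFinite_of_selmerBound` (helper45), `S53.result`, `S54.result`.
-/
import Fermat.Agent.S53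
import Fermat.Agent.S54
import Fermat.Agent.GB.Def.Cond.FL
import Fermat.Agent.GB.Def.Cond.TanFin
import Fermat.Agent.GB.Def.CondStrictPkg

set_option autoImplicit false
set_option linter.unusedSectionVars false

open IsLocalRing

namespace Fermat.Agent.GB.Def.Cond

open GaloisRep Fermat.Agent.GP.Tan.TanTop

section Plug

variable (𝒪 : Type) [CommRing 𝒪] [IsDomain 𝒪] [IsDiscreteValuationRing 𝒪]
  [IsAdicComplete (maximalIdeal 𝒪) 𝒪] [Finite (ResidueField 𝒪)]
  (p : ℕ) [Fact p.Prime] (T Smin : Finset ℕ)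

/-- the S56-shaped flat condition (`T` = ramification set, unipotent at `Smin`). -/
abbrev condFL : ∀ ⦃A : Type⦄ [CommRing A] [IsLocalRing A] [Algebra 𝒪 A], GaloisRepAdic A → Prop :=
  fun _A _ _ _ ρ => GaloisRep.flatCondition 𝒪 p T ρ ∧
    ∀ q ∈ Smin, q.Prime → q ≠ p → ρ.IsUnipotentOnInertiaAt q

/-- the S56-shaped strict-ordinary condition. -/
abbrev condSO : ∀ ⦃A : Type⦄ [CommRing A] [IsLocalRing A] [Algebra 𝒪 A], GaloisRepAdic A → Prop :=
  fun _A _ _ _ ρ => GaloisRep.strictOrdinaryCondition 𝒪 p T ρ ∧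
    ∀ q ∈ Smin, q.Prime → q ≠ p → ρ.IsUnipotentOnInertiaAt q

variable {𝒪 p T Smin}

/-- **`R` exists, flat case**: absolutely irreducible `ρbar` of type `condFL`, plus ANY Selmer bound. -/
theorem exists_deformationRingData_FL {ρbar : ResidualGaloisRep (ResidueField 𝒪)}
    (habs : ρbar.IsAbsolutelyIrreducible)
    (hbar : condFL 𝒪 p T Smin (GaloisRepAdic.ofResidualGaloisRep ρbar))
    (b : Module.Basis (Fin 2) (ResidueField 𝒪) ρbar.V) {r : ℕ}
    (hSel : SelmerBound 𝒪 ρbar b (condFL 𝒪 p T Smin) r) :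
    Nonempty (GaloisRep.DeformationRingData 𝒪 ρbar (condFL 𝒪 p T Smin)) :=
  Fermat.Agent.S53.result 𝒪 ρbar _ habs (isDeformationCondition_FL 𝒪 p T Smin) hbar
    (TanFin.tangentFinite_of_selmerBound 𝒪 ρbar b _ (fun _ _ _ h => h) hSel)

/-- **`R` exists, strict-ordinary case** (`p` odd). -/
theorem exists_deformationRingData_SO (hp2 : p ≠ 2)
    {ρbar : ResidualGaloisRep (ResidueField 𝒪)}
    (habs : ρbar.IsAbsolutelyIrreducible)
    (hbar : condSO 𝒪 p T Smin (GaloisRepAdic.ofResidualGaloisRep ρbar))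
    (b : Module.Basis (Fin 2) (ResidueField 𝒪) ρbar.V) {r : ℕ}
    (hSel : SelmerBound 𝒪 ρbar b (condSO 𝒪 p T Smin) r) :
    Nonempty (GaloisRep.DeformationRingData 𝒪 ρbar (condSO 𝒪 p T Smin)) :=
  Fermat.Agent.S53.result 𝒪 ρbar _ habs (isDeformationCondition_SO 𝒪 p hp2 T Smin) hbar
    (TanFin.tangentFinite_of_selmerBound 𝒪 ρbar b _ (fun _ _ _ h => h) hSel)

/-- **`R ↠ T`** (the landed S54, restated for convenience): a Hecke–Galois datum of type `𝒟` whose
residual representation is `ρbar` receives a surjection from the universal ring. -/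
theorem exists_surjective_to_hecke {ρbar : ResidualGaloisRep (ResidueField 𝒪)}
    {𝒟 : ∀ ⦃A : Type⦄ [CommRing A] [IsLocalRing A] [Algebra 𝒪 A], GaloisRepAdic A → Prop}
    (D : GaloisRep.DeformationRingData 𝒪 ρbar 𝒟) {N : ℕ} [NeZero N] {S : Set ℕ}
    {θ : CuspForm.heckeAlgebra N 2 S →+* ResidueField 𝒪}
    {Th : Type} [CommRing Th] [IsLocalRing Th] [IsNoetherianRing Th]
    [IsAdicComplete (maximalIdeal Th) Th] [Algebra 𝒪 Th] [IsLocalHom (algebraMap 𝒪 Th)]
    [Module.Finite 𝒪 Th] [Module.Free 𝒪 Th]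
    (H : CuspForm.HeckeGaloisRepDatum N S 𝒪 θ Th) (hS : ∀ q : ℕ, q.Prime → q ∣ N → q ∈ S)
    (h𝒟 : 𝒟 H.ρ)
    (hres : H.ρ.residual.IsEquiv (ρbar.baseChangeAlong (ResidueField.map (algebraMap 𝒪 Th)))) :
    ∃ φ : D.R →ₐ[𝒪] Th, Function.Surjective φ ∧ ∃ hφ : IsLocalHom (φ : D.R →+* Th),
      (D.ρ.baseChangeAlong (φ : D.R →+* Th) hφ).IsEquiv H.ρ :=
  Fermat.Agent.S54.result D H hS h𝒟 hres

end Plug

end Fermat.Agent.GB.Def.Cond
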