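/-
GATE-B / B2 (S56-framed), node GB-B2-DQEXIST (helper4): **the deformation rings `R_Q` of the framed
problem EXIST at every Taylor–Wiles level** — with the SAME Taylor–Wiles sets as in helper11's
`FramedSurjKummerConcl`.

Every B2 statement on main quantifies over a datum
`DQ : DeformationRingData 𝒪 ρbar (framedCond p base Smin Su Q)`; its existence is
`CondPlug.exists_deformationRingData_FL/_SO`, which needs a `SelmerBound` for the UNFRAMED problem
(no condition at `Su ∪ Q`), for SOME `r'`.  The framed count does not give it, but the family-level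
package does: the first conjunct of `FramedFamily.pre : PreEuler N Δ L` says that the WHOLE
`H¹(G_{ℚ,S}, ad⁰ρ̄)` is finite-dimensional, so `Sel := ⊤` in helper11's
`SelmerCard.selmerBound_base_of_submodule` gives the bound with `r' := dim H¹`.

* `selmerBound_of_family`      : `FramedFamily` ⟹ `∃ r', SelmerBound 𝒪 ρbar b (framedCond …) r'`;
* `FramedSurjKummerConclX`     : `FramedSurjKummerConcl` with this extra conjunct at every level;
* `framedSurjKummerX_of_nodes` : from helper94's `FramedNodesConcl` (ONE witness for both);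
* `framedSurjKummerX_frozen_SO/FL` : from the frozen S56 binders;
* `FramedSurjKummerConclX.toConcl` : forget the extra conjunct;
* `condFL_ofResidual`, `nonempty_DQ_FL`, `nonempty_DQ_SO` : the datum exists, from the residual
  binders (`ρ̄` flat resp. strict-ordinary at `p`, unipotent on `Smin`).
NEW file; imports only.
-/
import Mathlib
import Fermat.Agent.GB.Def.FramedInstKummer
import Fermat.Agent.GB.Def.CondPlug

set_option autoImplicit false
set_option linter.unusedSectionVars false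
set_option linter.style.haveILetI false

namespace Fermat.Agent.GB.Def.FramedExist

open IsLocalRing Fermat.Agent.S53_helper35 Matrix Fermat.Agent.GP.Tan.Cocycle
  Fermat.Agent.GP.Tan.TanTop Fermat.Agent.GP.Tan.SelmerFrozen Fermat.Agent.GP.Tan.SelmerCard
  Fermat.Agent.GC.Prof Fermat.Agent.GC.Prof.Cone Fermat.Agent.GC.Places
  Fermat.Agent.GC.Local.KR Fermat.Agent.GC.PT.LocDataQ Fermat.Agent.GC.C0
  Fermat.Agent.GP.GW groupCohomology ExtCitation Module Polynomial CategoryTheory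
  Fermat.Agent.GP.Core Fermat.Agent.GP.Bridge.Ad0
  Fermat.Agent.GB.Def.FramedNodes Fermat.Agent.GB.Def.FramedTan Fermat.Agent.GB.Def.FramedSel
  Fermat.Agent.GB.Def.FramedRing Fermat.Agent.GP.Tan.UnivInj
  Fermat.Agent.GB.Def.FramedInst Fermat.Agent.GB.Def.LocGenInst
  Fermat.Agent.GB.Def.FramedInstKummer

local instance factPrimeFramedExist (q : Nat.Primes) : Fact ((q : ℕ).Prime) := ⟨q.2⟩

noncomputable section

variable {𝒪 : Type} [CommRing 𝒪] [IsDomain 𝒪] [IsDiscreteValuationRing 𝒪]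
  [IsAdicComplete (maximalIdeal 𝒪) 𝒪] [Finite (ResidueField 𝒪)]
  (p : ℕ) [Fact p.Prime] [Algebra (ZMod p) (ResidueField 𝒪)]
  (ρbar : ResidualGaloisRep (ResidueField 𝒪))
  (b : Module.Basis (Fin 2) (ResidueField 𝒪) ρbar.V)

/-! ### the unframed Selmer bound -/

/-- **An unframed Selmer bound from the family-level package**: the whole `H¹(G_{ℚ,S}, ad⁰ρ̄)` is
finite-dimensional (first conjunct of `PreEuler`), and contains all admissible classes. -/
theorem selmerBound_of_family (hp2 : p ≠ 2)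
    (base : Finset ℕ → ∀ ⦃A : Type⦄ [CommRing A] [IsLocalRing A] [Algebra 𝒪 A],
      GaloisRepAdic A → Prop)
    (hbase : BaseGlobal 𝒪 p base) (Smin Su Q : Finset ℕ) (S : Finset Nat.Primes)
    (hS : ∀ q : Nat.Primes, (q : ℕ) ∈ Smin ∪ Su ∪ Q → q ∈ S)
    [IsDiscrete (levelS S) (TChi p)]
    [IsDiscrete (levelS S) (adBar p ρbar b)]
    [IsDiscrete (levelS S) ((adBar p ρbar b).dualTwist (cycloChar p))]
    {r d : ℕ}
    (F : FramedFamily ρbar b p (framedCond p base Smin Su Q) Su Q S (adBar p ρbar b)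
      (emb p (toMatRes ρbar b) 1) r d) :
    ∃ r' : ℕ, SelmerBound 𝒪 ρbar b (framedCond p base Smin Su Q) r' := by
  classical
  have h2 : (2 : ResidueField 𝒪) ≠ 0 := two_ne_zero_of_odd p hp2
  have hk : Nat.card (ResidueField 𝒪) = p ^ finrank (ZMod p) (ResidueField 𝒪) :=
    natCard_eq_pow_finrank_zmod p (ResidueField 𝒪)
  have hd : 0 < finrank (ZMod p) (ResidueField 𝒪) := by
    by_contra h0
    have h0' : finrank (ZMod p) (ResidueField 𝒪) = 0 := by omega
    rw [h0', pow_zero] at hk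
    have : 1 < Nat.card (ResidueField 𝒪) := Finite.one_lt_card
    omega
  haveI hfin : FiniteDimensional (ZMod p) (Hlc (levelS S) (adBar p ρbar b) 1) := F.pre.1
  have hS' : ∀ q : Nat.Primes, (q : ℕ) ∈ Smin ∪ (Su ∪ Q) → q ∈ S := by
    intro q hq
    rw [← Finset.union_assoc] at hq
    exact hS q hq
  have hSel := selmerBound_base_of_submodule ρbar b p base hbase Smin (Su ∪ Q) S hS'
    (adBar p ρbar b) (emb p (toMatRes ρbar b) 1) (emb_injective p _ 1) (emb_surjective p _ 1)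
    (emb_ρ_one p _) h2 (finrank (ZMod p) (Hlc (levelS S) (adBar p ρbar b) 1))
    (finrank (ZMod p) (ResidueField 𝒪)) hk
    (⊤ : Submodule (ZMod p) (Hlc (levelS S) (adBar p ρbar b) 1))
    (by
      rw [finrank_top]
      exact Nat.le_mul_of_pos_right _ hd)
    (fun _ _ _ _ _ _ => Submodule.mem_top)
  refine ⟨finrank (ZMod p) (Hlc (levelS S) (adBar p ρbar b) 1), ?_⟩
  have e : Smin ∪ Su ∪ Q = Smin ∪ (Su ∪ Q) := Finset.union_assoc _ _ _
  unfold framedCond
  rw [e]
  exact hSel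

/-! ### the conclusion with existence -/

/-- helper11's `FramedSurjKummerConcl` with, at every level, an unframed Selmer bound (hence the
existence of the datum `DQ`) for the SAME Taylor–Wiles set. -/
def FramedSurjKummerConclX (base : Finset ℕ → ∀ ⦃A : Type⦄ [CommRing A] [IsLocalRing A]
    [Algebra 𝒪 A], GaloisRepAdic A → Prop) (S Smin Su : Finset ℕ) : Prop :=
  ∃ Sig : Finset Nat.Primes, (∀ q : Nat.Primes, (q : ℕ) ∈ Smin ∪ Su → q ∈ Sig) ∧
    ∃ r : ℕ, ∀ n : ℕ, ∃ qv : Fin r → ℕ, Function.Injective qv ∧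
      (∀ i, (qv i).Prime ∧ qv i ∉ S ∧ p ^ (n + 1) ∣ qv i - 1) ∧
      (∀ i, ∀ P : ValuationSubring (AlgebraicClosure ℚ), P.LiesOverPrime (qv i) →
        ∀ φ : AlgebraicClosure ℚ ≃ₐ[ℚ] AlgebraicClosure ℚ, P.IsFrobeniusAt φ (qv i) →
          ∃ α β : ResidueField 𝒪, α ≠ β ∧
            LinearMap.charpoly (ρbar.ρ φ) = (X - C α) * (X - C β)) ∧
      (∀ i, ∀ q ∈ Sig, ((q : Nat.Primes) : ℕ) ≠ qv i) ∧
      (∃ r' : ℕ, SelmerBound 𝒪 ρbar b
        (framedCond p base Smin Su (Finset.univ.image qv)) r') ∧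
      ∀ (DQ : GaloisRep.DeformationRingData 𝒪 ρbar
          (framedCond p base Smin Su (Finset.univ.image qv)))
        (tests : FrPlaces Su (Finset.univ.image qv) (levelOfTW Sig qv) → Set S53_helper35.GQ),
        (∀ w : FrPlaces Su (Finset.univ.image qv) (levelOfTW Sig qv),
          ∃ φ τ₀ : S53_helper35.GQ,
            KummerTests (plOf (levelOfTW Sig qv) w.1) p φ τ₀ ∧
              φ ∈ tests w ∧ τ₀ ∈ tests w) →
        ∀ {A : Type} [CommRing A] [IsLocalRing A] [IsNoetherianRing A]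
          [IsAdicComplete (maximalIdeal A) A] [Algebra 𝒪 A] [IsLocalHom (algebraMap 𝒪 A)]
          [Algebra A (FRing DQ (FrPlaces Su (Finset.univ.image qv) (levelOfTW Sig qv)))]
          [IsScalarTower 𝒪 A (FRing DQ (FrPlaces Su (Finset.univ.image qv) (levelOfTW Sig qv)))]
          [IsLocalHom (algebraMap A
            (FRing DQ (FrPlaces Su (Finset.univ.image qv) (levelOfTW Sig qv))))],
          Function.Surjective (residue A ∘ algebraMap 𝒪 A) →
          (∀ v, ∀ τ ∈ tests v, ∀ i j,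
            framedMat DQ (FrPlaces Su (Finset.univ.image qv) (levelOfTW Sig qv)) v τ i j ∈
              Set.range (algebraMap A
                (FRing DQ (FrPlaces Su (Finset.univ.image qv) (levelOfTW Sig qv))))) →
          ∃ γ : MvPowerSeries (Fin r) A →ₐ[A]
              FRing DQ (FrPlaces Su (Finset.univ.image qv) (levelOfTW Sig qv)),
            Function.Surjective γ

variable {p ρbar b} in
/-- forget the existence conjunct -/
theorem FramedSurjKummerConclX.toConcl
    {base : Finset ℕ → ∀ ⦃A : Type⦄ [CommRing A] [IsLocalRing A] [Algebra 𝒪 A],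
      GaloisRepAdic A → Prop} {S Smin Su : Finset ℕ}
    (h : FramedSurjKummerConclX p ρbar b base S Smin Su) :
    FramedSurjKummerConcl p ρbar base S Smin Su := by
  obtain ⟨Sig, hSig, r, hr⟩ := h
  refine ⟨Sig, hSig, r, fun n => ?_⟩
  obtain ⟨qv, hinj, hTW1, hTW2, hTW3, -, hF⟩ := hr n
  exact ⟨qv, hinj, hTW1, hTW2, hTW3, hF⟩

/-- **the framed instance with existence, generic base condition**, from helper94's
`FramedNodesConcl`: the proofs of `FramedInst.framedSurj_of_nodes` and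
`FramedInstKummer.framedSurjKummer_of_concl` on ONE witness, plus `selmerBound_of_family`. -/
theorem framedSurjKummerX_of_nodes (hp2 : p ≠ 2)
    (base : Finset ℕ → ∀ ⦃A : Type⦄ [CommRing A] [IsLocalRing A] [Algebra 𝒪 A],
      GaloisRepAdic A → Prop)
    (hbase : BaseGlobal 𝒪 p base)
    (S Smin Su : Finset ℕ) (hpSmin : p ∈ Smin)
    (hmin : ∀ q : ℕ, q.Prime → q ≠ p → (q ∈ Smin ↔ ¬ ρbar.IsUnramifiedAt q))
    (hSu : ∀ q ∈ Su, q ∉ Smin)
    (h𝒟 : ∀ (Q : Finset ℕ) (DQ : GaloisRep.DeformationRingData 𝒪 ρbar (framedCond p base Smin Su Q))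
      (φ : DQ.R →ₐ[𝒪] DualNumber (ResidueField 𝒪)), Function.Surjective φ →
        framedCond p base Smin Su Q (tangentRep DQ φ))
    (hnodes : FramedNodesConcl p ρbar b base S Smin Su) :
    FramedSurjKummerConclX p ρbar b base S Smin Su := by
  classical
  obtain ⟨Sig, hSig, r, hr⟩ := hnodes
  have hSig' : ∀ q : Nat.Primes, (q : ℕ) ∈ Smin → q ∈ Sig := fun q hq =>
    hSig q (Finset.mem_union_left _ hq)
  have hpSig : pPrime p ∈ Sig := hSig' (pPrime p) hpSmin
  have h2 : (2 : ResidueField 𝒪) ≠ 0 := two_ne_zero_of_odd p hp2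
  have hk : Nat.card (ResidueField 𝒪) = p ^ finrank (ZMod p) (ResidueField 𝒪) :=
    natCard_eq_pow_finrank_zmod p (ResidueField 𝒪)
  refine ⟨Sig, hSig, r, fun n => ?_⟩
  obtain ⟨qv, hinj, hTW1, hTW2, hTW3, hF⟩ := hr n
  have hsub : Sig ⊆ levelOfTW Sig qv := subset_levelOfTW Sig qv
  haveI hdN : IsDiscrete (levelS (levelOfTW Sig qv)) (adBar p ρbar b) :=
    isDiscrete_adBar p ρbar b _
      (Fermat.Agent.GP.Tan.SelmerAd0.unramified_outside_of_hmin p ρbar Smin hpSmin hmin _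
        fun q hq => hsub (hSig' q hq))
  haveI hdT : IsDiscrete (levelS (levelOfTW Sig qv)) (TChi p) :=
    isDiscrete_TChi _ (hsub hpSig)
  haveI hdNs : IsDiscrete (levelS (levelOfTW Sig qv))
      ((adBar p ρbar b).dualTwist (cycloChar p)) :=
    NineTermQ.isDiscrete_dual (hsub hpSig) (adBar p ρbar b)
  obtain ⟨F⟩ := hF
  -- the level contains the primes of `Smin ∪ Su ∪ Q`
  have hlev : ∀ q : Nat.Primes, (q : ℕ) ∈ Smin ∪ Su ∪ Finset.univ.image qv →
      q ∈ levelOfTW Sig qv := by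
    intro q hq
    rcases Finset.mem_union.1 hq with h | h
    · exact hsub (hSig q h)
    · exact Finset.mem_union_right _ (mem_primesIn.2 h)
  refine ⟨qv, hinj, hTW1, hTW2, hTW3,
    selmerBound_of_family p ρbar b hp2 base hbase Smin Su _ _ hlev F, ?_⟩
  intro DQ tests htests A _ _ _ _ _ _ _ _ _ hresA hrange
  have hLG : LocGen p (levelOfTW Sig qv) (adBar p ρbar b)
      (frPl Su (Finset.univ.image qv) (levelOfTW Sig qv)) tests := by
    refine locGen_adBar p ρbar b Su _ _ (fun q hq hqp _ => ?_) tests htests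
    have hne : q ≠ p := fun h => hSu q hq (h ▸ hpSmin)
    refine ⟨fun h => hne h.symm, ?_⟩
    by_contra hram
    exact hSu q hq ((hmin q hqp hne).2 hram)
  refine exists_surjective_of_framedFamily DQ b p Su (Finset.univ.image qv) (levelOfTW Sig qv)
    (adBar p ρbar b) (emb p (toMatRes ρbar b) 1) (emb_injective p _ 1) (emb_surjective p _ 1)
    (emb_ρ_one p _) (frPl Su (Finset.univ.image qv) (levelOfTW Sig qv)) tests h2 hp2 hk F ?_
    (frPl_injective _ _ _) (frPl_mem _ _ _) (frPl_onto _ _ _) hLG (h𝒟 _ DQ) hresA hrange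
  -- `hglob`
  rintro t ht ⟨ρ, ⟨hb, -⟩, he⟩
  obtain ⟨hdet, hur⟩ := hbase _ ρ hb
  refine ⟨fun σ => trace_tanCocycle_eq_zero_of_detIsCyclotomic t ht p (Fact.out : p.Prime).pos
    (detIsCyclotomic_of_isEquiv he hdet) σ, fun q hq => ?_⟩
  exact isUnramifiedAt_of_isEquiv he (hur q q.2 fun hmem => hq (hlev q hmem))

/-- **strict-ordinary, frozen binders, with existence.** -/
theorem framedSurjKummerX_frozen_SO (hp2 : p ≠ 2) (hp𝒪 : (p : 𝒪) ∈ maximalIdeal 𝒪)
    (habs : ρbar.IsAbsolutelyIrreducible)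
    (hdet : (GaloisRepAdic.ofResidualGaloisRep ρbar).DetIsCyclotomic p)
    (hsplit : ∀ σ : AlgebraicClosure ℚ ≃ₐ[ℚ] AlgebraicClosure ℚ,
      ∃ α β : ResidueField 𝒪, LinearMap.charpoly (ρbar.ρ σ) = (X - C α) * (X - C β))
    (hTW : ∀ (K : Type) [Field K] [Algebra (ResidueField 𝒪) K]
      (G : Subgroup (AlgebraicClosure ℚ ≃ₐ[ℚ] AlgebraicClosure ℚ)), G.index = 2 →
      ∀ V : Submodule K (ρbar.baseChange K).V,
        (∀ σ ∈ G, ∀ x ∈ V, (ρbar.baseChange K).ρ σ x ∈ V) → V = ⊥ ∨ V = ⊤)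
    (S Smin Su : Finset ℕ) (hpSmin : p ∈ Smin) (hpS : p ∈ S)
    (hmin : ∀ q : ℕ, q.Prime → q ≠ p → (q ∈ Smin ↔ ¬ ρbar.IsUnramifiedAt q))
    (hSu : ∀ q ∈ Su, q ∉ Smin) :
    FramedSurjKummerConclX p ρbar (stdBasisRes ρbar) (GaloisRep.strictOrdinaryCondition 𝒪 p)
      S Smin Su :=
  framedSurjKummerX_of_nodes p ρbar (stdBasisRes ρbar) hp2 _ (baseGlobal_strictOrdinary 𝒪 p)
    S Smin Su hpSmin hmin hSu
    (fun Q DQ φ _ => Fermat.Agent.GP.Tan.s56StrictCond_baseChangeAlong p Smin (Smin ∪ Su ∪ Q) _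
      (isLocalHom_algHom_dualNumber φ) DQ.isOfType)
    (framedNodes_frozen_SO p ρbar (stdBasisRes ρbar) hp2 hp𝒪 habs hdet hsplit hTW S Smin Su
      hpSmin hpS hmin)

/-- **flat, frozen binders, with existence.** -/
theorem framedSurjKummerX_frozen_FL (hp2 : p ≠ 2)
    (habs : ρbar.IsAbsolutelyIrreducible)
    (hdet : (GaloisRepAdic.ofResidualGaloisRep ρbar).DetIsCyclotomic p)
    (hsplit : ∀ σ : AlgebraicClosure ℚ ≃ₐ[ℚ] AlgebraicClosure ℚ,
      ∃ α β : ResidueField 𝒪, LinearMap.charpoly (ρbar.ρ σ) = (X - C α) * (X - C β))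
    (hTW : ∀ (K : Type) [Field K] [Algebra (ResidueField 𝒪) K]
      (G : Subgroup (AlgebraicClosure ℚ ≃ₐ[ℚ] AlgebraicClosure ℚ)), G.index = 2 →
      ∀ V : Submodule K (ρbar.baseChange K).V,
        (∀ σ ∈ G, ∀ x ∈ V, (ρbar.baseChange K).ρ σ x ∈ V) → V = ⊥ ∨ V = ⊤)
    (S Smin Su : Finset ℕ) (hpSmin : p ∈ Smin) (hpS : p ∈ S)
    (hmin : ∀ q : ℕ, q.Prime → q ≠ p → (q ∈ Smin ↔ ¬ ρbar.IsUnramifiedAt q))
    (hSu : ∀ q ∈ Su, q ∉ Smin) :
    FramedSurjKummerConclX p ρbar (stdBasisRes ρbar) (GaloisRep.flatCondition 𝒪 p)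
      S Smin Su :=
  framedSurjKummerX_of_nodes p ρbar (stdBasisRes ρbar) hp2 _ (baseGlobal_flat 𝒪 p)
    S Smin Su hpSmin hmin hSu
    (fun Q DQ φ hs => Fermat.Agent.GP.Tan.s56FlatCond_baseChangeAlong_of_surjective p Smin
      (Smin ∪ Su ∪ Q) _ (isLocalHom_algHom_dualNumber φ) hs DQ.isOfType)
    (framedNodes_frozen_FL p ρbar (stdBasisRes ρbar) hp2 habs hdet hsplit hTW S Smin Su
      hpSmin hpS hmin)

/-! ### existence of the datum -/

section Exist

open Fermat.Agent.GB.Def.Cond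

variable {p ρbar}

/-- `ρ̄` is of the flat framed type at every level `T ⊇ Smin`, from the residual binders. -/
theorem condFL_ofResidual
    (hdet : (GaloisRepAdic.ofResidualGaloisRep ρbar).DetIsCyclotomic p)
    {Smin : Finset ℕ} (hpSmin : p ∈ Smin)
    (hmin : ∀ q : ℕ, q.Prime → q ≠ p → (q ∈ Smin ↔ ¬ ρbar.IsUnramifiedAt q))
    (hflat : (GaloisRepAdic.ofResidualGaloisRep ρbar).IsFlatAt p)
    (hunip : ∀ q ∈ Smin, q.Prime → q ≠ p →
      (GaloisRepAdic.ofResidualGaloisRep ρbar).IsUnipotentOnInertiaAt q)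
    (Su Q : Finset ℕ) :
    framedCond p (GaloisRep.flatCondition 𝒪 p) Smin Su Q
      (GaloisRepAdic.ofResidualGaloisRep ρbar) := by
  refine ⟨⟨hdet, hflat, fun q hq hqT => ?_⟩, hunip⟩
  have hqS : q ∉ Smin := fun h =>
    hqT (Finset.mem_union_left _ (Finset.mem_union_left _ h))
  have hqp : q ≠ p := fun h => hqS (h ▸ hpSmin)
  have hur : ρbar.IsUnramifiedAt q := by
    by_contra hram
    exact hqS ((hmin q hq hqp).2 hram)
  exact hur

/-- **`R_Q` exists, flat case**: from an unframed Selmer bound and the residual binders. -/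
theorem nonempty_DQ_FL (habs : ρbar.IsAbsolutelyIrreducible)
    (hdet : (GaloisRepAdic.ofResidualGaloisRep ρbar).DetIsCyclotomic p)
    {Smin : Finset ℕ} (hpSmin : p ∈ Smin)
    (hmin : ∀ q : ℕ, q.Prime → q ≠ p → (q ∈ Smin ↔ ¬ ρbar.IsUnramifiedAt q))
    (hflat : (GaloisRepAdic.ofResidualGaloisRep ρbar).IsFlatAt p)
    (hunip : ∀ q ∈ Smin, q.Prime → q ≠ p →
      (GaloisRepAdic.ofResidualGaloisRep ρbar).IsUnipotentOnInertiaAt q)
    (Su Q : Finset ℕ) {r' : ℕ}
    (hSel : SelmerBound 𝒪 ρbar b (framedCond p (GaloisRep.flatCondition 𝒪 p) Smin Su Q) r') :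
    Nonempty (GaloisRep.DeformationRingData 𝒪 ρbar
      (framedCond p (GaloisRep.flatCondition 𝒪 p) Smin Su Q)) :=
  exists_deformationRingData_FL (𝒪 := 𝒪) (p := p) (T := Smin ∪ Su ∪ Q) (Smin := Smin) habs
    (condFL_ofResidual hdet hpSmin hmin hflat hunip Su Q) b hSel

/-- **`R_Q` exists, strict-ordinary case**: from an unframed Selmer bound and the residual binder
(`ρ̄` of the strict-ordinary framed type). -/
theorem nonempty_DQ_SO (hp2 : p ≠ 2) (habs : ρbar.IsAbsolutelyIrreducible)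
    {Smin : Finset ℕ} (Su Q : Finset ℕ)
    (hbar : framedCond p (GaloisRep.strictOrdinaryCondition 𝒪 p) Smin Su Q
      (GaloisRepAdic.ofResidualGaloisRep ρbar)) {r' : ℕ}
    (hSel : SelmerBound 𝒪 ρbar b
      (framedCond p (GaloisRep.strictOrdinaryCondition 𝒪 p) Smin Su Q) r') :
    Nonempty (GaloisRep.DeformationRingData 𝒪 ρbar
      (framedCond p (GaloisRep.strictOrdinaryCondition 𝒪 p) Smin Su Q)) :=
  exists_deformationRingData_SO (𝒪 := 𝒪) (p := p) (T := Smin ∪ Su ∪ Q) (Smin := Smin) hp2 habs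
    hbar b hSel

end Exist

end

end Fermat.Agent.GB.Def.FramedExist
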