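/-
GATE-B / B2-COND (helper93): the frozen `GaloisRepAdic.IsFlatAt p` satisfies the five clauses of the
frozen `GaloisRep.IsDeformationCondition` (on finite test rings / complete Noetherian local rings).

For a FINITE local ring `A` : `ρ.IsFlatAt p ↔ FlatRep ρ p` (`FlatRep` := the frozen finite-flat-model
shape `FlatMod` on `ρ.V` itself); then
* `flatRep_baseChangeAlong`            : ANY local hom `A → B` (`B ⊗ V` is a quotient of `V ^ B`);
* `flatRep_of_baseChangeAlong_injective` : `A ↪ B` (`V ↪ B ⊗ V`);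
* `flatRep_of_fibreProduct`            : `P ↪ A × B` (`V ↪ (A ⊗ V) × (B ⊗ V)`, `flatMod_prod`);
* `isFlatAt_of_forall_quotient`        : complete case, level `I` of `ρ` = level `⊥` of `ρ ⊗ A/I`.
All on `GH/S32/FlatMod.flatMod_of_isSubquotPow` (closure under subquotients of powers).
-/
import Fermat.Agent.GB.Def.CondBasic
import Fermat.Agent.GP.Tan.BaseChangeCond
import Fermat.Agent.GP.Tan.CondIsEquiv

set_option autoImplicit false
set_option linter.unusedSectionVars false

open scoped TensorProduct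
open IsLocalRing

namespace Fermat.Agent.GB.Def.Cond

open Fermat.Agent.GH.S32

local notation "GQ" => (AlgebraicClosure ℚ ≃ₐ[ℚ] AlgebraicClosure ℚ)

variable {p : ℕ} [Fact p.Prime]

section FlatRep

variable {A : Type} [CommRing A] [IsLocalRing A]

/-- the finite-flat-model shape on `ρ.V` itself. -/
def FlatRep (ρ : GaloisRepAdic A) (p : ℕ) : Prop :=
  FlatMod p ρ.V (fun σ v => ρ.ρ σ v)

theorem levelAction_mk (ρ : GaloisRepAdic A) (I : Ideal A) (σ : GQ) (v : ρ.V) :
    ρ.levelAction I σ (Submodule.Quotient.mk v) = Submodule.Quotient.mk (ρ.ρ σ v) := rfl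

/-- every level of `ρ` is an equivariant quotient of `ρ.V`. -/
theorem isSubquotPow_level (ρ : GaloisRepAdic A) (I : Ideal A) :
    IsSubquotPow (fun (σ : GQ) (v : ρ.V) => ρ.ρ σ v)
      (fun (σ : GQ) (x : ρ.V ⧸ (I • (⊤ : Submodule A ρ.V))) => ρ.levelAction I σ x) :=
  IsSubquotPow.of_surjective (Submodule.mkQ (I • (⊤ : Submodule A ρ.V))).toAddMonoidHom
    (Submodule.mkQ_surjective _) (fun _ _ => rfl)

/-- `ρ.V` is (equivariantly isomorphic to) the level `⊥` of `ρ`. -/
theorem isSubquotPow_level_bot (ρ : GaloisRepAdic A) :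
    IsSubquotPow
      (fun (σ : GQ) (x : ρ.V ⧸ ((⊥ : Ideal A) • (⊤ : Submodule A ρ.V))) => ρ.levelAction ⊥ σ x)
      (fun (σ : GQ) (v : ρ.V) => ρ.ρ σ v) := by
  have hbot : ((⊥ : Ideal A) • (⊤ : Submodule A ρ.V)) = ⊥ := Submodule.bot_smul _
  refine IsSubquotPow.of_addEquiv (Submodule.quotEquivOfEqBot _ hbot).toAddEquiv ?_
  intro σ x
  obtain ⟨v, rfl⟩ := Submodule.Quotient.mk_surjective _ x
  show Submodule.quotEquivOfEqBot _ hbot (ρ.levelAction ⊥ σ (Submodule.Quotient.mk v)) =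
    ρ.ρ σ (Submodule.quotEquivOfEqBot _ hbot (Submodule.Quotient.mk v))
  rw [levelAction_mk, Submodule.quotEquivOfEqBot_apply_mk, Submodule.quotEquivOfEqBot_apply_mk]

/-- over a finite ring, flat ⟹ the module itself has a finite flat model. -/
theorem flatRep_of_isFlatAt [Finite A] {ρ : GaloisRepAdic A} (h : ρ.IsFlatAt p) : FlatRep ρ p := by
  have hfin : Finite (A ⧸ (⊥ : Ideal A)) := Finite.of_surjective _ Ideal.Quotient.mk_surjective
  exact flatMod_of_isSubquotPow (h.2 ⊥ hfin) (isSubquotPow_level_bot ρ)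

/-- a finite flat model of `ρ.V` gives flatness. -/
theorem isFlatAt_of_flatRep (hres : Finite (ResidueField A)) {ρ : GaloisRepAdic A}
    (h : FlatRep ρ p) : ρ.IsFlatAt p :=
  ⟨hres, fun I _ => flatMod_of_isSubquotPow h (isSubquotPow_level ρ I)⟩

theorem finite_residueField_of_finite [Finite A] : Finite (ResidueField A) :=
  Finite.of_surjective _ (IsLocalRing.residue_surjective (R := A))

theorem isFlatAt_iff_flatRep [Finite A] (ρ : GaloisRepAdic A) : ρ.IsFlatAt p ↔ FlatRep ρ p :=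
  ⟨flatRep_of_isFlatAt, isFlatAt_of_flatRep finite_residueField_of_finite⟩

end FlatRep

section BaseChange

variable {A B : Type} [CommRing A] [IsLocalRing A] [CommRing B] [IsLocalRing B]

/-- **base change along ANY local hom of finite rings**: `B ⊗ V` is a quotient of `V ^ B`. -/
theorem flatRep_baseChangeAlong [Finite B] (φ : A →+* B) (hφ : IsLocalHom φ)
    {ρ : GaloisRepAdic A} (h : FlatRep ρ p) : FlatRep (ρ.baseChangeAlong φ hφ) p := by
  classical
  let _ : Algebra A B := φ.toAlgebra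
  have : Fintype B := Fintype.ofFinite B
  refine flatMod_of_isSubquotPow h ?_
  let F : (B → ρ.V) →+ B ⊗[A] ρ.V :=
    { toFun := fun g => ∑ b : B, b ⊗ₜ[A] g b
      map_zero' := by simp
      map_add' := fun g g' => by
        simp only [Pi.add_apply, TensorProduct.tmul_add, Finset.sum_add_distrib] }
  refine isSubquotPow_of_pi_surjective (ι := B) F ?_ ?_
  · intro w
    induction w using TensorProduct.induction_on with
    | zero => exact ⟨0, map_zero F⟩
    | tmul b v =>
      refine ⟨Pi.single b v, ?_⟩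
      show ∑ b' : B, b' ⊗ₜ[A] (Pi.single b v : B → ρ.V) b' = b ⊗ₜ[A] v
      rw [Finset.sum_eq_single b]
      · rw [Pi.single_eq_same]
      · intro b' _ hb'
        rw [Pi.single_eq_of_ne hb', TensorProduct.tmul_zero]
      · intro hb
        exact absurd (Finset.mem_univ b) hb
    | add x y hx hy =>
      obtain ⟨gx, rfl⟩ := hx
      obtain ⟨gy, rfl⟩ := hy
      exact ⟨gx + gy, map_add F gx gy⟩
  · intro σ g
    show ∑ b : B, b ⊗ₜ[A] (ρ.ρ σ (g b)) = (ρ.ρ σ).baseChange B (∑ b : B, b ⊗ₜ[A] g b)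
    rw [map_sum]
    exact Finset.sum_congr rfl fun b _ => (LinearMap.baseChange_tmul _ _ _).symm

/-- **descent along an injective local hom**: `V ↪ B ⊗ V`. -/
theorem flatRep_of_baseChangeAlong_injective (φ : A →+* B) (hφ : IsLocalHom φ)
    (hinj : Function.Injective φ) {ρ : GaloisRepAdic A}
    (h : FlatRep (ρ.baseChangeAlong φ hφ) p) : FlatRep ρ p := by
  let _ : Algebra A B := φ.toAlgebra
  refine flatMod_of_isSubquotPow h ?_
  let j : ρ.V →+ B ⊗[A] ρ.V :=
    { toFun := fun v => (1 : B) ⊗ₜ[A] v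
      map_zero' := TensorProduct.tmul_zero _ _
      map_add' := fun v w => TensorProduct.tmul_add _ _ _ }
  refine isSubquotPow_of_injective j (one_tmul_injective (A := A) (B := B) hinj) ?_
  intro σ v
  show (1 : B) ⊗ₜ[A] (ρ.ρ σ v) = (ρ.ρ σ).baseChange B ((1 : B) ⊗ₜ[A] v)
  rw [LinearMap.baseChange_tmul]

end BaseChange

section Fibre

variable {P A B : Type} [CommRing P] [IsLocalRing P] [CommRing A] [IsLocalRing A]
  [CommRing B] [IsLocalRing B]

/-- **fibre products**: for jointly injective `P → A`, `P → B`, `V ↪ (A ⊗ V) × (B ⊗ V)`. -/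
theorem flatRep_of_fibreProduct (pA : P →+* A) (pB : P →+* B) (hpA : IsLocalHom pA)
    (hpB : IsLocalHom pB) (hinj : Function.Injective (fun x : P => (pA x, pB x)))
    {ρ : GaloisRepAdic P} (hA : FlatRep (ρ.baseChangeAlong pA hpA) p)
    (hB : FlatRep (ρ.baseChangeAlong pB hpB) p) : FlatRep ρ p := by
  let _ : Algebra P A := pA.toAlgebra
  let _ : Algebra P B := pB.toAlgebra
  refine flatMod_of_isSubquotPow (flatMod_prod hA hB) ?_
  let j : ρ.V →+ (A ⊗[P] ρ.V) × (B ⊗[P] ρ.V) :=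
    { toFun := fun v => ((1 : A) ⊗ₜ[P] v, (1 : B) ⊗ₜ[P] v)
      map_zero' := by rw [TensorProduct.tmul_zero, TensorProduct.tmul_zero]; rfl
      map_add' := fun v w => by rw [TensorProduct.tmul_add, TensorProduct.tmul_add]; rfl }
  refine isSubquotPow_of_injective j
    (one_tmul_pair_injective (P := P) (A := A) (B := B) hinj) ?_
  intro σ v
  show ((1 : A) ⊗ₜ[P] (ρ.ρ σ v), (1 : B) ⊗ₜ[P] (ρ.ρ σ v)) =
    ((ρ.ρ σ).baseChange A ((1 : A) ⊗ₜ[P] v), (ρ.ρ σ).baseChange B ((1 : B) ⊗ₜ[P] v))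
  rw [LinearMap.baseChange_tmul, LinearMap.baseChange_tmul]

end Fibre

section Complete

variable {A B : Type} [CommRing A] [IsLocalRing A] [CommRing B] [IsLocalRing B]

/-- level `I` of `ρ` is the level `⊥` of `ρ ⊗ B` when `A → B` is onto with kernel `I`. -/
theorem isSubquotPow_level_of_surjective (φ : A →+* B) (hφ : IsLocalHom φ)
    (hsurj : Function.Surjective φ) (ρ : GaloisRepAdic A) (I : Ideal A)
    (hI : I = RingHom.ker φ) :
    IsSubquotPow
      (fun (σ : GQ) (x : (ρ.baseChangeAlong φ hφ).V ⧸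
          ((⊥ : Ideal B) • (⊤ : Submodule B (ρ.baseChangeAlong φ hφ).V))) =>
        (ρ.baseChangeAlong φ hφ).levelAction ⊥ σ x)
      (fun (σ : GQ) (x : ρ.V ⧸ (I • (⊤ : Submodule A ρ.V))) => ρ.levelAction I σ x) := by
  let _ : Algebra A B := φ.toAlgebra
  subst hI
  have hsurj' : Function.Surjective (algebraMap A B) := hsurj
  have hker : RingHom.ker φ = (⊥ : Ideal B).comap (algebraMap A B) := rfl
  let Ψ := Fermat.Agent.GP.Tan.baseChangeAlong_quotEquiv (V := ρ.V) hsurj' (⊥ : Ideal B)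
  have h2 : ∀ σ : GQ, ((⊥ : Ideal B) • (⊤ : Submodule B (B ⊗[A] ρ.V))) ≤
      ((⊥ : Ideal B) • (⊤ : Submodule B (B ⊗[A] ρ.V))).comap ((ρ.ρ σ).baseChange B) := by
    intro σ
    rw [← Submodule.map_le_iff_le_comap, Submodule.map_smul'']
    exact Submodule.smul_mono le_rfl le_top
  have h1 : ∀ σ : GQ, (((⊥ : Ideal B).comap (algebraMap A B)) • (⊤ : Submodule A ρ.V)) ≤
      (((⊥ : Ideal B).comap (algebraMap A B)) • (⊤ : Submodule A ρ.V)).comap (ρ.ρ σ) := by
    intro σ
    rw [← Submodule.map_le_iff_le_comap, Submodule.map_smul'']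
    exact Submodule.smul_mono le_rfl le_top
  refine isSubquotPow_of_injective (M := (B ⊗[A] ρ.V) ⧸ ((⊥ : Ideal B) • (⊤ : Submodule B (B ⊗[A] ρ.V))))
    (act := fun (σ : GQ) x => Submodule.mapQ _ _ ((ρ.ρ σ).baseChange B) (h2 σ) x)
    Ψ.toAddMonoidHom Ψ.injective ?_
  intro σ x
  exact Fermat.Agent.GP.Tan.baseChangeAlong_quotEquiv_mapQ hsurj' (⊥ : Ideal B) (ρ.ρ σ) (h1 σ) (h2 σ) x

end Complete

end Fermat.Agent.GB.Def.Cond
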