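/-
GATE-B / B2 (S56-framed), node GB-DEF-FRAMED part 1 (helper11): **the Greenberg–Wiles count with
the local condition `L_v = ⊥` on a set `Σ_u` of FRAMED places** — the framed terms cancel.

Pinned SEL-MODEL (helper59 `GP/GW/Model`): `S : Finset Nat.Primes`, places `(locDataQ S).ι = ↥S`,
`N : Rep (ZMod p) G_ℚ`, `Hloc S N v i`, `selmerGrp S N L`, `dualSelmerGrp N Δ L`.

From helper7's consumer form `ModelConj.selmer_le_conj_sum`
  `dim Sel_L + Σ_v h⁰_v + h⁰(N*) + dim N^{c=1} ≤ h⁰(N) + Σ_v dim L_v`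
with `L_v = ⊥` for `v ∈ Σ_u`, `dim L_v ≤ h⁰_v + e_v` for `v ∉ Σ_u`, `Σ_{v ∉ Σ_u} e_v ≤ d + r·d`,
`d ≤ dim N^{c=1}`, `h⁰(N) = 0`:

  **`dim Sel_L + Σ_{v ∈ Σ_u} h⁰(G_v, N) ≤ r·d`**            (`framed_selmer_add_h0_le`)

so the relative tangent space of the framed deformation ring over the framed local rings
(an extension of `Sel_L` by `⊕_{v ∈ Σ_u} H⁰(G_v, N)`, `H⁰(G_ℚ, N) = 0`) has at most `p^{rd} = |k|^r`
elements, for ANY number of framed places (helper66, board 4904 §4: `g = r`).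
NEW file; imports only.
-/
import Mathlib
import Fermat.Agent.GP.GW.ModelConj

set_option autoImplicit false
set_option linter.unusedSectionVars false

namespace Fermat.Agent.GB.Def.FramedCount

open Fermat.Agent.GC.Prof Fermat.Agent.GC.Prof.Cone Fermat.Agent.GC.PT
  Fermat.Agent.GC.PT.LocDataQ Fermat.Agent.GC.PT.MainInst groupCohomology CategoryTheory
  ExtCitation Module Fermat.Agent.GC.C0 Fermat.Agent.GC.PT.Triples Fermat.Agent.GP.GW

noncomputable section

variable {p : ℕ} [Fact p.Prime]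
variable {S : Finset Nat.Primes} [IsDiscrete (levelS S) (TChi p)]
variable (N : Rep (ZMod p) GQ) [IsDiscrete (levelS S) N]
variable [IsDiscrete (levelS S) (N.dualTwist (cycloChar p))]

/-- **The framed Greenberg–Wiles count** (dimension form).  `Fr` = the framed places, where the
local condition is `⊥`; `e v` = the excess at the other places. -/
theorem framed_selmer_add_h0_le (hp2 : p ≠ 2) [FiniteDimensional (ZMod p) N]
    (Δ : PTData (p := p) S) (L : ∀ v, Submodule (ZMod p) (Hloc S N v 1))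
    (hpre : PreEuler N Δ L) (htate : TateLe S (N.dualTwist (cycloChar p)))
    (hdual : dualSelmerGrp N Δ L = ⊥)
    (hH0 : finrank (ZMod p) (Hlc (levelS S) N 0) = 0)
    (r d : ℕ)
    (hconj : d ≤ finrank (ZMod p) (LinearMap.ker (N.ρ complexConjugation - 1)))
    (Fr : Finset (locDataQ S).ι) (hbot : ∀ v ∈ Fr, L v = ⊥)
    (e : (locDataQ S).ι → ℕ)
    (hcard : ∀ v, v ∉ Fr → finrank (ZMod p) (L v) ≤ finrank (ZMod p) (Hloc S N v 0) + e v)
    (he : ∑ v ∈ Finset.univ \ Fr, e v ≤ d + r * d) :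
    finrank (ZMod p) (selmerGrp S N L) + ∑ v ∈ Fr, finrank (ZMod p) (Hloc S N v 0) ≤ r * d := by
  classical
  have hsum := ModelConj.selmer_le_conj_sum N hp2 Δ L hpre htate hdual
  rw [hH0, zero_add] at hsum
  -- split both sums along `Fr`
  have hsplit0 : ∑ v, finrank (ZMod p) (Hloc S N v 0) =
      ∑ v ∈ Fr, finrank (ZMod p) (Hloc S N v 0) +
        ∑ v ∈ Finset.univ \ Fr, finrank (ZMod p) (Hloc S N v 0) := by
    rw [← Finset.sum_sdiff (Finset.subset_univ Fr), add_comm]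
  have hsplitL : ∑ v, finrank (ZMod p) (L v) =
      ∑ v ∈ Finset.univ \ Fr, finrank (ZMod p) (L v) := by
    rw [← Finset.sum_sdiff (Finset.subset_univ Fr)]
    have : ∑ v ∈ Fr, finrank (ZMod p) (L v) = 0 :=
      Finset.sum_eq_zero fun v hv => by rw [hbot v hv, finrank_bot]
    rw [this, add_zero]
  have hL : ∑ v ∈ Finset.univ \ Fr, finrank (ZMod p) (L v) ≤
      ∑ v ∈ Finset.univ \ Fr, finrank (ZMod p) (Hloc S N v 0) +
        ∑ v ∈ Finset.univ \ Fr, e v := by
    rw [← Finset.sum_add_distrib]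
    exact Finset.sum_le_sum fun v hv => hcard v (Finset.mem_sdiff.1 hv).2
  rw [hsplit0, hsplitL] at hsum
  omega

/-- cardinality form: `|Sel_L| · ∏_{v ∈ Σ_u} |H⁰(G_v, N)| ≤ p^{r d}`. -/
theorem framed_natCard_le (hp2 : p ≠ 2) [FiniteDimensional (ZMod p) N]
    (Δ : PTData (p := p) S) (L : ∀ v, Submodule (ZMod p) (Hloc S N v 1))
    (hpre : PreEuler N Δ L) (htate : TateLe S (N.dualTwist (cycloChar p)))
    (hdual : dualSelmerGrp N Δ L = ⊥)
    (hH0 : finrank (ZMod p) (Hlc (levelS S) N 0) = 0)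
    (r d : ℕ)
    (hconj : d ≤ finrank (ZMod p) (LinearMap.ker (N.ρ complexConjugation - 1)))
    (Fr : Finset (locDataQ S).ι) (hbot : ∀ v ∈ Fr, L v = ⊥)
    (e : (locDataQ S).ι → ℕ)
    (hcard : ∀ v, v ∉ Fr → finrank (ZMod p) (L v) ≤ finrank (ZMod p) (Hloc S N v 0) + e v)
    (he : ∑ v ∈ Finset.univ \ Fr, e v ≤ d + r * d) :
    Nat.card (selmerGrp S N L) * ∏ v ∈ Fr, Nat.card (Hloc S N v 0) ≤ p ^ (r * d) := by
  classical
  have hfinSel : FiniteDimensional (ZMod p) (selmerGrp S N L) :=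
    (selmer_le_of_preEuler_tate N Δ L hpre htate).1
  have h0fin : ∀ v, FiniteDimensional (ZMod p) (Hloc S N v 0) :=
    ModelConj.finiteDimensional_Hloc_zero N
  have hdim := framed_selmer_add_h0_le N hp2 Δ L hpre htate hdual hH0 r d hconj Fr hbot e hcard he
  have hZ : Nat.card (ZMod p) = p := Nat.card_zmod p
  have h1 : Nat.card (selmerGrp S N L) = p ^ finrank (ZMod p) (selmerGrp S N L) := by
    rw [Module.natCard_eq_pow_finrank (K := ZMod p), hZ]
  have h2 : ∀ v, Nat.card (Hloc S N v 0) = p ^ finrank (ZMod p) (Hloc S N v 0) := by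
    intro v
    rw [Module.natCard_eq_pow_finrank (K := ZMod p), hZ]
  rw [h1, Finset.prod_congr rfl (fun v _ => h2 v), Finset.prod_pow_eq_pow_sum, ← pow_add]
  exact Nat.pow_le_pow_right (Fact.out : p.Prime).pos hdim

end

end Fermat.Agent.GB.Def.FramedCount
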