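/-
GATE-B / B2 "S56-framed", CORE half, part 2 (helper94): **instance-free consumer forms** of
`GB/Def/FramedNodes`.

`FramedNodes.FramedNodesConcl` quantifies over the three discreteness instances at the level
`levelOfTW Sig qv`.  Here they are DISCHARGED (exactly as in
`CoreInstAdBar.selmerBounds_base_adBar`): the consumer gets the instances together with the
family, and the framed Selmer count as a plain inequality.

* `isDiscrete_level_adBar`   : the three instances at every level `S' ⊇ Sig ∋ p` outside which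
  `ρbar` is unramified;
* `FramedNodesInstConcl`     : `∃ Sig ⊇ Smin ∪ Su, ∃ r, ∀ n, ∃ qv, … ∧ ∃ instances, Nonempty FramedFamily`;
* `framedNodesInst_frozen_SO`, `framedNodesInst_frozen_FL` : from the FROZEN S56 hypotheses
  (the numerical consequence is `FramedFamily.selmer_count`).
NEW file; imports only.
-/
import Mathlib
import Fermat.Agent.GB.Def.FramedNodes

set_option autoImplicit false
set_option linter.unusedSectionVars false
set_option linter.style.haveILetI false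

namespace Fermat.Agent.GB.Def.FramedNodesInst

open IsLocalRing Fermat.Agent.S53_helper35 Matrix Fermat.Agent.GP.Tan.Cocycle
  Fermat.Agent.GP.Tan.TanTop Fermat.Agent.GP.Tan.SelmerFrozen Fermat.Agent.GP.Tan.SelmerCard
  Fermat.Agent.GC.Prof Fermat.Agent.GC.Prof.Cone Fermat.Agent.GC.Places
  Fermat.Agent.GC.Local.KR Fermat.Agent.GC.PT.LocDataQ Fermat.Agent.GC.C0
  Fermat.Agent.GP.GW groupCohomology ExtCitation Module Polynomial CategoryTheory
  Fermat.Agent.GP.Core Fermat.Agent.GP.Bridge.Ad0 Fermat.Agent.GB.Def.FramedNodes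

local instance factPrimeFramedNodesInst (q : Nat.Primes) : Fact ((q : ℕ).Prime) := ⟨q.2⟩

section Inst

variable {𝒪 : Type} [CommRing 𝒪] [IsDomain 𝒪] [IsDiscreteValuationRing 𝒪]
  [IsAdicComplete (maximalIdeal 𝒪) 𝒪] [Finite (ResidueField 𝒪)]
  (p : ℕ) [Fact p.Prime] [Algebra (ZMod p) (ResidueField 𝒪)]
  (ρbar : ResidualGaloisRep (ResidueField 𝒪))
  (b : Module.Basis (Fin 2) (ResidueField 𝒪) ρbar.V)

/-- the three discreteness instances at a level `S' ∋ p` outside which `ρbar` is unramified. -/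
theorem isDiscrete_level_adBar (S' : Finset Nat.Primes) (hpS' : pPrime p ∈ S')
    (hur : ∀ q : Nat.Primes, q ∉ S' → ρbar.IsUnramifiedAt (q : ℕ)) :
    IsDiscrete (levelS S') (TChi p) ∧ IsDiscrete (levelS S') (adBar p ρbar b) ∧
      IsDiscrete (levelS S') ((adBar p ρbar b).dualTwist (cycloChar p)) := by
  have h1 : IsDiscrete (levelS S') (adBar p ρbar b) := isDiscrete_adBar p ρbar b S' hur
  exact ⟨isDiscrete_TChi S' hpS', h1, NineTermQ.isDiscrete_dual hpS' (adBar p ρbar b)⟩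

/-- the instance-free conclusion. -/
def FramedNodesInstConcl (base : Finset ℕ → ∀ ⦃A : Type⦄ [CommRing A] [IsLocalRing A]
    [Algebra 𝒪 A], GaloisRepAdic A → Prop) (S Smin Su : Finset ℕ) : Prop :=
  ∃ Sig : Finset Nat.Primes, (∀ q : Nat.Primes, (q : ℕ) ∈ Smin ∪ Su → q ∈ Sig) ∧
    ∃ r : ℕ, ∀ n : ℕ, ∃ qv : Fin r → ℕ, Function.Injective qv ∧
      (∀ i, (qv i).Prime ∧ qv i ∉ S ∧ p ^ (n + 1) ∣ qv i - 1) ∧
      (∀ i, ∀ P : ValuationSubring (AlgebraicClosure ℚ), P.LiesOverPrime (qv i) →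
        ∀ φ : AlgebraicClosure ℚ ≃ₐ[ℚ] AlgebraicClosure ℚ, P.IsFrobeniusAt φ (qv i) →
          ∃ α β : ResidueField 𝒪, α ≠ β ∧
            LinearMap.charpoly (ρbar.ρ φ) = (X - C α) * (X - C β)) ∧
      (∀ i, ∀ q ∈ Sig, ((q : Nat.Primes) : ℕ) ≠ qv i) ∧
      ∃ (_ : IsDiscrete (levelS (levelOfTW Sig qv)) (TChi p))
        (_ : IsDiscrete (levelS (levelOfTW Sig qv)) (adBar p ρbar b))
        (_ : IsDiscrete (levelS (levelOfTW Sig qv)) ((adBar p ρbar b).dualTwist (cycloChar p))),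
        Nonempty (FramedFamily ρbar b p (framedCond p base Smin Su (Finset.univ.image qv)) Su
          (Finset.univ.image qv) (levelOfTW Sig qv) (adBar p ρbar b)
          (emb p (toMatRes ρbar b) 1) r (finrank (ZMod p) (ResidueField 𝒪)))

/-- discharge of the instances of `FramedNodesConcl`. -/
theorem framedNodesInstConcl_of_concl
    (base : Finset ℕ → ∀ ⦃A : Type⦄ [CommRing A] [IsLocalRing A] [Algebra 𝒪 A],
      GaloisRepAdic A → Prop) (S Smin Su : Finset ℕ) (hpSmin : p ∈ Smin)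
    (hmin : ∀ q : ℕ, q.Prime → q ≠ p → (q ∈ Smin ↔ ¬ ρbar.IsUnramifiedAt q))
    (h : FramedNodesConcl p ρbar b base S Smin Su) :
    FramedNodesInstConcl p ρbar b base S Smin Su := by
  obtain ⟨Sig, hSig, r, hr⟩ := h
  refine ⟨Sig, hSig, r, fun n => ?_⟩
  obtain ⟨qv, hinj, h2, h3, hdisj, hF⟩ := hr n
  have hSig' : ∀ q : Nat.Primes, (q : ℕ) ∈ Smin → q ∈ Sig :=
    fun q hq => hSig q (Finset.mem_union_left _ hq)
  have hpSig : pPrime p ∈ Sig := hSig' (pPrime p) hpSmin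
  have hur : ∀ q : Nat.Primes, q ∉ Sig → ρbar.IsUnramifiedAt (q : ℕ) :=
    Fermat.Agent.GP.Tan.SelmerAd0.unramified_outside_of_hmin p ρbar Smin hpSmin hmin Sig hSig'
  have hsub : Sig ⊆ levelOfTW Sig qv := subset_levelOfTW Sig qv
  obtain ⟨i1, i2, i3⟩ := isDiscrete_level_adBar p ρbar b (levelOfTW Sig qv) (hsub hpSig)
    (fun q hq => hur q fun hmem => hq (hsub hmem))
  exact ⟨qv, hinj, h2, h3, hdisj, i1, i2, i3, @hF i1 i2 i3⟩

/-- **strict-ordinary framed core, instance-free**, from the frozen hypotheses of S56. -/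
theorem framedNodesInst_frozen_SO (hp2 : p ≠ 2) (hp𝒪 : (p : 𝒪) ∈ maximalIdeal 𝒪)
    (habs : ρbar.IsAbsolutelyIrreducible)
    (hdet : (GaloisRepAdic.ofResidualGaloisRep ρbar).DetIsCyclotomic p)
    (hsplit : ∀ σ : AlgebraicClosure ℚ ≃ₐ[ℚ] AlgebraicClosure ℚ,
      ∃ α β : ResidueField 𝒪, LinearMap.charpoly (ρbar.ρ σ) = (X - C α) * (X - C β))
    (hTW : ∀ (K : Type) [Field K] [Algebra (ResidueField 𝒪) K]
      (G : Subgroup (AlgebraicClosure ℚ ≃ₐ[ℚ] AlgebraicClosure ℚ)), G.index = 2 →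
      ∀ V : Submodule K (ρbar.baseChange K).V,
        (∀ σ ∈ G, ∀ x ∈ V, (ρbar.baseChange K).ρ σ x ∈ V) → V = ⊥ ∨ V = ⊤)
    (S Smin Su : Finset ℕ) (hpSmin : p ∈ Smin) (hpS : p ∈ S)
    (hmin : ∀ q : ℕ, q.Prime → q ≠ p → (q ∈ Smin ↔ ¬ ρbar.IsUnramifiedAt q)) :
    FramedNodesInstConcl p ρbar b (GaloisRep.strictOrdinaryCondition 𝒪 p) S Smin Su :=
  framedNodesInstConcl_of_concl p ρbar b _ S Smin Su hpSmin hmin
    (framedNodes_frozen_SO p ρbar b hp2 hp𝒪 habs hdet hsplit hTW S Smin Su hpSmin hpS hmin)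

/-- **flat framed core, instance-free**, from the frozen hypotheses of S56. -/
theorem framedNodesInst_frozen_FL (hp2 : p ≠ 2)
    (habs : ρbar.IsAbsolutelyIrreducible)
    (hdet : (GaloisRepAdic.ofResidualGaloisRep ρbar).DetIsCyclotomic p)
    (hsplit : ∀ σ : AlgebraicClosure ℚ ≃ₐ[ℚ] AlgebraicClosure ℚ,
      ∃ α β : ResidueField 𝒪, LinearMap.charpoly (ρbar.ρ σ) = (X - C α) * (X - C β))
    (hTW : ∀ (K : Type) [Field K] [Algebra (ResidueField 𝒪) K]
      (G : Subgroup (AlgebraicClosure ℚ ≃ₐ[ℚ] AlgebraicClosure ℚ)), G.index = 2 →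
      ∀ V : Submodule K (ρbar.baseChange K).V,
        (∀ σ ∈ G, ∀ x ∈ V, (ρbar.baseChange K).ρ σ x ∈ V) → V = ⊥ ∨ V = ⊤)
    (S Smin Su : Finset ℕ) (hpSmin : p ∈ Smin) (hpS : p ∈ S)
    (hmin : ∀ q : ℕ, q.Prime → q ≠ p → (q ∈ Smin ↔ ¬ ρbar.IsUnramifiedAt q)) :
    FramedNodesInstConcl p ρbar b (GaloisRep.flatCondition 𝒪 p) S Smin Su :=
  framedNodesInstConcl_of_concl p ρbar b _ S Smin Su hpSmin hmin
    (framedNodes_frozen_FL p ρbar b hp2 habs hdet hsplit hTW S Smin Su hpSmin hpS hmin)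

end Inst

end Fermat.Agent.GB.Def.FramedNodesInst
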