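/-
GATE-B / B2 "S56-framed", leaf GB-DEF-LOCGEN part 2 (helper67): **helper11's `FramedSel.LocGen`
binder, VERBATIM**, for test sets containing a Frobenius lift and a Kummer tame generator at every
framed place `pl w` (a prime `q_w ≠ p` at which `N` is unramified).

* `locGen_of_frob_tame` : `LocGen p S N pl tests` as soon as every `tests w` contains a Frobenius
  element `φ_w` at `padicPlace q_w` and `τ_w ∈ I_{q_w}` with `τ_w x = ζ x` (`x ^ p = q_w`, `ζ` a
  primitive `p`-th root of unity);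
* `exists_tests_locGen` : such two-element test sets EXIST.
Core: `GP/Loc/TWLocal.eq_zero_of_apply_eq_zero` (S56 closure) through
`range (localGaloisToGlobal q) = D_{padicPlace q}` and Krasner (`exists_global_level`).
NEW file; imports only.
-/
import Mathlib
import Fermat.Agent.GB.Def.FramedSel
import Fermat.Agent.GB.Def.LocGen
import Fermat.Agent.GP.Loc.TWLocalHlc

set_option autoImplicit false
set_option linter.unusedSectionVars false

open Fermat.Agent.GC.Local.KR Fermat.Agent.GC.Places Fermat.Agent.GC.Prof groupCohomology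
open Fermat.Agent.GC.PT.LocDataQ
open Fermat.Agent.Common_helper32

namespace Fermat.Agent.GB.Def.LocGenPlug

open Fermat.Agent.GP.Loc Fermat.Agent.GB.Def.FramedSel

local instance factPrimeLocGenPlug (q : Nat.Primes) : Fact ((q : ℕ).Prime) := ⟨q.2⟩

/-- **local generation at one prime `q ≠ p`**, in the pinned local model: a level-constant cocycle
of `G_{ℚ_q}` with values in (the restriction of) `N`, unramified at `q`, vanishing on the preimages
of a Frobenius element `φ` and of a Kummer tame generator `τ₀`, is zero. -/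
theorem eq_zero_of_mem_lcCocycles₁ (p : ℕ) [Fact p.Prime] (q : ℕ) [Fact q.Prime] (hpq : p ≠ q)
    (N : Rep (ZMod p) GQ)
    (hunr : ∀ τ ∈ (padicPlace q).inertiaSubgroupIn ℚ, N.ρ τ = 1)
    {x ζ : Qb} {φ τ₀ : GQ} (hx : x ^ p = ((q : ℕ) : Qb)) (hζ : IsPrimitiveRoot ζ p)
    (hφ : (padicPlace q).IsFrobeniusAt φ q) (hτ₀ : τ₀ ∈ (padicPlace q).inertiaSubgroupIn ℚ)
    (hτ₀x : τ₀ x = ζ * x)
    (c : Gq q → N) (hcm : c ∈ lcCocycles₁ (levelQ q) (Rep.res (localGaloisToGlobal q) N))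
    (hz : ∀ τ' : Gq q, (localGaloisToGlobal q τ' = φ ∨ localGaloisToGlobal q τ' = τ₀) → c τ' = 0)
    (τ' : Gq q) : c τ' = 0 := by
  have hq : q.Prime := Fact.out
  have hp : p.Prime := Fact.out
  have hA := TWLocalHlc.natCast_mem_nonunits_padicPlace q
  have hr := range_localGaloisToGlobal_eq q
  have hφD := hφ.mem_decompositionSubgroup
  rw [← hr] at hφD
  obtain ⟨f, hf⟩ := hφD
  have hτ₀D := Fermat.Agent.S05.mem_decompositionSubgroup_of_mem_inertiaSubgroupIn hτ₀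
  rw [← hr] at hτ₀D
  obtain ⟨t₀, ht₀⟩ := hτ₀D
  have hc : ∀ g h : Gq q, c (g * h) =
      c g + (Rep.res (localGaloisToGlobal q) N).ρ g (c h) := by
    intro g h
    have := (mem_cocycles₁_iff (A := Rep.res (localGaloisToGlobal q) N) c).mp hcm.1 g h
    rw [this, add_comm]
  have hlev : ∃ H : Subgroup GQ, IsOpen (H : Set GQ) ∧
      ∀ g u : Gq q, localGaloisToGlobal q u ∈ H → c (g * u) = c g := by
    obtain ⟨U, ⟨E, hE, rfl⟩, hU⟩ := hcm.2
    obtain ⟨F, hF, hFE⟩ := exists_global_level q E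
    exact ⟨F.fixingSubgroup, IntermediateField.fixingSubgroup_isOpen F,
      fun g u hu => hU g u (hFE u hu)⟩
  have hpV : ∀ v : N, p • v = 0 := fun v => ZModModule.char_nsmul_eq_zero p v
  have h1 : c t₀ = 0 := hz t₀ (Or.inr ht₀)
  have h2 : c f = 0 := hz f (Or.inl hf)
  have ht₀I : localGaloisToGlobal q t₀ ∈ (padicPlace q).inertiaSubgroupIn ℚ := by
    rw [ht₀]; exact hτ₀
  have ht₀x : (localGaloisToGlobal q t₀) x = ζ * x := by rw [ht₀]; exact hτ₀x
  exact TWLocal.eq_zero_of_apply_eq_zero (padicPlace q) hq hA hp hpq x hx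
    (localGaloisToGlobal q) (Rep.res (localGaloisToGlobal q) N).ρ hr hc hlev
    (fun u hu => hunr _ hu) hpV hφ hζ (t₀ := t₀) (f := f) ht₀I ht₀x hf h1 h2 τ'

variable (p : ℕ) [Fact p.Prime] (S : Finset Nat.Primes) (N : Rep (ZMod p) GQ)
variable {Fr : Type} (pl : Fr → (locDataQ S).ι) (tests : Fr → Set GQ)

/-- the prime of the framed place `pl w`. -/
abbrev qOf (w : Fr) : ℕ := (((show ↥S from pl w) : Nat.Primes) : ℕ)

/-- **LOCAL GENERATION** (helper11's binder, verbatim) for test sets containing a Frobenius lift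
and a Kummer tame generator at each framed place. -/
theorem locGen_of_frob_tame
    (hpl : ∀ w, p ≠ qOf S pl w)
    (hunr : ∀ w, ∀ τ ∈ (padicPlace (qOf S pl w)).inertiaSubgroupIn ℚ, N.ρ τ = 1)
    (htests : ∀ w, ∃ (x ζ : Qb) (φ τ₀ : GQ), x ^ p = ((qOf S pl w : ℕ) : Qb) ∧
      IsPrimitiveRoot ζ p ∧ (padicPlace (qOf S pl w)).IsFrobeniusAt φ (qOf S pl w) ∧
      τ₀ ∈ (padicPlace (qOf S pl w)).inertiaSubgroupIn ℚ ∧ τ₀ x = ζ * x ∧
      φ ∈ tests w ∧ τ₀ ∈ tests w) :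
    LocGen p S N pl tests := by
  intro w z' hz τ'
  obtain ⟨x, ζ, φ, τ₀, hx, hζ, hφ, hτ₀, hτ₀x, hφt, hτ₀t⟩ := htests w
  refine eq_zero_of_mem_lcCocycles₁ p (qOf S pl w) (hpl w) N (hunr w) hx hζ hφ hτ₀ hτ₀x z'.1 z'.2
    (fun τ'' h => hz τ'' ?_) τ'
  rcases h with h | h
  · rw [show (locDataQ S).r (pl w) τ'' = φ from h]
    exact hφt
  · rw [show (locDataQ S).r (pl w) τ'' = τ₀ from h]
    exact hτ₀t

/-- **two-element test sets with local generation exist** at unramified framed primes `≠ p`. -/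
theorem exists_tests_locGen
    (hpl : ∀ w, p ≠ qOf S pl w)
    (hunr : ∀ w, ∀ τ ∈ (padicPlace (qOf S pl w)).inertiaSubgroupIn ℚ, N.ρ τ = 1) :
    ∃ (φ τ₀ : Fr → GQ),
      (∀ w, (padicPlace (qOf S pl w)).IsFrobeniusAt (φ w) (qOf S pl w)) ∧
      (∀ w, τ₀ w ∈ (padicPlace (qOf S pl w)).inertiaSubgroupIn ℚ) ∧
      LocGen p S N pl (fun w => {φ w, τ₀ w}) := by
  have hp : p.Prime := Fact.out
  have h : ∀ w : Fr, ∃ (x ζ : Qb) (φ τ₀ : GQ), x ^ p = ((qOf S pl w : ℕ) : Qb) ∧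
      IsPrimitiveRoot ζ p ∧ (padicPlace (qOf S pl w)).IsFrobeniusAt φ (qOf S pl w) ∧
      τ₀ ∈ (padicPlace (qOf S pl w)).inertiaSubgroupIn ℚ ∧ τ₀ x = ζ * x := fun w =>
    LocGen.exists_tests (padicPlace (qOf S pl w)) (show ↥S from pl w).1.2
      (TWLocalHlc.natCast_mem_nonunits_padicPlace (qOf S pl w)) hp (hpl w)
  choose x ζ φ τ₀ hx hζ hφ hτ₀ hτ₀x using h
  refine ⟨φ, τ₀, hφ, hτ₀, locGen_of_frob_tame p S N pl _ hpl hunr fun w =>
    ⟨x w, ζ w, φ w, τ₀ w, hx w, hζ w, hφ w, hτ₀ w, hτ₀x w, Set.mem_insert _ _,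
      Set.mem_insert_of_mem _ rfl⟩⟩

end Fermat.Agent.GB.Def.LocGenPlug
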